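import Fermat.Agent.PT.CupProd
import Fermat.Agent.PT.Perm

/-!
# Degree one duality by dimension shifting

`G` a group with a level system `𝓛`, `τ` a one dimensional representation `P` (= `μ_p`),
`inv : H²(G, P) → k`.

If `M ↦ H⁰(Hom(M, P))` is dual to `H²(M)` through `inv` (for all finite dimensional `M`) and the cup
product `H¹(W, P) × H¹(W, k) → H²(W, P)` is non degenerate on the left for small normal level
subgroups `W`, then `H¹(M') × H¹(M) → H²(P) → k` is non degenerate on the left for all finite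
dimensional `M`.
-/

set_option autoImplicit false

namespace Fermat.Agent.GW

open Fermat.Agent.PT

variable {k : Type} [Field k] {G : Type} [Group G] {𝓛 : LevelSys G}
variable {P : Type} [AddCommGroup P] [Module k P] {τ : Representation k G P}

/-- Duality between `H⁰(Hom(M, P))` and `H²(M)`. -/
structure Dual02 (𝓛 : LevelSys G) (τ : Representation k G P) (inv : H2 𝓛 τ →ₗ[k] k) : Prop where
  inj : ∀ {M : Type} [AddCommGroup M] [Module k M] [FiniteDimensional k M]
    (ρ : Representation k G M), Discrete 𝓛 ρ → ∀ (z : M →ₗ[k] P) (hz : Equivar ρ τ z),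
    (∀ w, inv (H2coef 𝓛 z hz w) = 0) → z = 0
  surj : ∀ {M : Type} [AddCommGroup M] [Module k M] [FiniteDimensional k M]
    (ρ : Representation k G M), Discrete 𝓛 ρ → ∀ φ : H2 𝓛 ρ →ₗ[k] k,
    ∃ (z : M →ₗ[k] P) (hz : Equivar ρ τ z), ∀ w, inv (H2coef 𝓛 z hz w) = φ w

/-- scalar multiplication as a bilinear map `P × k → P` -/
def smulBil (k P : Type) [Field k] [AddCommGroup P] [Module k P] : P →ₗ[k] k →ₗ[k] P :=
  LinearMap.flip (LinearMap.lsmul k P)

@[simp] lemma smulBil_apply (x : P) (c : k) : smulBil k P x c = c • x := rfl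

lemma smulBil_bilin (ρ : Representation k G P) :
    Bilin ρ (Representation.trivial k G k) ρ (smulBil k P) := fun g m n => by
  simp

lemma trivial_discrete (𝓛 : LevelSys G) (V : Type) [AddCommGroup V] [Module k V] :
    Discrete 𝓛 (Representation.trivial k G V) := fun _ => ⟨⊤, 𝓛.top_mem, fun _ _ => rfl⟩

/-- Nondegeneracy of the symbol at the level of `W`. -/
def SymbNondeg (𝓛 : LevelSys G) (τ : Representation k G P) (W : Subgroup G) : Prop :=
  ∀ χ : H1 (𝓛.restrict W) (τ.comp W.subtype),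
    (∀ ψ : H1 (𝓛.restrict W) (Representation.trivial k W k),
      cup11 (trivial_discrete (𝓛.restrict W) k) (smulBil k P) (smulBil_bilin _) χ ψ = 0) → χ = 0

/-- the sum map `Fun(X, M) → M` -/
def sumMap (k X M : Type) [Field k] [Fintype X] [AddCommGroup M] [Module k M] :
    (X → M) →ₗ[k] M := ∑ x : X, LinearMap.proj x

lemma sumMap_apply {X M : Type} [Fintype X] [AddCommGroup M] [Module k M] (f : X → M) :
    sumMap k X M f = ∑ x, f x := by
  simp [sumMap]

lemma sumMap_equivar {X M : Type} [Fintype X] [MulAction G X] [AddCommGroup M] [Module k M]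
    (ρ : Representation k G M) : Equivar (funRep X ρ) ρ (sumMap k X M) := by
  intro g f
  rw [sumMap_apply, sumMap_apply, map_sum]
  refine Fintype.sum_equiv (MulAction.toPerm g⁻¹) _ _ (fun x => ?_)
  rfl

/-- injectivity of the corestriction `H²(W, P) → H²(G, P)` in the form: the sum map
`H²(G, Fun(G/W, P)) → H²(G, P)` is injective. -/
def CorInj (𝓛 : LevelSys G) (τ : Representation k G P) (W : Subgroup G) [Fintype (G ⧸ W)] : Prop :=
  ∀ w : H2 𝓛 (funRep (G ⧸ W) τ), H2coef 𝓛 (sumMap k (G ⧸ W) P) (sumMap_equivar τ) w = 0 → w = 0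

/-- pointwise pairing -/
def ptBil {X M N : Type} [AddCommGroup M] [Module k M] [AddCommGroup N] [Module k N]
    (B : M →ₗ[k] N →ₗ[k] P) : (X → M) →ₗ[k] (X → N) →ₗ[k] (X → P) where
  toFun f :=
    { toFun := fun g x => B (f x) (g x)
      map_add' := fun g g' => by funext x; simp
      map_smul' := fun c g => by funext x; simp }
  map_add' f f' := by
    apply LinearMap.ext
    intro g
    funext x
    simp
  map_smul' c f := by
    apply LinearMap.ext
    intro g
    funext x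
    simp

@[simp] lemma ptBil_apply {X M N : Type} [AddCommGroup M] [Module k M] [AddCommGroup N]
    [Module k N] (B : M →ₗ[k] N →ₗ[k] P) (f : X → M) (g : X → N) (x : X) :
    ptBil B f g x = B (f x) (g x) := rfl

lemma ptBil_bilin {X M N : Type} [MulAction G X] [AddCommGroup M] [Module k M] [AddCommGroup N]
    [Module k N] {ρ : Representation k G M} {σ : Representation k G N}
    {B : M →ₗ[k] N →ₗ[k] P} (hB : Bilin ρ σ τ B) :
    Bilin (funRep X ρ) (funRep X σ) (funRep X τ) (ptBil B) := by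
  intro g f f'
  funext x
  simp [hB g]

/-- summed pairing -/
def sumBil {X M N : Type} [Fintype X] [AddCommGroup M] [Module k M] [AddCommGroup N]
    [Module k N] (B : M →ₗ[k] N →ₗ[k] P) : (X → M) →ₗ[k] (X → N) →ₗ[k] P :=
  (ptBil B).compr₂ (sumMap k X P)

lemma sumBil_apply {X M N : Type} [Fintype X] [AddCommGroup M] [Module k M] [AddCommGroup N]
    [Module k N] (B : M →ₗ[k] N →ₗ[k] P) (f : X → M) (g : X → N) :
    sumBil B f g = ∑ x, B (f x) (g x) := by
  simp [sumBil, sumMap_apply]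

lemma sumBil_bilin {X M N : Type} [Fintype X] [MulAction G X] [AddCommGroup M] [Module k M]
    [AddCommGroup N] [Module k N] {ρ : Representation k G M} {σ : Representation k G N}
    {B : M →ₗ[k] N →ₗ[k] P} (hB : Bilin ρ σ τ B) :
    Bilin (funRep X ρ) (funRep X σ) τ (sumBil B) := by
  intro g f f'
  show sumMap k X P (ptBil B _ _) = τ g (sumMap k X P (ptBil B f f'))
  rw [ptBil_bilin hB g f f', sumMap_equivar τ g]

lemma Bilin.restr {M N : Type} [AddCommGroup M] [Module k M] [AddCommGroup N] [Module k N]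
    {ρ : Representation k G M} {σ : Representation k G N} {B : M →ₗ[k] N →ₗ[k] P}
    (hB : Bilin ρ σ τ B) (W : Subgroup G) :
    Bilin (ρ.comp W.subtype) (σ.comp W.subtype) (τ.comp W.subtype) B :=
  fun g m n => hB g.1 m n

lemma H1map_id' {M : Type} [AddCommGroup M] [Module k M] {ρ : Representation k G M}
    (z : H1 𝓛 ρ) : H1map (ρ := ρ) (σ := ρ) (MonoidHom.id G) LevelSys.compat_id
      (LinearMap.id : M →ₗ[k] M) (fun _ _ => rfl) z = z := by
  obtain ⟨a, rfl⟩ := H1mk_surjective z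
  rfl

section Base

variable {M N : Type} [AddCommGroup M] [Module k M] [AddCommGroup N] [Module k N]
variable {ρ : Representation k G M} {σ : Representation k G N}

/-- Left non-degeneracy over `W` for modules on which `W` acts trivially. -/
lemma nondeg_W (W : Subgroup G) (hW : SymbNondeg 𝓛 τ W)
    (B : M →ₗ[k] N →ₗ[k] P) (hB : Bilin ρ σ τ B) (hinj : ∀ m, (∀ n, B m n = 0) → m = 0)
    (hρW : ∀ g ∈ W, ρ g = 1) (hσW : ∀ g ∈ W, σ g = 1) (hτW : ∀ g ∈ W, τ g = 1)
    (hσ' : Discrete (𝓛.restrict W) (σ.comp W.subtype))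
    (x : H1 (𝓛.restrict W) (ρ.comp W.subtype))
    (hx : ∀ y : H1 (𝓛.restrict W) (σ.comp W.subtype),
      cup11 hσ' B (Bilin.restr hB W) x y = 0) : x = 0 := by
  -- the maps `m ↦ B m n`
  have he : ∀ n : N, Equivar (ρ.comp W.subtype) (τ.comp W.subtype) (B.flip n) := by
    intro n g m
    have h1 := hρW g.1 g.2
    have h2 := hτW g.1 g.2
    show B (ρ g.1 m) n = τ g.1 (B m n)
    rw [h1, h2]
    rfl
  have hc : ∀ n : N, Equivar (Representation.trivial k W k) (σ.comp W.subtype)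
      (LinearMap.toSpanSingleton k N n) := by
    intro n g c
    have h1 := hσW g.1 g.2
    show c • n = σ g.1 (c • n)
    rw [h1]
    rfl
  have key : ∀ n : N, H1coef (𝓛.restrict W) (B.flip n) (he n) x = 0 := by
    intro n
    apply hW
    intro ψ
    have h1 := cup11_adjoint (hσ := hσ') (B := B) (hB := Bilin.restr hB W)
      (hσ' := trivial_discrete (𝓛.restrict W) k) (B' := smulBil k P) (hB' := smulBil_bilin _)
      (f := B.flip n) (hf := he n) (f' := LinearMap.toSpanSingleton k N n) (hf' := hc n)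
      (fun m c => by simp) x ψ
    rw [h1]
    exact hx _
  obtain ⟨a, rfl⟩ := H1mk_surjective x
  rw [H1mk_eq_zero]
  refine ⟨0, fun g => ?_⟩
  rw [map_zero, sub_zero]
  apply hinj
  intro n
  have h1 := key n
  have h2 : H1mk (𝓛.restrict W) (τ.comp W.subtype)
    (Z1map (MonoidHom.id W) LevelSys.compat_id (B.flip n) (he n) a) = 0 := h1
  rw [H1mk_eq_zero] at h2
  obtain ⟨m, hm⟩ := h2
  have h3 := hm g
  have h4 : (τ.comp W.subtype) g m = m := by
    show τ g.1 m = m
    rw [hτW g.1 g.2]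
    rfl
  rw [h4, sub_self] at h3
  exact h3

/-- Left non-degeneracy for `Fun(G/W, M)`. -/
lemma nondeg_fun (W : Subgroup G) [W.Normal] (hWL : W ∈ 𝓛) [Fintype (G ⧸ W)]
    (hW : SymbNondeg 𝓛 τ W) (hcor : CorInj 𝓛 τ W) (hσ : Discrete 𝓛 σ)
    (B : M →ₗ[k] N →ₗ[k] P) (hB : Bilin ρ σ τ B) (hinj : ∀ m, (∀ n, B m n = 0) → m = 0)
    (hρW : ∀ g ∈ W, ρ g = 1) (hσW : ∀ g ∈ W, σ g = 1) (hτW : ∀ g ∈ W, τ g = 1)
    (hσX : Discrete 𝓛 (funRep (G ⧸ W) σ))
    (x : H1 𝓛 (funRep (G ⧸ W) ρ))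
    (hx : ∀ y : H1 𝓛 (funRep (G ⧸ W) σ), cup11 hσX (sumBil B) (sumBil_bilin hB) x y = 0) :
    x = 0 := by
  classical
  -- the orbit of the base point
  let x₀ : Unit → G ⧸ W := fun _ => ((1 : G) : G ⧸ W)
  have hstab : MulAction.stabilizer G (x₀ ()) = W := by
    ext g
    rw [MulAction.mem_stabilizer_iff]
    show ((g * 1 : G) : G ⧸ W) = ((1 : G) : G ⧸ W) ↔ _
    rw [mul_one, eq_comm, QuotientGroup.eq]
    simp
  have hall : ∀ z : G ⧸ W, MulAction.stabilizer G z = W := by
    intro z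
    obtain ⟨g, rfl⟩ := QuotientGroup.mk_surjective z
    ext h
    rw [MulAction.mem_stabilizer_iff]
    show ((h * g : G) : G ⧸ W) = (g : G ⧸ W) ↔ _
    rw [eq_comm, QuotientGroup.eq]
    constructor
    · intro h1
      have h2 := (‹W.Normal›).conj_mem _ h1 g
      have h3 : g * (g⁻¹ * (h * g)) * g⁻¹ = h := by group
      rwa [h3] at h2
    · intro h1
      have h2 := (‹W.Normal›).conj_mem _ h1 g⁻¹
      have h3 : g⁻¹ * h * g⁻¹⁻¹ = g⁻¹ * (h * g) := by group
      rwa [h3] at h2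
  have hX : ∀ z : G ⧸ W, MulAction.stabilizer G z ∈ 𝓛 := fun z => by rw [hall]; exact hWL
  have hrep : OrbitReps G x₀ :=
    ⟨fun y => by
      obtain ⟨g, rfl⟩ := QuotientGroup.mk_surjective y
      exact ⟨(), g, by show ((g * 1 : G) : G ⧸ W) = _; rw [mul_one]⟩, fun _ _ _ _ => rfl⟩
  -- transport the hypotheses to the stabilizer
  set U := MulAction.stabilizer G (x₀ ()) with hU
  have hW' : SymbNondeg 𝓛 τ U := hstab ▸ hW
  have hρU : ∀ g ∈ U, ρ g = 1 := fun g hg => hρW g (hstab ▸ hg)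
  have hσU : ∀ g ∈ U, σ g = 1 := fun g hg => hσW g (hstab ▸ hg)
  have hτU : ∀ g ∈ U, τ g = 1 := fun g hg => hτW g (hstab ▸ hg)
  have hσ' : Discrete (𝓛.restrict U) (σ.comp U.subtype) := fun m => by
    obtain ⟨V, hV, h⟩ := hσ m
    exact ⟨V.comap U.subtype, LevelSys.comap_mem_comap _ hV, fun s hs => h s.1 hs⟩
  refine sh1_injective (ρ := ρ) hrep x (fun j => ?_)
  refine nondeg_W U hW' B hB hinj hρU hσU hτU hσ' _ (fun y => ?_)
  obtain ⟨y', hy'⟩ := sh1_surjective (ρ := σ) hrep hX (fun _ => y)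
  rw [← hy' ()]
  have hpt : Bilin (funRep (G ⧸ W) ρ) (funRep (G ⧸ W) σ) (funRep (G ⧸ W) τ) (ptBil B) :=
    ptBil_bilin hB
  -- the pointwise cup product vanishes
  have h1 : cup11 hσX (ptBil B) hpt x y' = 0 := by
    apply hcor
    have h2 := cup11_natural (hσ := hσX) (B := ptBil B) (hB := hpt) (hσ' := hσX)
      (B' := sumBil B) (hB' := sumBil_bilin hB) (MonoidHom.id G) LevelSys.compat_id
      LinearMap.id (fun _ _ => rfl) LinearMap.id (fun _ _ => rfl) (sumMap k (G ⧸ W) P)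
      (sumMap_equivar τ) (fun _ _ => rfl) x y'
    rw [h2, H1map_id', H1map_id']
    exact hx y'
  have h2 := cup11_natural (hσ := hσX) (B := ptBil B) (hB := hpt)
    (hσ' := hσ') (B' := B) (hB' := Bilin.restr hB U)
    U.subtype (stab_compat (x₀ ()))
    (LinearMap.proj (x₀ ())) (proj_equivar ρ (x₀ ())) (LinearMap.proj (x₀ ()))
    (proj_equivar σ (x₀ ())) (LinearMap.proj (x₀ ())) (proj_equivar τ (x₀ ()))
    (fun _ _ => rfl) x y'
  rw [h1, map_zero] at h2
  exact h2.symm

end Base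

section Main

variable {M N : Type} [AddCommGroup M] [Module k M] [AddCommGroup N] [Module k N]
variable {ρ : Representation k G M} {σ : Representation k G N}

/-- A perfect pairing with values in `P`. -/
structure Perf (B : M →ₗ[k] N →ₗ[k] P) : Prop where
  inj : ∀ m, (∀ n, B m n = 0) → m = 0
  surj : ∀ z : N →ₗ[k] P, ∃ m, B m = z

/-- the subrepresentation `ker (Fun(X, N) → N)` -/
def kerRep {X : Type} [Fintype X] [MulAction G X] (σ : Representation k G N) :
    Representation k G (LinearMap.ker (sumMap k X N)) :=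
  (funRep X σ).subrepresentation (LinearMap.ker (sumMap k X N)) (fun g f hf => by
    rw [Submodule.mem_comap, LinearMap.mem_ker, sumMap_equivar σ g f, LinearMap.mem_ker.1 hf,
      map_zero])

/-- `0 → K → Fun(X, N) → N → 0` -/
lemma ses_sum {X : Type} [Fintype X] [Nonempty X] [MulAction G X]
    (hdisc : Discrete 𝓛 (funRep X σ)) :
    SES 𝓛 (kerRep (X := X) σ) (funRep X σ) σ (LinearMap.ker (sumMap k X N)).subtype
      (sumMap k X N) where
  inj := Subtype.val_injective
  surj := fun n => by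
    classical
    obtain ⟨x⟩ := ‹Nonempty X›
    refine ⟨Pi.single x n, ?_⟩
    rw [sumMap_apply, Finset.sum_pi_single']
    simp
  exact := fun b hb => ⟨⟨b, hb⟩, rfl⟩
  zero := fun a => a.2
  eqf := fun _ _ => rfl
  eqg := sumMap_equivar σ
  disc := hdisc

/-- the constant functions -/
def constMap (k X M : Type) [Field k] [AddCommGroup M] [Module k M] : M →ₗ[k] (X → M) where
  toFun m _ := m
  map_add' _ _ := rfl
  map_smul' _ _ := rfl

/-- the dual restriction map `Fun(X, M) → Hom(K, P)` -/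
def dualRes {X : Type} [Fintype X] (B : M →ₗ[k] N →ₗ[k] P) :
    (X → M) →ₗ[k] (LinearMap.ker (sumMap k X N) →ₗ[k] P) :=
  (sumBil B).compr₂ LinearMap.id |>.compl₁₂ LinearMap.id
    (LinearMap.ker (sumMap k X N)).subtype

lemma dualRes_apply {X : Type} [Fintype X] (B : M →ₗ[k] N →ₗ[k] P) (b : X → M)
    (a : LinearMap.ker (sumMap k X N)) : dualRes B b a = ∑ x, B (b x) (a.1 x) := by
  show sumBil B b a.1 = _
  rw [sumBil_apply]

lemma sumBil_single {X : Type} [Fintype X] [DecidableEq X] (B : M →ₗ[k] N →ₗ[k] P) (b : X → M)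
    (x : X) (n : N) : sumBil B b (Pi.single x n) = B (b x) n := by
  rw [sumBil_apply, Finset.sum_eq_single x]
  · rw [Pi.single_eq_same]
  · intro y _ hy
    rw [Pi.single_eq_of_ne hy, map_zero]
  · intro h
    exact absurd (Finset.mem_univ x) h

/-- every functional on `Fun(X, N)` is given by an element of `Fun(X, M)` -/
lemma sumBil_surj {X : Type} [Fintype X] {B : M →ₗ[k] N →ₗ[k] P} (hp : Perf B)
    (Z : (X → N) →ₗ[k] P) : ∃ b : X → M, sumBil B b = Z := by
  classical
  choose b hb using fun x : X => hp.surj (Z ∘ₗ LinearMap.single k (fun _ => N) x)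
  refine ⟨b, ?_⟩
  apply LinearMap.ext
  intro a
  rw [sumBil_apply]
  have h1 : a = ∑ x, LinearMap.single k (fun _ : X => N) x (a x) := by
    simp [LinearMap.single_apply, Finset.univ_sum_single]
  conv_rhs => rw [h1, map_sum]
  refine Finset.sum_congr rfl (fun x _ => ?_)
  rw [hb]
  rfl

lemma sumBil_inj {X : Type} [Fintype X] {B : M →ₗ[k] N →ₗ[k] P} (hp : Perf B)
    (b : X → M) (hb : ∀ a, sumBil B b a = 0) : b = 0 := by
  classical
  funext x
  apply hp.inj
  intro n
  rw [← sumBil_single B b x n]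
  exact hb _

/-- `0 → M → Fun(X, M) → Hom(K, P) → 0` -/
lemma ses_dual {X : Type} [Fintype X] [Nonempty X] [MulAction G X]
    {B : M →ₗ[k] N →ₗ[k] P} (hp : Perf B) (hB : Bilin ρ σ τ B)
    (hdisc : Discrete 𝓛 (funRep X ρ)) :
    SES 𝓛 ρ (funRep X ρ) (Representation.linHom (kerRep (X := X) σ) τ) (constMap k X M)
      (dualRes B) where
  inj := fun m m' h => by
    obtain ⟨x⟩ := ‹Nonempty X›
    exact congrFun h x
  surj := fun z => by
    obtain ⟨Z, hZ⟩ := LinearMap.exists_extend z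
    obtain ⟨b, hb⟩ := sumBil_surj hp Z
    refine ⟨b, ?_⟩
    apply LinearMap.ext
    intro a
    show sumBil B b a.1 = z a
    rw [hb, ← hZ]
    rfl
  exact := fun b hb => by
    classical
    obtain ⟨x⟩ := ‹Nonempty X›
    refine ⟨b x, ?_⟩
    funext y
    show b x = b y
    rw [← sub_eq_zero]
    apply hp.inj
    intro n
    have h1 : Pi.single x n - Pi.single y n ∈ LinearMap.ker (sumMap k X N) := by
      rw [LinearMap.mem_ker, map_sub, sumMap_apply, sumMap_apply, Finset.sum_pi_single',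
        Finset.sum_pi_single']
      simp
    have h2 := LinearMap.congr_fun hb ⟨_, h1⟩
    have h3 : sumBil B b (Pi.single x n - Pi.single y n) = 0 := h2
    rw [map_sub, sumBil_single, sumBil_single] at h3
    rw [map_sub, LinearMap.sub_apply]
    exact h3
  zero := fun m => by
    apply LinearMap.ext
    intro a
    rw [dualRes_apply]
    show ∑ x, B m (a.1 x) = 0
    rw [← map_sum, ← sumMap_apply (k := k), LinearMap.mem_ker.1 a.2, map_zero]
  eqf := fun g m => by
    funext x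
    rfl
  eqg := fun g b => by
    apply LinearMap.ext
    intro a
    show sumBil B (funRep X ρ g b) a.1 = τ g (sumBil B b (funRep X σ g⁻¹ a.1))
    rw [← sumBil_bilin hB g, ← Module.End.mul_apply, ← map_mul, mul_inv_cancel, map_one,
      Module.End.one_apply]
  disc := hdisc

/-- **Degree one duality**: the cup product `H¹(M) × H¹(N) → H²(P) → k` is nondegenerate on the
left, for `M × N → P` perfect. -/
theorem h1_nondeg [FiniteDimensional k N] (inv : H2 𝓛 τ →ₗ[k] k)
    (hinv : Function.Injective inv) (hdual : Dual02 𝓛 τ inv)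
    {B : M →ₗ[k] N →ₗ[k] P} (hp : Perf B) (hB : Bilin ρ σ τ B)
    (hρ : Discrete 𝓛 ρ) (hσ : Discrete 𝓛 σ)
    (W : Subgroup G) [W.Normal] (hWL : W ∈ 𝓛) [Fintype (G ⧸ W)]
    (hW : SymbNondeg 𝓛 τ W) (hcor : CorInj 𝓛 τ W)
    (hρW : ∀ g ∈ W, ρ g = 1) (hσW : ∀ g ∈ W, σ g = 1) (hτW : ∀ g ∈ W, τ g = 1)
    (x : H1 𝓛 ρ) (hx : ∀ y : H1 𝓛 σ, inv (cup11 hσ B hB x y) = 0) : x = 0 := by
  have hx' : ∀ y : H1 𝓛 σ, cup11 hσ B hB x y = 0 := fun y =>
    hinv (by rw [hx, map_zero])
  -- discreteness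
  have hall : ∀ z : G ⧸ W, MulAction.stabilizer G z ∈ 𝓛 := by
    intro z
    obtain ⟨g, rfl⟩ := QuotientGroup.mk_surjective z
    refine LevelSys.mono hWL (fun h hh => ?_)
    rw [MulAction.mem_stabilizer_iff]
    show ((h * g : G) : G ⧸ W) = (g : G ⧸ W)
    rw [eq_comm, QuotientGroup.eq]
    have h2 := (‹W.Normal›).conj_mem _ hh g⁻¹
    have h3 : g⁻¹ * h * g⁻¹⁻¹ = g⁻¹ * (h * g) := by group
    rwa [h3] at h2
  have hρX : Discrete 𝓛 (funRep (G ⧸ W) ρ) := funRep_discrete hρ hall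
  have hσX : Discrete 𝓛 (funRep (G ⧸ W) σ) := funRep_discrete hσ hall
  have h := ses_sum (X := G ⧸ W) hσX
  have h' := ses_dual (X := G ⧸ W) hp hB hρX
  -- the image of `x` in `H¹(Fun(X, M))` vanishes
  have h1 : H1coef 𝓛 (constMap k (G ⧸ W) M) h'.eqf x = 0 := by
    refine nondeg_fun W hWL hW hcor hσ B hB hp.inj hρW hσW hτW hσX _ (fun y => ?_)
    have h2 := cup11_adjoint (hσ := hσ) (B := B) (hB := hB) (hσ' := hσX)
      (B' := sumBil B) (hB' := sumBil_bilin hB) (f := constMap k (G ⧸ W) M) (hf := h'.eqf)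
      (f' := sumMap k (G ⧸ W) N) (hf' := sumMap_equivar σ) (fun m b => by
        rw [sumBil_apply, sumMap_apply, map_sum]
        rfl) x y
    rw [h2]
    exact hx' _
  obtain ⟨z, rfl⟩ := (h'.exact_H1A x).1 h1
  -- `z` as an equivariant map
  have hz : Equivar (kerRep (X := G ⧸ W) σ) τ z.1 := by
    intro g a
    have h2 : (Representation.linHom (kerRep (X := G ⧸ W) σ) τ) g z.1 = z.1 := z.2 g
    have h3 := LinearMap.congr_fun h2 (kerRep (X := G ⧸ W) σ g a)
    rw [← h3]
    show τ g (z.1 (kerRep σ g⁻¹ (kerRep σ g a))) = _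
    rw [← Module.End.mul_apply, ← map_mul, inv_mul_cancel, map_one, Module.End.one_apply]
  have h2 : ∀ y : H1 𝓛 σ, H2coef 𝓛 z.1 hz (h.delta1 y) = 0 := by
    intro y
    have h3 := cup11_delta0 (h := h) (h' := h') (hC := hσ) (BB := sumBil B)
      (hBB := sumBil_bilin hB) (BC := B) (hBC := hB)
      (BA := (LinearMap.id : (LinearMap.ker (sumMap k (G ⧸ W) N) →ₗ[k] P) →ₗ[k] _))
      (fun m b => by
        rw [sumBil_apply, sumMap_apply, map_sum]
        rfl) (fun b a => rfl) z hz y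
    rw [hx' y, eq_comm, neg_eq_zero] at h3
    exact h3
  -- factor through `H²(Fun(X, N))`
  let ι := H2coef 𝓛 (LinearMap.ker (sumMap k (G ⧸ W) N)).subtype h.eqf
  let ψ : H2 𝓛 (kerRep (X := G ⧸ W) σ) →ₗ[k] k := inv ∘ₗ H2coef 𝓛 z.1 hz
  obtain ⟨φ, hφ⟩ : ∃ φ : H2 𝓛 (funRep (G ⧸ W) σ) →ₗ[k] k, φ ∘ₗ ι = ψ := by
    have h3 : ψ ∈ LinearMap.range ι.dualMap := by
      rw [LinearMap.range_dualMap_eq_dualAnnihilator_ker, Submodule.mem_dualAnnihilator]
      intro w hw
      obtain ⟨c, rfl⟩ := (h.exact_H2A w).1 (LinearMap.mem_ker.1 hw)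
      show inv (H2coef 𝓛 z.1 hz (h.delta1 c)) = 0
      rw [h2, map_zero]
    obtain ⟨φ, hφ⟩ := h3
    exact ⟨φ, hφ⟩
  obtain ⟨Z, hZ, hZφ⟩ := hdual.surj (funRep (G ⧸ W) σ) hσX φ
  -- `Z` restricts to `z`
  have hZz : Z ∘ₗ (LinearMap.ker (sumMap k (G ⧸ W) N)).subtype = z.1 := by
    rw [← sub_eq_zero]
    have hZι : Equivar (kerRep (X := G ⧸ W) σ) τ
        (Z ∘ₗ (LinearMap.ker (sumMap k (G ⧸ W) N)).subtype) := fun g a => by
      show Z (funRep (G ⧸ W) σ g a.1) = _
      rw [hZ]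
      rfl
    have hd : Equivar (kerRep (X := G ⧸ W) σ) τ
        (Z ∘ₗ (LinearMap.ker (sumMap k (G ⧸ W) N)).subtype - z.1) := fun g a => by
      rw [LinearMap.sub_apply, hZι, hz, LinearMap.sub_apply, map_sub]
    refine hdual.inj (kerRep (X := G ⧸ W) σ) h.discA _ hd (fun w => ?_)
    have e1 : inv (H2coef 𝓛 Z hZ (ι w)) = inv (H2coef 𝓛 z.1 hz w) := by
      rw [hZφ]
      exact LinearMap.congr_fun hφ w
    have e2 : H2coef 𝓛 _ hd w = H2coef 𝓛 Z hZ (ι w) - H2coef 𝓛 z.1 hz w := by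
      obtain ⟨c, rfl⟩ := H2mk_surjective w
      rfl
    rw [e2, map_sub, e1, sub_self]
  obtain ⟨b, hb⟩ := sumBil_surj hp Z
  rw [h'.exact_H0C]
  refine ⟨b, fun s => ?_, ?_⟩
  · rw [← sub_eq_zero]
    apply sumBil_inj hp
    intro a
    have e1 : sumBil B (funRep (G ⧸ W) ρ s b) a = sumBil B b a := by
      have e2 := sumBil_bilin (X := G ⧸ W) hB s b (funRep (G ⧸ W) σ s⁻¹ a)
      rw [← Module.End.mul_apply, ← map_mul, mul_inv_cancel, map_one, Module.End.one_apply] at e2
      rw [e2, hb, ← hZ, ← Module.End.mul_apply, ← map_mul, mul_inv_cancel, map_one,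
        Module.End.one_apply]
    rw [map_sub, LinearMap.sub_apply, e1, sub_self]
  · rw [← hZz, ← hb]
    rfl

end Main

end Fermat.Agent.GW
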