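import Fermat.Agent.GW.HFin
import Fermat.Agent.PT.GlobalData
import Fermat.Agent.CFT.SKummer.FinalLift

/-!
# Finiteness of `H^i(G_S, ℤ/p)` at small levels
-/

set_option autoImplicit false

noncomputable section

namespace Fermat.Agent.GW.Conc

open scoped NumberField
open Fermat.Agent.PT Fermat.Agent.PT.Frozen Fermat.Agent.CFT.Bridge Fermat.Agent.CFT.SKummer
open Fermat.Agent.Minkowski Fermat.Agent.Frob Fermat.Agent.CFT
open IsDedekindDomain NumberField ExtCitation Module

variable {p : ℕ} [hp : Fact p.Prime] {S : Finset Nat.Primes}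

theorem levFin_sLevels (hp2 : p ≠ 2) (hpS : pPrime p ∈ S) : LevFin p (sLevels S) := by
  refine ⟨(cycloChar p).ker, ker_cycloChar_mem hpS, fun U hU hU' => ?_⟩
  obtain ⟨K, hKn, hK, rfl, ζ, hζ⟩ := exists_field hU hU'
  obtain ⟨L, c, hL, hc, hr, hR⟩ := globData_of_liftS (S := S) hp2 hζ
    (fun x hx => liftS hp2 hpS hK hζ x hx)
  have hm := SUnits.finrank_eq_two_mul (n := p)
    (lt_of_le_of_ne hp.out.two_le (Ne.symm hp2)) hζ
  exact (hfin_chi_levS (p := pPrime p) hp2 hK hpS hζ hm L hL c hc hr (SKf_nonempty hpS) hR).1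

end Fermat.Agent.GW.Conc
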