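import Fermat.Agent.GW.Concrete
import Fermat.Agent.GW.LevFinS
import Fermat.Agent.PT.InputsAll

/-!
# `GWcoc p` from the characteristic polynomial identity
-/

set_option autoImplicit false

noncomputable section

namespace Fermat.Agent.GW.Conc

open scoped NumberField
open Fermat.Agent.PT Fermat.Agent.PT.Frozen Fermat.Agent.CFT.Bridge Fermat.Agent.CFT.SKummer
open Fermat.Agent.Minkowski Fermat.Agent.Frob Fermat.Agent.TW
open NumberField ExtCitation Module

variable {p : ℕ} [hp : Fact p.Prime]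

/-- All the global inputs, from (★). -/
theorem globalInputs_of_star (hp2 : p ≠ 2)
    (hstar : ∀ (S : Finset Nat.Primes), pPrime p ∈ S →
      ∀ (F : IntermediateField ℚ (AlgebraicClosure ℚ)) [NumberField F] [IsGalois ℚ F],
        F ≤ Omega S → (∃ ζ : F, IsPrimitiveRoot ζ p) → StarAt p S F) : GlobalInputs p := by
  intro S hpS
  obtain ⟨inv, -, hI⟩ := exists_inputs_all (p := p) hp2
  exact ⟨fun v => inv v.1, hI S hpS, levFin_sLevels hp2 hpS,
    cycEuler_sLevels hpS (fun v => inv v.1) hp2 (hI S hpS) (hstar S hpS)⟩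

/-- **Greenberg–Wiles**, from (★). -/
theorem gwcoc_of_star (hp2 : p ≠ 2)
    (hstar : ∀ (S : Finset Nat.Primes), pPrime p ∈ S →
      ∀ (F : IntermediateField ℚ (AlgebraicClosure ℚ)) [NumberField F] [IsGalois ℚ F],
        F ≤ Omega S → (∃ ζ : F, IsPrimitiveRoot ζ p) → StarAt p S F) : GWcoc p :=
  gwcoc_of_globalInputs hp2 (globalInputs_of_star hp2 hstar)

end Fermat.Agent.GW.Conc
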