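import Fermat.Agent.GW.StarApp
import Fermat.Agent.GW.GlobalFinal

/-!
# `GWcoc p`, unconditionally
-/

set_option autoImplicit false

namespace Fermat.Agent.GW

/-- **Greenberg–Wiles over `ℚ`** (`p` odd). -/
theorem gwcoc {p : ℕ} [Fact p.Prime] (hp2 : p ≠ 2) : TW.GWcoc p :=
  Conc.gwcoc_of_star hp2 (fun _ hpS _ _ _ hF ⟨_, hζ⟩ => StarApp.starAt hF hζ hpS)

end Fermat.Agent.GW
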