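import Fermat.Agent.GW.Numeric

/-!
# Greenberg–Wiles: in terms of cocycles (abstract form)
-/

set_option autoImplicit false

namespace Fermat.Agent.GW

open Fermat.Agent.PT Module

section Coc

variable {k : Type} [Field k] {G : Type} [Group G] {M : Type} [AddCommGroup M] [Module k M]
  {𝓛 : LevelSys G} {ρ : Representation k G M}

lemma ker_d01' : LinearMap.ker (d01 ρ) = Representation.invariants ρ := by
  ext m
  rw [LinearMap.mem_ker, Representation.mem_invariants]
  constructor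
  · intro h g
    exact sub_eq_zero.1 (congrFun h g)
  · intro h
    funext g
    exact sub_eq_zero.2 (h g)

lemma B1_le_Z1 (hρ : Discrete 𝓛 ρ) : B1 ρ ≤ Z1 𝓛 ρ := by
  rintro _ ⟨m, rfl⟩
  obtain ⟨U, hU, hUm⟩ := hρ m
  refine ⟨⟨U, hU, fun g s hs => ?_⟩, fun g h => ?_⟩
  · show ρ (g * s) m - m = ρ g m - m
    rw [map_mul, Module.End.mul_apply, hUm s hs]
  · show ρ (g * h) m - m = ρ g (ρ h m - m) + (ρ g m - m)
    rw [map_mul, Module.End.mul_apply, map_sub]
    abel

lemma finrank_B1_add [FiniteDimensional k M] :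
    finrank k (B1 ρ) + finrank k ρ.invariants = finrank k M := by
  have h3 := LinearMap.finrank_range_add_finrank_ker (d01 ρ)
  rw [ker_d01'] at h3
  exact h3

/-- the image of a space of cocycles in `H¹` -/
def toH1 (𝓛 : LevelSys G) (ρ : Representation k G M) (Λ : Submodule k (G → M)) :
    Submodule k (H1 𝓛 ρ) := (Λ.comap (Z1 𝓛 ρ).subtype).map (H1mk 𝓛 ρ)

lemma mem_toH1 {Λ : Submodule k (G → M)} (hB : B1 ρ ≤ Λ) {c : ↥(Z1 𝓛 ρ)} :
    H1mk 𝓛 ρ c ∈ toH1 𝓛 ρ Λ ↔ c.1 ∈ Λ := by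
  constructor
  · rintro ⟨c', hc', h⟩
    have h1 : c - c' ∈ (B1 ρ).comap (Z1 𝓛 ρ).subtype := by
      rw [← Submodule.Quotient.eq]
      exact h.symm
    have h2 : (c.1 - c'.1) ∈ B1 ρ := h1
    have h3 := Λ.add_mem (hB h2) hc'
    rwa [Submodule.subtype_apply, sub_add_cancel] at h3
  · intro hc
    exact ⟨c, hc, rfl⟩

/-- dimension count -/
theorem finrank_toH1 [FiniteDimensional k M] {Λ : Submodule k (G → M)}
    (hB : B1 ρ ≤ Λ) (hZ : Λ ≤ Z1 𝓛 ρ) (hfin : FiniteDimensional k (H1 𝓛 ρ)) :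
    FiniteDimensional k Λ ∧
      finrank k Λ + finrank k ρ.invariants = finrank k M + finrank k (toH1 𝓛 ρ Λ) := by
  let f : Λ →ₗ[k] H1 𝓛 ρ := H1mk 𝓛 ρ ∘ₗ Submodule.inclusion hZ
  have hr : LinearMap.range f = toH1 𝓛 ρ Λ := by
    ext x
    rw [LinearMap.mem_range]
    constructor
    · rintro ⟨y, rfl⟩
      exact ⟨Submodule.inclusion hZ y, y.2, rfl⟩
    · rintro ⟨y, hy, rfl⟩
      exact ⟨⟨y.1, hy⟩, rfl⟩
  have hk : LinearMap.ker f = (B1 ρ).comap Λ.subtype := by
    ext x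
    rw [LinearMap.mem_ker]
    show H1mk 𝓛 ρ (Submodule.inclusion hZ x) = 0 ↔ _
    rw [Submodule.mkQ_apply, Submodule.Quotient.mk_eq_zero]
    rfl
  have hfB : FiniteDimensional k (B1 ρ) := by
    unfold B1; infer_instance
  let e := Submodule.comapSubtypeEquivOfLe hB
  have hfc : FiniteDimensional k ((B1 ρ).comap Λ.subtype) :=
    FiniteDimensional.of_injective e.toLinearMap e.injective
  have hfk : FiniteDimensional k (LinearMap.ker f) := by rw [hk]; exact hfc
  have hfr : FiniteDimensional k (Λ ⧸ LinearMap.ker f) :=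
    FiniteDimensional.of_injective f.quotKerEquivRange.toLinearMap f.quotKerEquivRange.injective
  have hfΛ : FiniteDimensional k Λ := Module.Finite.of_submodule_quotient (LinearMap.ker f)
  refine ⟨hfΛ, ?_⟩
  have h1 := LinearMap.finrank_range_add_finrank_ker f
  rw [hr, hk, e.finrank_eq] at h1
  have h2 := finrank_B1_add (ρ := ρ)
  omega

end Coc

section Places

variable {k G : Type} [Field k] [Group G] (T : PlaceData k G)
variable {M : Type} [AddCommGroup M] [Module k M] {ρ : Representation k G M}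

/-- Left nondegeneracy of the local pairing `H¹_v(M') × H¹_v(M) → k`. -/
def LocNondeg (v : T.V) : Prop :=
  ∀ {M : Type} [AddCommGroup M] [Module k M] [FiniteDimensional k M] {ρ : Representation k G M}
    (hρ : Discrete T.𝓛 ρ) (x : LH1 T (dualT T.χ ρ) v), (∀ y, locPair T hρ v x y = 0) → x = 0

/-- Finiteness of local `H¹`. -/
def LocFin (v : T.V) : Prop :=
  ∀ {M : Type} [AddCommGroup M] [Module k M] [FiniteDimensional k M] {ρ : Representation k G M},
    Discrete T.𝓛 ρ → FiniteDimensional k (LH1 T ρ v)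

/-- **Greenberg–Wiles**, in terms of cocycles. -/
theorem gw_coc (h2 : (2 : k) ≠ 0) (c : G) (hc : c * c = 1) (hχ : (T.χ c : k) = -1)
    (hT : GlobIn T c) (hfin : ∀ v, LocFin T v) [FiniteDimensional k M] (hρ : Discrete T.𝓛 ρ)
    (A Q : Finset T.V) (hAQ : ∀ v, v ∈ Q ↔ v ∉ A) (hnd : ∀ v, v ∉ A → LocNondeg T v)
    (hdim : ∀ v, v ∉ A → finrank k (LH1 T ρ v) ≤
      finrank k (Representation.invariants (ρ.comp (T.r v))) +
      finrank k (Representation.invariants ((dualT T.χ ρ).comp (T.r v))))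
    (Λ : ∀ v : T.V, Submodule k (T.D v → M))
    (hΛZ : ∀ v ∈ A, Λ v ≤ Z1 (T.𝓛v v) (ρ.comp (T.r v)))
    (hΛB : ∀ v ∈ A, B1 (ρ.comp (T.r v)) ≤ Λ v)
    (hinj : ∀ y ∈ Z1 T.𝓛 (dualT T.χ ρ), (∀ v, v ∉ A → (fun h => y (T.r v h)) ∈
      B1 ((dualT T.χ ρ).comp (T.r v))) → y ∈ B1 (dualT T.χ ρ))
    (S : Submodule k (G → M))
    (hS : ∀ f, f ∈ S ↔ f ∈ Z1 T.𝓛 ρ ∧ ∀ v ∈ A, (fun h => f (T.r v h)) ∈ Λ v) :
    FiniteDimensional k S ∧
    finrank k S + finrank k (fixC ρ c) + A.card * finrank k M ≤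
      finrank k M + ∑ v ∈ A, finrank k (Λ v) +
        ∑ v ∈ Q, finrank k (Representation.invariants ((dualT T.χ ρ).comp (T.r v))) := by
  classical
  obtain rfl : Q = Aᶜ := by
    ext v
    rw [hAQ, Finset.mem_compl]
  -- the local conditions
  let L : ∀ v, Submodule k (LH1 T ρ v) := fun v =>
    if v ∈ A then (toH1 (T.𝓛v v) (ρ.comp (T.r v)) (Λ v) : Submodule k (H1 _ _)) else ⊤
  have hLA : ∀ v ∈ A, L v = (toH1 (T.𝓛v v) (ρ.comp (T.r v)) (Λ v) : Submodule k (H1 _ _)) :=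
    fun v hv => if_pos hv
  have hLQ : ∀ v, v ∉ A → L v = ⊤ := fun v hv => if_neg hv
  have hfinL : ∀ v, FiniteDimensional k (LH1 T ρ v) := fun v => hfin v hρ
  have hfinL' : ∀ v, FiniteDimensional k (L v) := fun v => inferInstance
  have key := gw_numeric T h2 c hc hχ hT hρ L
  -- global cocycles
  have f1 := (hT.hfin ρ hρ).h1
  have hSZ : S ≤ Z1 T.𝓛 ρ := fun f hf => ((hS f).1 hf).1
  have hSB : B1 ρ ≤ S := by
    rintro f ⟨m, rfl⟩
    refine (hS _).2 ⟨B1_le_Z1 hρ ⟨m, rfl⟩, fun v hv => hΛB v hv ⟨m, rfl⟩⟩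
  obtain ⟨hSf, hS1⟩ := finrank_toH1 hSB hSZ f1
  have hSel : toH1 T.𝓛 ρ S = Sel T L := by
    ext x
    obtain ⟨z, rfl⟩ := H1mk_surjective x
    rw [mem_toH1 hSB, mem_Sel, hS]
    have hloc : ∀ v, lloc T ρ v (H1mk T.𝓛 ρ z) =
      H1mk (T.𝓛v v) (ρ.comp (T.r v)) (Z1map (T.r v) (T.hr v) LinearMap.id
        (fun _ _ => rfl) z) := fun v => rfl
    constructor
    · rintro ⟨-, h⟩ v
      by_cases hv : v ∈ A
      · rw [hLA v hv, hloc]
        exact (mem_toH1 (hΛB v hv)).2 (h v hv)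
      · rw [hLQ v hv]
        exact Submodule.mem_top
    · intro h
      refine ⟨z.2, fun v hv => ?_⟩
      have h3 := h v
      rw [hLA v hv, hloc] at h3
      exact (mem_toH1 (hΛB v hv)).1 h3
  refine ⟨hSf, ?_⟩
  -- local dimension
  have hdA : ∀ v ∈ A, finrank k (Λ v) + finrank k (Representation.invariants (ρ.comp (T.r v))) =
      finrank k M + finrank k (L v) := by
    intro v hv
    obtain ⟨-, h⟩ := finrank_toH1 (𝓛 := T.𝓛v v) (hΛB v hv) (hΛZ v hv) (hfinL v)
    rw [h, hLA v hv]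
    rfl
  have hdQ : ∀ v ∈ Aᶜ, finrank k (L v) ≤
      finrank k (Representation.invariants (ρ.comp (T.r v))) +
      finrank k (Representation.invariants ((dualT T.χ ρ).comp (T.r v))) := by
    intro v hv
    rw [Finset.mem_compl] at hv
    rw [hLQ v hv, finrank_top]
    exact hdim v hv
  -- dual Selmer group
  have hdual : finrank k (Sel T (ρ := dualT T.χ ρ) (perp T hρ L)) = 0 := by
    have : Sel T (ρ := dualT T.χ ρ) (perp T hρ L) = ⊥ := by
      rw [eq_bot_iff]
      intro x hx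
      rw [mem_Sel] at hx
      obtain ⟨z, rfl⟩ := H1mk_surjective x
      have h1 : z.1 ∈ B1 (dualT T.χ ρ) := by
        refine hinj z.1 z.2 (fun v hv => ?_)
        have h3 := hnd v hv hρ _ (fun y => by
          have h4 := hx v
          rw [mem_perp] at h4
          exact h4 y (by rw [hLQ v hv]; exact Submodule.mem_top))
        have h5 : H1mk (T.𝓛v v) ((dualT T.χ ρ).comp (T.r v)) (Z1map (T.r v) (T.hr v) LinearMap.id
          (fun _ _ => rfl) z) = 0 := h3
        rw [Submodule.mkQ_apply, Submodule.Quotient.mk_eq_zero] at h5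
        exact h5
      rw [Submodule.mem_bot, Submodule.mkQ_apply, Submodule.Quotient.mk_eq_zero]
      exact h1
    rw [this, finrank_bot]
  rw [hdual, add_zero] at key
  rw [hSel] at hS1
  -- sums
  have s1 : ∑ v, finrank k (L v) = ∑ v ∈ A, finrank k (L v) + ∑ v ∈ Aᶜ, finrank k (L v) :=
    (Finset.sum_add_sum_compl A _).symm
  have s2 : ∑ v, finrank k (Representation.invariants (ρ.comp (T.r v))) =
    ∑ v ∈ A, finrank k (Representation.invariants (ρ.comp (T.r v))) +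
    ∑ v ∈ Aᶜ, finrank k (Representation.invariants (ρ.comp (T.r v))) :=
    (Finset.sum_add_sum_compl A _).symm
  have s3 := Finset.sum_congr rfl hdA
  have s4 := Finset.sum_le_sum hdQ
  rw [Finset.sum_add_distrib, Finset.sum_add_distrib, Finset.sum_const, smul_eq_mul] at s3
  rw [Finset.sum_add_distrib] at s4
  rw [s1, s2] at key
  omega

end Places

end Fermat.Agent.GW
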