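import Fermat.Agent.GW.HFin
import Fermat.Agent.GW.Coc
import Fermat.Agent.PT.LocalDuality
import Fermat.Agent.CFT.Local.Frozen
import Fermat.Agent.CFT.Local.Nondeg

/-!
# Local inputs for Greenberg–Wiles: degree-one nondegeneracy and finiteness
-/

set_option autoImplicit false

namespace Fermat.Agent.GW

open Fermat.Agent.PT Module

section Abstract

variable {k : Type} [Field k] {G : Type} [Group G] {𝓛 : LevelSys G}

theorem corInj_of' {P : Type} [AddCommGroup P] [Module k P] [FiniteDimensional k P]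
    {τ : Representation k G P} (hτ : Discrete 𝓛 τ) (hR : RightEx k 𝓛)
    {W : Subgroup G} [W.Normal] (hW : W ∈ 𝓛) [Fintype (G ⧸ W)]
    (h1 : finrank k (H2 𝓛 τ) = 1)
    (hfin : FiniteDimensional k (H2 (𝓛.restrict W) (τ.comp W.subtype)))
    (h2 : finrank k (H2 (𝓛.restrict W) (τ.comp W.subtype)) ≤ 1) : CorInj 𝓛 τ W := by
  have hfin' : FiniteDimensional k (H2 𝓛 τ) := FiniteDimensional.of_finrank_pos (by omega)
  obtain ⟨h3, h4⟩ := finrank_H2_funRep τ hW _ hfin rfl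
  have hdisc : Discrete 𝓛 (funRep (G ⧸ W) τ) :=
    funRep_discrete hτ (stab_quotient_mem (𝓛 := 𝓛) hW)
  have hs : Function.Surjective (H2coef 𝓛 (sumMap k (G ⧸ W) P) (sumMap_equivar τ)) := by
    refine hR (funRep (G ⧸ W) τ) τ hdisc _ _ (fun m => ?_)
    classical
    refine ⟨Pi.single (QuotientGroup.mk 1) m, ?_⟩
    rw [sumMap_apply, Finset.sum_pi_single']
    simp
  have h5 : finrank k (H2 𝓛 (funRep (G ⧸ W) τ)) = finrank k (H2 𝓛 τ) := by
    have h6 := LinearMap.finrank_le_finrank_of_surjective hs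
    omega
  have hinj := (LinearMap.injective_iff_surjective_of_finrank_eq_finrank h5).2 hs
  intro w hw
  exact hinj (by rw [hw, map_zero])

theorem dualInj_of {χ : G →* kˣ} (hRE : PlaceData.RightExact k 𝓛) {inv : H2 𝓛 (chiRep χ) →ₗ[k] k}
    (hinv : inv ≠ 0) (hχ : χ.ker ∈ 𝓛)
    (hdim : ∃ W₀ ∈ 𝓛, ∀ W ∈ 𝓛, W ≤ W₀ →
      FiniteDimensional k (H2 (𝓛.restrict W) (trivRep k ↥W)) ∧
      finrank k (H2 (𝓛.restrict W) (trivRep k ↥W)) ≤ 1) : DualInj 𝓛 χ inv := by
  intro M _ _ _ ρ hρ z hz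
  refine loc_inj (inv := inv) hRE hinv hχ hdim hρ z (fun f => ?_)
  exact hz f.1 (homG_equivar χ ρ f.2)

/-- **Degree one local duality**, for the pairing `M × N → k(χ)`. -/
theorem h1_nondeg_chi {χ : G →* kˣ} (hRE : PlaceData.RightExact k 𝓛)
    {inv : H2 𝓛 (chiRep χ) →ₗ[k] k}
    (hinv : inv ≠ 0) (hχ : χ.ker ∈ 𝓛) (hone : finrank k (H2 𝓛 (chiRep χ)) = 1)
    (hdim : ∃ W₀ ∈ 𝓛, ∀ W ∈ 𝓛, W ≤ W₀ →
      FiniteDimensional k (H2 (𝓛.restrict W) (trivRep k ↥W)) ∧
      finrank k (H2 (𝓛.restrict W) (trivRep k ↥W)) ≤ 1)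
    (hsymb : ∀ W ∈ 𝓛, W ≤ χ.ker → SymbNondeg 𝓛 (chiRep χ) W)
    {M : Type} [AddCommGroup M] [Module k M] [FiniteDimensional k M]
    {N : Type} [AddCommGroup N] [Module k N] [FiniteDimensional k N]
    {ρ : Representation k G M} {σ : Representation k G N}
    {B : M →ₗ[k] N →ₗ[k] k} (hp : Perf B) (hB : Bilin ρ σ (chiRep χ) B)
    (hρ : Discrete 𝓛 ρ) (hσ : Discrete 𝓛 σ) (x : H1 𝓛 ρ)
    (hx : ∀ y : H1 𝓛 σ, inv (cup11 hσ B hB x y) = 0) : x = 0 := by
  have hR : RightEx k 𝓛 := rightEx_of hRE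
  have hDI : DualInj 𝓛 χ inv := dualInj_of hRE hinv hχ hdim
  have hd : Dual02 𝓛 (chiRep χ) inv := dual02_of inv hinv hR hDI
  have hinj : Function.Injective inv := by
    have hfin' : FiniteDimensional k (H2 𝓛 (chiRep χ)) :=
      FiniteDimensional.of_finrank_pos (by omega)
    have hs : Function.Surjective inv := LinearMap.surjective hinv
    exact (LinearMap.injective_iff_surjective_of_finrank_eq_finrank
      (by rw [hone, finrank_self])).2 hs
  obtain ⟨W₀, hW₀, hdim⟩ := hdim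
  obtain ⟨U₁, hU₁, h1⟩ := hρ.exists_trivial
  obtain ⟨U₂, hU₂, h2⟩ := hσ.exists_trivial
  obtain ⟨W, hW, hWle, hn⟩ := LevelSys.exists_normal
    (LevelSys.inf_mem (LevelSys.inf_mem hU₁ hU₂) (LevelSys.inf_mem hW₀ hχ))
  have hWχ : W ≤ χ.ker := fun g hg => (hWle hg).2.2
  have hfi := LevelSys.finiteIndex hW
  let _ : Fintype (G ⧸ W) := Fintype.ofFinite _
  obtain ⟨hf, hd1⟩ := hdim W hW (fun g hg => (hWle hg).2.1)
  have htriv : (chiRep χ).comp W.subtype = trivRep k ↥W := by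
    refine MonoidHom.ext fun g => LinearMap.ext fun x => ?_
    show (χ g.1 : k) * x = x
    rw [MonoidHom.mem_ker.1 (hWχ g.2), Units.val_one, one_mul]
  have hτ : Discrete 𝓛 (chiRep χ) := fun m => ⟨χ.ker, hχ, fun s hs => by
    rw [chiRep_apply, MonoidHom.mem_ker.1 hs, Units.val_one, one_mul]⟩
  have hcor : CorInj 𝓛 (chiRep χ) W := by
    refine corInj_of' hτ hR hW hone ?_ ?_
    · rw [htriv]; exact hf
    · rw [htriv]; exact hd1
  refine h1_nondeg inv hinj hd hp hB hρ hσ W hW (hsymb W hW hWχ) hcor ?_ ?_ ?_ x hx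
  · exact fun g hg => LinearMap.ext fun m => h1 g (hWle hg).1.1 m
  · exact fun g hg => LinearMap.ext fun m => h2 g (hWle hg).1.2 m
  · exact fun g hg => LinearMap.ext fun m => by
      rw [chiRep_apply, MonoidHom.mem_ker.1 (hWχ hg), Units.val_one, one_mul]
      rfl

/-- the abstract local nondegeneracy at a place -/
theorem locNondeg_of {k G : Type} [Field k] [Group G] (T : PlaceData k G) (v : T.V)
    (hRE : PlaceData.RightExact k (T.𝓛v v)) (hinv : T.inv v ≠ 0)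
    (hone : finrank k (H2 (T.𝓛v v) ((chiRep T.χ).comp (T.r v))) = 1)
    (hdim : ∃ W₀ ∈ T.𝓛v v, ∀ W ∈ T.𝓛v v, W ≤ W₀ →
      FiniteDimensional k (H2 ((T.𝓛v v).restrict W) (trivRep k ↥W)) ∧
      finrank k (H2 ((T.𝓛v v).restrict W) (trivRep k ↥W)) ≤ 1)
    (hsymb : ∀ W ∈ T.𝓛v v, (∀ g ∈ W, T.χ (T.r v g) = 1) →
      SymbNondeg (T.𝓛v v) ((chiRep T.χ).comp (T.r v)) W) : LocNondeg T v := by
  have hker : (T.χ.comp (T.r v)).ker ∈ T.𝓛v v := by
    have h := T.hr v _ T.χ_level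
    have e : T.χ.ker.comap (T.r v) = (T.χ.comp (T.r v)).ker := by
      ext d; simp [MonoidHom.mem_ker]
    rwa [e] at h
  intro M _ _ _ ρ hρ x hx
  have hp : Perf (evBil k M) :=
    { inj := fun f hf => LinearMap.ext fun m => hf m
      surj := fun z => ⟨z, rfl⟩ }
  have hρ' : Discrete T.𝓛 (dualT T.χ ρ) := dualT_discrete hρ T.χ_level
  exact h1_nondeg_chi (χ := T.χ.comp (T.r v)) (inv := T.inv v) hRE hinv hker hone hdim
    (fun W hW hWk => hsymb W hW fun g hg => hWk hg) hp (evBil_bilin_v T ρ v)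
    (hρ'.comp (T.hr v)) (hρ.comp (T.hr v)) x hx

end Abstract

section Concrete

open Fermat.Agent.PT.Frozen Fermat.Agent.CFTLocal ExtCitation

variable {p : ℕ} [hp : Fact p.Prime]

theorem levFin_rLevels (hp2 : p ≠ 2) (v : Nat.Primes) :
    LevFin p (rLevels (primeLocalToGlobal v)) := by
  haveI : Fact (v : ℕ).Prime := ⟨v.2⟩
  have h : LevFin p (locLevels (v : ℕ)) := by
    obtain ⟨ζ, hζ⟩ := exists_primitiveRoot p (v : ℕ)
    refine ⟨(cycField ζ).fixingSubgroup, ?_, fun U hU hUle => ?_⟩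
    · exact ⟨cycField ζ, inferInstance, le_rfl⟩
    · exact hfin_level hζ hU (fun g hg => by
        have := hUle hg
        rw [IntermediateField.mem_fixingSubgroup_iff] at this
        exact this ζ (mem_cycField ζ)) hp2 _ (fun _ _ => rfl)
  rw [← rLevels_localGaloisToGlobal] at h
  exact h

/-- **Local finiteness.** -/
theorem locFin_placeData (hp2 : p ≠ 2) {S : Finset Nat.Primes} (hpS : pPrime p ∈ S)
    (inv : ∀ v : ↥S, PT.H2 (rLevels (primeLocalToGlobal v.1))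
      ((chiRep (cycloChar p)).comp (primeLocalToGlobal v.1)) →ₗ[ZMod p] ZMod p) (v : ↥S) :
    LocFin (placeData S hpS inv) v := by
  intro M _ _ _ ρ hρ
  exact (hfin_of_levels (rightEx_of (rightExact_rLevels hp2 v.1)) (levFin_rLevels hp2 v.1) _
    (hρ.comp ((placeData S hpS inv).hr v))).h1

/-- **Local nondegeneracy.** -/
theorem locNondeg_placeData (hp2 : p ≠ 2) {S : Finset Nat.Primes} (hpS : pPrime p ∈ S)
    (inv : ∀ v : ↥S, PT.H2 (rLevels (primeLocalToGlobal v.1))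
      ((chiRep (cycloChar p)).comp (primeLocalToGlobal v.1)) →ₗ[ZMod p] ZMod p) (v : ↥S)
    (hinv : inv v ≠ 0) : LocNondeg (placeData S hpS inv) v :=
  locNondeg_of (placeData S hpS inv) v (rightExact_rLevels hp2 v.1) hinv
    (finrank_H2_rLevels hp2 v.1) (loc_dim_rLevels hp2 v.1)
    (fun _ hW hWω => symbNondeg_rLevels hp2 v.1 hW hWω)

end Concrete

end Fermat.Agent.GW
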