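import Fermat.Agent.TW.Unram
import Fermat.Agent.TW.KummerTame
import Fermat.Agent.CFT.Bridge.Levels
import Fermat.Agent.PT.Dual
import Mathlib.NumberTheory.LegendreSymbol.AddCharacter

set_option autoImplicit false

/-!
# (GW-G) : `h¹(ℚ_q, M) ≤ h⁰(ℚ_q, M) + h⁰(ℚ_q, M')` for `M` unramified at `q ≠ p`

`G` is a group with a homomorphism `J : G →* Gal(ℚ̄/ℚ)` whose image is the decomposition group of a
place `A` above `q`.
-/

namespace Fermat.Agent.GWLoc

open Fermat.Agent.PT Fermat.Agent.CFT.Bridge Fermat.Agent.TW Fermat.Agent.Frob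
open scoped Pointwise

abbrev Qb := AlgebraicClosure ℚ
abbrev GQb := AlgebraicClosure ℚ ≃ₐ[ℚ] AlgebraicClosure ℚ

variable {G : Type*} [Group G] {A : ValuationSubring Qb} {q p : ℕ} {J : G →* GQb}

/-- The inertia subgroup of `G`. -/
noncomputable def inertiaG (A : ValuationSubring Qb) (J : G →* GQb) : Subgroup G :=
  (A.inertiaSubgroupIn ℚ).comap J

lemma mem_inertiaG {g : G} : g ∈ inertiaG A J ↔ J g ∈ A.inertiaSubgroupIn ℚ := Iff.rfl

lemma inertiaG_normal (hJ : J.range = A.decompositionSubgroup ℚ) : (inertiaG A J).Normal := by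
  constructor
  intro i hi g
  rw [mem_inertiaG] at hi ⊢
  have hg : (J g)⁻¹ ∈ A.decompositionSubgroup ℚ := by
    rw [← hJ]; exact inv_mem ⟨g, rfl⟩
  have h1 := conj_mem_inertia_of_decomp hg hi
  rw [inv_inv] at h1
  rwa [map_mul, map_mul, map_inv]

/-- `𝓛` is coarser than the level system induced from `Gal(ℚ̄/ℚ)`. -/
def Coarse (𝓛 : LevelSys G) (J : G →* GQb) : Prop :=
  ∀ U ∈ 𝓛, ∃ E : IntermediateField ℚ Qb, FiniteDimensional ℚ E ∧ E.fixingSubgroup.comap J ≤ U

lemma coarse_comap : Coarse ((galLevels ℚ Qb).comap J) J := by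
  rintro U ⟨W, ⟨E, hE, hEW⟩, hWU⟩
  exact ⟨E, hE, (Subgroup.comap_mono hEW).trans hWU⟩

variable {𝓛 : LevelSys G}

lemma exists_frobG (hq : q.Prime) (hA : A.LiesOverPrime q)
    (hJ : J.range = A.decompositionSubgroup ℚ) : ∃ φ : G, A.IsFrobeniusAt (J φ) q := by
  obtain ⟨φ, hφ⟩ := exists_isFrobeniusAt hq hA
  have h1 := hφ.mem_decompositionSubgroup
  rw [← hJ] at h1
  obtain ⟨φ', rfl⟩ := h1
  exact ⟨φ', hφ⟩

theorem topGen_inertiaG (hq : q.Prime) (hA : A.LiesOverPrime q)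
    (hJ : J.range = A.decompositionSubgroup ℚ) (h𝓛 : Coarse 𝓛 J) {φ : G}
    (hφ : A.IsFrobeniusAt (J φ) q) : TopGen 𝓛 (inertiaG A J) φ := by
  intro U hU g
  obtain ⟨E, hE, hEU⟩ := h𝓛 U hU
  obtain ⟨F, hEF, hfd, hgal⟩ := exists_galois_ge E
  have hg : J g ∈ A.decompositionSubgroup ℚ := by rw [← hJ]; exact ⟨g, rfl⟩
  obtain ⟨n, i, hi, h⟩ := exists_frob_pow_mul_inertia hq hA hφ F hg
  have hi' : i ∈ J.range := by rw [hJ]; exact inertia_le_decomp hi
  obtain ⟨i', rfl⟩ := hi'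
  refine ⟨n, i', hi, (φ ^ n * i')⁻¹ * g, hEU ?_, by group⟩
  rw [Subgroup.mem_comap, IntermediateField.mem_fixingSubgroup_iff]
  intro x hx
  have h1 := h x (hEF hx)
  rw [map_mul, map_inv, map_mul, map_pow]
  change (J φ ^ n * J i')⁻¹ (J g x) = x
  rw [h1]
  exact (J φ ^ n * J i').symm_apply_apply x

section Kappa

/-- The Kummer cocycle of `q^(1/p)`. -/
theorem exists_kappa (hq : q.Prime) [hp : Fact p.Prime] (hqp : q ≠ p) (hA : A.LiesOverPrime q)
    (hJ : J.range = A.decompositionSubgroup ℚ) (h𝓛 : Coarse 𝓛 J) (χ : G → ZMod p)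
    (hχ : ∀ g, ∀ ζ : Qb, ζ ^ p = 1 → J g ζ = ζ ^ (χ g).val) :
    (∀ i ∈ inertiaG A J, χ i = 1) ∧ ∃ κ : G → ZMod p,
      (∀ g, ∀ i ∈ inertiaG A J, κ (g * i * g⁻¹) = χ g * κ i) ∧
      ∀ f : G → ZMod p, LC1 𝓛 f → (∀ i ∈ inertiaG A J, ∀ j ∈ inertiaG A J, f (i * j) = f i + f j) →
        ∃ a : ZMod p, ∀ i ∈ inertiaG A J, f i = a * κ i := by
  classical
  have hcop : Nat.Coprime q p := (Nat.coprime_primes hq hp.out).mpr hqp
  have hp0 : p ≠ 0 := hp.out.ne_zero
  have : NeZero p := ⟨hp0⟩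
  have hIN := inertiaG_normal (A := A) hJ
  obtain ⟨π, hπ⟩ := IsAlgClosed.exists_pow_nat_eq ((q : ℕ) : Qb) hp.out.pos
  have hqQ : ((q : ℕ) : Qb) ≠ 0 := by exact_mod_cast hq.ne_zero
  have hπ0 : π ≠ 0 := by
    rintro rfl
    rw [zero_pow hp0] at hπ
    exact hqQ hπ.symm
  obtain ⟨ζ, hζ⟩ := HasEnoughRootsOfUnity.exists_primitiveRoot Qb p
  let e : AddChar (ZMod p) Qb := AddChar.zmodChar p hζ.pow_eq_one
  have he : ∀ x : ZMod p, e x = ζ ^ x.val := fun x => AddChar.zmodChar_apply hζ.pow_eq_one x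
  have hep : ∀ x : ZMod p, e x ^ p = 1 := fun x => by
    rw [he, ← pow_mul, mul_comm, pow_mul, hζ.pow_eq_one, one_pow]
  have heinj : Function.Injective e := by
    intro x y h
    rw [he, he] at h
    exact ZMod.val_injective p (hζ.pow_inj (ZMod.val_lt x) (ZMod.val_lt y) h)
  have hJe : ∀ g x, J g (e x) = e (χ g * x) := by
    intro g x
    rw [hχ g _ (hep x), ← AddChar.map_nsmul_eq_pow, nsmul_eq_mul, ZMod.natCast_zmod_val]
  have hχI : ∀ i ∈ inertiaG A J, χ i = 1 := by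
    intro i hi
    have h1 := Fermat.Agent.GalRep.inertia_fix_rootOfUnity hA hcop hp0 (mem_inertiaG.mp hi)
      (hep 1)
    rw [hJe] at h1
    have h2 := heinj h1
    rwa [mul_one] at h2
  have hκ : ∀ g : G, ∃ x : ZMod p, J g π = e x * π := by
    intro g
    have h1 : (J g π / π) ^ p = 1 := by
      rw [div_pow, ← map_pow, hπ, map_natCast, div_self hqQ]
    obtain ⟨n, -, hn⟩ := hζ.eq_pow_of_pow_eq_one h1
    refine ⟨(n : ZMod p), ?_⟩
    have h2 : e (n : ZMod p) = ζ ^ n := by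
      rw [he, ZMod.val_natCast]
      exact (pow_eq_pow_mod n hζ.pow_eq_one).symm
    rw [h2, hn, div_mul_cancel₀ _ hπ0]
  choose κ hκ using hκ
  have hκmul : ∀ g h, κ (g * h) = κ g + χ g * κ h := by
    intro g h
    apply heinj
    apply mul_right_cancel₀ hπ0
    rw [← hκ, map_mul, AlgEquiv.mul_apply, hκ h, map_mul, hJe, hκ g, AddChar.map_add_eq_mul]
    ring
  have hχmul : ∀ g h, χ (g * h) = χ g * χ h := by
    intro g h
    have h1 : J (g * h) (e 1) = J g (J h (e 1)) := by rw [map_mul]; rfl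
    rw [hJe, hJe, hJe, mul_one, mul_one] at h1
    exact heinj h1
  have hχ1 : χ 1 = 1 := hχI 1 (one_mem _)
  have hκ1 : κ 1 = 0 := by
    have h1 := hκmul 1 1
    rw [mul_one, hχ1, one_mul] at h1
    exact left_eq_add.mp h1
  refine ⟨hχI, κ, fun g i hi => ?_, fun f hf hadd => ?_⟩
  · have h1 := hκmul g g⁻¹
    rw [mul_inv_cancel, hκ1] at h1
    rw [hκmul, hκmul, hχmul, hχI i hi, mul_one]
    linear_combination -h1
  · -- well defined on the image
    have hf1 : f 1 = 0 := by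
      have h1 := hadd 1 (one_mem _) 1 (one_mem _)
      rw [mul_one] at h1
      exact left_eq_add.mp h1
    obtain ⟨U, hU, hU'⟩ := hf
    obtain ⟨E, hE, hEU⟩ := h𝓛 U hU
    have hwd : ∀ i j, J i = J j → f i = f j := by
      intro i j hij
      have h1 : i⁻¹ * j ∈ U := by
        apply hEU
        rw [Subgroup.mem_comap, map_mul, map_inv, hij, inv_mul_cancel]
        exact one_mem _
      have h2 := hU' i _ h1
      rw [mul_inv_cancel_left] at h2
      exact h2.symm
    let h : GQb → Qb := fun σ => if hσ : ∃ i, J i = σ then e (f hσ.choose) else 1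
    have hh : ∀ i, h (J i) = e (f i) := by
      intro i
      have hσ : ∃ j, J j = J i := ⟨i, rfl⟩
      simp only [h, dif_pos hσ]
      rw [hwd _ _ hσ.choose_spec]
    have hIr : ∀ σ ∈ A.inertiaSubgroupIn ℚ, ∃ i ∈ inertiaG A J, J i = σ := by
      intro σ hσ
      have h1 : σ ∈ J.range := by rw [hJ]; exact inertia_le_decomp hσ
      obtain ⟨i, rfl⟩ := h1
      exact ⟨i, hσ, rfl⟩
    obtain ⟨a, ha⟩ := kummer_inertia hq hA hcop hp0 hπ h
      (fun σ hσ => by
        obtain ⟨i, hi, rfl⟩ := hIr σ hσ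
        rw [hh, hep])
      (fun σ hσ τ hτ => by
        obtain ⟨i, hi, rfl⟩ := hIr σ hσ
        obtain ⟨j, hj, rfl⟩ := hIr τ hτ
        rw [← map_mul, hh, hh, hh, hadd i hi j hj, AddChar.map_add_eq_mul])
      E (fun σ hσ hfix => by
        obtain ⟨i, hi, rfl⟩ := hIr σ hσ
        rw [hh]
        have h1 : i ∈ U := hEU (by
          rw [Subgroup.mem_comap, IntermediateField.mem_fixingSubgroup_iff]
          exact hfix)
        have h2 := hU' 1 i h1
        rw [one_mul, hf1] at h2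
        rw [h2]
        exact AddChar.map_zero_eq_one e)
    refine ⟨(a : ZMod p), fun i hi => ?_⟩
    apply heinj
    have h1 := ha (J i) hi
    rw [hh, hκ, mul_div_assoc, div_self hπ0, mul_one] at h1
    rw [h1, ← AddChar.map_zsmul_eq_zpow]
    congr 1
    rw [zsmul_eq_mul]

end Kappa

section Main

variable {M : Type*} [AddCommGroup M] [hp : Fact p.Prime] [Module (ZMod p) M]
  (ρ : Representation (ZMod p) G M)

/-- The eigenspace `{m | g m = χ(g) m}`. -/
def eigS (χ : G →* (ZMod p)ˣ) : Submodule (ZMod p) M where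
  carrier := {m | ∀ g, ρ g m = (χ g : ZMod p) • m}
  add_mem' {a b} ha hb g := by rw [map_add, ha g, hb g, smul_add]
  zero_mem' g := by rw [map_zero, smul_zero]
  smul_mem' c m hm g := by rw [map_smul, hm g, smul_comm]

variable {ρ}

/-- On unramified modules, the value of a cocycle at one inertia element determines its
restriction to inertia. -/
theorem exists_i0 [FiniteDimensional (ZMod p) M] (hq : q.Prime) (hqp : q ≠ p)
    (hA : A.LiesOverPrime q) (hJ : J.range = A.decompositionSubgroup ℚ) (h𝓛 : Coarse 𝓛 J)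
    (χ : G →* (ZMod p)ˣ) (hχ : ∀ g, ∀ ζ : Qb, ζ ^ p = 1 → J g ζ = ζ ^ (χ g : ZMod p).val)
    (hunr : ∀ i ∈ inertiaG A J, ρ i = 1) :
    ∃ i₀ ∈ inertiaG A J, ∀ c : ↥(Z1 𝓛 ρ), (c : G → M) i₀ ∈ eigS ρ χ ∧
      ((c : G → M) i₀ = 0 → ∀ i ∈ inertiaG A J, (c : G → M) i = 0) := by
  have hIN := inertiaG_normal (A := A) hJ
  obtain ⟨-, κ, hκ, hκ2⟩ := exists_kappa hq hqp hA hJ h𝓛 (fun g => (χ g : ZMod p)) hχ
  -- relation of the values of a cocycle
  have hval : ∀ c : ↥(Z1 𝓛 ρ), ∀ i₀ ∈ inertiaG A J, ∀ i ∈ inertiaG A J,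
      (κ i₀) • (c : G → M) i = (κ i) • (c : G → M) i₀ := by
    intro c i₀ hi₀ i hi
    rw [← sub_eq_zero]
    rw [← Module.forall_dual_apply_eq_zero_iff (ZMod p)]
    intro ℓ
    obtain ⟨a, ha⟩ := hκ2 (fun g => ℓ ((c : G → M) g)) (c.2.1.comp ℓ) (fun i hi j hj => by
      rw [cocycle_mul, hunr i hi, Module.End.one_apply, map_add, add_comm])
    rw [map_sub, map_smul, map_smul, smul_eq_mul, smul_eq_mul, ha i hi, ha i₀ hi₀]
    ring
  by_cases hex : ∃ i₀ ∈ inertiaG A J, κ i₀ ≠ 0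
  · obtain ⟨i₀, hi₀, hκ0⟩ := hex
    refine ⟨i₀, hi₀, fun c => ⟨fun g => ?_, fun h0 i hi => ?_⟩⟩
    · have h1 : (c : G → M) (g * i₀ * g⁻¹) = ρ g ((c : G → M) i₀) := by
        rw [cocycle_mul, cocycle_mul, map_mul, hunr i₀ hi₀, mul_one, cocycle_inv, map_neg,
          ← Module.End.mul_apply, ← map_mul, mul_inv_cancel, map_one, Module.End.one_apply]
        abel
      have h2 := hval c i₀ hi₀ (g * i₀ * g⁻¹) (hIN.conj_mem i₀ hi₀ g)
      rw [h1, hκ g i₀ hi₀, mul_comm, mul_smul] at h2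
      have h3 : (κ i₀) • (ρ g ((c : G → M) i₀) - (χ g : ZMod p) • (c : G → M) i₀) = 0 := by
        rw [smul_sub, h2, sub_self]
      exact sub_eq_zero.mp ((smul_eq_zero.mp h3).resolve_left hκ0)
    · have h2 := hval c i₀ hi₀ i hi
      rw [h0, smul_zero] at h2
      exact (smul_eq_zero.mp h2).resolve_left hκ0
  · push Not at hex
    refine ⟨1, one_mem _, fun c => ?_⟩
    rw [cocycle_one]
    refine ⟨zero_mem _, fun _ i hi => ?_⟩
    rw [← Module.forall_dual_apply_eq_zero_iff (ZMod p)]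
    intro ℓ
    obtain ⟨a, ha⟩ := hκ2 (fun g => ℓ ((c : G → M) g)) (c.2.1.comp ℓ) (fun i hi j hj => by
      rw [cocycle_mul, hunr i hi, Module.End.one_apply, map_add, add_comm])
    rw [ha i hi, hex i hi, mul_zero]

/-- `dim {m | g m = χ(g) m} ≤ dim Hom_G(M, k(χ))` for unramified modules. -/
theorem finrank_eigS_le [FiniteDimensional (ZMod p) M] (hρ : Discrete 𝓛 ρ) (hq : q.Prime)
    (hqp : q ≠ p)
    (hA : A.LiesOverPrime q) (hJ : J.range = A.decompositionSubgroup ℚ) (h𝓛 : Coarse 𝓛 J)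
    (χ : G →* (ZMod p)ˣ) (hχ : ∀ g, ∀ ζ : Qb, ζ ^ p = 1 → J g ζ = ζ ^ (χ g : ZMod p).val)
    (hχl : χ.ker ∈ 𝓛) (hunr : ∀ i ∈ inertiaG A J, ρ i = 1) :
    Module.finrank (ZMod p) (eigS ρ χ) ≤ Module.finrank (ZMod p) (homG χ ρ) := by
  obtain ⟨φ, hφ⟩ := exists_frobG hq hA hJ
  have htop := topGen_inertiaG hq hA hJ h𝓛 hφ
  obtain ⟨hχI, -⟩ := exists_kappa hq hqp hA hJ h𝓛 (fun g => (χ g : ZMod p)) hχ
  let T : M →ₗ[ZMod p] M := ρ φ - (χ φ : ZMod p) • LinearMap.id
  have h1 : eigS ρ χ ≤ LinearMap.ker T := by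
    intro m hm
    rw [LinearMap.mem_ker]
    change ρ φ m - (χ φ : ZMod p) • m = 0
    rw [hm φ, sub_self]
  have h2 : LinearMap.ker T.dualMap ≤ homG χ ρ := by
    intro ℓ hℓ
    have h3 : ∀ m, ℓ (ρ φ m) = (χ φ : ZMod p) * ℓ m := by
      intro m
      have h4 : ℓ (T m) = 0 := LinearMap.congr_fun hℓ m
      change ℓ (ρ φ m - (χ φ : ZMod p) • m) = 0 at h4
      rwa [map_sub, map_smul, smul_eq_mul, sub_eq_zero] at h4
    have h4 : ∀ (n : ℕ) m, ℓ (ρ (φ ^ n) m) = (χ (φ ^ n) : ZMod p) * ℓ m := by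
      intro n
      induction n with
      | zero => intro m; simp
      | succ n ih =>
        intro m
        rw [pow_succ, map_mul, Module.End.mul_apply, ih, h3, map_mul, Units.val_mul]
        ring
    obtain ⟨U, hU, hU'⟩ := hρ.exists_trivial
    intro g m
    obtain ⟨n, i, hi, u, hu, rfl⟩ := htop _ (LevelSys.inf_mem hU hχl) g
    have h5 : χ u = 1 := hu.2
    have h6 : (χ i : ZMod p) = 1 := hχI i hi
    rw [map_mul, Module.End.mul_apply, hU' u hu.1, map_mul, hunr i hi, mul_one, h4, map_mul,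
      map_mul, Units.val_mul, Units.val_mul, h5, h6, Units.val_one, mul_one, mul_one]
  have h3 : Module.finrank (ZMod p) (LinearMap.ker T) =
      Module.finrank (ZMod p) (LinearMap.ker T.dualMap) := by
    have e1 := LinearMap.finrank_range_add_finrank_ker T
    have e2 := LinearMap.finrank_range_add_finrank_ker T.dualMap
    rw [LinearMap.finrank_range_dualMap_eq_finrank_range, Subspace.dual_finrank_eq] at e2
    omega
  calc _ ≤ Module.finrank (ZMod p) (LinearMap.ker T) := Submodule.finrank_mono h1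
    _ = _ := h3
    _ ≤ _ := Submodule.finrank_mono h2

/-- **(GW-G)** : `h¹ ≤ h⁰(M) + h⁰(M')` for unramified modules. -/
theorem finrank_H1_le [FiniteDimensional (ZMod p) M] (hρ : Discrete 𝓛 ρ) (hq : q.Prime)
    (hqp : q ≠ p)
    (hA : A.LiesOverPrime q) (hJ : J.range = A.decompositionSubgroup ℚ) (h𝓛 : Coarse 𝓛 J)
    (χ : G →* (ZMod p)ˣ) (hχ : ∀ g, ∀ ζ : Qb, ζ ^ p = 1 → J g ζ = ζ ^ (χ g : ZMod p).val)
    (hχl : χ.ker ∈ 𝓛) (hunr : ∀ i ∈ inertiaG A J, ρ i = 1) :
    FiniteDimensional (ZMod p) (H1 𝓛 ρ) ∧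
    Module.finrank (ZMod p) (H1 𝓛 ρ) ≤
      Module.finrank (ZMod p) ρ.invariants + Module.finrank (ZMod p) (homG χ ρ) := by
  have hIN := inertiaG_normal (A := A) hJ
  obtain ⟨φ, hφ⟩ := exists_frobG hq hA hJ
  have htop := topGen_inertiaG hq hA hJ h𝓛 hφ
  obtain ⟨hfin, hle⟩ := finrank_H1ur_le hρ htop
  obtain ⟨i₀, hi₀, h⟩ := exists_i0 (ρ := ρ) hq hqp hA hJ h𝓛 χ hχ hunr
  let T₀ : ↥(Z1 𝓛 ρ) →ₗ[ZMod p] ↥(eigS ρ χ) :=
    { toFun := fun c => ⟨(c : G → M) i₀, (h c).1⟩
      map_add' := fun _ _ => rfl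
      map_smul' := fun _ _ => rfl }
  have hT₀ : (B1 ρ).comap (Z1 𝓛 ρ).subtype ≤ LinearMap.ker T₀ := by
    intro c hc
    obtain ⟨m, hm⟩ := hc
    rw [LinearMap.mem_ker]
    apply Subtype.ext
    change (c : G → M) i₀ = 0
    have h1 : (c : G → M) = d01 ρ m := hm.symm
    rw [h1]
    change ρ i₀ m - m = 0
    rw [hunr i₀ hi₀, Module.End.one_apply, sub_self]
  let T : H1 𝓛 ρ →ₗ[ZMod p] ↥(eigS ρ χ) := Submodule.liftQ _ T₀ hT₀
  have hker : LinearMap.ker T ≤ H1ur 𝓛 ρ (inertiaG A J) := by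
    intro x hx
    obtain ⟨c, rfl⟩ := H1mk_surjective x
    have h1 : T₀ c = 0 := hx
    have h2 : (c : G → M) i₀ = 0 := congrArg Subtype.val h1
    exact ⟨c, (h c).2 h2, rfl⟩
  have hkfin : FiniteDimensional (ZMod p) (LinearMap.ker T) :=
    Submodule.finiteDimensional_of_le hker
  have hrfin : FiniteDimensional (ZMod p) (LinearMap.range T) := inferInstance
  have hfinH : FiniteDimensional (ZMod p) (H1 𝓛 ρ) := by
    have e := (T.quotKerEquivRange).symm
    have : FiniteDimensional (ZMod p) (H1 𝓛 ρ ⧸ LinearMap.ker T) :=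
      Module.Finite.equiv e
    exact Module.Finite.of_submodule_quotient (LinearMap.ker T)
  refine ⟨hfinH, ?_⟩
  have e1 := LinearMap.finrank_range_add_finrank_ker T
  have e2 : Module.finrank (ZMod p) (LinearMap.ker T) ≤
      Module.finrank (ZMod p) (H1ur 𝓛 ρ (inertiaG A J)) := Submodule.finrank_mono hker
  have e3 : Module.finrank (ZMod p) (LinearMap.range T) ≤
      Module.finrank (ZMod p) (eigS ρ χ) := Submodule.finrank_le _
  have e4 := finrank_eigS_le hρ hq hqp hA hJ h𝓛 χ hχ hχl hunr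
  have e5 : invSub ρ (⊤ : Subgroup G) = ρ.invariants := by
    ext m
    rw [mem_invSub, Representation.mem_invariants]
    exact ⟨fun h g => h g (Subgroup.mem_top g), fun h g _ => h g⟩
  rw [e5] at hle
  omega

end Main


section Pairing

variable {k : Type*} [Field k] {M M' : Type*} [AddCommGroup M] [Module k M] [AddCommGroup M']
  [Module k M'] [FiniteDimensional k M]

/-- Invariants of the twisted dual in terms of a perfect pairing. -/
theorem finrank_homG_eq_invariants (χ : G →* kˣ) (ρ : Representation k G M)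
    (ρ' : Representation k G M') (B : M →ₗ[k] M' →ₗ[k] k)
    (hB : ∀ g m m', B (ρ g m) (ρ' g m') = (χ g : k) * B m m')
    (hB1 : ∀ m, (∀ m', B m m' = 0) → m = 0) (hB2 : ∀ m', (∀ m, B m m' = 0) → m' = 0) :
    Module.finrank k (homG χ ρ) = Module.finrank k ρ'.invariants := by
  have hsurj : ∀ ℓ : Module.Dual k M, ∃ m', B.flip m' = ℓ := by
    have hinj : Function.Injective B := by
      rw [injective_iff_map_eq_zero]
      intro m hm
      exact hB1 m fun m' => LinearMap.congr_fun hm m'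
    have hinj2 : Function.Injective B.flip := by
      rw [injective_iff_map_eq_zero]
      intro m' hm
      exact hB2 m' fun m => LinearMap.congr_fun hm m
    have : FiniteDimensional k M' := FiniteDimensional.of_injective B.flip hinj2
    have h1 : Module.finrank k M' = Module.finrank k (Module.Dual k M) := by
      apply le_antisymm
      · exact LinearMap.finrank_le_finrank_of_injective hinj2
      · rw [Subspace.dual_finrank_eq]
        have := LinearMap.finrank_le_finrank_of_injective hinj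
        rwa [Subspace.dual_finrank_eq] at this
    exact (LinearMap.injective_iff_surjective_of_finrank_eq_finrank h1).mp hinj2
  let f : ↥ρ'.invariants →ₗ[k] ↥(homG χ ρ) :=
    { toFun := fun m' => ⟨B.flip m'.1, fun g m => by
        change B (ρ g m) m'.1 = (χ g : k) * B m m'.1
        rw [← hB g m m'.1]
        congr 1
        exact (m'.2 g).symm⟩
      map_add' := fun x y => Subtype.ext (map_add B.flip _ _)
      map_smul' := fun c x => Subtype.ext (map_smul B.flip _ _) }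
  have hf : Function.Bijective f := by
    constructor
    · intro x y h
      have h1 : B.flip x.1 = B.flip y.1 := congrArg Subtype.val h
      apply Subtype.ext
      rw [← sub_eq_zero]
      apply hB2
      intro m
      have := LinearMap.congr_fun h1 m
      change B m x.1 = B m y.1 at this
      rw [map_sub, this, sub_self]
    · rintro ⟨ℓ, hℓ⟩
      obtain ⟨m', rfl⟩ := hsurj ℓ
      refine ⟨⟨m', fun g => ?_⟩, rfl⟩
      rw [← sub_eq_zero]
      apply hB2
      intro m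
      have h1 : B m (ρ' g m') = B m m' := by
        have h2 := hℓ g (ρ g⁻¹ m)
        change B (ρ g (ρ g⁻¹ m)) m' = (χ g : k) * B (ρ g⁻¹ m) m' at h2
        rw [← hB, ← Module.End.mul_apply, ← map_mul, mul_inv_cancel, map_one,
          Module.End.one_apply] at h2
        exact h2.symm
      rw [map_sub, h1, sub_self]
  exact (LinearEquiv.ofBijective f hf).finrank_eq.symm

end Pairing

section Concrete

variable [hp : Fact p.Prime]

lemma cycloChar_spec (σ : GQb) {ζ : Qb} (hζ : ζ ^ p = 1) :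
    σ ζ = ζ ^ ((ExtCitation.cycloChar p σ : (ZMod p)ˣ) : ZMod p).val := by
  have : NeZero p := ⟨hp.out.ne_zero⟩
  have hζ0 : ζ ≠ 0 := by
    rintro rfl
    rw [zero_pow hp.out.ne_zero] at hζ
    exact zero_ne_one hζ
  exact modularCyclotomicCharacter.spec (AlgebraicClosure ℚ)
    (ExtCitation.card_rootsOfUnity_eq_self p) (σ : Qb ≃+* Qb) (t := Units.mk0 ζ hζ0)
    (by rw [mem_rootsOfUnity]; exact Units.ext hζ)

lemma cycloChar_ker_mem : (ExtCitation.cycloChar p).ker ∈ galLevels ℚ Qb := by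
  have : NeZero p := ⟨hp.out.ne_zero⟩
  obtain ⟨ζ, hζ⟩ := HasEnoughRootsOfUnity.exists_primitiveRoot Qb p
  have hint : IsIntegral ℚ ζ := Algebra.IsIntegral.isIntegral ζ
  have hfd : FiniteDimensional ℚ (IntermediateField.adjoin ℚ {ζ}) :=
    IntermediateField.adjoin.finiteDimensional hint
  refine ⟨IntermediateField.adjoin ℚ {ζ}, hfd, fun σ hσ => ?_⟩
  rw [IntermediateField.mem_fixingSubgroup_iff] at hσ
  have h1 := hσ ζ (IntermediateField.mem_adjoin_simple_self ℚ ζ)
  rw [cycloChar_spec σ hζ.pow_eq_one] at h1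
  rw [MonoidHom.mem_ker]
  apply Units.ext
  rw [Units.val_one]
  apply ZMod.val_injective p
  have h2 : ζ ^ ((ExtCitation.cycloChar p σ : (ZMod p)ˣ) : ZMod p).val = ζ ^ (1 : ZMod p).val := by
    rw [h1]
    have : Fact (1 < p) := ⟨hp.out.one_lt⟩
    rw [ZMod.val_one, pow_one]
  exact hζ.pow_inj (ZMod.val_lt _) (ZMod.val_lt _) h2

/-- **(GW-G)** for the local Galois group `Gal(ℚ̄_q/ℚ_q)`. -/
theorem finrank_H1_local_le {q : ℕ} [hq : Fact q.Prime] (hqp : q ≠ p)
    {M : Type*} [AddCommGroup M] [Module (ZMod p) M] [FiniteDimensional (ZMod p) M]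
    {M' : Type*} [AddCommGroup M'] [Module (ZMod p) M']
    (ρ : Representation (ZMod p) GQb M) (ρ' : Representation (ZMod p) GQb M')
    (hρ : Discrete (galLevels ℚ Qb) ρ)
    (B : M →ₗ[ZMod p] M' →ₗ[ZMod p] ZMod p)
    (hB : ∀ g m m', B (ρ g m) (ρ' g m') = ((ExtCitation.cycloChar p g : (ZMod p)ˣ) : ZMod p) * B m m')
    (hB1 : ∀ m, (∀ m', B m m' = 0) → m = 0) (hB2 : ∀ m', (∀ m, B m m' = 0) → m' = 0)
    (hunr : ∀ A : ValuationSubring Qb, A.LiesOverPrime q → ∀ σ ∈ A.inertiaSubgroupIn ℚ, ρ σ = 1) :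
    FiniteDimensional (ZMod p) (H1 (galLevels ℚ_[q] (PadicAlgCl q)) (ρ.comp (localGaloisToGlobal q))) ∧
    Module.finrank (ZMod p)
        (H1 (galLevels ℚ_[q] (PadicAlgCl q)) (ρ.comp (localGaloisToGlobal q))) ≤
      Module.finrank (ZMod p) (Representation.invariants (ρ.comp (localGaloisToGlobal q))) +
      Module.finrank (ZMod p) (Representation.invariants (ρ'.comp (localGaloisToGlobal q))) := by
  have hlev : (galLevels ℚ Qb).comap (localGaloisToGlobal q) = galLevels ℚ_[q] (PadicAlgCl q) :=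
    comap_localGaloisToGlobal_galLevels q
  rw [← hlev]
  set J := localGaloisToGlobal q with hJ
  have hcompat : (galLevels ℚ Qb).Compat J ((galLevels ℚ Qb).comap J) :=
    LevelSys.compat_comap J
  have h1 := finrank_H1_le (ρ := (ρ.comp J : Representation (ZMod p) _ M)) (A := padicPlace q)
    (hρ.comp hcompat) hq.out hqp (padicPlace_liesOverPrime q) (range_localGaloisToGlobal q)
    (coarse_comap (J := J)) ((ExtCitation.cycloChar p).comp J)
    (fun g ζ hζ => cycloChar_spec (J g) hζ)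
    (by
      have h2 := hcompat _ (cycloChar_ker_mem (p := p))
      rwa [MonoidHom.comap_ker] at h2)
    (fun i hi => hunr _ (padicPlace_liesOverPrime q) _ hi)
  have h2 := finrank_homG_eq_invariants ((ExtCitation.cycloChar p).comp J)
    (ρ.comp J : Representation (ZMod p) _ M) (ρ'.comp J : Representation (ZMod p) _ M') B
    (fun g m m' => hB (J g) m m') hB1 hB2
  rw [h2] at h1
  exact h1

end Concrete

end Fermat.Agent.GWLoc
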