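import Fermat.Agent.GW.HomU

/-!
# Additivity of `A ↦ dim Hom_D(Q, A)`, duality for invariants

`D` a finite group (subgroup of a finite group) of order invertible in `k`.
-/

set_option autoImplicit false

namespace Fermat.Agent.GW

open Fermat.Agent.PT Module

section Avg

variable {k : Type*} [Field k] {G : Type*} [Group G]
variable {Q : Type*} [AddCommGroup Q] [Module k Q] {X : Type*} [AddCommGroup X] [Module k X]
variable {Y : Type*} [AddCommGroup Y] [Module k Y]

lemma mem_homInv_iff_invariants {ρQ : Representation k G Q} {ρX : Representation k G X}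
    {U : Subgroup G} {θ : Q →ₗ[k] X} :
    θ ∈ homInv ρQ ρX U ↔ θ ∈ Representation.invariants ((Representation.linHom ρQ ρX).comp U.subtype) := by
  constructor
  · intro h u
    apply LinearMap.ext
    intro q
    show ρX (u : G) (θ (ρQ (u : G)⁻¹ q)) = θ q
    rw [← h _ u.2, ← Module.End.mul_apply, ← map_mul, mul_inv_cancel, map_one,
      Module.End.one_apply]
  · intro h u hu q
    have h1 := LinearMap.congr_fun (h ⟨u, hu⟩) (ρQ u q)
    have h2 : ρX u (θ (ρQ u⁻¹ (ρQ u q))) = θ (ρQ u q) := h1
    rw [← Module.End.mul_apply (ρQ u⁻¹), ← map_mul, inv_mul_cancel, map_one,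
      Module.End.one_apply] at h2
    exact h2.symm

/-- sum over a finite group. -/
noncomputable def avgSum {D : Type*} [Group D] [Fintype D] (σ : Representation k D X) :
    X →ₗ[k] X := ∑ d, σ d

lemma avgSum_apply {D : Type*} [Group D] [Fintype D] (σ : Representation k D X) (x : X) :
    avgSum σ x = ∑ d, σ d x := by simp [avgSum]

lemma act_avgSum {D : Type*} [Group D] [Fintype D] (σ : Representation k D X) (d : D) (x : X) :
    σ d (avgSum σ x) = avgSum σ x := by
  rw [avgSum_apply, map_sum]
  refine Fintype.sum_equiv (Equiv.mulLeft d) _ _ fun e => ?_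
  rw [← Module.End.mul_apply, ← map_mul]
  rfl

lemma avgSum_of_invariant {D : Type*} [Group D] [Fintype D] (σ : Representation k D X) {x : X}
    (hx : ∀ d, σ d x = x) : avgSum σ x = (Fintype.card D : k) • x := by
  rw [avgSum_apply, Finset.sum_congr rfl (fun d _ => hx d), Finset.sum_const, Finset.card_univ,
    Nat.cast_smul_eq_nsmul]

/-- surjectivity on invariants. -/
lemma exists_invariant_lift {D : Type*} [Group D] [Finite D] (hD : (Nat.card D : k) ≠ 0)
    (σ : Representation k D X) (τ : Representation k D Y) (f : X →ₗ[k] Y)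
    (hf : ∀ d x, f (σ d x) = τ d (f x)) {y : Y} (hy : ∀ d, τ d y = y) (hs : ∃ x, f x = y) :
    ∃ x, (∀ d, σ d x = x) ∧ f x = y := by
  have := Fintype.ofFinite D
  obtain ⟨x, hx⟩ := hs
  rw [Nat.card_eq_fintype_card] at hD
  refine ⟨(Fintype.card D : k)⁻¹ • avgSum σ x, fun d => ?_, ?_⟩
  · rw [map_smul, act_avgSum]
  · rw [map_smul, avgSum_apply, map_sum]
    simp only [hf, hx]
    rw [← avgSum_apply, avgSum_of_invariant τ hy, smul_smul, inv_mul_cancel₀ hD, one_smul]

lemma range_avgSum {D : Type*} [Group D] [Fintype D] (hD : (Nat.card D : k) ≠ 0)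
    (τ : Representation k D X) : LinearMap.range (avgSum τ) = τ.invariants := by
  ext z
  constructor
  · rintro ⟨w, rfl⟩ d
    exact act_avgSum τ d w
  · intro hz
    refine ⟨(Fintype.card D : k)⁻¹ • z, ?_⟩
    rw [Nat.card_eq_fintype_card] at hD
    rw [map_smul, avgSum_of_invariant τ hz, smul_smul, inv_mul_cancel₀ hD, one_smul]

/-- `dim X^D = dim (X^*)^D`. -/
theorem finrank_invariants_dual {D : Type*} [Group D] [Finite D] (hD : (Nat.card D : k) ≠ 0)
    [FiniteDimensional k X] (σ : Representation k D X) :
    finrank k σ.dual.invariants = finrank k σ.invariants := by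
  have := Fintype.ofFinite D
  have h1 : avgSum σ.dual = (avgSum σ).dualMap := by
    apply LinearMap.ext
    intro φ
    apply LinearMap.ext
    intro x
    rw [avgSum_apply, LinearMap.dualMap_apply, avgSum_apply, LinearMap.sum_apply, map_sum]
    exact Fintype.sum_equiv (Equiv.inv D) _ _ fun d => rfl
  rw [← range_avgSum hD σ, ← range_avgSum hD σ.dual, h1,
    ← LinearMap.finrank_range_dualMap_eq_finrank_range (f := avgSum σ)]

end Avg

section Additive

variable {k G : Type} [Field k] [Group G]
variable {Q : Type} [AddCommGroup Q] [Module k Q]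

/-- `A ↦ dim Hom_D(Q, A)` is additive when the order of `D` is invertible in `k`. -/
theorem isAdditive_homInv (D : Subgroup G) [Finite D] (hD : (Nat.card D : k) ≠ 0)
    (ρQ : Representation k G Q) [FiniteDimensional k Q] :
    IsAdditive (fun A : Rep.{0} k G => (finrank k (homInv ρQ A.ρ D) : ℤ)) := by
  constructor
  intro A B C f g hB hf hfg hg
  have hA : FiniteDimensional k A := FiniteDimensional.of_injective f.hom.toLinearMap hf
  have hC : FiniteDimensional k C := Module.Finite.of_surjective g.hom.toLinearMap hg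
  have hfe : ∀ (s : G) (a : A), f (A.ρ s a) = B.ρ s (f a) := fun s a => Rep.hom_comm_apply f s a
  have hge : ∀ (s : G) (b : B), g (B.ρ s b) = C.ρ s (g b) := fun s b => Rep.hom_comm_apply g s b
  let F : homInv ρQ A.ρ D →ₗ[k] homInv ρQ B.ρ D :=
    { toFun := fun θ => ⟨f.hom.toLinearMap ∘ₗ θ.1, fun u hu q => by
        show f (θ.1 (ρQ u q)) = B.ρ u (f (θ.1 q))
        rw [θ.2 u hu q, hfe]⟩
      map_add' := fun θ θ' => by
        apply Subtype.ext
        exact LinearMap.comp_add _ _ _
      map_smul' := fun r θ => by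
        apply Subtype.ext
        exact LinearMap.comp_smul _ _ _ }
  let H : homInv ρQ B.ρ D →ₗ[k] homInv ρQ C.ρ D :=
    { toFun := fun θ => ⟨g.hom.toLinearMap ∘ₗ θ.1, fun u hu q => by
        show g (θ.1 (ρQ u q)) = C.ρ u (g (θ.1 q))
        rw [θ.2 u hu q, hge]⟩
      map_add' := fun θ θ' => by
        apply Subtype.ext
        exact LinearMap.comp_add _ _ _
      map_smul' := fun r θ => by
        apply Subtype.ext
        exact LinearMap.comp_smul _ _ _ }
  have hFi : Function.Injective F := by
    intro θ θ' h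
    apply Subtype.ext
    apply LinearMap.ext
    intro q
    exact hf (LinearMap.congr_fun (congrArg Subtype.val h) q)
  have hHs : LinearMap.range H = ⊤ := by
    rw [LinearMap.range_eq_top]
    intro θ
    obtain ⟨s, hs⟩ := g.hom.toLinearMap.exists_rightInverse_of_surjective
      (LinearMap.range_eq_top.2 hg)
    obtain ⟨η, hη1, hη2⟩ := exists_invariant_lift hD
      ((Representation.linHom ρQ B.ρ).comp D.subtype) ((Representation.linHom ρQ C.ρ).comp D.subtype)
      (LinearMap.compRight k g.hom.toLinearMap : (Q →ₗ[k] B) →ₗ[k] (Q →ₗ[k] C)) (fun d x => by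
        apply LinearMap.ext
        intro q
        exact hge _ _) (y := θ.1) (mem_homInv_iff_invariants.1 θ.2) ⟨s ∘ₗ θ.1, by
          apply LinearMap.ext
          intro q
          exact LinearMap.congr_fun hs (θ.1 q)⟩
    exact ⟨⟨η, mem_homInv_iff_invariants.2 hη1⟩, Subtype.ext hη2⟩
  have hker : LinearMap.ker H = LinearMap.range F := by
    ext θ
    rw [LinearMap.mem_ker, LinearMap.mem_range]
    constructor
    · intro h
      have h1 : ∀ q, ∃ a, f a = θ.1 q := fun q =>
        (hfg _).1 (LinearMap.congr_fun (congrArg Subtype.val h) q)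
      let η : Q →ₗ[k] A := (LinearEquiv.ofInjective f.hom.toLinearMap hf).symm.toLinearMap ∘ₗ
        LinearMap.codRestrict (LinearMap.range f.hom.toLinearMap) θ.1 h1
      have hη : ∀ q, f (η q) = θ.1 q := by
        intro q
        have := (LinearEquiv.ofInjective f.hom.toLinearMap hf).apply_symm_apply
          ((LinearMap.codRestrict (LinearMap.range f.hom.toLinearMap) θ.1 h1) q)
        exact congrArg Subtype.val this
      refine ⟨⟨η, fun u hu q => hf ?_⟩, Subtype.ext (LinearMap.ext hη)⟩
      rw [hη, hfe, hη, θ.2 u hu]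
    · rintro ⟨η, rfl⟩
      apply Subtype.ext
      apply LinearMap.ext
      intro q
      exact (hfg _).2 ⟨_, rfl⟩
  have h1 := LinearMap.finrank_range_add_finrank_ker H
  rw [hHs, finrank_top, hker, LinearMap.finrank_range_of_inj hFi] at h1
  rw [← h1]
  push_cast
  ring

end Additive

section Quot

variable {k : Type*} [Field k] {G : Type*} [Group G]
variable {Q : Type*} [AddCommGroup Q] [Module k Q] {X : Type*} [AddCommGroup X] [Module k X]

/-- passing to the quotient by a normal subgroup acting trivially. -/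
lemma homInv_quotRep (V : Subgroup G) [V.Normal] (U : Subgroup G) (ρQ : Representation k G Q)
    (ρX : Representation k G X) (hQ : ∀ v ∈ V, ρQ v = 1) (hX : ∀ v ∈ V, ρX v = 1) :
    homInv (quotRep V ρQ hQ) (quotRep V ρX hX) (U.map (QuotientGroup.mk' V)) =
      homInv ρQ ρX U := by
  ext θ
  constructor
  · intro h u hu q
    exact h (u : G ⧸ V) ⟨u, hu, rfl⟩ q
  · rintro h _ ⟨u, hu, rfl⟩ q
    exact h u hu q

end Quot

end Fermat.Agent.GW
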