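import Mathlib

/-!
# Permutations with the same number of fixed points of all powers are conjugate
-/

set_option autoImplicit false

namespace Fermat.Agent.GW

open Equiv Equiv.Perm Function

variable {α : Type*} [Fintype α] [DecidableEq α]

omit [Fintype α] [DecidableEq α] in
theorem pow_apply_eq_self_iff_minimalPeriod_dvd (σ : Perm α) (x : α) (n : ℕ) :
    (σ ^ n) x = x ↔ minimalPeriod σ x ∣ n := by
  rw [← isPeriodicPt_iff_minimalPeriod_dvd, IsPeriodicPt, IsFixedPt, Equiv.Perm.iterate_eq_pow]

theorem minimalPeriod_eq_card_support_cycleOf (σ : Perm α) (x : α) (hx : σ x ≠ x) :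
    minimalPeriod σ x = (σ.cycleOf x).support.card := by
  have hcyc : (σ.cycleOf x).IsCycle := isCycle_cycleOf σ hx
  have key : ∀ n : ℕ, minimalPeriod σ x ∣ n ↔ (σ.cycleOf x).support.card ∣ n := by
    intro n
    rw [← pow_apply_eq_self_iff_minimalPeriod_dvd, ← hcyc.orderOf, orderOf_dvd_iff_pow_eq_one,
      hcyc.pow_eq_one_iff]
    constructor
    · intro h
      refine ⟨x, ?_, ?_⟩
      · rwa [cycleOf_apply_self]
      · rwa [cycleOf_pow_apply_self]
    · rintro ⟨y, hy1, hy2⟩
      have hxy : σ.SameCycle x y := by
        by_contra hcon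
        exact hy1 (cycleOf_apply_of_not_sameCycle hcon)
      obtain ⟨m, rfl⟩ := hxy
      have h3 : ((σ.cycleOf x) ^ n) ((σ.cycleOf x ^ m) x) = (σ.cycleOf x ^ m) x := by
        rwa [cycleOf_zpow_apply_self]
      rw [← Perm.mul_apply, ← zpow_natCast, ← zpow_add, add_comm, zpow_add, Perm.mul_apply] at h3
      have h4 := (σ.cycleOf x ^ m).injective h3
      rw [zpow_natCast, cycleOf_pow_apply_self] at h4
      exact h4
  exact Nat.dvd_antisymm ((key _).mpr dvd_rfl) ((key _).mp dvd_rfl)

theorem card_mul_count (σ : Perm α) (d : ℕ) (hd : 2 ≤ d) :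
    (Finset.univ.filter (fun x => minimalPeriod σ x = d)).card = d * σ.cycleType.count d := by
  classical
  have h1 : Finset.univ.filter (fun x => minimalPeriod σ x = d) =
      (σ.cycleFactorsFinset.filter (fun c => c.support.card = d)).biUnion (fun c => c.support) := by
    ext x
    simp only [Finset.mem_filter, Finset.mem_univ, true_and, Finset.mem_biUnion]
    constructor
    · intro hx
      have hxm : σ x ≠ x := by
        intro h
        have : minimalPeriod σ x = 1 := by
          rw [minimalPeriod_eq_one_iff_isFixedPt]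
          exact h
        omega
      refine ⟨σ.cycleOf x, ⟨?_, ?_⟩, ?_⟩
      · rw [cycleOf_mem_cycleFactorsFinset_iff]
        exact Equiv.Perm.mem_support.mpr hxm
      · rw [← minimalPeriod_eq_card_support_cycleOf σ x hxm]
        exact hx
      · rw [mem_support_cycleOf_iff]
        exact ⟨SameCycle.refl _ _, Equiv.Perm.mem_support.mpr hxm⟩
    · rintro ⟨c, ⟨hc, hcd⟩, hxc⟩
      have h2 := cycle_is_cycleOf hxc hc
      have hxm : σ x ≠ x := by
        have : x ∈ σ.support := by
          rw [h2] at hc
          exact cycleOf_mem_cycleFactorsFinset_iff.mp hc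
        exact Equiv.Perm.mem_support.mp this
      rw [minimalPeriod_eq_card_support_cycleOf σ x hxm, ← h2]
      exact hcd
  rw [h1, Finset.card_biUnion]
  · rw [Finset.sum_congr rfl (fun c hc => (Finset.mem_filter.mp hc).2), Finset.sum_const,
      smul_eq_mul, mul_comm]
    congr 1
    rw [cycleType_def, Multiset.count_map]
    rw [Finset.card_def, Finset.filter_val]
    congr 1
    apply Multiset.filter_congr
    intro c _
    simp [eq_comm]
  · intro c hc c' hc' hne
    have := cycleFactorsFinset_pairwise_disjoint σ (Finset.mem_filter.mp hc).1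
      (Finset.mem_filter.mp hc').1 hne
    exact Equiv.Perm.disjoint_iff_disjoint_support.mp this

theorem card_fixed_eq_sum (σ : Perm α) (n : ℕ) (hn : 0 < n) :
    (Finset.univ.filter (fun x => (σ ^ n) x = x)).card =
      ∑ d ∈ n.divisors, (Finset.univ.filter (fun x => minimalPeriod σ x = d)).card := by
  classical
  rw [← Finset.card_biUnion]
  · congr 1
    ext x
    simp [pow_apply_eq_self_iff_minimalPeriod_dvd, hn.ne']
  · intro d _ d' _ hne
    rw [Function.onFun, Finset.disjoint_left]
    intro x hx hx'
    exact hne ((Finset.mem_filter.mp hx).2.symm.trans (Finset.mem_filter.mp hx').2)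

theorem card_minimalPeriod_eq {β : Type*} [Fintype β] [DecidableEq β] (σ : Perm α) (τ : Perm β)
    (h : ∀ n : ℕ, 0 < n → (Finset.univ.filter (fun x => (σ ^ n) x = x)).card =
      (Finset.univ.filter (fun x => (τ ^ n) x = x)).card) (n : ℕ) (hn : 0 < n) :
    (Finset.univ.filter (fun x => minimalPeriod σ x = n)).card =
      (Finset.univ.filter (fun x => minimalPeriod τ x = n)).card := by
  induction n using Nat.strong_induction_on with
  | _ n ih =>
  have h1 := h n hn
  rw [card_fixed_eq_sum σ n hn, card_fixed_eq_sum τ n hn, ← Nat.insert_self_properDivisors hn.ne',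
    Finset.sum_insert Nat.self_notMem_properDivisors,
    Finset.sum_insert Nat.self_notMem_properDivisors,
    Finset.sum_congr rfl (fun d hd => ih d (Nat.mem_properDivisors.mp hd).2
      (Nat.pos_of_mem_properDivisors hd))] at h1
  exact Nat.add_right_cancel h1

theorem isConj_of_card_fixed (σ τ : Perm α)
    (h : ∀ n : ℕ, 0 < n → (Finset.univ.filter (fun x => (σ ^ n) x = x)).card =
      (Finset.univ.filter (fun x => (τ ^ n) x = x)).card) : IsConj σ τ := by
  rw [isConj_iff_cycleType_eq]
  ext d
  rcases Nat.lt_or_ge d 2 with hd | hd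
  · rw [Multiset.count_eq_zero_of_notMem, Multiset.count_eq_zero_of_notMem]
    · intro h'
      have := two_le_of_mem_cycleType h'
      omega
    · intro h'
      have := two_le_of_mem_cycleType h'
      omega
  · have h1 := card_minimalPeriod_eq σ τ h d (by omega)
    rw [card_mul_count σ d hd, card_mul_count τ d hd] at h1
    exact Nat.eq_of_mul_eq_mul_left (by omega) h1

/-- Two permutations of finite types, all of whose powers have the same number of fixed points, are
intertwined by a bijection. -/
theorem exists_equiv_of_card_fixed {β : Type*} [Fintype β] [DecidableEq β] (σ : Perm α)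
    (τ : Perm β) (h : ∀ n : ℕ, Fintype.card {x // (σ ^ n) x = x} =
      Fintype.card {x // (τ ^ n) x = x}) : ∃ e : α ≃ β, ∀ x, e (σ x) = τ (e x) := by
  have h' : ∀ n : ℕ, (Finset.univ.filter (fun x => (σ ^ n) x = x)).card =
      (Finset.univ.filter (fun x => (τ ^ n) x = x)).card := by
    intro n
    rw [← Fintype.card_subtype, ← Fintype.card_subtype]
    exact h n
  have h0 : Fintype.card α = Fintype.card β := by
    have := h' 0
    simpa using this
  let e₀ : α ≃ β := Fintype.equivOfCardEq h0
  let τ' : Perm α := e₀.trans (τ.trans e₀.symm)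
  have hτ' : ∀ (n : ℕ) (x : α), (τ' ^ n) x = e₀.symm ((τ ^ n) (e₀ x)) := by
    intro n
    induction n with
    | zero => intro x; simp
    | succ n ih =>
      intro x
      rw [pow_succ', pow_succ', Perm.mul_apply, Perm.mul_apply, ih]
      simp [τ']
  have hconj : IsConj σ τ' := by
    apply isConj_of_card_fixed
    intro n hn
    rw [h' n]
    refine Finset.card_bij' (fun y _ => e₀.symm y) (fun x _ => e₀ x) ?_ ?_ ?_ ?_
    · intro y hy
      simp only [Finset.mem_filter, Finset.mem_univ, true_and] at hy ⊢
      rw [hτ', Equiv.apply_symm_apply, hy]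
    · intro x hx
      simp only [Finset.mem_filter, Finset.mem_univ, true_and] at hx ⊢
      rw [hτ'] at hx
      rw [Equiv.symm_apply_eq] at hx
      exact hx
    · intro y _
      simp
    · intro x _
      simp
  obtain ⟨c, hc⟩ := isConj_iff.mp hconj
  refine ⟨c.trans e₀, fun x => ?_⟩
  have h1 : τ' (c x) = c (σ x) := by
    rw [← hc]
    simp
  simp only [Equiv.trans_apply]
  rw [← h1]
  simp [τ']

end Fermat.Agent.GW
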