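import Fermat.Agent.GW.BrauerNesbitt
import Fermat.Agent.GW.PermConj

/-!
# An Artin type induction theorem for additive functions in characteristic `p`

`IsAdditive.eq_zero_of_forall_cyclic` : an additive function on the finite dimensional
representations over `ZMod p` of a finite group `G` which vanishes on all `Fun(G ⧸ D, M)`, `D` cyclic
of order prime to `p`, is zero.
-/

set_option autoImplicit false

open Polynomial CategoryTheory

namespace Fermat.Agent.GW

section FunRep

variable {k G : Type} [Field k] [Group G]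

/-- functions on a `G`-set with values in a representation -/
def funRho (X : Type) [MulAction G X] (M : Rep.{0} k G) : Representation k G (X → M) where
  toFun g :=
    { toFun := fun f x => M.ρ g (f (g⁻¹ • x))
      map_add' := fun f f' => by funext x; simp
      map_smul' := fun c f => by funext x; simp }
  map_one' := by
    ext f x
    simp
  map_mul' g h := by
    refine LinearMap.ext fun f => ?_
    funext x
    simp only [LinearMap.coe_mk, AddHom.coe_mk, Module.End.mul_apply, mul_inv_rev, mul_smul,
      map_mul]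

/-- functions on a `G`-set with values in a representation, as an object of `Rep` -/
def FunRep (X : Type) [MulAction G X] (M : Rep.{0} k G) : Rep.{0} k G := Rep.of (funRho X M)

theorem funRho_apply (X : Type) [MulAction G X] (M : Rep.{0} k G) (g : G) (f : X → M) (x : X) :
    funRho X M g f x = M.ρ g (f (g⁻¹ • x)) := rfl

instance (X : Type) [MulAction G X] [Finite X] (M : Rep.{0} k G) [FiniteDimensional k M] :
    FiniteDimensional k (FunRep X M) := inferInstanceAs (FiniteDimensional k (X → M))

/-- equivariant bijections induce isomorphisms -/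
def FunRep.iso {X Y : Type} [MulAction G X] [MulAction G Y] (e : X ≃ Y)
    (he : ∀ (g : G) (x : X), e (g • x) = g • e x) (M : Rep.{0} k G) : FunRep Y M ≅ FunRep X M :=
  Rep.mkIso (Representation.Equiv.mk
    (ρ := funRho Y M) (σ := funRho X M)
    (LinearEquiv.funCongrLeft k M e) (by
      intro g
      refine LinearMap.ext fun f => ?_
      funext x
      change M.ρ g (f (g⁻¹ • e x)) = M.ρ g (f (e (g⁻¹ • x)))
      rw [he]))

/-- functions on a point -/
def FunRep.pointIso {X : Type} [MulAction G X] [Unique X] (M : Rep.{0} k G) :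
    FunRep X M ≅ M :=
  Rep.mkIso (Representation.Equiv.mk (ρ := funRho X M) (σ := M.ρ)
    (LinearEquiv.funUnique X k M) (by
      intro g
      refine LinearMap.ext fun f => ?_
      change M.ρ g (f (g⁻¹ • default)) = M.ρ g (f default)
      rw [Subsingleton.elim (g⁻¹ • (default : X)) default]))

variable {A : Type} [AddCommGroup A] {a : Rep.{0} k G → A}

theorem IsAdditive.funRep_sum (ha : IsAdditive a) (X Y : Type) [MulAction G X] [MulAction G Y]
    [Finite X] [Finite Y] (M : Rep.{0} k G) [FiniteDimensional k M] :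
    a (FunRep (X ⊕ Y) M) = a (FunRep X M) + a (FunRep Y M) := by
  let f : FunRep X M ⟶ FunRep (X ⊕ Y) M := Rep.ofHom
    { toFun := fun f => Sum.elim f 0
      map_add' := fun f f' => by funext x; rcases x with x | x <;> simp
      map_smul' := fun c f => by funext x; rcases x with x | x <;> simp
      isIntertwining' := fun g => by
        refine LinearMap.ext fun f => ?_
        funext x
        rcases x with x | x
        · rfl
        · exact (map_zero (M.ρ g)).symm }
  let g : FunRep (X ⊕ Y) M ⟶ FunRep Y M := Rep.ofHom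
    { toFun := fun f y => f (Sum.inr y)
      map_add' := fun f f' => rfl
      map_smul' := fun c f => rfl
      isIntertwining' := fun g => rfl }
  refine ha.add _ _ _ f g inferInstance ?_ ?_ ?_
  · intro u v huv
    funext x
    exact congrFun huv (Sum.inl x)
  · intro u
    constructor
    · intro hu
      refine ⟨fun x => u (Sum.inl x), ?_⟩
      funext x
      rcases x with x | x
      · rfl
      · exact (congrFun hu x).symm
    · rintro ⟨v, rfl⟩
      rfl
  · intro v
    exact ⟨Sum.elim 0 v, rfl⟩

theorem IsAdditive.funRep_empty (ha : IsAdditive a) (X : Type) [MulAction G X] [IsEmpty X]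
    (M : Rep.{0} k G) : a (FunRep X M) = 0 := by
  have : Subsingleton (FunRep X M) := inferInstanceAs (Subsingleton (X → M))
  exact ha.zero_of_subsingleton _

/-- splitting off `none` -/
def sigmaOptionEquiv {α : Type} (X : Option α → Type) :
    (Σ i, X i) ≃ X none ⊕ (Σ i, X (some i)) where
  toFun
    | ⟨none, x⟩ => Sum.inl x
    | ⟨some i, x⟩ => Sum.inr ⟨i, x⟩
  invFun
    | Sum.inl x => ⟨none, x⟩
    | Sum.inr ⟨i, x⟩ => ⟨some i, x⟩
  left_inv := by rintro ⟨_ | i, x⟩ <;> rfl
  right_inv := by rintro (x | ⟨i, x⟩) <;> rfl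

theorem IsAdditive.funRep_sigma (ha : IsAdditive a) (M : Rep.{0} k G) [FiniteDimensional k M]
    (ι : Type) [Fintype ι] (X : ι → Type) [∀ i, MulAction G (X i)] [∀ i, Finite (X i)] :
    a (FunRep (Σ i, X i) M) = ∑ i, a (FunRep (X i) M) := by
  have key : ∀ (ι : Type) [Finite ι] (hι : Fintype ι) (X : ι → Type) [∀ i, MulAction G (X i)]
      [∀ i, Finite (X i)], a (FunRep (Σ i, X i) M) = ∑ i, a (FunRep (X i) M) := by
    intro ι _
    refine Finite.induction_empty_option (P := fun ι => ∀ (hι : Fintype ι) (X : ι → Type)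
      [∀ i, MulAction G (X i)] [∀ i, Finite (X i)],
      a (FunRep (Σ i, X i) M) = ∑ i, a (FunRep (X i) M)) ?_ ?_ ?_ ι
    · intro α β e ih hβ X _ _
      have hα : Fintype α := Fintype.ofEquiv β e.symm
      have h1 := ih hα (fun i => X (e i))
      rw [ha.iso (FunRep.iso (k := k) (Equiv.sigmaCongrLeft (β := X) e) (fun g x => rfl) M), h1]
      exact Fintype.sum_equiv e _ _ (fun i => rfl)
    · intro _ X _ _
      rw [ha.funRep_empty, Finset.univ_eq_empty, Finset.sum_empty]
    · intro α hα ih hι X _ _
      have h1 := ih hα (fun i => X (some i))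
      obtain rfl : hι = instFintypeOption := Subsingleton.elim _ _
      rw [Fintype.sum_option, ← h1, ← ha.funRep_sum]
      exact (ha.iso (FunRep.iso (k := k) (sigmaOptionEquiv X)
        (by rintro g ⟨_ | i, x⟩ <;> rfl) M)).symm
  exact key ι inferInstance X

end FunRep

section Main

variable {p : ℕ} [hp : Fact p.Prime] {G : Type} [Group G] [Finite G]

/-- over `ZMod p`, `f` and `f ^ (p ^ N)` have the same characteristic polynomial -/
theorem charpoly_pow_pow {V : Type*} [AddCommGroup V] [Module (ZMod p) V]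
    [FiniteDimensional (ZMod p) V] (f : V →ₗ[ZMod p] V) (N : ℕ) :
    (f ^ (p ^ N)).charpoly = f.charpoly := by
  classical
  induction N with
  | zero => simp
  | succ N ih =>
    rw [pow_succ, pow_mul]
    let b := Module.Free.chooseBasis (ZMod p) V
    rw [← LinearMap.charpoly_toMatrix _ b, ← LinearMap.toMatrix_pow, ZMod.charpoly_pow_card,
      LinearMap.charpoly_toMatrix, ih]

omit [Finite G] in
/-- Conjugate permutation actions of an element give the same characteristic polynomials. -/
theorem charpoly_funRho_eq {X Y : Type} [MulAction G X] [MulAction G Y] [Finite X] [Finite Y]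
    (M : Rep.{0} (ZMod p) G) [FiniteDimensional (ZMod p) M] (g : G)
    (e : X ≃ Y) (he : ∀ x : X, e (g • x) = g • e x) :
    (funRho X M g).charpoly = (funRho Y M g).charpoly := by
  refine (charpoly_eq_of_equiv (LinearEquiv.funCongrLeft (ZMod p) M e) _ _ ?_).symm
  intro f
  funext x
  change M.ρ g (f (g⁻¹ • e x)) = M.ρ g (f (e (g⁻¹ • x)))
  have h1 := he (g⁻¹ • x)
  rw [smul_inv_smul] at h1
  rw [h1, inv_smul_smul]

/-- number of fixed points of `x` on `G ⧸ H`. -/
noncomputable def fixCount (H : Subgroup G) (x : G) : ℕ := Nat.card {z : G ⧸ H // x • z = z}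

theorem IsAdditive.sum_eq_of_fixCount {a : Rep.{0} (ZMod p) G → ℤ} (ha : IsAdditive a)
    (M : Rep.{0} (ZMod p) G) [FiniteDimensional (ZMod p) M] {ι κ : Type} [Fintype ι] [Fintype κ]
    (H : ι → Subgroup G) (K : κ → Subgroup G)
    (h : ∀ x : G, ¬ p ∣ orderOf x → ∑ i, fixCount (H i) x = ∑ j, fixCount (K j) x) :
    ∑ i, a (FunRep (G ⧸ H i) M) = ∑ j, a (FunRep (G ⧸ K j) M) := by
  classical
  rw [← ha.funRep_sigma, ← ha.funRep_sigma]
  refine ha.eq_of_charpoly_eq _ _ (fun g => ?_)
  -- reduce to a `p`-regular element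
  obtain ⟨N, m, hm, hNm⟩ := Nat.exists_eq_pow_mul_and_not_dvd (orderOf_pos g).ne' p hp.out.ne_one
  change (funRho (Σ i, G ⧸ H i) M g).charpoly = (funRho (Σ i, G ⧸ K i) M g).charpoly
  rw [← charpoly_pow_pow (funRho (Σ i, G ⧸ H i) M g) N,
    ← charpoly_pow_pow (funRho (Σ i, G ⧸ K i) M g) N, ← map_pow, ← map_pow]
  set x : G := g ^ (p ^ N) with hx
  have hxo : orderOf x = m := by
    rw [hx, orderOf_pow, hNm, Nat.gcd_eq_right (dvd_mul_right _ _),
      Nat.mul_div_cancel_left _ (pow_pos hp.out.pos _)]
  have := Fintype.ofFinite (Σ i, G ⧸ H i)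
  have := Fintype.ofFinite (Σ i, G ⧸ K i)
  have hpow : ∀ (X : Type) [MulAction G X] (n : ℕ) (z : X),
      ((MulAction.toPerm x : Equiv.Perm X) ^ n) z = x ^ n • z := by
    intro X _ n z
    have : ((MulAction.toPerm x : Equiv.Perm X) ^ n) = MulAction.toPerm (x ^ n) :=
      (map_pow (MulAction.toPermHom G X) x n).symm
    rw [this]
    rfl
  have hreg : ∀ n : ℕ, ¬ p ∣ orderOf (x ^ n) := fun n hd => by
    have := hd.trans (orderOf_pow_dvd n)
    rw [hxo] at this
    exact hm this
  have hsig : ∀ (ι : Type) [Fintype ι] (H : ι → Subgroup G) (n : ℕ),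
      Nat.card {z : Σ i, G ⧸ H i // x ^ n • z = z} = ∑ i, fixCount (H i) (x ^ n) := by
    intro ι _ H n
    let e1 : {z : Σ i, G ⧸ H i // x ^ n • z = z} ≃
        Σ i, {z : G ⧸ H i // x ^ n • z = z} :=
      { toFun := fun z => ⟨z.1.1, z.1.2, by
          rcases z with ⟨⟨i, z⟩, hz⟩
          have h2 : (⟨i, x ^ n • z⟩ : Σ i, G ⧸ H i) = ⟨i, z⟩ := hz
          simpa using h2⟩
        invFun := fun z => ⟨⟨z.1, z.2.1⟩, by
          rcases z with ⟨i, z, hz⟩
          change (⟨i, x ^ n • z⟩ : Σ i, G ⧸ H i) = ⟨i, z⟩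
          rw [hz]⟩
        left_inv := fun z => rfl
        right_inv := fun z => rfl }
    rw [Nat.card_congr e1, Nat.card_sigma]
    rfl
  have hcard : ∀ n : ℕ, Fintype.card {z : Σ i, G ⧸ H i //
      ((MulAction.toPerm x : Equiv.Perm (Σ i, G ⧸ H i)) ^ n) z = z} =
      Fintype.card {z : Σ i, G ⧸ K i //
        ((MulAction.toPerm x : Equiv.Perm (Σ i, G ⧸ K i)) ^ n) z = z} := by
    intro n
    rw [← Nat.card_eq_fintype_card, ← Nat.card_eq_fintype_card]
    have h1 := h (x ^ n) (hreg n)
    rw [← hsig, ← hsig] at h1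
    simpa only [hpow] using h1
  obtain ⟨e, he⟩ := exists_equiv_of_card_fixed _ _ hcard
  exact charpoly_funRho_eq M x e he

/-- the version with integral coefficients -/
theorem IsAdditive.sum_zsmul_eq_zero {a : Rep.{0} (ZMod p) G → ℤ} (ha : IsAdditive a)
    (M : Rep.{0} (ZMod p) G) [FiniteDimensional (ZMod p) M] {ι : Type} [Fintype ι]
    (H : ι → Subgroup G) (n : ι → ℤ)
    (h : ∀ x : G, ¬ p ∣ orderOf x → ∑ i, n i * (fixCount (H i) x : ℤ) = 0) :
    ∑ i, n i * a (FunRep (G ⧸ H i) M) = 0 := by
  have h1 := ha.sum_eq_of_fixCount M (ι := Σ i, Fin (n i).toNat) (κ := Σ i, Fin (-n i).toNat)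
    (fun i => H i.1) (fun i => H i.1) (fun x hx => by
      have h2 := h x hx
      simp only [Fintype.sum_sigma, Finset.sum_const, Finset.card_univ, Fintype.card_fin,
        smul_eq_mul]
      zify
      rw [← sub_eq_zero, ← Finset.sum_sub_distrib, ← h2]
      refine Finset.sum_congr rfl (fun i _ => ?_)
      rw [← sub_mul]
      congr 1
      omega)
  have h3 : ∀ (i : ι) (m : ℕ), (∑ _j : Fin m, a (FunRep (G ⧸ H i) M)) =
      (m : ℤ) * a (FunRep (G ⧸ H i) M) := by
    intro i m
    rw [Finset.sum_const, Finset.card_univ, Fintype.card_fin, nsmul_eq_mul]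
  simp only [Fintype.sum_sigma, h3] at h1
  rw [← sub_eq_zero, ← Finset.sum_sub_distrib] at h1
  rw [← h1]
  refine Finset.sum_congr rfl (fun i _ => ?_)
  rw [← sub_mul]
  congr 1
  omega

end Main

section Combinatorics

variable {G : Type} [Group G] [Finite G]

/-- number of `y` with `y⁻¹ x y ∈ D` -/
noncomputable def conjCount (D : Subgroup G) (x : G) : ℕ := Nat.card {y : G // y⁻¹ * x * y ∈ D}

omit [Finite G] in
theorem conjCount_eq (D : Subgroup G) (x : G) : conjCount D x = Nat.card D * fixCount D x := by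
  have h1 : Nat.card {y : G // y⁻¹ * x * y ∈ D} =
      Nat.card ((QuotientGroup.mk : G → G ⧸ D) ⁻¹' {z : G ⧸ D | x • z = z}) := by
    refine Nat.card_congr (Equiv.subtypeEquivRight (fun y => ?_))
    rw [Set.mem_preimage, Set.mem_ofPred_eq, mul_assoc, eq_comm, MulAction.Quotient.smul_mk,
      QuotientGroup.eq, smul_eq_mul]
  rw [conjCount, h1, Nat.card_congr (QuotientGroup.preimageMkEquivSubgroupProdSet D _),
    Nat.card_prod]
  rfl

/-- number of `y` such that `y⁻¹ x y` generates `C` -/
noncomputable def genCount (C : Subgroup G) (x : G) : ℕ :=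
  Nat.card {y : G // Subgroup.zpowers (y⁻¹ * x * y) = C}

theorem card_eq_sum_genCount (P : Subgroup G → Prop) [Fintype (Subgroup G)] [DecidablePred P]
    (x : G) :
    Nat.card {y : G // P (Subgroup.zpowers (y⁻¹ * x * y))} =
      ∑ C ∈ Finset.univ.filter P, genCount C x := by
  classical
  have := Fintype.ofFinite G
  simp only [genCount, Nat.card_eq_fintype_card, Fintype.card_subtype]
  rw [Finset.card_eq_sum_card_fiberwise (f := fun y => Subgroup.zpowers (y⁻¹ * x * y))
    (t := Finset.univ.filter P)]
  · refine Finset.sum_congr rfl (fun C hC => ?_)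
    congr 1
    ext y
    simp only [Finset.mem_filter, Finset.mem_univ, true_and] at hC ⊢
    constructor
    · exact fun h => h.2
    · intro h
      exact ⟨h ▸ hC, h⟩
  · intro y hy
    simpa using hy

variable (p : ℕ)

/-- the family of cyclic subgroups of order prime to `p`. -/
def IsCycPrime (C : Subgroup G) : Prop := IsCyclic C ∧ ¬ p ∣ Nat.card C

omit [Finite G] in
theorem IsCycPrime.of_le {C D : Subgroup G} (hC : IsCycPrime p C) (hD : D ≤ C) :
    IsCycPrime p D := by
  obtain ⟨h1, h2⟩ := hC
  refine ⟨?_, fun h => h2 (h.trans (Subgroup.card_dvd_of_le hD))⟩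
  exact isCyclic_of_injective (Subgroup.inclusion hD) (Subgroup.inclusion_injective hD)

theorem genCount_mem_span (C : Subgroup G) (hC : IsCycPrime p C) :
    (fun x => (genCount C x : ℤ)) ∈ Submodule.span ℤ
      (Set.range (fun D : {D : Subgroup G // IsCycPrime p D} => fun x => (fixCount D.1 x : ℤ))) := by
  classical
  have := Fintype.ofFinite (Subgroup G)
  induction hn : Nat.card C using Nat.strong_induction_on generalizing C with
  | _ n ih =>
  have h1 : (fun x => (genCount C x : ℤ)) = (Nat.card C : ℤ) • (fun x => (fixCount C x : ℤ)) -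
      ∑ D ∈ Finset.univ.filter (· < C), (fun x => (genCount D x : ℤ)) := by
    funext x
    have h2 := conjCount_eq C x
    have h3 : conjCount C x = ∑ D ∈ Finset.univ.filter (· ≤ C), genCount D x := by
      rw [← card_eq_sum_genCount (fun D => D ≤ C)]
      refine Nat.card_congr (Equiv.subtypeEquivRight (fun y => ?_))
      rw [Subgroup.zpowers_le]
    have h4 : Finset.univ.filter (· ≤ C) = insert C (Finset.univ.filter (· < C)) := by
      ext D
      simp only [Finset.mem_filter, Finset.mem_univ, true_and, Finset.mem_insert]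
      exact le_iff_eq_or_lt
    rw [h4, Finset.sum_insert (by simp), h2] at h3
    simp only [Pi.sub_apply, Pi.smul_apply, Finset.sum_apply, smul_eq_mul]
    have h5 := congrArg (Nat.cast : ℕ → ℤ) h3
    push_cast at h5
    linarith
  rw [h1]
  refine Submodule.sub_mem _ (Submodule.smul_mem _ _ (Submodule.subset_span ⟨⟨C, hC⟩, rfl⟩))
    (Submodule.sum_mem _ (fun D hD => ?_))
  have hDC := (Finset.mem_filter.mp hD).2
  refine ih (Nat.card D) ?_ D (hC.of_le p hDC.le) rfl
  rw [← hn]
  exact Set.Finite.card_lt_card (Set.toFinite _) hDC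

end Combinatorics

section Final

variable {p : ℕ} [hp : Fact p.Prime] {G : Type} [Group G] [Finite G]

/-- **Artin type induction**: an additive function vanishing on `Fun(G ⧸ D, M)` for all cyclic
subgroups `D` of order prime to `p` vanishes. -/
theorem IsAdditive.eq_zero_of_forall_cyclic {a : Rep.{0} (ZMod p) G → ℤ} (ha : IsAdditive a)
    (M : Rep.{0} (ZMod p) G) [FiniteDimensional (ZMod p) M]
    (h : ∀ D : Subgroup G, IsCyclic D → ¬ p ∣ Nat.card D → a (FunRep (G ⧸ D) M) = 0) :
    a M = 0 := by
  classical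
  have := Fintype.ofFinite (Subgroup G)
  let F : G → ℤ := fun x => ∑ C ∈ Finset.univ.filter (IsCycPrime (G := G) p), (genCount C x : ℤ)
  have hF : F ∈ Submodule.span ℤ (Set.range
      (fun D : {D : Subgroup G // IsCycPrime p D} => fun x => (fixCount D.1 x : ℤ))) := by
    have h1 : F = ∑ C ∈ Finset.univ.filter (IsCycPrime (G := G) p),
        (fun x => (genCount C x : ℤ)) := by
      funext x
      rw [Finset.sum_apply]
    rw [h1]
    exact Submodule.sum_mem _ (fun C hC => genCount_mem_span p C (Finset.mem_filter.mp hC).2)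
  have := Fintype.ofFinite {D : Subgroup G // IsCycPrime p D}
  obtain ⟨c, hc⟩ := (Submodule.mem_span_range_iff_exists_fun ℤ).mp hF
  have hFval : ∀ x : G, ¬ p ∣ orderOf x → F x = Nat.card G := by
    intro x hx
    have h1 := card_eq_sum_genCount (IsCycPrime (G := G) p) x
    have h2 : ∀ y : G, IsCycPrime p (Subgroup.zpowers (y⁻¹ * x * y)) := by
      intro y
      refine ⟨inferInstance, ?_⟩
      rw [Nat.card_zpowers]
      have h4 : y⁻¹ * x * y = MulAut.conj y⁻¹ x := by rw [MulAut.conj_apply, inv_inv]
      rw [h4, MulEquiv.orderOf_eq]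
      exact hx
    have h3 : Nat.card {y : G // IsCycPrime p (Subgroup.zpowers (y⁻¹ * x * y))} = Nat.card G :=
      Nat.card_congr (Equiv.subtypeUnivEquiv h2)
    rw [← h3, h1]
    simp [F]
  let v : Subgroup G → ℤ := fun H => a (FunRep (G ⧸ H) M)
  have hmain : ∑ o : Option {D : Subgroup G // IsCycPrime p D},
      o.elim (-(Nat.card G : ℤ)) c * v (o.elim ⊤ (fun D => D.1)) = 0 :=
    ha.sum_zsmul_eq_zero M (ι := Option {D : Subgroup G // IsCycPrime p D})
    (fun o => o.elim ⊤ (fun D => D.1)) (fun o => o.elim (-(Nat.card G : ℤ)) c) (fun x hx => by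
      rw [Fintype.sum_option]
      have h1 := congrFun hc x
      rw [hFval x hx] at h1
      simp only [Finset.sum_apply, Pi.smul_apply, smul_eq_mul] at h1
      simp only [Option.elim_none, Option.elim_some]
      rw [h1]
      have h2 : fixCount (⊤ : Subgroup G) x = 1 := by
        have : Subsingleton (G ⧸ (⊤ : Subgroup G)) := QuotientGroup.subsingleton_quotient_top
        have h3 : Unique {z : G ⧸ (⊤ : Subgroup G) // x • z = z} :=
          { default := ⟨QuotientGroup.mk 1, Subsingleton.elim _ _⟩
            uniq := fun z => Subsingleton.elim _ _ }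
        rw [fixCount]
        exact Nat.card_unique
      rw [h2]
      ring)
  rw [Fintype.sum_option] at hmain
  simp only [Option.elim_none, Option.elim_some] at hmain
  rw [Finset.sum_eq_zero (fun D _ => by
    rw [show v D.1 = 0 from h D.1 D.2.1 D.2.2, mul_zero]), add_zero] at hmain
  have : Subsingleton (G ⧸ (⊤ : Subgroup G)) := QuotientGroup.subsingleton_quotient_top
  have : Unique (G ⧸ (⊤ : Subgroup G)) := ⟨⟨QuotientGroup.mk 1⟩, fun z => Subsingleton.elim _ _⟩
  rw [show v ⊤ = a M from ha.iso (FunRep.pointIso M)] at hmain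
  rcases mul_eq_zero.mp hmain with h1 | h1
  · exfalso
    have : (Nat.card G : ℤ) ≠ 0 := by exact_mod_cast Nat.card_pos.ne'
    exact this (neg_eq_zero.mp h1)
  · exact h1

end Final

end Fermat.Agent.GW
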