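import Fermat.Agent.GW.Final
import Fermat.Agent.GW.LocalFinal
import Fermat.Agent.PT.Chase

/-!
# Greenberg–Wiles: `GWcoc p` from the inputs of the duality theorem and the Euler characteristic
of induced modules
-/

set_option autoImplicit false

namespace Fermat.Agent.GW

open Fermat.Agent.PT Fermat.Agent.PT.Frozen Module ExtCitation Fermat.Agent.TW
open Fermat.Agent.CFT.SKummer (sLevels)

/-- The Euler characteristic formula for induced modules from prime-to-`p` extensions of small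
levels. -/
def CycEuler {p : ℕ} [Fact p.Prime] {G : Type} [Group G] (𝓛 : LevelSys G) (c : G) : Prop :=
  ∃ U₀ ∈ 𝓛, ∀ V ∈ 𝓛, V.Normal → V ≤ U₀ → ∀ U : Subgroup G, V ≤ U → ¬ p ∣ V.relIndex U →
    ∀ {M : Type} [AddCommGroup M] [Module (ZMod p) M] [FiniteDimensional (ZMod p) M]
      (ρ : Representation (ZMod p) G M), (∀ v ∈ V, ρ v = 1) →
      (chi 𝓛 (funRep (G ⧸ U) ρ) : ℤ) =
        finrank (ZMod p) (fixC (funRep (G ⧸ U) ρ) c) - finrank (ZMod p) (G ⧸ U → M)

section Abstract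

variable {p : ℕ} [hp : Fact p.Prime] {G : Type} [Group G]

theorem globIn_of (hp2 : p ≠ 2) (T : PlaceData (ZMod p) G) (c : G) (hc : c * c = 1)
    (hI : T.Inputs) (hlev : LevFin p T.𝓛) (hE : CycEuler (p := p) T.𝓛 c) : GlobIn T c := by
  have hR : RightEx (ZMod p) T.𝓛 := rightEx_of hI.rightExact
  have hfin : ∀ {M : Type} [AddCommGroup M] [Module (ZMod p) M] [FiniteDimensional (ZMod p) M]
      (ρ : Representation (ZMod p) G M), Discrete T.𝓛 ρ → HFin T.𝓛 ρ :=
    fun ρ hρ => hfin_of_levels hR hlev ρ hρ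
  refine ⟨hI.recip, hfin, fun ρ hρ => T.locInj hI hρ, fun ρ hρ => T.exactX hI hρ,
    fun ρ hρ => T.shaPairing' hI hρ, ?_⟩
  intro M _ _ _ ρ hρ
  obtain ⟨U₀, hU₀, hE⟩ := hE
  obtain ⟨U₁, hU₁, h1⟩ := hρ.exists_trivial
  obtain ⟨V, hV, hVle, hn⟩ := LevelSys.exists_normal (LevelSys.inf_mem hU₀ hU₁)
  exact chi_eq_of_cyclic V hp2 c hc hV hfin hR
    (hE V hV hn (fun g hg => (hVle hg).1)) ρ
    (fun v hv => LinearMap.ext fun m => h1 v (hVle hv).2 m)

end Abstract

variable {p : ℕ} [hp : Fact p.Prime]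

/-- The global inputs. -/
def GlobalInputs (p : ℕ) [Fact p.Prime] : Prop :=
  ∀ (S : Finset Nat.Primes) (hpS : pPrime p ∈ S),
    ∃ inv : (∀ v : ↥S, PT.H2 (rLevels (primeLocalToGlobal v.1))
      ((chiRep (cycloChar p)).comp (primeLocalToGlobal v.1)) →ₗ[ZMod p] ZMod p),
      (placeData S hpS inv).Inputs ∧ LevFin p (sLevels S) ∧
        CycEuler (p := p) (sLevels S) complexConjugation

/-- **Greenberg–Wiles** from the global inputs. -/
theorem gwcoc_of_globalInputs (hp2 : p ≠ 2) (hG : GlobalInputs p) : GWcoc p := by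
  refine gwcoc_of_inputs hp2 (fun S hpS => ?_)
  obtain ⟨inv, hI, hlev, hE⟩ := hG S hpS
  refine ⟨inv, globIn_of hp2 _ _ complexConjugation_mul_self hI hlev hE,
    fun v => locFin_placeData hp2 hpS inv v,
    fun v _ => locNondeg_placeData hp2 hpS inv v (hI.inv_ne_zero v)⟩

end Fermat.Agent.GW
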