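import Fermat.Agent.GW.TraceIndep

/-!
# The Brauer–Nesbitt theorem for additive functions

Let `k` be a finite field, `G` a group. If two finite dimensional representations of `G` over `k`
have the same characteristic polynomials at every `g : G`, then every additive function takes the
same value on both.
-/

set_option autoImplicit false

open Polynomial CategoryTheory

namespace Fermat.Agent.GW

section Charpoly

variable {K V : Type*} [Field K] [AddCommGroup V] [Module K V] [FiniteDimensional K V]

open Module.Basis in
theorem charpoly_eq_mul (W : Submodule K V) (e : V →ₗ[K] V) (he : W ≤ W.comap e) :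
    e.charpoly = (e.restrict he).charpoly * (W.mapQ W e he).charpoly := by
  let m := Module.Free.ChooseBasisIndex K W
  let bW : Module.Basis m K W := Module.Free.chooseBasis K W
  let n := Module.Free.ChooseBasisIndex K (V ⧸ W)
  let bQ : Module.Basis n K (V ⧸ W) := Module.Free.chooseBasis K (V ⧸ W)
  let b := sumQuot bW bQ
  let A : Matrix m m K := LinearMap.toMatrix bW bW (e.restrict he)
  let B : Matrix m n K := Matrix.of fun i l ↦
    ((sumQuot bW bQ).repr (e ((sumQuot bW bQ) (Sum.inr l)))) (Sum.inl i)
  let D : Matrix n n K := LinearMap.toMatrix bQ bQ (W.mapQ W e he)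
  suffices LinearMap.toMatrix b b e = Matrix.fromBlocks A B 0 D by
    rw [← LinearMap.charpoly_toMatrix e b, this, ← LinearMap.charpoly_toMatrix _ bW,
      ← LinearMap.charpoly_toMatrix _ bQ, Matrix.charpoly_fromBlocks_zero₂₁]
  ext u v
  cases u with
  | inl i =>
    cases v with
    | inl k =>
      simp only [b, sumQuot_inl, Matrix.fromBlocks_apply₁₁, A, LinearMap.toMatrix_apply]
      apply sumQuot_repr_inl_of_mem
    | inr l => simp [b, LinearMap.toMatrix_apply, Matrix.fromBlocks_apply₁₂, B]
  | inr j =>
    cases v with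
    | inl k =>
      suffices W.mkQ (e (bW k)) = 0 by simp [LinearMap.toMatrix_apply, b, this]
      rw [← LinearMap.mem_ker, Submodule.ker_mkQ]
      exact he (Submodule.coe_mem (bW k))
    | inr l =>
      simp only [LinearMap.toMatrix_apply, sumQuot_repr_inr,
        Matrix.fromBlocks_apply₂₂, b, D]
      rw [← sumQuot_inr bW bQ l, W.mapQ_apply]
      simp

/-- Multiplicativity of the characteristic polynomial in short exact sequences. -/
theorem charpoly_eq_mul_of_exact {U W : Type*} [AddCommGroup U] [Module K U] [AddCommGroup W]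
    [Module K W] [FiniteDimensional K U] [FiniteDimensional K W] (f : U →ₗ[K] V) (g : V →ₗ[K] W) (hf : Function.Injective f)
    (hfg : Function.Exact f g) (hg : Function.Surjective g)
    (eU : U →ₗ[K] U) (eV : V →ₗ[K] V) (eW : W →ₗ[K] W)
    (h1 : f ∘ₗ eU = eV ∘ₗ f) (h2 : g ∘ₗ eV = eW ∘ₗ g) :
    eV.charpoly = eU.charpoly * eW.charpoly := by
  have hker : LinearMap.ker g = LinearMap.range f := (LinearMap.exact_iff.mp hfg)
  have he : LinearMap.ker g ≤ (LinearMap.ker g).comap eV := by
    intro x hx
    rw [Submodule.mem_comap, LinearMap.mem_ker]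
    have := LinearMap.congr_fun h2 x
    simp only [LinearMap.comp_apply] at this
    rw [this, LinearMap.mem_ker.mp hx, map_zero]
  rw [charpoly_eq_mul (LinearMap.ker g) eV he]
  congr 1
  · -- `U ≃ ker g`
    let ε : U ≃ₗ[K] LinearMap.ker g :=
      (LinearEquiv.ofInjective f hf).trans (LinearEquiv.ofEq _ _ hker.symm)
    rw [← LinearEquiv.charpoly_conj ε eU]
    congr 1
    ext x
    obtain ⟨u, rfl⟩ := ε.surjective x
    rw [LinearEquiv.conj_apply]
    simp only [LinearMap.comp_apply, LinearEquiv.coe_coe, LinearEquiv.symm_apply_apply]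
    exact (LinearMap.congr_fun h1 u).symm
  · let ε : (V ⧸ LinearMap.ker g) ≃ₗ[K] W := LinearMap.quotKerEquivOfSurjective g hg
    rw [← LinearEquiv.charpoly_conj ε]
    congr 1
    refine LinearMap.ext fun w => ?_
    obtain ⟨x, rfl⟩ := hg w
    have : ε.symm (g x) = Submodule.Quotient.mk x := by
      rw [LinearEquiv.symm_apply_eq]
      rfl
    rw [LinearEquiv.conj_apply]
    simp only [LinearMap.comp_apply, LinearEquiv.coe_coe, this]
    exact (LinearMap.congr_fun h2 x)

theorem charpoly_eq_of_equiv {U : Type*} [AddCommGroup U] [Module K U] [FiniteDimensional K U]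
    (ε : U ≃ₗ[K] V) (eU : U →ₗ[K] U) (eV : V →ₗ[K] V) (h : ∀ u, ε (eU u) = eV (ε u)) :
    eU.charpoly = eV.charpoly := by
  rw [← LinearEquiv.charpoly_conj ε eU]
  congr 1
  ext x
  obtain ⟨u, rfl⟩ := ε.surjective x
  rw [LinearEquiv.conj_apply]
  simp [h]

end Charpoly

section BrauerNesbitt

variable {k : Type} {G : Type} [Field k] [Group G]

/-- Additive functions on finite dimensional representations. -/
structure IsAdditive {X : Type*} [AddCommGroup X] (a : Rep.{0} k G → X) : Prop where
  add : ∀ (A B C : Rep.{0} k G) (f : A ⟶ B) (g : B ⟶ C), FiniteDimensional k B →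
    Function.Injective f → Function.Exact f g → Function.Surjective g → a B = a A + a C

namespace IsAdditive

variable {X : Type*} [AddCommGroup X] {a : Rep.{0} k G → X} (ha : IsAdditive a)

include ha

theorem zero_of_subsingleton (A : Rep.{0} k G) [Subsingleton A] : a A = 0 := by
  have h := ha.add A A A (𝟙 A) (𝟙 A) inferInstance (fun x y h => Subsingleton.elim _ _)
    (fun x => ⟨fun _ => ⟨x, Subsingleton.elim _ _⟩, fun _ => Subsingleton.elim _ _⟩)
    (fun x => ⟨x, Subsingleton.elim _ _⟩)
  exact left_eq_add.mp h

theorem iso {A B : Rep.{0} k G} [FiniteDimensional k A] (e : A ≅ B) : a A = a B := by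
  have hB : FiniteDimensional k B :=
    Module.Finite.equiv (Representation.equivOfIso e).toLinearEquiv
  have : Subsingleton (Rep.trivial k G PUnit.{1}) := inferInstanceAs (Subsingleton PUnit)
  have h := ha.add A B (Rep.trivial k G PUnit.{1}) e.hom 0 hB
    (Function.HasLeftInverse.injective ⟨e.inv.hom, fun x => Rep.inv_hom_apply A B e x⟩)
    (fun x => ⟨fun _ => ⟨e.inv.hom x, Rep.hom_inv_apply A B e x⟩, fun _ => Subsingleton.elim _ _⟩)
    (fun x => ⟨0, Subsingleton.elim _ _⟩)
  rw [ha.zero_of_subsingleton (Rep.trivial k G PUnit.{1}), add_zero] at h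
  exact h.symm

end IsAdditive

/-- irreducible finite dimensional representations -/
def IrrRep (k G : Type) [Field k] [Group G] : Type 1 :=
  {A : Rep.{0} k G // A.ρ.IsIrreducible ∧ FiniteDimensional k A}

instance irrRepSetoid : Setoid (IrrRep k G) where
  r A B := Nonempty (A.1 ≅ B.1)
  iseqv := ⟨fun _ => ⟨Iso.refl _⟩, fun ⟨e⟩ => ⟨e.symm⟩, fun ⟨e⟩ ⟨e'⟩ => ⟨e.trans e'⟩⟩

/-- isomorphism classes of irreducible finite dimensional representations -/
def Irr (k G : Type) [Field k] [Group G] : Type 1 := Quotient (irrRepSetoid (k := k) (G := G))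

/-- a chosen representative -/
noncomputable def Irr.rep (i : Irr k G) : Rep.{0} k G := (Quotient.out i).1

instance (i : Irr k G) : i.rep.ρ.IsIrreducible := (Quotient.out i).2.1
instance (i : Irr k G) : FiniteDimensional k i.rep := (Quotient.out i).2.2

/-- A finite dimensional nonzero representation has an irreducible subrepresentation. -/
theorem exists_irreducible_sub (A : Rep.{0} k G) [FiniteDimensional k A] [Nontrivial A] :
    ∃ (W : Submodule k A) (hW : ∀ g, W ≤ W.comap (A.ρ g)), W ≠ ⊥ ∧
      (Rep.subrepresentation A W hW).ρ.IsIrreducible := by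
  classical
  -- choose `W` of minimal dimension
  have hex : ∃ n : ℕ, ∃ (W : Submodule k A) (_ : ∀ g, W ≤ W.comap (A.ρ g)), W ≠ ⊥ ∧
      Module.finrank k W = n :=
    ⟨_, ⊤, fun g x _ => trivial, top_ne_bot, rfl⟩
  obtain ⟨W, hW, hW0, hWn⟩ := Nat.find_spec hex
  refine ⟨W, hW, hW0, ?_⟩
  have hmin : ∀ U : Submodule k A, (∀ g, U ≤ U.comap (A.ρ g)) → U ≤ W → U = ⊥ ∨ U = W := by
    intro U hU hUW
    by_contra hcon
    push Not at hcon
    have h1 : Module.finrank k U < Module.finrank k W :=
      Submodule.finrank_lt_finrank_of_lt (lt_of_le_of_ne hUW hcon.2)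
    rw [hWn] at h1
    exact Nat.find_min hex h1 ⟨U, hU, hcon.1, rfl⟩
  have hnt : Nontrivial W := (Submodule.nontrivial_iff_ne_bot).mpr hW0
  have hnt2 : Nontrivial (Subrepresentation (A.ρ.subrepresentation W hW)) := by
    refine ⟨⊥, ⊤, fun h => ?_⟩
    have := congrArg Subrepresentation.toSubmodule h
    exact bot_ne_top (α := Submodule k W) this
  refine ⟨fun U => ?_⟩
  let U' : Submodule k A := U.toSubmodule.map W.subtype
  have hU' : ∀ g, U' ≤ U'.comap (A.ρ g) := by
    rintro g _ ⟨u, hu, rfl⟩
    exact ⟨(A.ρ.subrepresentation W hW) g u, U.apply_mem_toSubmodule g hu, rfl⟩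
  rcases hmin U' hU' (Submodule.map_subtype_le _ _) with h | h
  · left
    apply Subrepresentation.toSubmodule_injective
    exact Submodule.map_injective_of_injective W.injective_subtype
      (h.trans (Submodule.map_bot _).symm)
  · right
    apply Subrepresentation.toSubmodule_injective
    refine eq_top_iff.mpr fun w _ => ?_
    have : (w : A) ∈ U' := by rw [h]; exact w.2
    obtain ⟨u, hu, huw⟩ := this
    have : u = w := Subtype.ext huw
    exact this ▸ hu

theorem prod_single_add {ι M : Type*} [CommMonoid M] (f : ι → M) (i : ι) (m : ι →₀ ℕ) :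
    (Finsupp.single i 1 + m).prod (fun i e => f i ^ e) =
      f i * m.prod (fun i e => f i ^ e) := by
  classical
  rw [Finsupp.prod_add_index' (h := fun i e => f i ^ e) (fun i => pow_zero (f i))
    (fun i e e' => pow_add (f i) e e'),
    Finsupp.prod_single_index (h := fun i e => f i ^ e) (pow_zero (f i)), pow_one]

theorem exists_composition_series (A : Rep.{0} k G) [FiniteDimensional k A] :
    ∃ m : Irr k G →₀ ℕ, (∀ {X : Type} [AddCommGroup X] (a : Rep.{0} k G → X), IsAdditive a →
        a A = m.sum (fun i e => e • a i.rep)) ∧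
      ∀ g : G, (A.ρ g).charpoly = m.prod (fun i e => (i.rep.ρ g).charpoly ^ e) := by
  classical
  induction hn : Module.finrank k A using Nat.strong_induction_on generalizing A with
  | _ n ih =>
  rcases subsingleton_or_nontrivial A with hs | hs
  · refine ⟨0, fun a ha => ?_, fun g => ?_⟩
    · rw [ha.zero_of_subsingleton A, Finsupp.sum_zero_index]
    · rw [Finsupp.prod_zero_index]
      have h1 := (A.ρ g).charpoly_natDegree
      rw [Module.finrank_zero_of_subsingleton] at h1
      exact ((LinearMap.charpoly_monic (A.ρ g)).natDegree_eq_zero).mp h1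
  · obtain ⟨W, hW, hW0, hirr⟩ := exists_irreducible_sub A
    let S : IrrRep k G := ⟨Rep.subrepresentation A W hW, hirr, inferInstanceAs (FiniteDimensional k W)⟩
    let i : Irr k G := Quotient.mk _ S
    have hSi : Nonempty (Rep.subrepresentation A W hW ≅ i.rep) := by
      have := Quotient.exact (Quotient.out_eq i)
      obtain ⟨e⟩ := this
      exact ⟨e.symm⟩
    obtain ⟨e⟩ := hSi
    have : FiniteDimensional k (Rep.quotient A W hW) := inferInstanceAs (FiniteDimensional k (A ⧸ W))
    obtain ⟨m, hm1, hm2⟩ := ih (Module.finrank k (Rep.quotient A W hW)) (by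
      have h1 : Module.finrank k (A ⧸ W) + Module.finrank k W = Module.finrank k A :=
        Submodule.finrank_quotient_add_finrank W
      have h2 : 0 < Module.finrank k W := by
        have : Nontrivial W := (Submodule.nontrivial_iff_ne_bot).mpr hW0
        exact Module.finrank_pos
      change Module.finrank k (A ⧸ W) < n
      omega) (Rep.quotient A W hW) rfl
    refine ⟨Finsupp.single i 1 + m, fun a ha => ?_, fun g => ?_⟩
    · have h0 : (Finsupp.single i 1 + m).sum (fun i e => e • a i.rep) =
          a i.rep + m.sum (fun i e => e • a i.rep) := by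
        rw [Finsupp.sum_add_index' (fun i => zero_smul ℕ (a i.rep))
          (fun i e e' => add_smul e e' (a i.rep)),
          Finsupp.sum_single_index (zero_smul ℕ (a i.rep)), one_smul]
      rw [h0, ← hm1 a ha]
      have h1 := ha.add (Rep.subrepresentation A W hW) A (Rep.quotient A W hW)
        (Rep.subtype A W hW) (Rep.mkQ A W hW) inferInstance
        (Subtype.val_injective) (LinearMap.exact_subtype_mkQ W) (Submodule.mkQ_surjective W)
      rw [h1]
      have : FiniteDimensional k (Rep.subrepresentation A W hW) :=
        inferInstanceAs (FiniteDimensional k W)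
      rw [ha.iso e]
    · have h0 : (Finsupp.single i 1 + m).prod (fun i e => (i.rep.ρ g).charpoly ^ e) =
          (i.rep.ρ g).charpoly * m.prod (fun i e => (i.rep.ρ g).charpoly ^ e) :=
        prod_single_add (fun i : Irr k G => (i.rep.ρ g).charpoly) i m
      rw [h0, ← hm2 g, charpoly_eq_mul W (A.ρ g) (hW g)]
      congr 1
      exact charpoly_eq_of_equiv (Representation.equivOfIso e).toLinearEquiv _ _
        (fun u => (Rep.hom_comm_apply e.hom g u))

variable [Finite k]

omit [Finite k] in
theorem of_smul_asModule {V : Type} [AddCommGroup V] [Module k V] (ρ : Representation k G V)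
    (g : G) (v : V) :
    (MonoidAlgebra.of k G g • ρ.asModuleEquiv.symm v) = ρ.asModuleEquiv.symm (ρ g v) :=
  (Representation.asModuleEquiv_symm_map_rho ρ g v).symm

/-- The next coefficients of the characteristic polynomials (i.e. traces) of non isomorphic
irreducible representations are linearly independent. -/
theorem linearIndependent_nextCoeff :
    LinearIndependent k (fun (i : Irr k G) => fun g : G => ((i.rep.ρ g).charpoly).nextCoeff) := by
  classical
  rw [linearIndependent_iff']
  intro s c hc i₀ hi₀
  let R := MonoidAlgebra k G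
  have hsimple : ∀ i : Irr k G, IsSimpleModule R i.rep.ρ.asModule := fun i =>
    (Representation.irreducible_iff_isSimpleModule_asModule _).mp inferInstance
  obtain ⟨r, hr1, hr2⟩ := exists_smul_eq_zero_trace_ne_zero (k := k) (R := R)
    (fun i : s => (i : Irr k G).rep.ρ.asModule) (by
      intro i j hij
      refine ⟨fun e => hij ?_⟩
      apply Subtype.ext
      have e' : (i : Irr k G).rep.ρ.Equiv (j : Irr k G).rep.ρ :=
        Representation.Equiv.mk (e.restrictScalars k) (by
          intro g
          ext v
          have h1 := e.map_smul (MonoidAlgebra.of k G g)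
            ((i : Irr k G).rep.ρ.asModuleEquiv.symm v)
          rw [of_smul_asModule] at h1
          refine h1.trans ?_
          exact of_smul_asModule (j : Irr k G).rep.ρ g
            ((j : Irr k G).rep.ρ.asModuleEquiv (e ((i : Irr k G).rep.ρ.asModuleEquiv.symm v))))
      have h2 : Quotient.mk (irrRepSetoid (k := k) (G := G)) (Quotient.out (i : Irr k G)) =
          Quotient.mk _ (Quotient.out (j : Irr k G)) := Quotient.sound ⟨Rep.mkIso e'⟩
      exact (Quotient.out_eq (i : Irr k G)).symm.trans (h2.trans (Quotient.out_eq _))) ⟨i₀, hi₀⟩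
  -- the linear functional
  let T : ∀ i : Irr k G, R →ₗ[k] k := fun i =>
    (LinearMap.trace k i.rep.ρ.asModule) ∘ₗ (Algebra.lsmul k k i.rep.ρ.asModule).toLinearMap
  have hT : ∀ (i : Irr k G) (g : G),
      T i (MonoidAlgebra.of k G g) = -((i.rep.ρ g).charpoly).nextCoeff := by
    intro i g
    let b := Module.Free.chooseBasis k i.rep
    rw [← LinearMap.charpoly_toMatrix (i.rep.ρ g) b, ← Matrix.trace_eq_neg_charpoly_nextCoeff,
      ← LinearMap.trace_eq_matrix_trace]
    have h1 : Algebra.lsmul k k i.rep.ρ.asModule (MonoidAlgebra.of k G g) =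
        i.rep.ρ.asModuleEquiv.symm.conj (i.rep.ρ g) := by
      ext v
      rw [LinearEquiv.conj_apply]
      exact of_smul_asModule i.rep.ρ g (i.rep.ρ.asModuleEquiv v)
    change LinearMap.trace k _ (Algebra.lsmul k k i.rep.ρ.asModule (MonoidAlgebra.of k G g)) = _
    rw [h1, LinearMap.trace_conj']
  have hsum : ∑ i ∈ s, c i • T i = 0 := by
    apply MonoidAlgebra.lhom_ext'
    intro g
    ext
    have h1 := congrFun hc g
    simp only [Finset.sum_apply, Pi.smul_apply, smul_eq_mul, Pi.zero_apply] at h1
    have h2 : (∑ i ∈ s, c i • T i) (MonoidAlgebra.of k G g) = 0 := by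
      rw [LinearMap.sum_apply]
      simp only [LinearMap.smul_apply, hT, smul_eq_mul, mul_neg, Finset.sum_neg_distrib, h1,
        neg_zero]
    exact h2
  have h3 := LinearMap.congr_fun hsum r
  rw [LinearMap.sum_apply, Finset.sum_eq_single i₀] at h3
  · rw [LinearMap.smul_apply, smul_eq_mul, LinearMap.zero_apply] at h3
    exact (mul_eq_zero.mp h3).resolve_right hr2
  · intro j hj hji
    have h4 : (Algebra.lsmul k k j.rep.ρ.asModule r) = 0 := by
      ext v
      exact hr1 ⟨j, hj⟩ (fun h => hji (congrArg Subtype.val h)) v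
    rw [LinearMap.smul_apply]
    change c j • LinearMap.trace k _ (Algebra.lsmul k k j.rep.ρ.asModule r) = 0
    rw [h4, map_zero, smul_zero]
  · intro h
    exact absurd hi₀ h

/-- **Brauer–Nesbitt.** Two finite dimensional representations of a group over a finite field with
the same characteristic polynomials have the same value under every additive function. -/
theorem IsAdditive.eq_of_charpoly_eq {X : Type} [AddCommGroup X] {a : Rep.{0} k G → X}
    (ha : IsAdditive a) (A B : Rep.{0} k G) [FiniteDimensional k A] [FiniteDimensional k B]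
    (h : ∀ g : G, (A.ρ g).charpoly = (B.ρ g).charpoly) : a A = a B := by
  obtain ⟨m, hm1, hm2⟩ := exists_composition_series A
  obtain ⟨n, hn1, hn2⟩ := exists_composition_series B
  obtain ⟨p, hp⟩ := CharP.exists k
  have hp0 : p ≠ 0 := CharP.char_ne_zero_of_finite k p
  have hpp : Fact p.Prime := ⟨(CharP.char_is_prime_or_zero k p).resolve_right hp0⟩
  have : m = n := by
    refine finsupp_eq_of_prod_eq (k := k) p
      (fun (i : Irr k G) g => (i.rep.ρ g).charpoly) (fun i g => LinearMap.charpoly_monic _)
      (fun i => Module.finrank k i.rep) (fun i => ?_) (fun i g => LinearMap.charpoly_natDegree _)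
      linearIndependent_nextCoeff m n (fun g => ?_)
    · have : IsSimpleModule (MonoidAlgebra k G) i.rep.ρ.asModule :=
        (Representation.irreducible_iff_isSimpleModule_asModule _).mp inferInstance
      have hnt : Nontrivial i.rep.ρ.asModule :=
        IsSimpleModule.nontrivial (MonoidAlgebra k G) i.rep.ρ.asModule
      have : Nontrivial i.rep := hnt
      exact Module.finrank_pos
    · rw [← hm2, ← hn2, h]
  rw [hm1 a ha, hn1 a ha, this]

end BrauerNesbitt

end Fermat.Agent.GW
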