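import Fermat.Agent.GW.ChiInd

/-!
# The Euler characteristic of `Fun(G/U, M)` : abstract final statement
-/

set_option autoImplicit false

namespace Fermat.Agent.GW

open Fermat.Agent.PT Module CategoryTheory Polynomial

variable {p : ℕ} [hp : Fact p.Prime] {G : Type} [Group G] (T : PlaceData (ZMod p) G)
  {𝓛 : LevelSys G} (hle : ∀ W ∈ T.𝓛, W ∈ 𝓛) {V : Subgroup G} [V.Normal] (hVS : V ∈ T.𝓛)
  (hχ : ∀ v ∈ V, T.χ v = 1) {U : Subgroup G} (hVU : V ≤ U) (hn : ¬ p ∣ V.relIndex U)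
  {M : Type} [AddCommGroup M] [Module (ZMod p) M] [FiniteDimensional (ZMod p) M]
  (ρ : Representation (ZMod p) G M) (hρ : ∀ v ∈ V, ρ v = 1)

/-- The inputs at the level of `V`: places and the characteristic polynomial identity. -/
structure StarData (c : G) where
  X₁ : Type
  act₁ : MulAction G X₁
  fin₁ : Finite X₁
  x₁ : T.V → X₁
  orb₁ : OrbitReps G x₁
  stab₁ : ∀ v, MulAction.stabilizer G (x₁ v) = (T.r v).range ⊔ V
  triv₁ : TrivOn V X₁
  X₂ : Type
  act₂ : MulAction G X₂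
  fin₂ : Finite X₂
  x₂ : Unit → X₂
  orb₂ : OrbitReps G x₂
  stab₂ : MulAction.stabilizer G (x₂ ()) = Subgroup.zpowers c ⊔ V
  triv₂ : TrivOn V X₂
  finH : FiniteDimensional (ZMod p) (H1 (T.𝓛.restrict V) ((chiRep T.χ).comp V.subtype))
  finK : FiniteDimensional (ZMod p) (LinearMap.ker (inflV hle V ((chiRep T.χ).comp V.subtype)))
  star : ∀ g : G, (conj1 T.𝓛 V (chiRep T.χ) g).charpoly * (X - C 1) =
      (chiRep T.χ g).charpoly * ((permRep (ZMod p) G X₁ g).charpoly *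
        ((permRep (ZMod p) G X₂ g).charpoly * (conjK hle V (chiRep T.χ) g).charpoly))

attribute [instance] StarData.act₁ StarData.fin₁ StarData.act₂ StarData.fin₂

include hVS hχ hVU hn hρ in
lemma chi_aux_star {c : G} (D : StarData T hle (V := V) c) :
    (finrank (ZMod p) (homInv (Representation.linHom ρ (chiRep T.χ))
      (conj1 T.𝓛 V (chiRep T.χ)) U) : ℤ) +
      finrank (ZMod p) (homG T.χ (funRep (G ⧸ U) ρ)) =
    finrank (ZMod p) (homInv (Representation.linHom ρ (chiRep T.χ)) (chiRep T.χ) U) +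
      (((∑ v, finrank (ZMod p) (T.homv (funRep (G ⧸ U) ρ) v) : ℕ) : ℤ) +
        (finrank (ZMod p) (homP T.χ (Subgroup.zpowers c) (funRep (G ⧸ U) ρ)) +
          finrank (ZMod p) (homInv (Representation.linHom ρ (chiRep T.χ))
            (conjK hle V (chiRep T.χ)) U))) := by
  have hVfi := LevelSys.finiteIndex hVS
  have hfin : Finite (G ⧸ V) := inferInstance
  have := D.finH
  have := D.finK
  have hD : (Nat.card (U.map (QuotientGroup.mk' V)) : ZMod p) ≠ 0 := by
    rw [card_map_mk', Ne, ZMod.natCast_eq_zero_iff]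
    exact hn
  have hQ := linHom_triv ρ T.χ hχ hρ
  have htriv : TrivOn V Unit := fun v _ x => rfl
  have h1 := finrank_homInv_star (V := V) (U := U) (Representation.linHom ρ (chiRep T.χ)) hQ
    (conj1 T.𝓛 V (chiRep T.χ)) (permRep (ZMod p) G Unit) (chiRep T.χ)
    (permRep (ZMod p) G D.X₁) (permRep (ZMod p) G D.X₂) (conjK hle V (chiRep T.χ)) hD
    (fun v hv => conj1_of_mem hv)
    (funRep_triv htriv (fun _ _ => rfl))
    (chiRep_triv T.χ hχ)
    (funRep_triv D.triv₁ (fun _ _ => rfl))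
    (funRep_triv D.triv₂ (fun _ _ => rfl))
    (fun v hv => by
      apply LinearMap.ext
      intro x
      apply Subtype.ext
      rw [coe_conjK, conj2_of_mem hv]
      rfl)
    (fun g => by
      rw [charpoly_permRep_unit]
      exact D.star g)
  rw [finrank_perm_unit ρ hVU hD T.χ hχ hρ,
    finrank_perm_orbits ρ hVU hD T.χ hχ hρ D.orb₁ (fun v => (T.r v).range) D.stab₁ D.triv₁,
    finrank_perm_orbits ρ hVU hD T.χ hχ hρ D.orb₂ (fun _ => Subgroup.zpowers c)
      (fun _ => D.stab₂) D.triv₂, Fintype.sum_unique (ι := Unit)] at h1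
  have h2 : ∀ v, homP T.χ (T.r v).range (funRep (G ⧸ U) ρ) = T.homv (funRep (G ⧸ U) ρ) v := by
    intro v
    ext f
    constructor
    · intro h d m
      exact h _ ⟨d, rfl⟩ m
    · rintro h _ ⟨d, rfl⟩ m
      exact h d m
  have h3 : ∑ v, finrank (ZMod p) (homP T.χ (T.r v).range (funRep (G ⧸ U) ρ)) =
      ∑ v, finrank (ZMod p) (T.homv (funRep (G ⧸ U) ρ) v) :=
    Finset.sum_congr rfl fun v _ => by rw [h2 v]
  rw [h3] at h1
  exact_mod_cast h1

include hVS hχ hVU hn hρ in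
/-- **The Euler characteristic of induced modules, abstract form.** -/
theorem chi_funRep_ind (hp2 : p ≠ 2) {c : G} (hc : c * c = 1) (hχc : (T.χ c : ZMod p) = -1)
    (hR : T.Recip) (hE : T.ExactX (funRep (G ⧸ U) ρ)) (hL : T.LocInj (funRep (G ⧸ U) ρ))
    (hsha : T.sha2 (funRep (G ⧸ U) ρ) = LinearMap.ker (inflG hle (funRep (G ⧸ U) ρ)))
    (D : StarData T hle (V := V) c) :
    (chi T.𝓛 (funRep (G ⧸ U) ρ) : ℤ) =
      finrank (ZMod p) (fixC (funRep (G ⧸ U) ρ) c) - finrank (ZMod p) (G ⧸ U → M) := by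
  have hVfi := LevelSys.finiteIndex hVS
  have hfin : Finite (G ⧸ V) := inferInstance
  have hUfi : U.FiniteIndex := Subgroup.finiteIndex_of_le hVU
  have hfinU : Finite (G ⧸ U) := inferInstance
  have hμ := chiRep_triv T.χ hχ
  have hn0 : (V.relIndex U : ZMod p) ≠ 0 := by
    rw [Ne, ZMod.natCast_eq_zero_iff]
    exact hn
  have hV' : V ∈ 𝓛 := hle V hVS
  have := D.finK
  have hBN := chi_aux_star T hle hVS hχ hVU hn ρ hρ D
  -- identification of the terms
  have e0 : finrank (ZMod p) (funRep (G ⧸ U) ρ).invariants =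
      finrank (ZMod p) (homInv (Representation.linHom ρ (chiRep T.χ)) (chiRep T.χ) U) :=
    (desc0 (ρ := ρ) (U := U) (chiRep T.χ)).finrank_eq
  have e1 : finrank (ZMod p) (H1 T.𝓛 (funRep (G ⧸ U) ρ)) =
      finrank (ZMod p) (homInv (Representation.linHom ρ (chiRep T.χ))
        (conj1 T.𝓛 V (chiRep T.χ)) U) :=
    (desc1 (𝓛 := T.𝓛) hρ hμ hVU hVS hn0).finrank_eq
  have eK : finrank (ZMod p) (T.sha2 (funRep (G ⧸ U) ρ)) =
      finrank (ZMod p) (homInv (Representation.linHom ρ (chiRep T.χ))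
        (conjK hle V (chiRep T.χ)) U) := by
    rw [hsha]
    exact (descK hle hρ hμ hVU hV' hVS hn0).finrank_eq
  have hfdK : FiniteDimensional (ZMod p) (T.sha2 (funRep (G ⧸ U) ρ)) := by
    rw [hsha]
    exact Module.Finite.equiv (descK hle hρ hμ hVU hV' hVS hn0).symm
  obtain ⟨-, e2⟩ := finrank_H2 T (funRep (G ⧸ U) ρ) hR hE hL
  have h2 : (2 : ZMod p) ≠ 0 := by
    intro h0
    have h3 : ((2 : ℕ) : ZMod p) = 0 := by exact_mod_cast h0
    rw [ZMod.natCast_eq_zero_iff] at h3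
    exact hp2 ((Nat.prime_dvd_prime_iff_eq hp.out Nat.prime_two).1 h3)
  have p2 : (finrank (ZMod p) (homP T.χ (Subgroup.zpowers c) (funRep (G ⧸ U) ρ)) : ℤ) =
      finrank (ZMod p) (G ⧸ U → M) - finrank (ZMod p) (fixC (funRep (G ⧸ U) ρ) c) :=
    finrank_homP_zpowers _ _ h2 c hc hχc
  rw [p2] at hBN
  rw [chi, e0, e1]
  rw [eK] at e2
  have e2' : (finrank (ZMod p) (H2 T.𝓛 (funRep (G ⧸ U) ρ)) : ℤ) +
      finrank (ZMod p) (homG T.χ (funRep (G ⧸ U) ρ)) =
      finrank (ZMod p) (homInv (Representation.linHom ρ (chiRep T.χ))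
        (conjK hle V (chiRep T.χ)) U) +
        ((∑ v, finrank (ZMod p) (T.homv (funRep (G ⧸ U) ρ) v) : ℕ) : ℤ) := by exact_mod_cast e2
  linarith

end Fermat.Agent.GW
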