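import Fermat.Agent.PT.CupProd
import Fermat.Agent.PT.Dual

/-!
# The orthogonality inequality (first half of Greenberg–Wiles)
-/

set_option autoImplicit false

namespace Fermat.Agent.GW

open Fermat.Agent.PT Module

section LinAlg

variable {k : Type*} [Field k] {X' X Y : Type*} [AddCommGroup X'] [Module k X']
  [AddCommGroup X] [Module k X] [AddCommGroup Y] [Module k Y]

/-- Two orthogonal maps. -/
theorem finrank_orth [FiniteDimensional k X'] [FiniteDimensional k X] [FiniteDimensional k Y]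
    (Φ' : X' →ₗ[k] Dual k Y) (Φ : X →ₗ[k] Y) (h : ∀ x' x, Φ' x' (Φ x) = 0) :
    finrank k X + finrank k X' ≤
      finrank k (LinearMap.ker Φ) + finrank k Y + finrank k (LinearMap.ker Φ') := by
  have h1 := LinearMap.finrank_range_add_finrank_ker Φ
  have h2 := LinearMap.finrank_range_add_finrank_ker Φ'
  have h3 : LinearMap.range Φ' ≤ (LinearMap.range Φ).dualAnnihilator := by
    rintro _ ⟨x', rfl⟩
    rw [Submodule.mem_dualAnnihilator]
    rintro _ ⟨x, rfl⟩
    exact h x' x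
  have h4 := Submodule.finrank_mono h3
  have h5 := Subspace.finrank_add_finrank_dualAnnihilator_eq (LinearMap.range Φ)
  omega

/-- Abstract form of the orthogonality inequality for families of local conditions. -/
theorem gw_first_abstract {k : Type*} [Field k] {V : Type*} [Fintype V] {H' H : V → Type*}
    [∀ v, AddCommGroup (H' v)] [∀ v, Module k (H' v)]
    [∀ v, AddCommGroup (H v)] [∀ v, Module k (H v)]
    {X' X : Type*} [AddCommGroup X'] [Module k X'] [AddCommGroup X] [Module k X]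
    [FiniteDimensional k X'] [FiniteDimensional k X]
    (l' : ∀ v, X' →ₗ[k] H' v) (l : ∀ v, X →ₗ[k] H v)
    (P : ∀ v, H' v →ₗ[k] H v →ₗ[k] k)
    (h : ∀ x' x, ∑ v, P v (l' v x') (l v x) = 0)
    (L : ∀ v, Submodule k (H v)) [∀ v, FiniteDimensional k (L v)]
    (S S₀ : Submodule k X) (hS : ∀ x ∈ S, ∀ v, l v x ∈ L v)
    (hS₀ : ∀ x, (∀ v, l v x = 0) → x ∈ S₀)
    (S' : Submodule k X') (hS' : ∀ x', (∀ v, ∀ y ∈ L v, P v (l' v x') y = 0) → x' ∈ S') :
    finrank k S + finrank k X' ≤ finrank k S₀ + ∑ v, finrank k (L v) + finrank k S' := by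
  classical
  let Φ : S →ₗ[k] (∀ v, L v) := LinearMap.pi (fun v =>
    ((l v) ∘ₗ S.subtype).codRestrict (L v) (fun x => hS x.1 x.2 v))
  let Φ' : X' →ₗ[k] Dual k (∀ v, L v) :=
    ∑ v, (LinearMap.lcomp k k ((L v).subtype ∘ₗ LinearMap.proj v)) ∘ₗ (P v) ∘ₗ (l' v)
  have hΦ' : ∀ x (y : ∀ v, L v), Φ' x y = ∑ v, P v (l' v x) (y v) := by
    intro x y
    simp [Φ']
  have h0 : ∀ x' x, Φ' x' (Φ x) = 0 := by
    intro x' x
    rw [hΦ']
    exact h x' x.1
  have h1 := finrank_orth Φ' Φ h0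
  have h2 : finrank k (LinearMap.ker Φ) ≤ finrank k S₀ := by
    have hle : (LinearMap.ker Φ).map S.subtype ≤ S₀ := by
      rintro _ ⟨x, hx, rfl⟩
      apply hS₀
      intro v
      have := congrFun (LinearMap.mem_ker.1 hx) v
      exact congrArg Subtype.val this
    have h3 := Submodule.finrank_mono hle
    rwa [Submodule.finrank_map_subtype_eq] at h3
  have h3 : finrank k (∀ v, L v) = ∑ v, finrank k (L v) := Module.finrank_pi_fintype k
  have h4 : LinearMap.ker Φ' ≤ S' := by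
    intro x hx
    apply hS'
    intro v y hy
    have h5 := LinearMap.congr_fun (LinearMap.mem_ker.1 hx) (Pi.single v ⟨y, hy⟩)
    rw [hΦ', Finset.sum_eq_single v] at h5
    · rw [Pi.single_eq_same] at h5
      exact h5
    · intro w _ hw
      rw [Pi.single_eq_of_ne hw]
      simp
    · intro h
      exact absurd (Finset.mem_univ v) h
  have h5 := Submodule.finrank_mono h4
  omega

end LinAlg

section Pairing

variable {k G : Type} [Field k] [Group G]
variable {M : Type} [AddCommGroup M] [Module k M]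

/-- evaluation pairing -/
def evBil (k M : Type) [Field k] [AddCommGroup M] [Module k M] :
    Module.Dual k M →ₗ[k] M →ₗ[k] k := LinearMap.id

@[simp] lemma evBil_apply (f : Module.Dual k M) (m : M) : evBil k M f m = f m := rfl

lemma evBil_bilin (χ : G →* kˣ) (ρ : Representation k G M) :
    Bilin (dualT χ ρ) ρ (chiRep χ) (evBil k M) := by
  intro g f m
  rw [evBil_apply, dualT_apply, ← Module.End.mul_apply, ← map_mul, inv_mul_cancel, map_one,
    Module.End.one_apply, chiRep_apply, evBil_apply]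

end Pairing

section Places

variable {k G : Type} [Field k] [Group G] (T : PlaceData k G)
variable {M : Type} [AddCommGroup M] [Module k M] (ρ : Representation k G M)

/-- local `H¹` (irreducible wrapper) -/
def LH1 (v : T.V) : Type := H1 (T.𝓛v v) (ρ.comp (T.r v))

instance (v : T.V) : AddCommGroup (LH1 T ρ v) :=
  inferInstanceAs (AddCommGroup (H1 (T.𝓛v v) (ρ.comp (T.r v))))

instance (v : T.V) : Module k (LH1 T ρ v) :=
  inferInstanceAs (Module k (H1 (T.𝓛v v) (ρ.comp (T.r v))))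

/-- localisation -/
def lloc (v : T.V) : H1 T.𝓛 ρ →ₗ[k] LH1 T ρ v := T.loc1 ρ v

lemma lloc_apply (v : T.V) (x : H1 T.𝓛 ρ) : lloc T ρ v x = (T.loc1 ρ v x : H1 _ _) := rfl

lemma evBil_bilin_v (v : T.V) : Bilin ((dualT T.χ ρ).comp (T.r v)) (ρ.comp (T.r v))
    ((chiRep T.χ).comp (T.r v)) (evBil k M) :=
  fun d f m => evBil_bilin T.χ ρ (T.r v d) f m

variable {ρ}

/-- The local pairing `H¹(D_v, M') × H¹(D_v, M) → k`. -/
def locPair (hρ : Discrete T.𝓛 ρ) (v : T.V) : LH1 T (dualT T.χ ρ) v →ₗ[k] LH1 T ρ v →ₗ[k] k :=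
  ((cup11 (hρ.comp (T.hr v)) (evBil k M) (evBil_bilin_v T ρ v)).compr₂ (T.inv v) :
    H1 (T.𝓛v v) ((dualT T.χ ρ).comp (T.r v)) →ₗ[k] H1 (T.𝓛v v) (ρ.comp (T.r v)) →ₗ[k] k)

lemma locPair_apply (hρ : Discrete T.𝓛 ρ) (v : T.V)
    (x : H1 (T.𝓛v v) ((dualT T.χ ρ).comp (T.r v))) (y : H1 (T.𝓛v v) (ρ.comp (T.r v))) :
    locPair T hρ v x y =
      T.inv v (cup11 (hρ.comp (T.hr v)) (evBil k M) (evBil_bilin_v T ρ v) x y) := rfl

/-- Orthogonality of global classes. -/
theorem sum_locPair (hR : T.Recip) (hρ : Discrete T.𝓛 ρ) (x : H1 T.𝓛 (dualT T.χ ρ))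
    (y : H1 T.𝓛 ρ) :
    ∑ v, locPair T hρ v (lloc T (dualT T.χ ρ) v x) (lloc T ρ v y) = 0 := by
  rw [← hR (cup11 hρ (evBil k M) (evBil_bilin T.χ ρ) x y)]
  refine Finset.sum_congr rfl (fun v _ => ?_)
  refine congrArg (T.inv v) ?_
  exact (cup11_natural (hσ := hρ) (B := evBil k M) (hB := evBil_bilin T.χ ρ)
    (hσ' := hρ.comp (T.hr v)) (B' := evBil k M) (hB' := evBil_bilin_v T ρ v) (T.r v) (T.hr v)
    LinearMap.id (fun _ _ => rfl) LinearMap.id (fun _ _ => rfl) LinearMap.id (fun _ _ => rfl)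
    (fun _ _ => rfl) x y).symm

/-- Selmer groups. -/
def Sel (L : ∀ v, Submodule k (LH1 T ρ v)) : Submodule k (H1 T.𝓛 ρ) :=
  ⨅ v, (L v).comap (lloc T ρ v)

variable {T} in
lemma mem_Sel {L : ∀ v, Submodule k (LH1 T ρ v)} {x : H1 T.𝓛 ρ} :
    x ∈ Sel T L ↔ ∀ v, lloc T ρ v x ∈ L v := by
  simp [Sel]

/-- Orthogonal complement of a local condition. -/
def perp (hρ : Discrete T.𝓛 ρ) (L : ∀ v, Submodule k (LH1 T ρ v)) (v : T.V) :
    Submodule k (LH1 T (dualT T.χ ρ) v) where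
  carrier := {x | ∀ y ∈ L v, locPair T hρ v x y = 0}
  add_mem' {a b} ha hb y hy := by
    rw [map_add, LinearMap.add_apply, ha y hy, hb y hy, add_zero]
  zero_mem' y hy := by rw [map_zero, LinearMap.zero_apply]
  smul_mem' c a ha y hy := by
    rw [map_smul, LinearMap.smul_apply, ha y hy, smul_zero]

variable {T} in
lemma mem_perp {hρ : Discrete T.𝓛 ρ} {L : ∀ v, Submodule k (LH1 T ρ v)}
    {v : T.V} {x : LH1 T (dualT T.χ ρ) v} :
    x ∈ perp T hρ L v ↔ ∀ y ∈ L v, locPair T hρ v x y = 0 := Iff.rfl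

/-- **First half of Greenberg–Wiles.**
`dim Sel_L(M) + h¹(M') ≤ dim Ш¹(M) + ∑ dim L_v + dim Sel_{L^⊥}(M')`. -/
theorem gw_first (hR : T.Recip) (hρ : Discrete T.𝓛 ρ) [FiniteDimensional k (H1 T.𝓛 ρ)]
    [FiniteDimensional k (H1 T.𝓛 (dualT T.χ ρ))]
    (L : ∀ v, Submodule k (LH1 T ρ v)) [∀ v, FiniteDimensional k (L v)] :
    finrank k (Sel T L) + finrank k (H1 T.𝓛 (dualT T.χ ρ)) ≤
      finrank k (T.sha1 ρ) + ∑ v, finrank k (L v) +
        finrank k (Sel T (ρ := dualT T.χ ρ) (perp T hρ L)) := by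
  refine gw_first_abstract (k := k) (V := T.V)
    (H' := fun v => LH1 T (dualT T.χ ρ) v)
    (H := fun v => LH1 T ρ v)
    (X' := H1 T.𝓛 (dualT T.χ ρ)) (X := H1 T.𝓛 ρ)
    (fun v => lloc T (dualT T.χ ρ) v) (fun v => lloc T ρ v)
    (fun v => locPair T hρ v) ?_ L (Sel T L) (T.sha1 ρ) ?_ ?_ _ ?_
  · exact sum_locPair T hR hρ
  · exact fun x hx => mem_Sel.1 hx
  · exact fun x hx => T.mem_sha1.2 hx
  · exact fun x' hx' => mem_Sel.2 hx'

end Places

end Fermat.Agent.GW
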