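import Fermat.Agent.GW.LocalDuality
import Fermat.Agent.GW.Inequality
import Fermat.Agent.PT.RightExact

/-!
# The inputs of degree one duality from the degree two statements
-/

set_option autoImplicit false

namespace Fermat.Agent.GW

open Fermat.Agent.PT Module

variable {k : Type} [Field k] {G : Type} [Group G] {𝓛 : LevelSys G}

/-- right exactness of `H²` on finite dimensional discrete representations -/
def RightEx (k : Type) [Field k] (𝓛 : LevelSys G) : Prop :=
  ∀ {M N : Type} [AddCommGroup M] [Module k M] [AddCommGroup N] [Module k N]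
    [FiniteDimensional k M] (ρ : Representation k G M) (σ : Representation k G N),
    Discrete 𝓛 ρ → ∀ (f : M →ₗ[k] N) (hf : Equivar ρ σ f), Function.Surjective f →
      Function.Surjective (H2coef 𝓛 f hf)

/-- non-degeneracy of `Hom_G(M, k(χ)) × H²(G, M) → k` on the `H²` side. -/
def DualInj (𝓛 : LevelSys G) (χ : G →* kˣ) (inv : H2 𝓛 (chiRep χ) →ₗ[k] k) : Prop :=
  ∀ {M : Type} [AddCommGroup M] [Module k M] [FiniteDimensional k M] (ρ : Representation k G M),
    Discrete 𝓛 ρ → ∀ z : H2 𝓛 ρ,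
      (∀ (f : M →ₗ[k] k) (hf : Equivar ρ (chiRep χ) f), inv (H2coef 𝓛 f hf z) = 0) → z = 0

/-- the pairing as a linear map -/
noncomputable def dualMap02 {χ : G →* kˣ} (inv : H2 𝓛 (chiRep χ) →ₗ[k] k)
    {M : Type} [AddCommGroup M] [Module k M] (ρ : Representation k G M) :
    ↥(homG χ ρ) →ₗ[k] Module.Dual k (H2 𝓛 ρ) where
  toFun f := inv ∘ₗ H2coef 𝓛 f.1 (homG_equivar χ ρ f.2)
  map_add' f f' := by
    refine LinearMap.ext fun x => ?_
    obtain ⟨y, rfl⟩ := H2mk_surjective x
    rw [LinearMap.comp_apply, LinearMap.add_apply, LinearMap.comp_apply, LinearMap.comp_apply,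
      ← map_add]
    rfl
  map_smul' c f := by
    refine LinearMap.ext fun x => ?_
    obtain ⟨y, rfl⟩ := H2mk_surjective x
    rw [LinearMap.comp_apply, LinearMap.smul_apply, LinearMap.comp_apply, ← map_smul]
    rfl

lemma dualMap02_apply {χ : G →* kˣ} (inv : H2 𝓛 (chiRep χ) →ₗ[k] k)
    {M : Type} [AddCommGroup M] [Module k M] (ρ : Representation k G M) (f : ↥(homG χ ρ))
    (x : H2 𝓛 ρ) : dualMap02 inv ρ f x = inv (H2coef 𝓛 f.1 (homG_equivar χ ρ f.2) x) := rfl

/-- If a space of functionals separates points then the space is finite dimensional when the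
space of functionals is, and all functionals are obtained. -/
theorem surjective_of_separating {V W : Type*} [AddCommGroup V] [Module k V] [AddCommGroup W]
    [Module k W] [FiniteDimensional k V] (Φ : V →ₗ[k] Dual k W)
    (h : ∀ w, (∀ v, Φ v w = 0) → w = 0) : FiniteDimensional k W ∧ Function.Surjective Φ := by
  have h1 : Function.Injective Φ.flip := by
    rw [← LinearMap.ker_eq_bot, LinearMap.ker_eq_bot']
    intro w hw
    exact h w (fun v => LinearMap.congr_fun hw v)
  have h2 : FiniteDimensional k W := Module.Finite.of_injective Φ.flip h1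
  refine ⟨h2, ?_⟩
  rw [← LinearMap.range_eq_top, ← Subspace.dualCoannihilator_dualAnnihilator_eq
    (W := LinearMap.range Φ)]
  have h3 : (LinearMap.range Φ).dualCoannihilator = ⊥ := by
    rw [eq_bot_iff]
    intro w hw
    rw [Submodule.mem_dualCoannihilator] at hw
    exact h w (fun v => hw _ ⟨v, rfl⟩)
  rw [h3, Submodule.dualAnnihilator_bot]

theorem dual02_of {χ : G →* kˣ} (inv : H2 𝓛 (chiRep χ) →ₗ[k] k) (hne : inv ≠ 0)
    (hR : RightEx k 𝓛) (hD : DualInj 𝓛 χ inv) : Dual02 𝓛 (chiRep χ) inv where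
  inj := by
    intro M _ _ _ ρ hρ z hz h
    by_contra hz0
    have hsurj : Function.Surjective z := by
      have : ∃ m, z m ≠ 0 := by
        by_contra hcon
        push Not at hcon
        exact hz0 (LinearMap.ext hcon)
      obtain ⟨m, hm⟩ := this
      intro c
      refine ⟨(c / z m) • m, ?_⟩
      rw [map_smul, smul_eq_mul, div_mul_cancel₀ _ hm]
    apply hne
    apply LinearMap.ext
    intro w
    obtain ⟨w', rfl⟩ := hR ρ (chiRep χ) hρ z hz hsurj w
    rw [h w', LinearMap.zero_apply]
  surj := by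
    intro M _ _ _ ρ hρ φ
    obtain ⟨-, h⟩ := surjective_of_separating (dualMap02 inv ρ) (fun w hw =>
      hD ρ hρ w (fun f hf => hw (⟨f, hf⟩ : ↥(homG χ ρ))))
    obtain ⟨f, hf⟩ := h φ
    exact ⟨f.1, homG_equivar χ ρ f.2, fun w => LinearMap.congr_fun hf w⟩

/-- The Shapiro isomorphism in degree 2 for `G ⧸ W` has the expected dimension. -/
theorem finrank_H2_funRep {M : Type} [AddCommGroup M] [Module k M] (ρ : Representation k G M)
    {W : Subgroup G} (hW : W ∈ 𝓛) (n : ℕ)
    (hfin : FiniteDimensional k (H2 (𝓛.restrict W) (ρ.comp W.subtype)))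
    (hn : finrank k (H2 (𝓛.restrict W) (ρ.comp W.subtype)) = n) :
    FiniteDimensional k (H2 𝓛 (funRep (G ⧸ W) ρ)) ∧
      finrank k (H2 𝓛 (funRep (G ⧸ W) ρ)) = n := by
  have := LevelSys.finiteIndex hW
  have key : ∀ Q : Subgroup G, Q = W →
      FiniteDimensional k (H2 (𝓛.restrict Q) (ρ.comp Q.subtype)) ∧
      finrank k (H2 (𝓛.restrict Q) (ρ.comp Q.subtype)) = n := by
    rintro Q rfl
    exact ⟨hfin, hn⟩
  have hst : MulAction.stabilizer G (QuotientGroup.mk (1 : G) : G ⧸ W) = W :=
    MulAction.stabilizer_quotient W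
  obtain ⟨hf, hc⟩ := key _ hst
  set x : Unit → G ⧸ W := fun _ => QuotientGroup.mk (1 : G) with hx
  have hor : OrbitReps G x := orbitReps_quotient W
  have hX := stab_quotient_mem (𝓛 := 𝓛) hW
  have b2 : Function.Bijective (sh2 (𝓛 := 𝓛) ρ (x ())) := by
    constructor
    · rw [← LinearMap.ker_eq_bot, LinearMap.ker_eq_bot']
      intro z hz
      exact sh2_injective hor hX z (fun _ => hz)
    · intro y
      obtain ⟨z, hz⟩ := sh2_surjective (ρ := ρ) hor hX (fun _ => y)
      exact ⟨z, hz ()⟩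
  let e2 := LinearEquiv.ofBijective _ b2
  refine ⟨Module.Finite.equiv e2.symm, ?_⟩
  rw [← hc]
  exact e2.finrank_eq

/-- The corestriction is injective if both `H²` are one dimensional and `H²` is right exact. -/
theorem corInj_of {P : Type} [AddCommGroup P] [Module k P] [FiniteDimensional k P]
    {τ : Representation k G P} (hτ : Discrete 𝓛 τ) (hR : RightEx k 𝓛)
    {W : Subgroup G} [W.Normal] (hW : W ∈ 𝓛) [Fintype (G ⧸ W)]
    (h1 : finrank k (H2 𝓛 τ) = 1)
    (h2 : finrank k (H2 (𝓛.restrict W) (τ.comp W.subtype)) = 1) : CorInj 𝓛 τ W := by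
  have hfin : FiniteDimensional k (H2 (𝓛.restrict W) (τ.comp W.subtype)) :=
    FiniteDimensional.of_finrank_pos (by omega)
  have hfin' : FiniteDimensional k (H2 𝓛 τ) := FiniteDimensional.of_finrank_pos (by omega)
  obtain ⟨h3, h4⟩ := finrank_H2_funRep τ hW 1 hfin h2
  have hdisc : Discrete 𝓛 (funRep (G ⧸ W) τ) :=
    funRep_discrete hτ (stab_quotient_mem (𝓛 := 𝓛) hW)
  have hs : Function.Surjective (H2coef 𝓛 (sumMap k (G ⧸ W) P) (sumMap_equivar τ)) := by
    refine hR (funRep (G ⧸ W) τ) τ hdisc _ _ (fun m => ?_)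
    classical
    refine ⟨Pi.single (QuotientGroup.mk 1) m, ?_⟩
    rw [sumMap_apply, Finset.sum_pi_single']
    simp
  have hinj := (LinearMap.injective_iff_surjective_of_finrank_eq_finrank (h4.trans h1.symm)).2 hs
  intro w hw
  exact hinj (by rw [hw, map_zero])

end Fermat.Agent.GW
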