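import Fermat.Agent.GW.Artin
import Fermat.Agent.GW.LocalInputs
import Fermat.Agent.PT.Euler

/-!
# The global Euler characteristic: reduction to cyclic groups of order prime to `p`
-/

set_option autoImplicit false

namespace Fermat.Agent.GW

open Fermat.Agent.PT Module CategoryTheory

section FixC

variable {k : Type} [Field k] {G : Type} [Group G]
variable {M : Type} [AddCommGroup M] [Module k M] (ρ : Representation k G M) (c : G)

/-- the fixed vectors of `c` -/
def fixC : Submodule k M := LinearMap.ker (ρ c - LinearMap.id)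

lemma mem_fixC {m : M} : m ∈ fixC ρ c ↔ ρ c m = m := by
  rw [fixC, LinearMap.mem_ker, LinearMap.sub_apply, LinearMap.id_apply, sub_eq_zero]

variable {ρ}
variable {A : Type} [AddCommGroup A] [Module k A] {ρA : Representation k G A}
variable {B : Type} [AddCommGroup B] [Module k B] {ρB : Representation k G B}
variable {C : Type} [AddCommGroup C] [Module k C] {ρC : Representation k G C}

/-- Additivity of the dimension of the fixed space of an involution. -/
theorem finrank_fixC_add [FiniteDimensional k B] (h2 : (2 : k) ≠ 0) (hc : c * c = 1)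
    {f : A →ₗ[k] B} {g : B →ₗ[k] C} (hf : Equivar ρA ρB f) (hg : Equivar ρB ρC g)
    (hinj : Function.Injective f) (hex : ∀ b, g b = 0 → ∃ a, f a = b) (hz : ∀ a, g (f a) = 0)
    (hsurj : Function.Surjective g) :
    finrank k (fixC ρB c) = finrank k (fixC ρA c) + finrank k (fixC ρC c) := by
  let g' : fixC ρB c →ₗ[k] fixC ρC c := g.restrict (fun b hb => by
    rw [mem_fixC] at hb ⊢
    rw [← hg, hb])
  let f' : fixC ρA c →ₗ[k] fixC ρB c := f.restrict (fun a ha => by
    rw [mem_fixC] at ha ⊢
    rw [← hf, ha])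
  have hf' : Function.Injective f' := fun a a' h => by
    apply Subtype.ext
    apply hinj
    exact congrArg Subtype.val h
  have hg' : Function.Surjective g' := by
    intro x
    obtain ⟨b, hb⟩ := hsurj x.1
    have hx := (mem_fixC ρC c).1 x.2
    refine ⟨⟨(2 : k)⁻¹ • (b + ρB c b), ?_⟩, ?_⟩
    · rw [mem_fixC, map_smul, map_add, ← Module.End.mul_apply, ← map_mul, hc, map_one,
        Module.End.one_apply, add_comm]
    · apply Subtype.ext
      show g ((2 : k)⁻¹ • (b + ρB c b)) = x.1
      rw [map_smul, map_add, hg, hb, hx, ← two_smul k x.1, smul_smul, inv_mul_cancel₀ h2,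
        one_smul]
  have hker : LinearMap.ker g' = LinearMap.range f' := by
    ext b
    rw [LinearMap.mem_ker, LinearMap.mem_range]
    constructor
    · intro hb
      obtain ⟨a, ha⟩ := hex b.1 (congrArg Subtype.val hb)
      refine ⟨⟨a, ?_⟩, Subtype.ext ha⟩
      rw [mem_fixC]
      apply hinj
      rw [hf, ha]
      exact (mem_fixC ρB c).1 b.2
    · rintro ⟨a, rfl⟩
      apply Subtype.ext
      exact hz a.1
  have h3 := LinearMap.finrank_range_add_finrank_ker g'
  rw [hker, LinearMap.range_eq_top.2 hg', finrank_top, LinearMap.finrank_range_of_inj hf'] at h3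
  omega

theorem finrank_fixC_equiv [FiniteDimensional k B] (e : A ≃ₗ[k] B) (he : Equivar ρA ρB e.toLinearMap) :
    finrank k (fixC ρA c) = finrank k (fixC ρB c) := by
  refine LinearEquiv.finrank_eq (LinearEquiv.ofSubmodules e _ _ ?_)
  ext b
  rw [Submodule.mem_map]
  constructor
  · rintro ⟨a, ha, rfl⟩
    rw [mem_fixC] at ha ⊢
    have := he c a
    show ρB c (e.toLinearMap a) = e.toLinearMap a
    rw [← this, ha]
  · intro hb
    refine ⟨e.symm b, ?_, by simp⟩
    rw [mem_fixC] at hb ⊢
    apply e.injective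
    have := he c (e.symm b)
    have h4 : e (ρA c (e.symm b)) = ρB c (e (e.symm b)) := this
    rw [h4, LinearEquiv.apply_symm_apply, hb]

end FixC

section Main

variable {p : ℕ} [hp : Fact p.Prime] {Γ : Type} [Group Γ] {𝓛 : LevelSys Γ}

/-- Invariance of `chi` under isomorphisms. -/
theorem chi_equiv {k : Type} [Field k] {A : Type} [AddCommGroup A] [Module k A]
    {ρA : Representation k Γ A} {B : Type} [AddCommGroup B] [Module k B]
    {ρB : Representation k Γ B} (e : A ≃ₗ[k] B) (he : Equivar ρA ρB e.toLinearMap) :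
    chi 𝓛 ρA = chi 𝓛 ρB := by
  have he' : Equivar ρB ρA e.symm.toLinearMap := by
    intro g b
    apply e.injective
    show e (e.symm (ρB g b)) = e (ρA g (e.symm b))
    have := he g (e.symm b)
    have h4 : e (ρA g (e.symm b)) = ρB g (e (e.symm b)) := this
    rw [h4, LinearEquiv.apply_symm_apply, LinearEquiv.apply_symm_apply]
  have h0 : finrank k ρA.invariants = finrank k ρB.invariants := by
    refine LinearEquiv.finrank_eq (LinearEquiv.ofSubmodules e _ _ ?_)
    ext b
    rw [Submodule.mem_map]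
    constructor
    · rintro ⟨a, ha, rfl⟩ g
      show ρB g (e.toLinearMap a) = e.toLinearMap a
      rw [← he, ha g]
    · intro hb
      refine ⟨e.symm b, fun g => ?_, by simp⟩
      have := he' g b
      show ρA g (e.symm.toLinearMap b) = e.symm.toLinearMap b
      rw [← this, hb g]
  have h1 : finrank k (H1 𝓛 ρA) = finrank k (H1 𝓛 ρB) := by
    refine LinearEquiv.finrank_eq (LinearEquiv.ofLinear (H1coef 𝓛 e.toLinearMap he)
      (H1coef 𝓛 e.symm.toLinearMap he') ?_ ?_)
    · apply LinearMap.ext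
      intro x
      obtain ⟨z, rfl⟩ := H1mk_surjective x
      show H1mk 𝓛 ρB _ = H1mk 𝓛 ρB z
      congr 1
      apply Subtype.ext
      funext g
      exact e.apply_symm_apply _
    · apply LinearMap.ext
      intro x
      obtain ⟨z, rfl⟩ := H1mk_surjective x
      show H1mk 𝓛 ρA _ = H1mk 𝓛 ρA z
      congr 1
      apply Subtype.ext
      funext g
      exact e.symm_apply_apply _
  have h2 : finrank k (H2 𝓛 ρA) = finrank k (H2 𝓛 ρB) := by
    refine LinearEquiv.finrank_eq (LinearEquiv.ofLinear (H2coef 𝓛 e.toLinearMap he)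
      (H2coef 𝓛 e.symm.toLinearMap he') ?_ ?_)
    · apply LinearMap.ext
      intro x
      obtain ⟨z, rfl⟩ := H2mk_surjective x
      show H2mk 𝓛 ρB _ = H2mk 𝓛 ρB z
      congr 1
      apply Subtype.ext
      funext g
      exact e.apply_symm_apply _
    · apply LinearMap.ext
      intro x
      obtain ⟨z, rfl⟩ := H2mk_surjective x
      show H2mk 𝓛 ρA _ = H2mk 𝓛 ρA z
      congr 1
      apply Subtype.ext
      funext g
      exact e.symm_apply_apply _
  rw [chi, chi, h0, h1, h2]

variable (V : Subgroup Γ) [V.Normal]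

/-- inflation of a representation of `Γ ⧸ V` -/
def infl {k : Type} [Field k] {M : Type} [AddCommGroup M] [Module k M]
    (σ : Representation k (Γ ⧸ V) M) : Representation k Γ M := σ.comp (QuotientGroup.mk' V)

lemma infl_discrete {k : Type} [Field k] {M : Type} [AddCommGroup M] [Module k M]
    (σ : Representation k (Γ ⧸ V) M) (hV : V ∈ 𝓛) : Discrete 𝓛 (infl V σ) := by
  intro m
  refine ⟨V, hV, fun s hs => ?_⟩
  show σ (QuotientGroup.mk' V s) m = m
  have : QuotientGroup.mk' V s = 1 := (QuotientGroup.eq_one_iff s).2 hs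
  rw [this, map_one]
  rfl

/-- the defect function -/
noncomputable def defect (𝓛 : LevelSys Γ) (c : Γ) (A : Rep.{0} (ZMod p) (Γ ⧸ V)) : ℤ :=
  chi 𝓛 (infl V A.ρ) + finrank (ZMod p) A - finrank (ZMod p) (fixC (infl V A.ρ) c)

theorem isAdditive_defect (hp2 : p ≠ 2) (c : Γ) (hc : c * c = 1) (hV : V ∈ 𝓛)
    (hfin : ∀ {M : Type} [AddCommGroup M] [Module (ZMod p) M] [FiniteDimensional (ZMod p) M]
      (ρ : Representation (ZMod p) Γ M), Discrete 𝓛 ρ → HFin 𝓛 ρ)
    (hR : RightEx (ZMod p) 𝓛) : IsAdditive (defect (p := p) V 𝓛 c) where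
  add := by
    intro A B C f g hB hinj hex hsurj
    have hA : FiniteDimensional (ZMod p) A := Module.Finite.of_injective f.hom.toLinearMap hinj
    have hC : FiniteDimensional (ZMod p) C := Module.Finite.of_surjective g.hom.toLinearMap hsurj
    have h : SES 𝓛 (infl V A.ρ) (infl V B.ρ) (infl V C.ρ) f.hom.toLinearMap g.hom.toLinearMap :=
      { inj := hinj
        surj := hsurj
        exact := fun b hb => (hex b).1 hb
        zero := fun a => (hex _).2 ⟨a, rfl⟩
        eqf := fun s m => Rep.hom_comm_apply f _ m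
        eqg := fun s m => Rep.hom_comm_apply g _ m
        disc := infl_discrete V B.ρ hV }
    have h1 := h.chi_add (hfin _ (infl_discrete V A.ρ hV)) (hfin _ (infl_discrete V C.ρ hV))
    have hs := hR (infl V B.ρ) (infl V C.ρ) h.disc _ h.eqg hsurj
    rw [LinearMap.range_eq_top.2 hs, finrank_top, sub_self, add_zero] at h1
    have h2 : (2 : ZMod p) ≠ 0 := by
      intro h0
      have h3 : ((2 : ℕ) : ZMod p) = 0 := by exact_mod_cast h0
      rw [ZMod.natCast_eq_zero_iff] at h3
      exact hp2 ((Nat.prime_dvd_prime_iff_eq hp.out Nat.prime_two).1 h3)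
    have h3 := finrank_fixC_add (k := ZMod p) c h2 hc h.eqf h.eqg h.inj h.exact h.zero h.surj
    have h4 : finrank (ZMod p) B = finrank (ZMod p) A + finrank (ZMod p) C := by
      have h5 := LinearMap.finrank_range_add_finrank_ker g.hom.toLinearMap
      have h6 : LinearMap.ker g.hom.toLinearMap = LinearMap.range f.hom.toLinearMap := by
        ext b
        rw [LinearMap.mem_ker, LinearMap.mem_range]
        exact hex b
      rw [h6, LinearMap.range_eq_top.2 hsurj, finrank_top,
        LinearMap.finrank_range_of_inj hinj] at h5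
      omega
    unfold defect
    rw [h1, h3, h4]
    push_cast
    ring

/-- the bijection `Γ/π⁻¹(D) ≃ (Γ/V)/D` -/
noncomputable def quotComapEquiv (D : Subgroup (Γ ⧸ V)) :
    (Γ ⧸ D.comap (QuotientGroup.mk' V)) ≃ ((Γ ⧸ V) ⧸ D) :=
  Equiv.ofBijective
    (Quotient.map' (QuotientGroup.mk' V) (fun a b hab => by
      rw [QuotientGroup.leftRel_apply] at hab ⊢
      rw [Subgroup.mem_comap, map_mul, map_inv] at hab
      exact hab)) (by
    constructor
    · intro x y
      refine Quotient.inductionOn₂' x y (fun a b hab => ?_)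
      have h1 : (Quotient.mk'' (QuotientGroup.mk' V a) : (Γ ⧸ V) ⧸ D) =
        Quotient.mk'' (QuotientGroup.mk' V b) := hab
      have h2 := Quotient.exact' h1
      rw [QuotientGroup.leftRel_apply] at h2
      refine Quotient.sound' ?_
      rw [QuotientGroup.leftRel_apply, Subgroup.mem_comap, map_mul, map_inv]
      exact h2
    · intro y
      refine Quotient.inductionOn' y (fun b => ?_)
      obtain ⟨a, rfl⟩ := QuotientGroup.mk'_surjective V b
      exact ⟨Quotient.mk'' a, rfl⟩)

theorem quotComapEquiv_smul (D : Subgroup (Γ ⧸ V)) (g : Γ)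
    (x : Γ ⧸ D.comap (QuotientGroup.mk' V)) :
    quotComapEquiv V D (g • x) = (QuotientGroup.mk' V g) • quotComapEquiv V D x := by
  refine Quotient.inductionOn' x (fun a => ?_)
  rfl

/-- **Reduction of the global Euler characteristic formula to cyclic groups of order prime to
`p`.** -/
theorem chi_eq_of_cyclic (hp2 : p ≠ 2) (c : Γ) (hc : c * c = 1) (hV : V ∈ 𝓛)
    (hfin : ∀ {M : Type} [AddCommGroup M] [Module (ZMod p) M] [FiniteDimensional (ZMod p) M]
      (ρ : Representation (ZMod p) Γ M), Discrete 𝓛 ρ → HFin 𝓛 ρ)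
    (hR : RightEx (ZMod p) 𝓛)
    (hcyc : ∀ U : Subgroup Γ, V ≤ U → ¬ p ∣ V.relIndex U →
      ∀ {M : Type} [AddCommGroup M] [Module (ZMod p) M] [FiniteDimensional (ZMod p) M]
        (ρ : Representation (ZMod p) Γ M), (∀ v ∈ V, ρ v = 1) →
        (chi 𝓛 (funRep (Γ ⧸ U) ρ) : ℤ) =
          finrank (ZMod p) (fixC (funRep (Γ ⧸ U) ρ) c) - finrank (ZMod p) (Γ ⧸ U → M))
    {M : Type} [AddCommGroup M] [Module (ZMod p) M] [FiniteDimensional (ZMod p) M]
    (ρ : Representation (ZMod p) Γ M) (hρ : ∀ v ∈ V, ρ v = 1) :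
    (chi 𝓛 ρ : ℤ) = finrank (ZMod p) (fixC ρ c) - finrank (ZMod p) M := by
  have hVfi := LevelSys.finiteIndex hV
  have : Finite (Γ ⧸ V) := inferInstance
  -- descend `ρ` to the quotient
  let σ : Representation (ZMod p) (Γ ⧸ V) M := QuotientGroup.lift V ρ (fun v hv => hρ v hv)
  have hσ : infl V σ = ρ := by
    apply MonoidHom.ext
    intro g
    rfl
  have hadd := isAdditive_defect V hp2 c hc hV hfin hR
  have key : defect (p := p) V 𝓛 c (Rep.of σ) = 0 := by
    have hfd : FiniteDimensional (ZMod p) (Rep.of σ) := inferInstanceAs (FiniteDimensional _ M)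
    refine hadd.eq_zero_of_forall_cyclic (Rep.of σ) (fun D hD hpD => ?_)
    -- the subgroup `U`
    let U : Subgroup Γ := D.comap (QuotientGroup.mk' V)
    have hVU : V ≤ U := by
      intro v hv
      rw [Subgroup.mem_comap]
      have : QuotientGroup.mk' V v = 1 := (QuotientGroup.eq_one_iff v).2 hv
      rw [this]
      exact D.one_mem
    have hrel : V.relIndex U = Nat.card D := by
      have h1 : V = (⊥ : Subgroup (Γ ⧸ V)).comap (QuotientGroup.mk' V) := by
        rw [MonoidHom.comap_bot, QuotientGroup.ker_mk']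
      have h2 : V.relIndex U = ((⊥ : Subgroup (Γ ⧸ V)).comap (QuotientGroup.mk' V)).relIndex U := by
        rw [← h1]
      rw [h2, Subgroup.relIndex_comap, Subgroup.map_comap_eq_self_of_surjective
        (QuotientGroup.mk'_surjective V), Subgroup.relIndex_bot_left]
    -- the equivariant bijection
    let ε : (Γ ⧸ U) ≃ ((Γ ⧸ V) ⧸ D) := quotComapEquiv V D
    have hε : ∀ (g : Γ) (x : Γ ⧸ U), ε (g • x) = (QuotientGroup.mk' V g) • ε x :=
      quotComapEquiv_smul V D
    have hUfin : Finite (Γ ⧸ U) := Finite.of_equiv _ ε.symm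
    let e : ((Γ ⧸ V) ⧸ D → M) ≃ₗ[ZMod p] (Γ ⧸ U → M) := LinearEquiv.funCongrLeft (ZMod p) M ε
    have he : Equivar (infl V (funRho ((Γ ⧸ V) ⧸ D) (Rep.of σ))) (funRep (Γ ⧸ U) ρ)
        e.toLinearMap := by
      intro g f
      funext x
      show σ (QuotientGroup.mk' V g) (f ((QuotientGroup.mk' V g)⁻¹ • ε x)) =
        ρ g (f (ε (g⁻¹ • x)))
      rw [hε, map_inv]
      rfl
    have h1 := hcyc U hVU (by rw [hrel]; exact hpD) ρ hρ
    have h2 := chi_equiv (𝓛 := 𝓛) e he
    have h3 := finrank_fixC_equiv c e he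
    have h4 : finrank (ZMod p) ((Γ ⧸ V) ⧸ D → M) = finrank (ZMod p) (Γ ⧸ U → M) := e.finrank_eq
    show chi 𝓛 (infl V (funRho ((Γ ⧸ V) ⧸ D) (Rep.of σ))) +
      finrank (ZMod p) ((Γ ⧸ V) ⧸ D → M) -
      finrank (ZMod p) (fixC (infl V (funRho ((Γ ⧸ V) ⧸ D) (Rep.of σ))) c) = 0
    rw [h2, h3, h4, h1]
    ring
  have h5 : chi 𝓛 (infl V σ) + finrank (ZMod p) M - finrank (ZMod p) (fixC (infl V σ) c) = 0 := key
  rw [hσ] at h5
  linarith

end Main

end Fermat.Agent.GW
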