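import Fermat.Agent.GW.Orb
import Fermat.Agent.GW.GlobalEuler

/-!
# The Euler characteristic of `Fun(G/U, M)` : abstract form

`T` a `PlaceData` over `ZMod p`, `V ≤ U` with `V` normal in `G`, `p ∤ [U : V]`, `M` trivial on `V`.
Inputs: `T.ExactX`, `T.LocInj`, `Ш² = ker(infl)`, the orbit structure of the finite and infinite
places, and the identity `(★)` of characteristic polynomials.
-/

set_option autoImplicit false

namespace Fermat.Agent.GW

open Fermat.Agent.PT Module CategoryTheory Polynomial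

section H2Count

variable {k G : Type} [Field k] [Group G] (T : PlaceData k G)
variable {M : Type} [AddCommGroup M] [Module k M] [FiniteDimensional k M]
  (ρ : Representation k G M)

/-- the kernel of the pairing `H²(G, M) × X(M) → k` is `Ш²`. -/
lemma mem_sha2_iff_gam (hL : T.LocInj ρ) (x : H2 T.𝓛 ρ) :
    x ∈ T.sha2 ρ ↔ ∀ c : T.X ρ, T.gam c x = 0 := by
  classical
  rw [T.mem_sha2]
  constructor
  · intro h c
    rw [T.gam_apply]
    exact Finset.sum_eq_zero fun v _ => by rw [h v, map_zero]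
  · intro h v
    refine hL v _ fun f => ?_
    have h1 := h (Pi.single v f)
    rw [T.gam_apply, Finset.sum_eq_single v] at h1
    · rwa [Pi.single_eq_same] at h1
    · intro w _ hw
      rw [Pi.single_eq_of_ne hw, map_zero, LinearMap.zero_apply]
    · intro h2
      exact absurd (Finset.mem_univ v) h2

/-- finiteness of `H²` and the dimension count. -/
theorem finrank_H2 (hR : T.Recip) (hE : T.ExactX ρ) (hL : T.LocInj ρ)
    [FiniteDimensional k (T.sha2 ρ)] :
    FiniteDimensional k (H2 T.𝓛 ρ) ∧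
    finrank k (H2 T.𝓛 ρ) + finrank k (homG T.χ ρ) =
      finrank k (T.sha2 ρ) + ∑ v, finrank k (T.homv ρ v) := by
  -- the map `H² → X^*`
  let Φ : H2 T.𝓛 ρ →ₗ[k] Module.Dual k (T.X ρ) := (T.gam (ρ := ρ)).flip
  have hΦ : ∀ x c, Φ x c = T.gam c x := fun x c => rfl
  have hker : LinearMap.ker Φ = T.sha2 ρ := by
    ext x
    rw [LinearMap.mem_ker, mem_sha2_iff_gam T ρ hL]
    constructor
    · intro h c
      rw [← hΦ, h]
      rfl
    · intro h
      apply LinearMap.ext
      intro c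
      exact h c
  have hfd : FiniteDimensional k (H2 T.𝓛 ρ) := by
    have h1 : Module.Finite k (LinearMap.ker Φ) := by
      rw [hker]
      infer_instance
    have h3 : Module.Finite k (H2 T.𝓛 ρ ⧸ LinearMap.ker Φ) :=
      Module.Finite.equiv Φ.quotKerEquivRange.symm
    exact Module.Finite.of_submodule_quotient (LinearMap.ker Φ)
  refine ⟨hfd, ?_⟩
  have h1 := LinearMap.finrank_range_add_finrank_ker Φ
  rw [hker] at h1
  -- rank of `gam`
  have h2 := LinearMap.finrank_range_add_finrank_ker (T.gam (ρ := ρ))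
  have h3 : LinearMap.ker (T.gam (ρ := ρ)) = LinearMap.range (T.diag (ρ := ρ)) := by
    ext c
    rw [LinearMap.mem_ker, LinearMap.mem_range]
    constructor
    · exact hE c
    · rintro ⟨φ, rfl⟩
      exact T.gam_diag hR φ
  have h4 : Function.Injective (T.diag (ρ := ρ)) := by
    intro φ φ' h
    obtain ⟨v⟩ := T.ne
    apply Subtype.ext
    exact congrArg (fun d : T.X ρ => (d v : Module.Dual k M)) h
  rw [h3, LinearMap.finrank_range_of_inj h4] at h2
  have h5 : finrank k (T.X ρ) = ∑ v, finrank k (T.homv ρ v) := finrank_pi_fintype k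
  have h6 : LinearMap.range (T.gam (ρ := ρ)) = LinearMap.range Φ.dualMap := by
    ext f
    constructor
    · rintro ⟨c, rfl⟩
      exact ⟨Module.Dual.eval k _ c, rfl⟩
    · rintro ⟨c, rfl⟩
      obtain ⟨c, rfl⟩ := (Module.evalEquiv k (T.X ρ)).surjective c
      exact ⟨c, rfl⟩
  have h7 : finrank k (LinearMap.range (T.gam (ρ := ρ))) = finrank k (LinearMap.range Φ) := by
    rw [h6, LinearMap.finrank_range_dualMap_eq_finrank_range]
  omega

end H2Count

section Prod

variable {k : Type} [Field k] {G : Type} [Group G]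
variable {A : Type} [AddCommGroup A] [Module k A]
variable {B : Type} [AddCommGroup B] [Module k B]

/-- the product of two representations -/
def prodRep (ρA : Representation k G A) (ρB : Representation k G B) :
    Representation k G (A × B) where
  toFun g := (ρA g).prodMap (ρB g)
  map_one' := by
    rw [map_one, map_one]
    rfl
  map_mul' g h := by
    rw [map_mul, map_mul]
    rfl

lemma prodRep_apply (ρA : Representation k G A) (ρB : Representation k G B) (g : G) :
    prodRep ρA ρB g = (ρA g).prodMap (ρB g) := rfl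

lemma IsAdditive.prod {a : Rep.{0} k G → ℤ} (ha : IsAdditive a)
    (ρA : Representation k G A) (ρB : Representation k G B) [FiniteDimensional k A]
    [FiniteDimensional k B] :
    a (Rep.of (prodRep ρA ρB)) = a (Rep.of ρA) + a (Rep.of ρB) := by
  let f : Rep.of ρA ⟶ Rep.of (prodRep ρA ρB) := Rep.ofHom
    { toFun := fun x => (x, 0)
      map_add' := fun x y => by simp
      map_smul' := fun c x => by simp
      isIntertwining' := fun g => by
        refine LinearMap.ext fun x => ?_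
        show ((ρA g x, 0) : A × B) = (ρA g x, ρB g 0)
        rw [map_zero] }
  let h : Rep.of (prodRep ρA ρB) ⟶ Rep.of ρB := Rep.ofHom
    { toFun := fun x => x.2
      map_add' := fun x y => by simp
      map_smul' := fun c x => by simp
      isIntertwining' := fun g => by
        refine LinearMap.ext fun x => ?_
        rfl }
  refine ha.add _ _ _ f h (inferInstanceAs (FiniteDimensional k (A × B))) ?_ ?_ ?_
  · intro x y hxy
    exact congrArg (fun t : A × B => t.1) hxy
  · intro x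
    constructor
    · intro hx
      refine ⟨x.1, ?_⟩
      show ((x.1, 0) : A × B) = x
      exact Prod.ext rfl hx.symm
    · rintro ⟨y, rfl⟩
      rfl
  · intro y
    exact ⟨(0, y), rfl⟩

end Prod

section BN

variable {p : ℕ} [hp : Fact p.Prime] {G : Type} [Group G] {V : Subgroup G} [V.Normal]
  {U : Subgroup G}

lemma card_map_mk' : Nat.card (U.map (QuotientGroup.mk' V)) = V.relIndex U := by
  rw [← Subgroup.relIndex_bot_left (U.map (QuotientGroup.mk' V)), ← Subgroup.relIndex_comap,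
    MonoidHom.comap_bot, QuotientGroup.ker_mk']

variable {Q : Type} [AddCommGroup Q] [Module (ZMod p) Q] [FiniteDimensional (ZMod p) Q]
  (ρQ : Representation (ZMod p) G Q) (hQ : ∀ v ∈ V, ρQ v = 1)
variable {A B : Type} [AddCommGroup A] [Module (ZMod p) A] [FiniteDimensional (ZMod p) A]
  [AddCommGroup B] [Module (ZMod p) B] [FiniteDimensional (ZMod p) B]
  (τA : Representation (ZMod p) G A) (τB : Representation (ZMod p) G B)

variable (V) in
lemma prodRep_triv (hA : ∀ v ∈ V, τA v = 1) (hB : ∀ v ∈ V, τB v = 1) :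
    ∀ v ∈ V, prodRep τA τB v = 1 := by
  intro v hv
  rw [prodRep_apply, hA v hv, hB v hv]
  rfl

include hQ in
/-- additivity of `dim Hom_U(Q, -)` on products. -/
lemma finrank_homInv_prod [Finite (G ⧸ V)] (hD : (Nat.card (U.map (QuotientGroup.mk' V)) : ZMod p) ≠ 0)
    (hA : ∀ v ∈ V, τA v = 1) (hB : ∀ v ∈ V, τB v = 1) :
    finrank (ZMod p) (homInv ρQ (prodRep τA τB) U) =
      finrank (ZMod p) (homInv ρQ τA U) + finrank (ZMod p) (homInv ρQ τB U) := by
  have ha := (isAdditive_homInv (U.map (QuotientGroup.mk' V)) hD (quotRep V ρQ hQ)).prod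
    (quotRep V τA hA) (quotRep V τB hB)
  have h1 : prodRep (quotRep V τA hA) (quotRep V τB hB) =
      quotRep V (prodRep τA τB) (prodRep_triv V τA τB hA hB) := by
    apply MonoidHom.ext
    intro g
    obtain ⟨g, rfl⟩ := QuotientGroup.mk_surjective g
    rfl
  rw [h1] at ha
  have h2 : ∀ {Y : Type} [AddCommGroup Y] [Module (ZMod p) Y] (τ : Representation (ZMod p) G Y)
      (hτ : ∀ v ∈ V, τ v = 1), (finrank (ZMod p) (homInv (quotRep V ρQ hQ)
        (Rep.of (quotRep V τ hτ)).ρ (U.map (QuotientGroup.mk' V))) : ℤ) =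
        finrank (ZMod p) (homInv ρQ τ U) := by
    intro Y _ _ τ hτ
    show (finrank (ZMod p) (homInv (quotRep V ρQ hQ) (quotRep V τ hτ) _) : ℤ) = _
    rw [homInv_quotRep]
  rw [h2, h2, h2] at ha
  exact_mod_cast ha

include hQ in
/-- Brauer-Nesbitt for `dim Hom_U(Q, -)`. -/
lemma finrank_homInv_eq_of_charpoly [Finite (G ⧸ V)]
    (hD : (Nat.card (U.map (QuotientGroup.mk' V)) : ZMod p) ≠ 0)
    (hA : ∀ v ∈ V, τA v = 1) (hB : ∀ v ∈ V, τB v = 1)
    (h : ∀ g, (τA g).charpoly = (τB g).charpoly) :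
    finrank (ZMod p) (homInv ρQ τA U) = finrank (ZMod p) (homInv ρQ τB U) := by
  have ha := (isAdditive_homInv (U.map (QuotientGroup.mk' V)) hD
    (quotRep V ρQ hQ)).eq_of_charpoly_eq (Rep.of (quotRep V τA hA)) (Rep.of (quotRep V τB hB))
    (fun g => by
      obtain ⟨g, rfl⟩ := QuotientGroup.mk_surjective g
      exact h g)
  have h2 : ∀ {Y : Type} [AddCommGroup Y] [Module (ZMod p) Y] (τ : Representation (ZMod p) G Y)
      (hτ : ∀ v ∈ V, τ v = 1), (finrank (ZMod p) (homInv (quotRep V ρQ hQ)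
        (Rep.of (quotRep V τ hτ)).ρ (U.map (QuotientGroup.mk' V))) : ℤ) =
        finrank (ZMod p) (homInv ρQ τ U) := by
    intro Y _ _ τ hτ
    show (finrank (ZMod p) (homInv (quotRep V ρQ hQ) (quotRep V τ hτ) _) : ℤ) = _
    rw [homInv_quotRep]
  rw [h2, h2] at ha
  exact_mod_cast ha

variable {A₁ A₂ B₁ B₂ B₃ B₄ : Type}
  [AddCommGroup A₁] [Module (ZMod p) A₁] [FiniteDimensional (ZMod p) A₁]
  [AddCommGroup A₂] [Module (ZMod p) A₂] [FiniteDimensional (ZMod p) A₂]
  [AddCommGroup B₁] [Module (ZMod p) B₁] [FiniteDimensional (ZMod p) B₁]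
  [AddCommGroup B₂] [Module (ZMod p) B₂] [FiniteDimensional (ZMod p) B₂]
  [AddCommGroup B₃] [Module (ZMod p) B₃] [FiniteDimensional (ZMod p) B₃]
  [AddCommGroup B₄] [Module (ZMod p) B₄] [FiniteDimensional (ZMod p) B₄]
  (α₁ : Representation (ZMod p) G A₁) (α₂ : Representation (ZMod p) G A₂)
  (β₁ : Representation (ZMod p) G B₁) (β₂ : Representation (ZMod p) G B₂)
  (β₃ : Representation (ZMod p) G B₃) (β₄ : Representation (ZMod p) G B₄)

include hQ in
lemma finrank_homInv_star [Finite (G ⧸ V)]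
    (hD : (Nat.card (U.map (QuotientGroup.mk' V)) : ZMod p) ≠ 0)
    (h1 : ∀ v ∈ V, α₁ v = 1) (h2 : ∀ v ∈ V, α₂ v = 1) (k1 : ∀ v ∈ V, β₁ v = 1)
    (k2 : ∀ v ∈ V, β₂ v = 1) (k3 : ∀ v ∈ V, β₃ v = 1) (k4 : ∀ v ∈ V, β₄ v = 1)
    (h : ∀ g, (α₁ g).charpoly * (α₂ g).charpoly =
      (β₁ g).charpoly * ((β₂ g).charpoly * ((β₃ g).charpoly * (β₄ g).charpoly))) :
    finrank (ZMod p) (homInv ρQ α₁ U) + finrank (ZMod p) (homInv ρQ α₂ U) =
      finrank (ZMod p) (homInv ρQ β₁ U) + (finrank (ZMod p) (homInv ρQ β₂ U) +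
        (finrank (ZMod p) (homInv ρQ β₃ U) + finrank (ZMod p) (homInv ρQ β₄ U))) := by
  have t3 := prodRep_triv V β₃ β₄ k3 k4
  have t2 := prodRep_triv V β₂ (prodRep β₃ β₄) k2 t3
  rw [← finrank_homInv_prod ρQ hQ α₁ α₂ hD h1 h2, ← finrank_homInv_prod ρQ hQ β₃ β₄ hD k3 k4,
    ← finrank_homInv_prod ρQ hQ β₂ _ hD k2 t3, ← finrank_homInv_prod ρQ hQ β₁ _ hD k1 t2]
  refine finrank_homInv_eq_of_charpoly ρQ hQ _ _ hD (prodRep_triv V _ _ h1 h2)
    (prodRep_triv V _ _ k1 t2) (fun g => ?_)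
  rw [prodRep_apply, prodRep_apply, prodRep_apply, prodRep_apply, LinearMap.charpoly_prodMap,
    LinearMap.charpoly_prodMap, LinearMap.charpoly_prodMap, LinearMap.charpoly_prodMap]
  exact h g

end BN

section Main

variable {p : ℕ} [hp : Fact p.Prime] {G : Type} [Group G] (T : PlaceData (ZMod p) G)
  {V : Subgroup G} [V.Normal] {U : Subgroup G}
  {M : Type} [AddCommGroup M] [Module (ZMod p) M] [FiniteDimensional (ZMod p) M]
  (ρ : Representation (ZMod p) G M)

lemma charpoly_permRep_unit (g : G) :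
    (permRep (ZMod p) G Unit g).charpoly = X - C 1 := by
  have h1 : permRep (ZMod p) G Unit g = 1 := by
    apply LinearMap.ext
    intro f
    funext x
    rfl
  rw [h1, LinearMap.charpoly_one]
  simp

lemma linHom_triv (χ : G →* (ZMod p)ˣ) (hχ : ∀ v ∈ V, χ v = 1) (hρ : ∀ v ∈ V, ρ v = 1) :
    ∀ v ∈ V, Representation.linHom ρ (chiRep χ) v = 1 := by
  intro v hv
  apply LinearMap.ext
  intro q
  apply LinearMap.ext
  intro m
  show chiRep χ v (q (ρ v⁻¹ m)) = q m
  rw [chiRep_apply, hχ v hv, hρ _ (V.inv_mem hv)]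
  simp

lemma chiRep_triv (χ : G →* (ZMod p)ˣ) (hχ : ∀ v ∈ V, χ v = 1) :
    ∀ v ∈ V, chiRep χ v = 1 := by
  intro v hv
  apply LinearMap.ext
  intro x
  rw [chiRep_apply, hχ v hv]
  simp

variable (hVU : V ≤ U) (hD : (Nat.card (U.map (QuotientGroup.mk' V)) : ZMod p) ≠ 0)
  (χ : G →* (ZMod p)ˣ) (hχ : ∀ v ∈ V, χ v = 1) (hρ : ∀ v ∈ V, ρ v = 1) [Finite (G ⧸ V)]

include hVU hD hχ hρ in
lemma finrank_perm_unit : finrank (ZMod p) (homInv (Representation.linHom ρ (chiRep χ))
    (permRep (ZMod p) G Unit) U) = finrank (ZMod p) (homG χ (funRep (G ⧸ U) ρ)) := by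
  have hUfi : Finite (G ⧸ U) := by
    have : V.FiniteIndex := Subgroup.finiteIndex_of_finite_quotient
    have := Subgroup.finiteIndex_of_le hVU
    infer_instance
  have := Fintype.ofFinite (G ⧸ U)
  have hQ := linHom_triv ρ χ hχ hρ
  rw [finrank_homInv_permRep hD (fun v _ x => rfl) _ hQ,
    finrank_eqFun _ U (x := fun _ : Unit => ()) ⟨fun y => ⟨(), 1, rfl⟩, fun _ _ _ _ => rfl⟩
      (fun _ => ⊤) (fun _ => by
        rw [top_sup_eq, eq_top_iff]
        intro g _
        rfl) hVU hQ]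
  rw [Fintype.sum_unique, ← finrank_homP_funRep]
  have : homP χ ⊤ (funRep (G ⧸ U) ρ) = homG χ (funRep (G ⧸ U) ρ) := by
    ext f
    exact ⟨fun h g m => h g trivial m, fun h g _ m => h g m⟩
  rw [this]

include hVU hD hχ hρ in
lemma finrank_perm_orbits {X₁ J : Type} [Fintype J] [MulAction G X₁] [Finite X₁] {x₁ : J → X₁}
    (hx₁ : OrbitReps G x₁) (P : J → Subgroup G)
    (hs₁ : ∀ v, MulAction.stabilizer G (x₁ v) = P v ⊔ V) (hX₁ : TrivOn V X₁) :
    finrank (ZMod p) (homInv (Representation.linHom ρ (chiRep χ))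
      (permRep (ZMod p) G X₁) U) =
      ∑ v, finrank (ZMod p) (homP χ (P v) (funRep (G ⧸ U) ρ)) := by
  have hUfi : Finite (G ⧸ U) := by
    have : V.FiniteIndex := Subgroup.finiteIndex_of_finite_quotient
    have := Subgroup.finiteIndex_of_le hVU
    infer_instance
  have := Fintype.ofFinite (G ⧸ U)
  have hQ := linHom_triv ρ χ hχ hρ
  rw [finrank_homInv_permRep hD hX₁ _ hQ, finrank_eqFun _ U hx₁ P hs₁ hVU hQ]
  refine Finset.sum_congr rfl fun v _ => ?_
  rw [← finrank_homP_funRep]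

end Main

end Fermat.Agent.GW
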