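import Fermat.Agent.GW.Units

/-!
# Equivariant `S`-unit theorem, characteristic polynomial form
-/

set_option autoImplicit false
set_option linter.unusedSectionVars false

namespace Fermat.Agent.GW.EU

open Polynomial TensorProduct Function NumberField IsDedekindDomain Fermat.Agent.GW.Fg
  Fermat.Agent.CFT.Global Fermat.Agent.CFT.SUnits Fermat.Agent.CFT.Places

section FiniteGroup

variable {A : Type*} [AddCommGroup A] [Finite A] [Module.Finite ℤ A]

lemma subsingleton_tensor_of_finite (F : Type*) [Field F] [CharZero F] :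
    Subsingleton (F ⊗[ℤ] A) := by
  refine ⟨fun x y => ?_⟩
  have key : ∀ z : F ⊗[ℤ] A, z = 0 := by
    intro z
    induction z using TensorProduct.induction_on with
    | zero => rfl
    | tmul a x =>
      have hn : (Nat.card A : F) ≠ 0 := by
        exact_mod_cast (Nat.card_pos (α := A)).ne'
      have h1 : a = (Nat.card A : ℤ) • (a / Nat.card A) := by
        rw [zsmul_eq_mul]
        field_simp
        simp
      rw [h1, TensorProduct.smul_tmul, natCast_zsmul, card_nsmul_eq_zero', TensorProduct.tmul_zero]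
    | add z w hz hw => rw [hz, hw, add_zero]
  rw [key x, key y]

lemma fgCharpoly_of_finite (φ : A →ₗ[ℤ] A) : fgCharpoly φ = 1 := by
  apply fgCharpoly_eq φ ℚ
  have := subsingleton_tensor_of_finite (A := A) ℚ
  rw [Polynomial.map_one]
  symm
  have h1 := (φ.baseChange ℚ).charpoly_natDegree
  rw [Module.finrank_zero_of_subsingleton] at h1
  exact ((LinearMap.charpoly_monic (φ.baseChange ℚ)).natDegree_eq_zero).mp h1

variable {p : ℕ} [Fact p.Prime] {V₁ V₂ : Type*}
  [AddCommGroup V₁] [Module (ZMod p) V₁] [FiniteDimensional (ZMod p) V₁]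
  [AddCommGroup V₂] [Module (ZMod p) V₂] [FiniteDimensional (ZMod p) V₂]

/-- For a finite group, `A/p` and `A[p]` have the same characteristic polynomials. -/
theorem charpoly_finite_modP (φ : A →ₗ[ℤ] A) (q : A →+ V₁) (hq : ModP p q)
    (f₁ : V₁ →ₗ[ZMod p] V₁) (hf₁ : ∀ x, f₁ (q x) = q (φ x))
    (i : V₂ →+ A) (hi : TorP p i) (f₂ : V₂ →ₗ[ZMod p] V₂) (hf₂ : ∀ v, i (f₂ v) = φ (i v)) :
    f₁.charpoly = f₂.charpoly := by
  rw [charpoly_modP φ q hq f₁ hf₁ i hi f₂ hf₂, fgCharpoly_of_finite, Polynomial.map_one, mul_one]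

end FiniteGroup

section SUnits

variable {K L : Type*} [Field K] [NumberField K] [Field L] [NumberField L] [Algebra K L]

/-- the permutation of the finite places -/
noncomputable def conjPerm (σ : L ≃ₐ[K] L) : Equiv.Perm (HeightOneSpectrum (𝓞 L)) :=
  HeightOneSpectrum.equivOfRingEquiv (RingOfIntegers.mapRingEquiv (σ : L ≃+* L))

lemma conjPerm_apply (σ : L ≃ₐ[K] L) (w : HeightOneSpectrum (𝓞 L)) : conjPerm σ w = conj σ w := rfl

lemma conjPerm_symm_apply (σ : L ≃ₐ[K] L) (w : HeightOneSpectrum (𝓞 L)) :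
    (conjPerm σ).symm w = conj σ⁻¹ w := by
  rw [Equiv.symm_apply_eq, conjPerm_apply, ← Fermat.Agent.CFT.Places.conj_mul, mul_inv_cancel, conj_one]

variable (S : Finset (HeightOneSpectrum (𝓞 L))) (σ : L ≃ₐ[K] L)
  (hS : ∀ w, conjPerm σ w ∈ S ↔ w ∈ S)

/-- the permutation of `S` -/
noncomputable def permS : Equiv.Perm S := (conjPerm σ).subtypePerm hS

lemma permS_symm_apply (w : S) :
    ((permS S σ hS).symm w : HeightOneSpectrum (𝓞 L)) = conj σ⁻¹ (w : HeightOneSpectrum (𝓞 L)) := by
  rw [← conjPerm_symm_apply]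
  rfl

lemma ord_map (v : HeightOneSpectrum (𝓞 L)) (x : Lˣ) :
    ord v (Units.map (σ : L →* L) x) = ord (conj σ⁻¹ v) x := by
  have h1 : v = conj σ (conj σ⁻¹ v) := by
    rw [← Fermat.Agent.CFT.Places.conj_mul, mul_inv_cancel, conj_one]
  have h2 := valuation_conj σ (conj σ⁻¹ v) (x : L)
  rw [← h1] at h2
  have h3 : v.valuation L ((Units.map (σ : L →* L) x : Lˣ) : L) = v.valuation L (σ (x : L)) := rfl
  rw [← h3, valuation_eq_exp_neg_ord, valuation_eq_exp_neg_ord, WithZero.exp_inj] at h2
  omega

include hS in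
lemma map_mem_E {x : Lˣ} (hx : x ∈ E S) : Units.map (σ : L →* L) x ∈ E S := by
  rw [mem_E] at hx ⊢
  intro v hv
  rw [ord_map]
  apply hx
  intro h
  apply hv
  have h2 := (hS (conj σ⁻¹ v)).mpr h
  rwa [conjPerm_apply, ← Fermat.Agent.CFT.Places.conj_mul, mul_inv_cancel, conj_one] at h2

/-- the action of `σ` on the `S`-units -/
noncomputable def sAct : Additive (E S) →ₗ[ℤ] Additive (E S) :=
  (MonoidHom.toAdditive (((Units.map (σ : L →* L)).comp (E S).subtype).codRestrict (E S)
    (fun x => map_mem_E S σ hS x.2) : E S →* E S)).toIntLinearMap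

lemma sAct_apply (x : Additive (E S)) :
    (((sAct S σ hS x).toMul : E S) : Lˣ) = Units.map (σ : L →* L) (x.toMul : Lˣ) := rfl

lemma ordVec_sAct (x : Additive (E S)) :
    ordVec S (sAct S σ hS x) = permMap ℤ (permS S σ hS) (ordVec S x) := by
  funext v
  rw [permMap_apply, ordVec_apply, ordVec_apply, permS_symm_apply]
  exact ord_map σ v _

/-- the inclusion of units in `S`-units -/
noncomputable def unitsIncl : Additive (𝓞 L)ˣ →ₗ[ℤ] Additive (E S) :=
  (MonoidHom.toAdditive (unitsToSUnits S)).toIntLinearMap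

lemma unitsIncl_act (x : Additive (𝓞 L)ˣ) :
    unitsIncl S (unitsAct σ x) = sAct S σ hS (unitsIncl S x) := by
  apply Additive.toMul.injective
  apply Subtype.ext
  apply Units.ext
  rfl

lemma unitsIncl_injective : Injective (unitsIncl S) := by
  intro x y h
  have := unitsToSUnits_injective S (Additive.ofMul.injective h)
  exact Additive.toMul.injective this

lemma ordVec_baseChange_surjective : Surjective ((ordVec S).baseChange ℝ) := by
  classical
  rw [← LinearMap.range_eq_top, eq_top_iff]
  rintro z -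
  induction z using TensorProduct.induction_on with
  | zero => exact zero_mem _
  | add z w hz hw => exact add_mem hz hw
  | tmul a f =>
    have h1 : f = ∑ v : S, f v • (Pi.single v (1 : ℤ) : S → ℤ) := by
      funext w
      rw [Finset.sum_apply]
      simp [Pi.single_apply]
    rw [h1, TensorProduct.tmul_sum]
    refine sum_mem fun v _ => ?_
    obtain ⟨y, hy⟩ := exists_div_eq_single L (v : HeightOneSpectrum (𝓞 L))
    have hyS : y ∈ E S := by
      rw [mem_E]
      intro w hw
      rw [← div_apply, hy, Finsupp.single_eq_of_ne]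
      rintro rfl
      exact hw v.2
    have h2 : ordVec S (Additive.ofMul ⟨y, hyS⟩) =
        (classNumber L : ℤ) • (Pi.single v (1 : ℤ) : S → ℤ) := by
      funext w
      rw [ordVec_apply]
      change ord (w : HeightOneSpectrum (𝓞 L)) y = _
      rw [← div_apply, hy, Pi.smul_apply]
      by_cases hwv : w = v
      · subst hwv
        simp
      · rw [Pi.single_eq_of_ne hwv, Finsupp.single_eq_of_ne, smul_zero]
        intro h
        exact hwv (Subtype.ext h)
    have hcn : (classNumber L : ℝ) ≠ 0 := by exact_mod_cast classNumber_ne_zero L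
    refine ⟨(a * f v / classNumber L) ⊗ₜ[ℤ] Additive.ofMul ⟨y, hyS⟩, ?_⟩
    rw [LinearMap.baseChange_tmul, h2]
    refine (TensorProduct.smul_tmul (classNumber L : ℤ) (a * f v / classNumber L)
      (Pi.single v (1 : ℤ) : S → ℤ)).symm.trans ?_
    refine Eq.trans ?_ (TensorProduct.smul_tmul (f v) a (Pi.single v (1 : ℤ) : S → ℤ))
    congr 1
    rw [zsmul_eq_mul, zsmul_eq_mul]
    push_cast
    field_simp

theorem charpoly_sunits_real :
    ((sAct S σ hS).baseChange ℝ).charpoly =
      ((unitsAct σ).baseChange ℝ).charpoly * (permMap ℝ (permS S σ hS)).charpoly := by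
  have h1 : (permMap ℝ (permS S σ hS)).charpoly =
      ((permMap ℤ (permS S σ hS)).baseChange ℝ).charpoly := by
    rw [LinearMap.charpoly_baseChange, charpoly_permMap_map]
    rfl
  rw [h1]
  refine charpoly_eq_mul_of_exact ((unitsIncl S).baseChange ℝ) ((ordVec S).baseChange ℝ)
    ?_ ?_ (ordVec_baseChange_surjective S) _ _ _ ?_ ?_
  · exact Module.Flat.lTensor_preserves_injective_linearMap (M := ℝ) _ (unitsIncl_injective S)
  · have hex : Exact (unitsIncl S) (ordVec S) := by
      rw [LinearMap.exact_iff]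
      exact ker_ordVec S
    exact Module.Flat.lTensor_exact ℝ hex
  · rw [← LinearMap.baseChange_comp, ← LinearMap.baseChange_comp]
    exact congrArg _ (LinearMap.ext fun x => unitsIncl_act S σ hS x)
  · rw [← LinearMap.baseChange_comp, ← LinearMap.baseChange_comp]
    exact congrArg _ (LinearMap.ext fun x => ordVec_sAct S σ hS x)

/-- **Equivariant `S`-unit theorem** over `ℤ`. -/
theorem fgCharpoly_sunits :
    fgCharpoly (sAct S σ hS) * (X - C 1) =
      (permMap ℤ (permS S σ hS)).charpoly * (permMap ℤ (permInf σ)).charpoly := by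
  apply Polynomial.map_injective (Int.castRingHom ℝ) Int.cast_injective
  rw [Polynomial.map_mul, Polynomial.map_mul, fgCharpoly_map, charpoly_sunits_real,
    ← charpoly_permMap_map, ← charpoly_permMap_map, charpoly_units]
  simp only [Polynomial.map_sub, map_X, map_one, Polynomial.map_one]
  ring

variable {p : ℕ} [Fact p.Prime] {V₁ V₂ : Type*}
  [AddCommGroup V₁] [Module (ZMod p) V₁] [FiniteDimensional (ZMod p) V₁]
  [AddCommGroup V₂] [Module (ZMod p) V₂] [FiniteDimensional (ZMod p) V₂]

/-- **Equivariant `S`-unit theorem** mod `p`: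
`charpoly(σ | E/E^p) * (X - 1) = charpoly(σ | E[p]) * charpoly(σ | k^S) * charpoly(σ | k^∞)`. -/
theorem charpoly_sunits_modP (q : Additive (E S) →+ V₁) (hq : ModP p q)
    (f₁ : V₁ →ₗ[ZMod p] V₁) (hf₁ : ∀ x, f₁ (q x) = q (sAct S σ hS x))
    (i : V₂ →+ Additive (E S)) (hi : TorP p i) (f₂ : V₂ →ₗ[ZMod p] V₂)
    (hf₂ : ∀ v, i (f₂ v) = sAct S σ hS (i v)) :
    f₁.charpoly * (X - C 1) = f₂.charpoly * (permMap (ZMod p) (permS S σ hS)).charpoly *
      (permMap (ZMod p) (permInf σ)).charpoly := by
  rw [charpoly_modP (sAct S σ hS) q hq f₁ hf₁ i hi f₂ hf₂, charpoly_permMap_map (ZMod p),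
    charpoly_permMap_map (ZMod p), mul_assoc, mul_assoc, ← Polynomial.map_mul,
    ← fgCharpoly_sunits S σ hS, Polynomial.map_mul]
  simp only [Polynomial.map_sub, map_X, map_one, Polynomial.map_one]

end SUnits

section Above

variable {K L : Type*} [Field K] [NumberField K] [Field L] [NumberField L] [Algebra K L]

lemma conjPerm_mem_above_iff (S : Finset (HeightOneSpectrum (𝓞 K))) (σ : L ≃ₐ[K] L)
    (w : HeightOneSpectrum (𝓞 L)) : conjPerm σ w ∈ above L S ↔ w ∈ above L S := by
  rw [mem_above, mem_above, conjPerm_apply, below_conj]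

end Above

end Fermat.Agent.GW.EU
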