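import Fermat.Agent.GW.Orb
import Fermat.Agent.GW.EquivUnits
import Fermat.Agent.PT.GlobalData
import Fermat.Prelude.Def_GaloisRep_ComplexConjugation

/-!
# Places of a finite Galois extension `F/ℚ`, `F ⊆ ℚ̄`, as `Gal(ℚ̄/ℚ)`-sets
-/

set_option autoImplicit false

noncomputable section

namespace Fermat.Agent.GW.Pl

open Fermat.Agent.PT Fermat.Agent.PT.Frozen Fermat.Agent.CFT.Bridge Fermat.Agent.CFT.SKummer
open Fermat.Agent.CFT.Places
open IsDedekindDomain NumberField ExtCitation Module

abbrev Qb := AlgebraicClosure ℚ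

variable (F : IntermediateField ℚ (AlgebraicClosure ℚ)) [NumberField F] [IsGalois ℚ F]

instance normalF : Normal ℚ F := IsGalois.to_normal

/-- restriction to `F`. -/
def resF : Γ →* (F ≃ₐ[ℚ] F) := AlgEquiv.restrictNormalHom F

lemma coe_resF (g : Γ) (x : F) : ((resF F g x : F) : AlgebraicClosure ℚ) = g x :=
  AlgEquiv.restrictNormal_commutes g F x

lemma coe_resF_symm (g : Γ) (x : F) :
    (((resF F g).symm x : F) : AlgebraicClosure ℚ) = g⁻¹ x := by
  have : (resF F g).symm = resF F g⁻¹ := by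
    rw [map_inv]
    rfl
  rw [this, coe_resF]

lemma resF_eq_one_iff (g : Γ) : resF F g = 1 ↔ g ∈ F.fixingSubgroup := by
  rw [IntermediateField.mem_fixingSubgroup_iff]
  constructor
  · intro h x hx
    rw [← coe_resF F g ⟨x, hx⟩, h]
    rfl
  · intro h
    apply AlgEquiv.ext
    intro x
    apply Subtype.ext
    rw [coe_resF]
    exact h _ x.2

lemma resF_surjective : Function.Surjective (resF F) :=
  AlgEquiv.restrictNormalHom_surjective (AlgebraicClosure ℚ)

instance normalV : F.fixingSubgroup.Normal := by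
  have h : F.fixingSubgroup = (resF F).ker := by
    ext g
    rw [MonoidHom.mem_ker, resF_eq_one_iff]
  rw [h]
  infer_instance

section Finite

variable (S : Finset Nat.Primes)

lemma conj_mem_SKf (σ : F ≃ₐ[ℚ] F) (w : HeightOneSpectrum (𝓞 F)) :
    conj σ w ∈ SKf S F ↔ w ∈ SKf S F := by
  have key : ∀ (σ : F ≃ₐ[ℚ] F) (w : HeightOneSpectrum (𝓞 F)), w ∈ SKf S F →
      conj σ w ∈ SKf S F := by
    intro σ w hw
    rw [mem_SKf] at hw ⊢
    obtain ⟨q, hq, hqw⟩ := hw
    refine ⟨q, hq, ?_⟩
    rw [mem_conj, map_natCast]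
    exact hqw
  refine ⟨fun h => ?_, key σ w⟩
  have := key σ⁻¹ _ h
  rwa [← Fermat.Agent.CFT.Places.conj_mul, inv_mul_cancel, conj_one] at this

lemma conjPerm_mem_SKf (σ : F ≃ₐ[ℚ] F) (w : HeightOneSpectrum (𝓞 F)) :
    EU.conjPerm σ w ∈ SKf S F ↔ w ∈ SKf S F := conj_mem_SKf F S σ w

/-- The places of `F` above `S`, as a `Γ`-set. -/
def X1 : Type := {w : HeightOneSpectrum (𝓞 F) // w ∈ SKf S F}

instance : Finite (X1 F S) := inferInstanceAs (Finite {w // w ∈ SKf S F})

instance : MulAction Γ (X1 F S) where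
  smul g w := ⟨conj (resF F g) w.1, (conj_mem_SKf F S _ _).2 w.2⟩
  one_smul w := by
    apply Subtype.ext
    show conj (resF F 1) w.1 = w.1
    rw [map_one, conj_one]
  mul_smul g h w := by
    apply Subtype.ext
    show conj (resF F (g * h)) w.1 = conj (resF F g) (conj (resF F h) w.1)
    rw [map_mul, Fermat.Agent.CFT.Places.conj_mul]

lemma coe_smul_X1 (g : Γ) (w : X1 F S) : (g • w).1 = conj (resF F g) w.1 := rfl

lemma conj_placeOf {q : ℕ} [hq : Fact q.Prime] (g h : Γ) :
    conj (resF F h) (placeOf (emb F q g)) = placeOf (emb F q (g * h⁻¹)) := by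
  apply HeightOneSpectrum.ext
  ext x
  rw [mem_conj]
  show _ ∈ placeIdeal (emb F q g) ↔ x ∈ placeIdeal (emb F q (g * h⁻¹))
  rw [mem_placeIdeal, mem_placeIdeal]
  have h1 : emb F q g (((RingOfIntegers.mapRingEquiv ((resF F h : F ≃ₐ[ℚ] F) : F ≃+* F)).symm x :
      𝓞 F) : F) = emb F q (g * h⁻¹) (x : F) := by
    rw [emb_apply, emb_apply]
    congr 1
    show g (((resF F h).symm (x : F) : F) : AlgebraicClosure ℚ) = g (h⁻¹ (x : F))
    rw [coe_resF_symm]
  rw [h1]

/-- The base points. -/
def x1 (v : ↥S) : X1 F S :=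
  letI : Fact ((v : Nat.Primes) : ℕ).Prime := ⟨(v : Nat.Primes).2⟩
  ⟨placeOf (emb F ((v : Nat.Primes) : ℕ) 1), placeOf_emb_mem_SKf.2 v.2⟩

lemma smul_x1 (v : ↥S) (g : Γ) :
    letI : Fact ((v : Nat.Primes) : ℕ).Prime := ⟨(v : Nat.Primes).2⟩
    (g • x1 F S v).1 = placeOf (emb F ((v : Nat.Primes) : ℕ) g⁻¹) := by
  let _ : Fact ((v : Nat.Primes) : ℕ).Prime := ⟨(v : Nat.Primes).2⟩
  rw [coe_smul_X1]
  show conj (resF F g) (placeOf (emb F _ 1)) = _
  rw [conj_placeOf, one_mul]

lemma orbitReps_x1 : OrbitReps Γ (x1 F S) where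
  surj w := by
    have hw := w.2
    rw [mem_SKf] at hw
    obtain ⟨q, hq, hqw⟩ := hw
    let _ : Fact (q : ℕ).Prime := ⟨q.2⟩
    obtain ⟨g, hg⟩ := exists_emb (q := (q : ℕ)) F w.1 hqw
    refine ⟨⟨q, hq⟩, g⁻¹, ?_⟩
    apply Subtype.ext
    rw [smul_x1, inv_inv]
    exact hg
  inj i j g hg := by
    let _ : Fact ((i : Nat.Primes) : ℕ).Prime := ⟨(i : Nat.Primes).2⟩
    let _ : Fact ((j : Nat.Primes) : ℕ).Prime := ⟨(j : Nat.Primes).2⟩
    have h1 := congrArg Subtype.val hg
    rw [smul_x1] at h1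
    have h2 : (((i : Nat.Primes) : ℕ) : 𝓞 F) ∈
        (placeOf (emb F ((i : Nat.Primes) : ℕ) g⁻¹)).asIdeal := q_mem_placeOf _
    have h3 : (((j : Nat.Primes) : ℕ) : 𝓞 F) ∈ (x1 F S j).1.asIdeal :=
      q_mem_placeOf (emb F ((j : Nat.Primes) : ℕ) 1)
    rw [h1] at h2
    exact Subtype.ext (prime_unique_of_mem h2 h3)

lemma stabilizer_x1 (v : ↥S) : MulAction.stabilizer Γ (x1 F S v) =
    (primeLocalToGlobal v.1).range ⊔ F.fixingSubgroup := by
  let _ : Fact ((v : Nat.Primes) : ℕ).Prime := ⟨(v : Nat.Primes).2⟩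
  ext g
  rw [MulAction.mem_stabilizer_iff, ← SetLike.mem_coe, Subgroup.mul_normal, Set.mem_mul]
  have h0 : g • x1 F S v = x1 F S v ↔
      placeOf (emb F ((v : Nat.Primes) : ℕ) 1) = placeOf (emb F ((v : Nat.Primes) : ℕ) g⁻¹) := by
    constructor
    · intro h
      have := congrArg Subtype.val h
      rw [smul_x1] at this
      exact this.symm
    · intro h
      apply Subtype.ext
      rw [smul_x1]
      exact h.symm
  rw [h0, placeOf_emb_eq_iff]
  constructor
  · rintro ⟨σ, u, hu, h⟩
    rw [mul_one] at h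
    -- `g = u⁻¹ r(σ)⁻¹`
    have h1 : g = (localGaloisToGlobal ((v : Nat.Primes) : ℕ) σ)⁻¹ *
        ((localGaloisToGlobal ((v : Nat.Primes) : ℕ) σ) * u⁻¹ *
          (localGaloisToGlobal ((v : Nat.Primes) : ℕ) σ)⁻¹) := by
      rw [← inv_inv g, h]
      group
    refine ⟨(localGaloisToGlobal ((v : Nat.Primes) : ℕ) σ)⁻¹, ?_, _, ?_, h1.symm⟩
    · exact inv_mem (⟨σ, rfl⟩ : _ ∈ (primeLocalToGlobal v.1).range)
    · exact Subgroup.Normal.conj_mem inferInstance _ (inv_mem hu) _
  · rintro ⟨_, ⟨σ, rfl⟩, u, hu, rfl⟩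
    refine ⟨σ⁻¹, (primeLocalToGlobal v.1 σ) * u⁻¹ * (primeLocalToGlobal v.1 σ)⁻¹,
      Subgroup.Normal.conj_mem inferInstance _ (inv_mem hu) _, ?_⟩
    have h2 : localGaloisToGlobal ((v : Nat.Primes) : ℕ) σ⁻¹ = (primeLocalToGlobal v.1 σ)⁻¹ :=
      map_inv (primeLocalToGlobal v.1) σ
    rw [h2]
    group

lemma trivOn_X1 : TrivOn F.fixingSubgroup (X1 F S) := by
  intro v hv x
  apply Subtype.ext
  rw [coe_smul_X1, (resF_eq_one_iff F v).2 hv, conj_one]

lemma permRep_X1 {p : ℕ} [Fact p.Prime] (g : Γ) :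
    permRep (ZMod p) Γ (X1 F S) g =
      EU.permMap (ZMod p) (EU.permS (SKf S F) (resF F g) (conjPerm_mem_SKf F S (resF F g))) := by
  apply LinearMap.ext
  intro f
  funext w
  rw [permRep_apply]
  have h1 : (EU.permS (SKf S F) (resF F g) (conjPerm_mem_SKf F S (resF F g))).symm w =
      (g⁻¹ • w : X1 F S) := by
    apply Subtype.ext
    rw [EU.permS_symm_apply, coe_smul_X1, map_inv]
  exact congrArg f h1.symm

end Finite

section Infinite

instance actInf : MulAction Γ (InfinitePlace F) := MulAction.compHom _ (resF F)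

lemma smul_X2 (g : Γ) (w : InfinitePlace F) : g • w = (resF F g) • w := rfl

/-- The base point. -/
def x2 : InfinitePlace F := InfinitePlace.mk ((complexEmbedding : AlgebraicClosure ℚ →+* ℂ).comp
  (algebraMap F (AlgebraicClosure ℚ)))

lemma smul_x2 (g : Γ) : g • x2 F = InfinitePlace.mk
    (((complexEmbedding : AlgebraicClosure ℚ →+* ℂ).comp ((g⁻¹ : Γ) : AlgebraicClosure ℚ →+*
      AlgebraicClosure ℚ)).comp (algebraMap F (AlgebraicClosure ℚ))) := by
  rw [smul_X2, x2, InfinitePlace.smul_mk]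
  congr 1
  ext x
  show complexEmbedding (((resF F g).symm x : F) : AlgebraicClosure ℚ) = complexEmbedding (g⁻¹ x)
  rw [coe_resF_symm]

lemma orbitReps_x2 : OrbitReps Γ (fun _ : Unit => x2 F) where
  surj w := by
    have h1 : ((x2 F).comap (algebraMap ℚ F)) = (w.comap (algebraMap ℚ F)) :=
      Subsingleton.elim _ _
    obtain ⟨σ, hσ⟩ := InfinitePlace.exists_smul_eq_of_comap_eq h1
    obtain ⟨g, rfl⟩ := resF_surjective F σ
    exact ⟨(), g, hσ⟩
  inj _ _ _ _ := rfl

lemma stabilizer_x2 : MulAction.stabilizer Γ (x2 F) =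
    Subgroup.zpowers complexConjugation ⊔ F.fixingSubgroup := by
  ext g
  rw [MulAction.mem_stabilizer_iff, ← SetLike.mem_coe, Subgroup.mul_normal, Set.mem_mul,
    smul_x2, x2, InfinitePlace.mk_eq_iff]
  have hinj : Function.Injective (complexEmbedding : AlgebraicClosure ℚ →ₐ[ℚ] ℂ) :=
    complexEmbedding.toRingHom.injective
  constructor
  · rintro (h | h)
    · refine ⟨1, Subgroup.one_mem _, g, ?_, one_mul g⟩
      have h1 : g⁻¹ ∈ F.fixingSubgroup := by
        rw [IntermediateField.mem_fixingSubgroup_iff]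
        intro x hx
        have h2 := RingHom.congr_fun h ⟨x, hx⟩
        exact hinj h2
      exact inv_mem_iff.1 h1
    · refine ⟨complexConjugation, Subgroup.mem_zpowers _, complexConjugation * g, ?_, ?_⟩
      · have h1 : (complexConjugation * g)⁻¹ ∈ F.fixingSubgroup := by
          -- conjugate of `ι g⁻¹` is `ι`, i.e. `ι (c (g⁻¹ x)) = ι x`
          have h3 : complexConjugation * g⁻¹ ∈ F.fixingSubgroup := by
            rw [IntermediateField.mem_fixingSubgroup_iff]
            intro x hx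
            have h2 := RingHom.congr_fun h ⟨x, hx⟩
            apply hinj
            show complexEmbedding (complexConjugation (g⁻¹ x)) = complexEmbedding x
            rw [complexEmbedding_complexConjugation]
            exact h2
          have h4 : (complexConjugation * g)⁻¹ = g⁻¹ * complexConjugation := by
            rw [mul_inv_rev, complexConjugation_inv]
          rw [h4]
          have h5 := Subgroup.Normal.conj_mem (inferInstance : F.fixingSubgroup.Normal) _ h3
            complexConjugation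
          have h6 : complexConjugation * (complexConjugation * g⁻¹) * complexConjugation⁻¹ =
              g⁻¹ * complexConjugation := by
            rw [complexConjugation_inv, ← mul_assoc, complexConjugation_mul_self, one_mul]
          rwa [h6] at h5
        exact inv_mem_iff.1 h1
      · show complexConjugation * (complexConjugation * g) = g
        rw [← mul_assoc, complexConjugation_mul_self, one_mul]
  · rintro ⟨c, hc, u, hu, rfl⟩
    have hc' : c = 1 ∨ c = complexConjugation := by
      obtain ⟨n, rfl⟩ := Subgroup.mem_zpowers_iff.1 hc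
      have hc2 : complexConjugation ^ (2 : ℤ) = 1 := by
        rw [zpow_two, complexConjugation_mul_self]
      rcases Int.even_or_odd' n with ⟨t, ht | ht⟩
      · left
        rw [ht, zpow_mul, hc2, one_zpow]
      · right
        rw [ht, zpow_add, zpow_mul, hc2, one_zpow, one_mul, zpow_one]
    have hu' := (IntermediateField.mem_fixingSubgroup_iff F _).1 (inv_mem hu)
    rcases hc' with rfl | rfl
    · left
      ext x
      show complexEmbedding ((1 * u)⁻¹ (x : AlgebraicClosure ℚ)) = complexEmbedding x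
      rw [one_mul, hu' _ x.2]
    · right
      -- `ι ((c u)⁻¹ x) = ι (u⁻¹ c x)`
      ext x
      show starRingEnd ℂ (complexEmbedding ((complexConjugation * u)⁻¹
        (x : AlgebraicClosure ℚ))) = complexEmbedding x
      rw [← complexEmbedding_complexConjugation]
      congr 1
      have h5 := Subgroup.Normal.conj_mem (inferInstance : F.fixingSubgroup.Normal) _ (inv_mem hu)
        complexConjugation
      have h6 := (IntermediateField.mem_fixingSubgroup_iff F _).1 h5 _ x.2
      have h7 : complexConjugation * (complexConjugation * u)⁻¹ =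
          complexConjugation * u⁻¹ * complexConjugation⁻¹ := by
        rw [mul_inv_rev, mul_assoc]
      show (complexConjugation * (complexConjugation * u)⁻¹) (x : AlgebraicClosure ℚ) = _
      rw [h7]
      exact h6

lemma trivOn_X2 : TrivOn F.fixingSubgroup (InfinitePlace F) := by
  intro v hv x
  rw [smul_X2, (resF_eq_one_iff F v).2 hv, one_smul]

lemma permRep_X2 {p : ℕ} [Fact p.Prime] (g : Γ) :
    permRep (ZMod p) Γ (InfinitePlace F) g = EU.permMap (ZMod p) (EU.permInf (resF F g)) := by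
  apply LinearMap.ext
  intro f
  funext w
  rw [permRep_apply, smul_X2, map_inv]
  rfl

end Infinite

end Fermat.Agent.GW.Pl
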