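import Fermat.Agent.GW.HomU
import Fermat.Agent.PT.Setting

/-!
# `Ш²(Fun(G/U, M)) = ker(infl)` from the Hasse principle at the level of `V`
-/

set_option autoImplicit false

namespace Fermat.Agent.GW

open Fermat.Agent.PT Module

section

variable {k G : Type} [Field k] [Group G] (T : PlaceData k G)
variable {M : Type} [AddCommGroup M] [Module k M] {ρ : Representation k G M}
variable {V : Subgroup G} [V.Normal] {U : Subgroup G}

/-- From `μ|_V` to trivial coefficients. -/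
def toTriv (hχ : ∀ v ∈ V, T.χ v = 1) {𝓛 : LevelSys G} :
    H2 (𝓛.restrict V) ((chiRep T.χ).comp V.subtype) →ₗ[k] H2 (𝓛.restrict V) (trivRep k V) :=
  H2coef (𝓛.restrict V) LinearMap.id (fun v m => by
    show (chiRep T.χ (v : G)) m = m
    rw [chiRep_apply, hχ _ v.2, Units.val_one, one_mul])

lemma toTriv_injective (hχ : ∀ v ∈ V, T.χ v = 1) {𝓛 : LevelSys G} :
    Function.Injective (toTriv T hχ (𝓛 := 𝓛)) := by
  refine (injective_iff_map_eq_zero _).2 fun z hz => ?_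
  obtain ⟨c, rfl⟩ := H2mk_surjective z
  rw [toTriv, H2map_mk, H2mk_eq_zero] at hz
  obtain ⟨b, hb, h⟩ := hz
  refine H2mk_eq_zero.2 ⟨b, hb, fun v w => ?_⟩
  have h1 := h v w
  have h2 : (c : V × V → k) (v, w) = b w - b (v * w) + b v := h1
  rw [h2]
  show _ = (chiRep T.χ (v : G)) (b w) - b (v * w) + b v
  rw [chiRep_apply, hχ _ v.2, Units.val_one, one_mul]

lemma toTriv_inflV (hχ : ∀ v ∈ V, T.χ v = 1) {𝓛S 𝓛 : LevelSys G} (hle : ∀ W ∈ 𝓛S, W ∈ 𝓛)
    (z : H2 (𝓛S.restrict V) ((chiRep T.χ).comp V.subtype)) :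
    toTriv T hχ (inflV hle V ((chiRep T.χ).comp V.subtype) z) =
      inflV hle V (trivRep k V) (toTriv T hχ z) := by
  obtain ⟨c, rfl⟩ := H2mk_surjective z
  rfl

variable (hVU : V ≤ U) (hρ : ∀ v ∈ V, ρ v = 1) (hμ : ∀ v ∈ V, chiRep T.χ v = 1)
  (hχ : ∀ v ∈ V, T.χ v = 1)

/-- a class of `Ш²(Fun(G/U, M))` gives classes in `Ш²(V, k)`. -/
theorem mem_shaU2_of_sha2 (z : H2 T.𝓛 (funRep (G ⧸ U) ρ))
    (hz : z ∈ T.sha2 (funRep (G ⧸ U) ρ)) (q : M →ₗ[k] k) :
    toTriv T hχ (rho2 hρ hμ hVU z q) ∈ T.shaU2 V := by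
  rw [T.mem_shaU2]
  intro v g
  rw [T.mem_sha2] at hz
  obtain ⟨c, rfl⟩ := H2mk_surjective z
  have h1 := hz v
  rw [PlaceData.loc2, res2, H2map_mk, H2mk_eq_zero] at h1
  obtain ⟨b, hb, hcb⟩ := h1
  have hcb' : ∀ d d' : T.D v, c.1 (T.r v d, T.r v d') =
      funRep (G ⧸ U) ρ (T.r v d) (b d') - b (d * d') + b d := hcb
  -- the cochain
  let H : G → (G ⧸ U → M) := fun a => c.1 (g, g⁻¹ * a * g) - c.1 (a, g)
  have hH : LC1 T.𝓛 H := inner2_LC c.2.1 g
  let B : T.D v → (G ⧸ U → M) := fun d => b d + H (T.r v d)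
  have hB : LC1 (T.𝓛v v) B := (hb.prodMk (hH.precomp (T.hr v))).comp (fun t => t.1 + t.2)
  let β : T.locSub V v g → k := fun d => q (ρ g⁻¹ (B d.1 ((g : G) : G ⧸ U)))
  have hβ : LC1 ((T.𝓛v v).restrict (T.locSub V v g)) β :=
    (hB.comp (fun f => q (ρ g⁻¹ (f ((g : G) : G ⧸ U))))).precomp
      (u := (T.locSub V v g).subtype) (LevelSys.compat_comap _)
  have key : T.locU2 V v g (toTriv T hχ (rho2 hρ hμ hVU (H2mk T.𝓛 (funRep (G ⧸ U) ρ) c) q)) =
      H2mk ((T.𝓛v v).restrict (T.locSub V v g)) (trivRep k ↥(T.locSub V v g))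
        (Z2map (T.locHom V v g) (T.locHom_compat V v g) LinearMap.id (fun _ _ => rfl)
          (Z2map (𝓛' := T.𝓛.restrict V) (σ := trivRep k V) (MonoidHom.id V) LevelSys.compat_id
            LinearMap.id (fun v m => by
              show (chiRep T.χ (v : G)) m = m
              rw [chiRep_apply, hχ _ v.2, Units.val_one, one_mul])
            (Z2map (𝓛' := T.𝓛.restrict V) (σ := (chiRep T.χ).comp V.subtype)
              (MonoidHom.id V) LevelSys.compat_id q (equivar_of_triv hρ hμ q)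
              (Z2map V.subtype (LevelSys.compat_comap _) (LinearMap.proj ((1 : G) : G ⧸ U))
                (proj_equivar' ρ (fun v hv => trivOn_quot hVU v hv _)) c)))) := rfl
  rw [key, H2mk_eq_zero]
  refine ⟨β, hβ, fun d d' => ?_⟩
  show q (c.1 (g⁻¹ * T.r v d.1 * g, g⁻¹ * T.r v d'.1 * g) ((1 : G) : G ⧸ U)) =
    β d' - β (d * d') + β d
  have h2 := inner2 c.2.2 g (T.r v d.1) (T.r v d'.1)
  -- apply `N(g⁻¹)`
  have h3 : c.1 (g⁻¹ * T.r v d.1 * g, g⁻¹ * T.r v d'.1 * g) =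
      funRep (G ⧸ U) ρ g⁻¹ (funRep (G ⧸ U) ρ (T.r v d.1) (B d'.1) - B (d.1 * d'.1) + B d.1) := by
    have h4 : funRep (G ⧸ U) ρ g (c.1 (g⁻¹ * T.r v d.1 * g, g⁻¹ * T.r v d'.1 * g)) =
        funRep (G ⧸ U) ρ (T.r v d.1) (B d'.1) - B (d.1 * d'.1) + B d.1 := by
      rw [h2, hcb']
      simp only [B, H, map_add, map_mul]
      abel
    rw [← h4, ← Module.End.mul_apply, ← map_mul, inv_mul_cancel, map_one, Module.End.one_apply]
  have hdV : T.r v d.1 ∈ V := by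
    have h5 := (T.mem_locSub (U := V)).1 d.2
    have h6 := Subgroup.Normal.conj_mem (inferInstance : V.Normal) _ h5 g
    have e : g * (g⁻¹ * T.r v d.1 * g) * g⁻¹ = T.r v d.1 := by group
    rwa [e] at h6
  have h7 : funRep (G ⧸ U) ρ (T.r v d.1) (B d'.1) = B d'.1 := by
    funext y
    rw [funRep_apply, hρ _ hdV, trivOn_quot hVU _ (V.inv_mem hdV)]
    rfl
  rw [h3, h7, funRep_apply, inv_inv, MulAction.Quotient.smul_coe, smul_eq_mul, mul_one]
  show q (ρ g⁻¹ (B d'.1 (g : G ⧸ U) - B (d.1 * d'.1) (g : G ⧸ U) + B d.1 (g : G ⧸ U))) = _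
  rw [map_add, map_sub, map_add, map_sub]
  rfl

variable {𝓛 : LevelSys G} (hle : ∀ W ∈ T.𝓛, W ∈ 𝓛)

include hVU hρ hχ in
/-- `Ш² = ker(infl)` for `Fun(G/U, M)`. -/
theorem sha2_eq_ker_inflG [FiniteDimensional k M] (hVS : V ∈ T.𝓛)
    (hn : (V.relIndex U : k) ≠ 0) (hr' : ∀ v, 𝓛.Compat (T.r v) (T.𝓛v v))
    (hHasse : ∀ w ∈ T.shaU2 V, inflV hle V (trivRep k V) w = 0) :
    T.sha2 (funRep (G ⧸ U) ρ) = LinearMap.ker (inflG hle (funRep (G ⧸ U) ρ)) := by
  have hVfi := LevelSys.finiteIndex hVS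
  have hfin : Finite (G ⧸ V) := inferInstance
  have hμ : ∀ v ∈ V, chiRep T.χ v = 1 := by
    intro v hv
    apply LinearMap.ext
    intro x
    rw [chiRep_apply, hχ v hv]
    simp
  ext z
  rw [LinearMap.mem_ker]
  constructor
  · intro hz
    apply rho2_injective (𝓛 := 𝓛) hρ hμ hVU (hle V hVS) hn
    rw [map_zero]
    apply LinearMap.ext
    intro q
    rw [← inflV_rho2]
    apply toTriv_injective T hχ
    rw [toTriv_inflV, hHasse _ (mem_shaU2_of_sha2 T hVU hρ hμ hχ z hz q), LinearMap.zero_apply,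
      map_zero]
  · intro hz
    rw [T.mem_sha2]
    intro v
    obtain ⟨c, rfl⟩ := H2mk_surjective z
    rw [inflG, H2map_mk, H2mk_eq_zero] at hz
    obtain ⟨b, hb, hcb⟩ := hz
    rw [PlaceData.loc2, res2, H2map_mk, H2mk_eq_zero]
    exact ⟨fun d => b (T.r v d), hb.precomp (hr' v), fun d d' => by
      have := hcb (T.r v d) (T.r v d')
      rw [← map_mul] at this
      exact this⟩

end

end Fermat.Agent.GW
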