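import Fermat.Agent.GW.ChiFun
import Fermat.Agent.GW.ShaInfl
import Fermat.Agent.GW.PlaceOrb
import Fermat.Agent.GW.Assemble
import Fermat.Agent.PT.ShaU

/-!
# The Euler characteristic of induced modules for `G_S`
-/

set_option autoImplicit false

noncomputable section

namespace Fermat.Agent.GW.Conc

open scoped NumberField
open Fermat.Agent.PT Fermat.Agent.PT.Frozen Fermat.Agent.CFT.Bridge Fermat.Agent.CFT.SKummer
open Fermat.Agent.Minkowski Fermat.Agent.Frob
open IsDedekindDomain NumberField ExtCitation Module Polynomial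
open Fermat.Agent.GW.Pl

variable {p : ℕ} [hp : Fact p.Prime] {S : Finset Nat.Primes}

/-- all the open subgroups -/
abbrev galL : LevelSys Γ := galLevels ℚ (AlgebraicClosure ℚ)

lemma hleS (S : Finset Nat.Primes) : ∀ W ∈ sLevels S, W ∈ galL := fun _ hW => sLevels_le hW

/-- The characteristic polynomial identity at a finite Galois extension `F` of `ℚ`. -/
structure StarAt (p : ℕ) [Fact p.Prime] (S : Finset Nat.Primes)
    (F : IntermediateField ℚ (AlgebraicClosure ℚ)) [NumberField F] [IsGalois ℚ F] : Prop where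
  finH : FiniteDimensional (ZMod p) (PT.H1 ((sLevels S).restrict F.fixingSubgroup)
    ((chiRep (cycloChar p)).comp F.fixingSubgroup.subtype))
  finK : FiniteDimensional (ZMod p) (LinearMap.ker (inflV (hleS S) F.fixingSubgroup
    ((chiRep (cycloChar p)).comp F.fixingSubgroup.subtype)))
  star : ∀ g : Γ, (conj1 (sLevels S) F.fixingSubgroup (chiRep (cycloChar p)) g).charpoly *
      (X - C 1) = (chiRep (cycloChar p) g).charpoly *
      (EU.permMap (ZMod p) (EU.permS (SKf S F) (resF F g)
        (conjPerm_mem_SKf F S (resF F g)))).charpoly *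
      (EU.permMap (ZMod p) (EU.permInf (resF F g))).charpoly *
      (conjK (hleS S) F.fixingSubgroup (chiRep (cycloChar p)) g).charpoly

variable (hpS : pPrime p ∈ S)
    (inv : ∀ v : ↥S, PT.H2 (rLevels (primeLocalToGlobal v.1))
      ((chiRep (cycloChar p)).comp (primeLocalToGlobal v.1)) →ₗ[ZMod p] ZMod p)

/-- The data of places. -/
def starData (F : IntermediateField ℚ (AlgebraicClosure ℚ)) [NumberField F] [IsGalois ℚ F]
    (h : StarAt p S F) :
    StarData (placeData S hpS inv) (hleS S) (V := F.fixingSubgroup) complexConjugation where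
  X₁ := X1 F S
  act₁ := inferInstance
  fin₁ := inferInstance
  x₁ := x1 F S
  orb₁ := orbitReps_x1 F S
  stab₁ := stabilizer_x1 F S
  triv₁ := trivOn_X1 F S
  X₂ := InfinitePlace F
  act₂ := inferInstance
  fin₂ := inferInstance
  x₂ := fun _ => x2 F
  orb₂ := orbitReps_x2 F
  stab₂ := stabilizer_x2 F
  triv₂ := trivOn_X2 F
  finH := h.finH
  finK := h.finK
  star := fun g => by
    rw [permRep_X1, permRep_X2]
    refine (h.star g).trans ?_
    rw [mul_assoc, mul_assoc]
    rfl

/-- The Hasse principle in the form needed. -/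
lemma hasse (hp2 : p ≠ 2) (F : IntermediateField ℚ (AlgebraicClosure ℚ)) [NumberField F]
    {ζ : F} (hζ : IsPrimitiveRoot ζ p)
    (w : PT.H2 ((sLevels S).restrict F.fixingSubgroup) (trivRep (ZMod p) ↥F.fixingSubgroup))
    (hw : w ∈ (placeData S hpS inv).shaU2 F.fixingSubgroup) :
    inflV (hleS S) F.fixingSubgroup (trivRep (ZMod p) ↥F.fixingSubgroup) w = 0 :=
  shaU2_le_ker hpS inv hp2 hζ hw

/-- **The Euler characteristic of induced modules** (from prime-to-`p` extensions). -/
theorem cycEuler_sLevels (hp2 : p ≠ 2) (hI : (placeData S hpS inv).Inputs)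
    (hstar : ∀ (F : IntermediateField ℚ (AlgebraicClosure ℚ)) [NumberField F] [IsGalois ℚ F],
      F ≤ Omega S → (∃ ζ : F, IsPrimitiveRoot ζ p) → StarAt p S F) :
    CycEuler (p := p) (sLevels S) complexConjugation := by
  refine ⟨(cycloChar p).ker, ker_cycloChar_mem hpS, ?_⟩
  intro V hV hVn hVker U hVU hpU M _ _ _ ρ hρ
  obtain ⟨F, hFn, hFO, rfl, ζ, hζ⟩ := exists_field hV hVker
  have hgal : IsGalois ℚ F := (InfiniteGalois.normal_iff_isGalois F).1 hVn
  have hχ : ∀ v ∈ F.fixingSubgroup, cycloChar p v = 1 := fun v hv => hVker hv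
  have hn0 : (F.fixingSubgroup.relIndex U : ZMod p) ≠ 0 := by
    rw [Ne, ZMod.natCast_eq_zero_iff]
    exact hpU
  have hVfi := LevelSys.finiteIndex hV
  have hUfi : U.FiniteIndex := Subgroup.finiteIndex_of_le hVU
  have hfinU : Finite (Γ ⧸ U) := inferInstance
  have hd : Discrete (sLevels S) (funRep (Γ ⧸ U) ρ) := by
    intro f
    refine ⟨F.fixingSubgroup, hV, fun v hv => ?_⟩
    funext x
    rw [funRep_apply, hρ v hv, trivOn_quot hVU _ (F.fixingSubgroup.inv_mem hv)]
    rfl
  exact chi_funRep_ind (placeData S hpS inv) (hleS S) hV hχ hVU hpU ρ hρ hp2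
    complexConjugation_mul_self (cycloChar_complexConjugation p) hI.recip
    ((placeData S hpS inv).exactX hI hd) ((placeData S hpS inv).locInj hI hd)
    (sha2_eq_ker_inflG (placeData S hpS inv) hVU hρ hχ (hleS S) hV hn0
      (fun v W hW => ⟨W, hW, le_rfl⟩) (fun w hw => hasse hpS inv hp2 F hζ w hw))
    (starData hpS inv F (hstar F hFO ⟨ζ, hζ⟩))

end Fermat.Agent.GW.Conc
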