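import Fermat.Agent.PT.Perm

/-!
# The conjugation action of `G` on the cohomology of a normal subgroup

`conj1 V ρ`, `conj2 V ρ` : representations of `G` on `H¹(V, M)`, `H²(V, M)` (level-constant
cochains) for a representation `ρ` of `G` on `M` and `V` normal in `G`:
`(g • c)(v) = ρ g (c (g⁻¹ v g))`, `(g • c)(v, w) = ρ g (c (g⁻¹ v g, g⁻¹ w g))`.
-/

set_option autoImplicit false

namespace Fermat.Agent.GW

open Fermat.Agent.PT

section Inner

variable {k : Type*} [CommRing k] {G : Type*} [Group G] {𝓛 : LevelSys G}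
variable {M : Type*} [AddCommGroup M] [Module k M] {ρ : Representation k G M}

/-- inner conjugation changes a 1-cocycle by a coboundary. -/
lemma inner1 {c : G → M} (hc : ∀ g h, c (g * h) = ρ g (c h) + c g) (g x : G) :
    ρ g (c (g⁻¹ * x * g)) = c x + (ρ x (c g) - c g) := by
  have h1 := hc g (g⁻¹ * x * g)
  have h2 := hc x g
  have e : g * (g⁻¹ * x * g) = x * g := by group
  rw [e, h2] at h1
  rw [← sub_eq_iff_eq_add.2 h1]
  abel

/-- inner conjugation changes a 2-cocycle by a coboundary. -/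
lemma inner2 {c : G × G → M}
    (hc : ∀ g h j, c (g * h, j) + c (g, h) = ρ g (c (h, j)) + c (g, h * j)) (g a b : G) :
    ρ g (c (g⁻¹ * a * g, g⁻¹ * b * g)) = c (a, b) + (ρ a (c (g, g⁻¹ * b * g) - c (b, g)) -
      (c (g, g⁻¹ * (a * b) * g) - c (a * b, g)) + (c (g, g⁻¹ * a * g) - c (a, g))) := by
  have h1 := hc g (g⁻¹ * a * g) (g⁻¹ * b * g)
  have h2 := hc a g (g⁻¹ * b * g)
  have h3 := hc a b g
  have e1 : g * (g⁻¹ * a * g) = a * g := by group
  have e2 : g⁻¹ * a * g * (g⁻¹ * b * g) = g⁻¹ * (a * b) * g := by group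
  have e3 : g * (g⁻¹ * b * g) = b * g := by group
  rw [e1, e2] at h1
  rw [e3] at h2
  rw [← sub_eq_iff_eq_add] at h1 h2 h3
  rw [← h1, map_sub]
  have h4 : c (a * g, g⁻¹ * b * g) = ρ a (c (g, g⁻¹ * b * g)) + c (a, b * g) - c (a, g) := by
    rw [← h2]; abel
  have h5 : c (a, b * g) = c (a * b, g) + c (a, b) - ρ a (c (b, g)) := by
    have := hc a b g
    rw [this]; abel
  rw [h4, h5]
  abel

lemma inner2_LC {c : G × G → M} (hc : LC2 𝓛 c) (g : G) :
    LC1 𝓛 (fun a => c (g, g⁻¹ * a * g) - c (a, g)) := by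
  obtain ⟨W, hW, hn, h⟩ := hc.exists_normal
  refine ⟨W, hW, fun a s hs => ?_⟩
  have e1 : g⁻¹ * (a * s) * g = (g⁻¹ * a * g) * (g⁻¹ * s * g) := by group
  have h1 := h g (g⁻¹ * a * g) 1 (g⁻¹ * s * g) W.one_mem
    (by simpa using hn.conj_mem s hs g⁻¹)
  have h2 := h a g s 1 hs W.one_mem
  rw [mul_one] at h1 h2
  simp only [e1, h1, h2]

end Inner

section Conj

variable {k : Type*} [CommRing k] {G : Type*} [Group G] {𝓛 : LevelSys G}
variable {M : Type*} [AddCommGroup M] [Module k M]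
variable {N : Type*} [AddCommGroup N] [Module k N]
variable (V : Subgroup G) [V.Normal]

/-- `v ↦ g⁻¹ v g` on the normal subgroup `V`. -/
def cj (g : G) : V →* V := (MulAut.conjNormal g⁻¹).toMonoidHom

@[simp] lemma coe_cj (g : G) (v : V) : (cj V g v : G) = g⁻¹ * v * g := by simp [cj]

lemma cj_mul (g g' : G) (v : V) : cj V (g * g') v = cj V g' (cj V g v) :=
  Subtype.ext (by simp [mul_assoc])

lemma cj_one (v : V) : cj V 1 v = v := Subtype.ext (by simp)

lemma cj_compat (g : G) : (𝓛.restrict V).Compat (cj V g) (𝓛.restrict V) := by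
  rintro W ⟨W', hW', hWW⟩
  obtain ⟨W'', hW'', hle, hn⟩ := LevelSys.exists_normal hW'
  refine ⟨W'', hW'', fun v hv => hWW ?_⟩
  have hv' : (v : G) ∈ W'' := hv
  refine hle ?_
  show ((cj V g v : V) : G) ∈ W''
  rw [coe_cj]
  simpa using hn.conj_mem _ hv' g⁻¹

variable (𝓛) (ρ : Representation k G M) (σ : Representation k G N)

lemma cj_equivar (g : G) (h : V) (m : M) :
    (ρ g) ((ρ.comp V.subtype) (cj V g h) m) = (ρ.comp V.subtype) h (ρ g m) := by
  show ρ g (ρ (cj V g h : G) m) = ρ (h : G) (ρ g m)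
  rw [← Module.End.mul_apply, ← map_mul, ← Module.End.mul_apply, ← map_mul, coe_cj]
  congr 2
  group

/-- The conjugation action on `H¹(V, M)`. -/
def conj1 : Representation k G (H1 (𝓛.restrict V) (ρ.comp V.subtype)) where
  toFun g := H1map (cj V g) (cj_compat V g) (ρ g) (cj_equivar V ρ g)
  map_one' := by
    apply LinearMap.ext
    intro x
    obtain ⟨c, rfl⟩ := H1mk_surjective x
    rw [H1map_mk]
    refine congrArg _ (Subtype.ext (funext fun v => ?_))
    show ρ 1 (c.1 (cj V 1 v)) = c.1 v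
    rw [map_one, cj_one]
    rfl
  map_mul' g g' := by
    apply LinearMap.ext
    intro x
    obtain ⟨c, rfl⟩ := H1mk_surjective x
    rw [Module.End.mul_apply, H1map_mk, H1map_mk, H1map_mk]
    refine congrArg _ (Subtype.ext (funext fun v => ?_))
    show ρ (g * g') (c.1 (cj V (g * g') v)) = ρ g (ρ g' (c.1 (cj V g' (cj V g v))))
    rw [map_mul, cj_mul]
    rfl

/-- The conjugation action on `H²(V, M)`. -/
def conj2 : Representation k G (H2 (𝓛.restrict V) (ρ.comp V.subtype)) where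
  toFun g := H2map (cj V g) (cj_compat V g) (ρ g) (cj_equivar V ρ g)
  map_one' := by
    apply LinearMap.ext
    intro x
    obtain ⟨c, rfl⟩ := H2mk_surjective x
    rw [H2map_mk]
    refine congrArg _ (Subtype.ext (funext fun v => ?_))
    show ρ 1 (c.1 (cj V 1 v.1, cj V 1 v.2)) = c.1 v
    rw [map_one, cj_one, cj_one]
    rfl
  map_mul' g g' := by
    apply LinearMap.ext
    intro x
    obtain ⟨c, rfl⟩ := H2mk_surjective x
    rw [Module.End.mul_apply, H2map_mk, H2map_mk, H2map_mk]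
    refine congrArg _ (Subtype.ext (funext fun v => ?_))
    show ρ (g * g') (c.1 (cj V (g * g') v.1, cj V (g * g') v.2)) =
      ρ g (ρ g' (c.1 (cj V g' (cj V g v.1), cj V g' (cj V g v.2))))
    rw [map_mul, cj_mul, cj_mul]
    rfl

variable {𝓛 ρ σ}

lemma conj1_eq (g : G) (x : H1 (𝓛.restrict V) (ρ.comp V.subtype)) :
    conj1 𝓛 V ρ g x = H1map (cj V g) (cj_compat V g) (ρ g) (cj_equivar V ρ g) x := rfl

lemma conj2_eq (g : G) (x : H2 (𝓛.restrict V) (ρ.comp V.subtype)) :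
    conj2 𝓛 V ρ g x = H2map (cj V g) (cj_compat V g) (ρ g) (cj_equivar V ρ g) x := rfl

lemma conj1_mk (g : G) (c : ↥(Z1 (𝓛.restrict V) (ρ.comp V.subtype))) :
    conj1 𝓛 V ρ g (H1mk (𝓛.restrict V) (ρ.comp V.subtype) c) =
      H1mk (𝓛.restrict V) (ρ.comp V.subtype) (Z1map (cj V g) (cj_compat V g) (ρ g) (cj_equivar V ρ g) c) := rfl

lemma conj2_mk (g : G) (c : ↥(Z2 (𝓛.restrict V) (ρ.comp V.subtype))) :
    conj2 𝓛 V ρ g (H2mk (𝓛.restrict V) (ρ.comp V.subtype) c) =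
      H2mk (𝓛.restrict V) (ρ.comp V.subtype) (Z2map (cj V g) (cj_compat V g) (ρ g) (cj_equivar V ρ g) c) := rfl

/-- the conjugate of a `V`-equivariant map. -/
def conjMap (ρ : Representation k G M) (σ : Representation k G N) (f : N →ₗ[k] M) (g : G) :
    N →ₗ[k] M := ρ g ∘ₗ f ∘ₗ σ g⁻¹

lemma conjMap_apply (f : N →ₗ[k] M) (g : G) (n : N) :
    conjMap ρ σ f g n = ρ g (f (σ g⁻¹ n)) := rfl

variable {V}

lemma conjMap_equivar {f : N →ₗ[k] M}
    (hf : ∀ (v : V) n, f (σ (V.subtype v) n) = (ρ.comp V.subtype) v (f n)) (g : G) (v : V)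
    (n : N) :
    conjMap ρ σ f g (σ (V.subtype v) n) = (ρ.comp V.subtype) v (conjMap ρ σ f g n) := by
  have h1 := hf (cj V g v) (σ g⁻¹ n)
  rw [conjMap_apply, conjMap_apply]
  have e1 : σ g⁻¹ (σ (V.subtype v) n) = σ (V.subtype (cj V g v)) (σ g⁻¹ n) := by
    rw [← Module.End.mul_apply, ← map_mul, ← Module.End.mul_apply, ← map_mul]
    congr 2
    show g⁻¹ * (v : G) = (cj V g v : G) * g⁻¹
    rw [coe_cj]
    group
  rw [e1, h1, cj_equivar]

lemma conjMap_equivar' {f : N →ₗ[k] M}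
    (hf : Equivar (σ.comp V.subtype) (ρ.comp V.subtype) f) (g : G) :
    Equivar (σ.comp V.subtype) (ρ.comp V.subtype) (conjMap ρ σ f g) :=
  fun v n => conjMap_equivar hf g v n

/-- conjugating a restricted class amounts to conjugating the coefficient map. -/
lemma conj1_res {f : N →ₗ[k] M}
    (hf : ∀ (v : V) n, f (σ (V.subtype v) n) = (ρ.comp V.subtype) v (f n)) (g : G)
    (z : H1 𝓛 σ) :
    conj1 𝓛 V ρ g (H1map (𝓛' := 𝓛.restrict V) V.subtype (LevelSys.compat_comap _) f hf z) =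
      H1map (𝓛' := 𝓛.restrict V) V.subtype (LevelSys.compat_comap _) (conjMap ρ σ f g)
        (conjMap_equivar hf g) z := by
  obtain ⟨c, rfl⟩ := H1mk_surjective z
  rw [H1map_mk, H1map_mk, conj1_mk, ← sub_eq_zero, ← map_sub, H1mk_eq_zero]
  refine ⟨conjMap ρ σ f g (c.1 g), fun v => ?_⟩
  show ρ g (f (c.1 (cj V g v : G))) - conjMap ρ σ f g (c.1 (v : G)) =
    (ρ.comp V.subtype) v (conjMap ρ σ f g (c.1 g)) - conjMap ρ σ f g (c.1 g)
  rw [← conjMap_equivar hf g v, ← map_sub]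
  have h1 := inner1 c.2.2 g (v : G)
  have h2 : c.1 (cj V g v : G) = σ g⁻¹ (c.1 v + (σ (V.subtype v) (c.1 g) - c.1 g)) := by
    rw [coe_cj]
    rw [← Module.End.one_apply (R := k) (c.1 (g⁻¹ * v * g)), ← map_one σ, ← inv_mul_cancel g,
      map_mul, Module.End.mul_apply, h1]
    rfl
  rw [h2]
  show conjMap ρ σ f g (c.1 v + (σ (V.subtype v) (c.1 g) - c.1 g)) - _ = _
  rw [map_add]
  abel

/-- conjugating a restricted class amounts to conjugating the coefficient map. -/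
lemma conj2_res {f : N →ₗ[k] M}
    (hf : ∀ (v : V) n, f (σ (V.subtype v) n) = (ρ.comp V.subtype) v (f n)) (g : G)
    (z : H2 𝓛 σ) :
    conj2 𝓛 V ρ g (H2map (𝓛' := 𝓛.restrict V) V.subtype (LevelSys.compat_comap _) f hf z) =
      H2map (𝓛' := 𝓛.restrict V) V.subtype (LevelSys.compat_comap _) (conjMap ρ σ f g)
        (conjMap_equivar hf g) z := by
  obtain ⟨c, rfl⟩ := H2mk_surjective z
  rw [H2map_mk, H2map_mk, conj2_mk, ← sub_eq_zero, ← map_sub, H2mk_eq_zero]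
  refine ⟨fun v => conjMap ρ σ f g (c.1 (g, g⁻¹ * v * g) - c.1 ((v : G), g)), ?_,
    fun v w => ?_⟩
  · exact ((inner2_LC c.2.1 g).precomp (𝓛' := 𝓛.restrict V) (u := V.subtype)
      (LevelSys.compat_comap _)).comp (fun x => conjMap ρ σ f g x)
  show ρ g (f (c.1 ((cj V g v : G), (cj V g w : G)))) -
      conjMap ρ σ f g (c.1 ((v : G), (w : G))) =
    (ρ.comp V.subtype) v (conjMap ρ σ f g (c.1 (g, g⁻¹ * w * g) - c.1 ((w : G), g))) -
      conjMap ρ σ f g (c.1 (g, g⁻¹ * ((v : G) * w) * g) - c.1 (((v : G) * w), g)) +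
      conjMap ρ σ f g (c.1 (g, g⁻¹ * v * g) - c.1 ((v : G), g))
  rw [← conjMap_equivar hf g v, ← map_sub (conjMap ρ σ f g) (σ (V.subtype v) _), ← map_add]
  have h1 := inner2 c.2.2 g (v : G) (w : G)
  have h2 : c.1 ((cj V g v : G), (cj V g w : G)) = σ g⁻¹ (c.1 (↑v, ↑w) + (σ ↑v (c.1 (g, g⁻¹ * ↑w * g) - c.1 (↑w, g)) -
      (c.1 (g, g⁻¹ * (↑v * ↑w) * g) - c.1 (↑v * ↑w, g)) + (c.1 (g, g⁻¹ * ↑v * g) - c.1 (↑v, g)))) := by
    rw [coe_cj, coe_cj, ← h1, ← Module.End.mul_apply (σ g⁻¹), ← map_mul, inv_mul_cancel, map_one]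
    rfl
  rw [h2]
  show conjMap ρ σ f g _ - _ = _
  rw [map_add (conjMap ρ σ f g) (c.1 (↑v, ↑w)), add_sub_cancel_left]
  rfl

/-- elements of `V` act trivially. -/
lemma conj1_of_mem {g : G} (hg : g ∈ V) : conj1 𝓛 V ρ g = 1 := by
  apply LinearMap.ext
  intro x
  obtain ⟨c, rfl⟩ := H1mk_surjective x
  rw [conj1_mk, Module.End.one_apply, ← sub_eq_zero, ← map_sub, H1mk_eq_zero]
  refine ⟨c.1 ⟨g, hg⟩, fun v => ?_⟩
  have h1 := inner1 c.2.2 ⟨g, hg⟩ v
  show ρ g (c.1 (cj V g v)) - c.1 v = _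
  have h2 : cj V g v = (⟨g, hg⟩ : V)⁻¹ * v * ⟨g, hg⟩ := Subtype.ext (by simp)
  rw [h2]
  have h3 : ρ g (c.1 ((⟨g, hg⟩ : V)⁻¹ * v * ⟨g, hg⟩)) = _ := h1
  rw [h3]
  abel

/-- elements of `V` act trivially. -/
lemma conj2_of_mem {g : G} (hg : g ∈ V) : conj2 𝓛 V ρ g = 1 := by
  apply LinearMap.ext
  intro x
  obtain ⟨c, rfl⟩ := H2mk_surjective x
  rw [conj2_mk, Module.End.one_apply, ← sub_eq_zero, ← map_sub, H2mk_eq_zero]
  refine ⟨_, inner2_LC c.2.1 ⟨g, hg⟩, fun v w => ?_⟩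
  have h1 := inner2 c.2.2 ⟨g, hg⟩ v w
  show ρ g (c.1 (cj V g v, cj V g w)) - c.1 (v, w) = _
  have h2 : ∀ v, cj V g v = (⟨g, hg⟩ : V)⁻¹ * v * ⟨g, hg⟩ := fun v => Subtype.ext (by simp)
  rw [h2, h2]
  have h3 : ρ g (c.1 ((⟨g, hg⟩ : V)⁻¹ * v * ⟨g, hg⟩, (⟨g, hg⟩ : V)⁻¹ * w * ⟨g, hg⟩)) = _ := h1
  rw [h3]
  abel

/-- coefficient maps : `g • (f_* z) = (g f g⁻¹)_* (g • z)`. -/
lemma conj1_coef {f : N →ₗ[k] M}
    (hf : Equivar (σ.comp V.subtype) (ρ.comp V.subtype) f) (g : G)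
    (z : H1 (𝓛.restrict V) (σ.comp V.subtype)) :
    conj1 𝓛 V ρ g (H1coef (𝓛.restrict V) f hf z) =
      H1coef (𝓛.restrict V) (conjMap ρ σ f g) (conjMap_equivar' hf g) (conj1 𝓛 V σ g z) := by
  obtain ⟨c, rfl⟩ := H1mk_surjective z
  refine congrArg (H1mk (𝓛.restrict V) (ρ.comp V.subtype)) (Subtype.ext (funext fun v => ?_))
  show ρ g (f (c.1 (cj V g v))) = ρ g (f (σ g⁻¹ (σ g (c.1 (cj V g v)))))
  rw [← Module.End.mul_apply (σ g⁻¹), ← map_mul, inv_mul_cancel, map_one, Module.End.one_apply]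

/-- coefficient maps : `g • (f_* z) = (g f g⁻¹)_* (g • z)`. -/
lemma conj2_coef {f : N →ₗ[k] M}
    (hf : Equivar (σ.comp V.subtype) (ρ.comp V.subtype) f) (g : G)
    (z : H2 (𝓛.restrict V) (σ.comp V.subtype)) :
    conj2 𝓛 V ρ g (H2coef (𝓛.restrict V) f hf z) =
      H2coef (𝓛.restrict V) (conjMap ρ σ f g) (conjMap_equivar' hf g) (conj2 𝓛 V σ g z) := by
  obtain ⟨c, rfl⟩ := H2mk_surjective z
  refine congrArg (H2mk (𝓛.restrict V) (ρ.comp V.subtype)) (Subtype.ext (funext fun v => ?_))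
  show ρ g (f (c.1 (cj V g v.1, cj V g v.2))) =
    ρ g (f (σ g⁻¹ (σ g (c.1 (cj V g v.1, cj V g v.2)))))
  rw [← Module.End.mul_apply (σ g⁻¹), ← map_mul, inv_mul_cancel, map_one, Module.End.one_apply]

end Conj

section Infl

variable {k : Type*} [CommRing k] {G : Type*} [Group G] {𝓛S 𝓛 : LevelSys G}
variable {M : Type*} [AddCommGroup M] [Module k M]
variable {N : Type*} [AddCommGroup N] [Module k N]

/-- compatibility of the identity with two level systems on a subgroup. -/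
lemma compat_restrict (hle : ∀ W ∈ 𝓛S, W ∈ 𝓛) (V : Subgroup G) :
    (𝓛S.restrict V).Compat (MonoidHom.id V) (𝓛.restrict V) := by
  rintro W ⟨W', hW', hWW⟩
  exact ⟨W', hle W' hW', by simpa using hWW⟩

lemma compat_id_of_le (hle : ∀ W ∈ 𝓛S, W ∈ 𝓛) : 𝓛S.Compat (MonoidHom.id G) 𝓛 :=
  fun W hW => by simpa using hle W hW

/-- Inflation on `H²(V, -)`. -/
def inflV (hle : ∀ W ∈ 𝓛S, W ∈ 𝓛) (V : Subgroup G) (ρ : Representation k V M) :
    H2 (𝓛S.restrict V) ρ →ₗ[k] H2 (𝓛.restrict V) ρ :=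
  H2map (MonoidHom.id V) (compat_restrict hle V) LinearMap.id (fun _ _ => rfl)

/-- Inflation on `H²(G, -)`. -/
def inflG (hle : ∀ W ∈ 𝓛S, W ∈ 𝓛) (ρ : Representation k G M) :
    H2 𝓛S ρ →ₗ[k] H2 𝓛 ρ :=
  H2map (MonoidHom.id G) (compat_id_of_le hle) LinearMap.id (fun _ _ => rfl)

variable (hle : ∀ W ∈ 𝓛S, W ∈ 𝓛) (V : Subgroup G)

lemma inflV_mk_eq_zero {ρ : Representation k V M} (c : ↥(Z2 (𝓛S.restrict V) ρ)) :
    inflV hle V ρ (H2mk (𝓛S.restrict V) ρ c) = 0 ↔ ∃ b : V → M, LC1 (𝓛.restrict V) b ∧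
      ∀ g h, (c : V × V → M) (g, h) = ρ g (b h) - b (g * h) + b g := by
  rw [inflV, H2map_mk, H2mk_eq_zero]
  rfl

/-- inflation commutes with conjugation. -/
lemma conj2_inflV [V.Normal] {ρ : Representation k G M} (g : G)
    (z : H2 (𝓛S.restrict V) (ρ.comp V.subtype)) :
    conj2 𝓛 V ρ g (inflV hle V (ρ.comp V.subtype) z) =
      inflV hle V (ρ.comp V.subtype) (conj2 𝓛S V ρ g z) := by
  obtain ⟨c, rfl⟩ := H2mk_surjective z
  rfl

/-- inflation commutes with coefficient maps. -/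
lemma inflV_coef {ρ : Representation k V M} {σ : Representation k V N} {f : M →ₗ[k] N}
    (hf : Equivar ρ σ f) (z : H2 (𝓛S.restrict V) ρ) :
    inflV hle V σ (H2coef (𝓛S.restrict V) f hf z) =
      H2coef (𝓛.restrict V) f hf (inflV hle V ρ z) := by
  obtain ⟨c, rfl⟩ := H2mk_surjective z
  rfl

/-- inflation commutes with restriction. -/
lemma inflV_res {σ : Representation k G N} {ρ : Representation k V M} {f : N →ₗ[k] M}
    (hf : ∀ (v : V) n, f (σ (V.subtype v) n) = ρ v (f n)) (z : H2 𝓛S σ) :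
    inflV hle V ρ (H2map (𝓛' := 𝓛S.restrict V) V.subtype (LevelSys.compat_comap _) f hf z) =
      H2map (𝓛' := 𝓛.restrict V) V.subtype (LevelSys.compat_comap _) f hf
        (inflG hle σ z) := by
  obtain ⟨c, rfl⟩ := H2mk_surjective z
  rfl

/-- The kernel of inflation as a representation of `G`. -/
def conjK [V.Normal] (ρ : Representation k G M) :
    Representation k G (LinearMap.ker (inflV hle V (ρ.comp V.subtype))) where
  toFun g := (conj2 𝓛S V ρ g).restrict (p := LinearMap.ker (inflV hle V (ρ.comp V.subtype)))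
    (fun z hz => by
      rw [LinearMap.mem_ker] at hz ⊢
      rw [← conj2_inflV, hz, map_zero])
  map_one' := by
    apply LinearMap.ext
    intro x
    apply Subtype.ext
    show conj2 𝓛S V ρ 1 x.1 = x.1
    rw [map_one]
    rfl
  map_mul' g g' := by
    apply LinearMap.ext
    intro x
    apply Subtype.ext
    show conj2 𝓛S V ρ (g * g') x.1 = conj2 𝓛S V ρ g (conj2 𝓛S V ρ g' x.1)
    rw [map_mul]
    rfl

@[simp] lemma coe_conjK [V.Normal] (ρ : Representation k G M) (g : G)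
    (x : LinearMap.ker (inflV hle V (ρ.comp V.subtype))) :
    (conjK hle V ρ g x : H2 (𝓛S.restrict V) (ρ.comp V.subtype)) = conj2 𝓛S V ρ g x := rfl

end Infl

section Quot

variable {k : Type*} [CommRing k] {G : Type*} [Group G]
variable {M : Type*} [AddCommGroup M] [Module k M]

/-- A representation trivial on `V` as a representation of `G ⧸ V`. -/
def quotRep (V : Subgroup G) [V.Normal] (ρ : Representation k G M) (h : ∀ v ∈ V, ρ v = 1) :
    Representation k (G ⧸ V) M := QuotientGroup.lift V ρ h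

@[simp] lemma quotRep_mk (V : Subgroup G) [V.Normal] (ρ : Representation k G M)
    (h : ∀ v ∈ V, ρ v = 1) (g : G) : quotRep V ρ h (g : G ⧸ V) = ρ g := rfl

end Quot

end Fermat.Agent.GW
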