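import Fermat.Agent.GW.Conj

/-!
# Prime-to-`p` descent for induced modules

`V ≤ U ≤ G`, `V` normal in `G`, `V ∈ 𝓛`, index of `V` in `U` invertible in `k`; `ρ` a representation
of `G` on `M`, trivial on `V`; `μ` a one dimensional representation of `G`, trivial on `V`.
`desc1`, `desc2` : `H^i(G, Fun(G/U, M)) ≃ Hom_U(Hom(M, μ), H^i(V, μ))`, and the same for the
kernel of an inflation map.
-/

set_option autoImplicit false

namespace Fermat.Agent.GW

open Fermat.Agent.PT

section Perm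

variable {k : Type*} [CommRing k] {G : Type*} [Group G] {𝓛 : LevelSys G}
variable {M : Type*} [AddCommGroup M] [Module k M] (ρ : Representation k G M)
variable {X : Type*} [MulAction G X] (V : Subgroup G)

/-- `V` acts trivially on `X`. -/
def TrivOn (V : Subgroup G) (X : Type*) [MulAction G X] : Prop := ∀ v ∈ V, ∀ x : X, v • x = x

variable {V}

lemma proj_equivar' {x : X} (hx : ∀ v ∈ V, v • x = x) (v : V) (f : X → M) :
    (LinearMap.proj x : (X → M) →ₗ[k] M) (funRep X ρ (V.subtype v) f) =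
      (ρ.comp V.subtype) v ((LinearMap.proj x : (X → M) →ₗ[k] M) f) := by
  have h1 : ((v : G)⁻¹) • x = x := hx _ (V.inv_mem v.2)
  show ρ (v : G) (f ((v : G)⁻¹ • x)) = ρ (v : G) (f x)
  rw [h1]

/-- restrict to a subgroup `V` fixing `x` and evaluate at `x`. -/
def evP1 (x : X) (hx : ∀ v ∈ V, v • x = x) : H1 𝓛 (funRep X ρ) →ₗ[k]
    H1 (𝓛.restrict V) (ρ.comp V.subtype) :=
  H1map V.subtype (LevelSys.compat_comap _) (LinearMap.proj x) (proj_equivar' ρ hx)

/-- restrict to a subgroup `V` fixing `x` and evaluate at `x`. -/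
def evP2 (x : X) (hx : ∀ v ∈ V, v • x = x) : H2 𝓛 (funRep X ρ) →ₗ[k]
    H2 (𝓛.restrict V) (ρ.comp V.subtype) :=
  H2map V.subtype (LevelSys.compat_comap _) (LinearMap.proj x) (proj_equivar' ρ hx)

/-- restrict to `V` and evaluate at `x`. -/
abbrev ev1 (hX : TrivOn V X) (x : X) : H1 𝓛 (funRep X ρ) →ₗ[k]
    H1 (𝓛.restrict V) (ρ.comp V.subtype) := evP1 ρ x (fun v hv => hX v hv x)

/-- restrict to `V` and evaluate at `x`. -/
abbrev ev2 (hX : TrivOn V X) (x : X) : H2 𝓛 (funRep X ρ) →ₗ[k]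
    H2 (𝓛.restrict V) (ρ.comp V.subtype) := evP2 ρ x (fun v hv => hX v hv x)

lemma conjMap_proj (g : G) (x : X) :
    conjMap ρ (funRep X ρ) (LinearMap.proj x : (X → M) →ₗ[k] M) g =
      (LinearMap.proj (g • x) : (X → M) →ₗ[k] M) := by
  apply LinearMap.ext
  intro f
  show ρ g (ρ g⁻¹ (f (g⁻¹⁻¹ • x))) = f (g • x)
  rw [← Module.End.mul_apply, ← map_mul, mul_inv_cancel, map_one, inv_inv]
  rfl

variable [V.Normal]

lemma conj1_ev (hX : TrivOn V X) (x : X) (g : G) (z : H1 𝓛 (funRep X ρ)) :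
    conj1 𝓛 V ρ g (ev1 ρ hX x z) = ev1 ρ hX (g • x) z := by
  refine (conj1_res (proj_equivar' ρ (fun v hv => hX v hv x)) g z).trans ?_
  obtain ⟨c, rfl⟩ := H1mk_surjective z
  refine congrArg _ (Subtype.ext (funext fun v => ?_))
  rw [Z1map_apply, Z1map_apply, conjMap_proj]

lemma conj2_ev (hX : TrivOn V X) (x : X) (g : G) (z : H2 𝓛 (funRep X ρ)) :
    conj2 𝓛 V ρ g (ev2 ρ hX x z) = ev2 ρ hX (g • x) z := by
  refine (conj2_res (proj_equivar' ρ (fun v hv => hX v hv x)) g z).trans ?_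
  obtain ⟨c, rfl⟩ := H2mk_surjective z
  refine congrArg _ (Subtype.ext (funext fun v => ?_))
  rw [Z2map_apply, Z2map_apply, conjMap_proj]

lemma trivOn_quot {U : Subgroup G} (hVU : V ≤ U) : TrivOn V (G ⧸ U) := by
  rintro v hv ⟨g⟩
  show ((v * g : G) : G ⧸ U) = (g : G ⧸ U)
  rw [eq_comm, QuotientGroup.eq]
  have : g⁻¹ * (v * g) = g⁻¹ * v * g⁻¹⁻¹ := by group
  rw [this]
  exact hVU (Subgroup.Normal.conj_mem inferInstance v hv g⁻¹)

lemma orbitReps_one (U : Subgroup G) : OrbitReps G (fun _ : Unit => ((1 : G) : G ⧸ U)) where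
  surj y := by
    induction y using QuotientGroup.induction_on with
    | H g => exact ⟨(), g, by rw [MulAction.Quotient.smul_coe, smul_eq_mul, mul_one]⟩
  inj _ _ _ _ := rfl

omit [V.Normal] in
lemma stabilizer_one (U : Subgroup G) : MulAction.stabilizer G ((1 : G) : G ⧸ U) = U :=
  MulAction.stabilizer_quotient U

lemma stabilizer_mem {U : Subgroup G} (hVU : V ≤ U) (hV : V ∈ 𝓛) (x : G ⧸ U) :
    MulAction.stabilizer G x ∈ 𝓛 :=
  LevelSys.mono hV fun v hv => trivOn_quot hVU v hv x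

section transport

omit [V.Normal]

/-- Shapiro's lemma with the stabilizer replaced by an equal subgroup. -/
lemma injective_of_eq_stabilizer2 [Finite X] (hX : ∀ x : X, MulAction.stabilizer G x ∈ 𝓛)
    (x : Unit → X) (hx : OrbitReps G x) {P : Subgroup G} (hP : MulAction.stabilizer G (x ()) = P)
    (he : ∀ v ∈ P, v • x () = x ())
    (z : H2 𝓛 (funRep X ρ)) (hz : evP2 ρ (x ()) he z = 0) : z = 0 := by
  subst hP
  exact sh2_injective hx hX z (fun j => hz)

lemma surjective_of_eq_stabilizer2 [Finite X] (hX : ∀ x : X, MulAction.stabilizer G x ∈ 𝓛)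
    (x : Unit → X) (hx : OrbitReps G x) {P : Subgroup G} (hP : MulAction.stabilizer G (x ()) = P)
    (he : ∀ v ∈ P, v • x () = x ())
    (y : H2 (𝓛.restrict P) (ρ.comp P.subtype)) :
    ∃ z : H2 𝓛 (funRep X ρ), evP2 ρ (x ()) he z = y := by
  subst hP
  obtain ⟨z, hz⟩ := sh2_surjective hx hX (fun _ => y)
  exact ⟨z, hz ()⟩

/-- Shapiro's lemma with the stabilizer replaced by an equal subgroup. -/
lemma injective_of_eq_stabilizer1
    (x : Unit → X) (hx : OrbitReps G x) {P : Subgroup G} (hP : MulAction.stabilizer G (x ()) = P)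
    (he : ∀ v ∈ P, v • x () = x ())
    (z : H1 𝓛 (funRep X ρ)) (hz : evP1 ρ (x ()) he z = 0) : z = 0 := by
  subst hP
  exact sh1_injective hx z (fun j => hz)

lemma surjective_of_eq_stabilizer1 [Finite X] (hX : ∀ x : X, MulAction.stabilizer G x ∈ 𝓛)
    (x : Unit → X) (hx : OrbitReps G x) {P : Subgroup G} (hP : MulAction.stabilizer G (x ()) = P)
    (he : ∀ v ∈ P, v • x () = x ())
    (y : H1 (𝓛.restrict P) (ρ.comp P.subtype)) :
    ∃ z : H1 𝓛 (funRep X ρ), evP1 ρ (x ()) he z = y := by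
  subst hP
  obtain ⟨z, hz⟩ := sh1_surjective hx hX (fun _ => y)
  exact ⟨z, hz ()⟩

end transport

variable (V)

lemma ev2_V_injective [Finite (G ⧸ V)] (hV : V ∈ 𝓛) (z : H2 𝓛 (funRep (G ⧸ V) ρ))
    (hz : ev2 ρ (trivOn_quot le_rfl) ((1 : G) : G ⧸ V) z = 0) : z = 0 :=
  injective_of_eq_stabilizer2 ρ (stabilizer_mem le_rfl hV) _ (orbitReps_one V) (stabilizer_one V)
    _ z hz

lemma ev2_V_surjective [Finite (G ⧸ V)] (hV : V ∈ 𝓛)
    (y : H2 (𝓛.restrict V) (ρ.comp V.subtype)) : ∃ z : H2 𝓛 (funRep (G ⧸ V) ρ),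
    ev2 ρ (trivOn_quot le_rfl) ((1 : G) : G ⧸ V) z = y :=
  surjective_of_eq_stabilizer2 ρ (stabilizer_mem le_rfl hV) _ (orbitReps_one V) (stabilizer_one V)
    _ y

lemma ev1_V_injective (z : H1 𝓛 (funRep (G ⧸ V) ρ))
    (hz : ev1 ρ (trivOn_quot le_rfl) ((1 : G) : G ⧸ V) z = 0) : z = 0 :=
  injective_of_eq_stabilizer1 ρ _ (orbitReps_one V) (stabilizer_one V) _ z hz

lemma ev1_V_surjective [Finite (G ⧸ V)] (hV : V ∈ 𝓛)
    (y : H1 (𝓛.restrict V) (ρ.comp V.subtype)) : ∃ z : H1 𝓛 (funRep (G ⧸ V) ρ),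
    ev1 ρ (trivOn_quot le_rfl) ((1 : G) : G ⧸ V) z = y :=
  surjective_of_eq_stabilizer1 ρ (stabilizer_mem le_rfl hV) _ (orbitReps_one V) (stabilizer_one V)
    _ y

end Perm

section PullTr

variable {k : Type*} [CommRing k] {G : Type*} [Group G] {𝓛 : LevelSys G}
variable {M : Type*} [AddCommGroup M] [Module k M] (ρ : Representation k G M)
variable {X Y : Type*} [MulAction G X] [MulAction G Y] (π : X → Y)
  (hπ : ∀ (g : G) (x : X), π (g • x) = g • π x)

variable (k M) in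
/-- pull back of functions. -/
def pull : (Y → M) →ₗ[k] (X → M) := LinearMap.funLeft k M π

include hπ in
lemma pull_equivar : Equivar (funRep Y ρ) (funRep X ρ) (pull k M π) := by
  intro g f
  funext x
  show ρ g (f (g⁻¹ • π x)) = ρ g (f (π (g⁻¹ • x)))
  rw [hπ]

variable (k M) in
/-- sum over the fibres. -/
noncomputable def tr [Fintype X] [DecidableEq Y] : (X → M) →ₗ[k] (Y → M) where
  toFun f y := ∑ x ∈ Finset.univ.filter (fun x => π x = y), f x
  map_add' f f' := by funext y; simp [Finset.sum_add_distrib]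
  map_smul' r f := by funext y; simp [Finset.smul_sum]

lemma tr_apply [Fintype X] [DecidableEq Y] (f : X → M) (y : Y) :
    tr k M π f y = ∑ x ∈ Finset.univ.filter (fun x => π x = y), f x := rfl

include hπ in
lemma tr_equivar [Fintype X] [DecidableEq Y] :
    Equivar (funRep X ρ) (funRep Y ρ) (tr k M π) := by
  intro g f
  funext y
  rw [tr_apply, funRep_apply, tr_apply, map_sum]
  refine Finset.sum_bij' (fun x _ => g⁻¹ • x) (fun x _ => g • x) ?_ ?_ ?_ ?_ ?_
  · intro x hx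
    simp only [Finset.mem_filter, Finset.mem_univ, true_and] at hx ⊢
    rw [hπ, hx]
  · intro x hx
    simp only [Finset.mem_filter, Finset.mem_univ, true_and] at hx ⊢
    rw [hπ, hx, smul_inv_smul]
  · intro x _; simp
  · intro x _; simp
  · intro x _; rfl

lemma tr_pull [Fintype X] [DecidableEq Y] (n : ℕ)
    (hn : ∀ y : Y, (Finset.univ.filter (fun x => π x = y)).card = n) (f : Y → M) :
    tr k M π (pull k M π f) = (n : k) • f := by
  funext y
  rw [tr_apply, Pi.smul_apply]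
  have : ∀ x ∈ Finset.univ.filter (fun x => π x = y), pull k M π f x = f y := by
    intro x hx
    simp only [Finset.mem_filter, Finset.mem_univ, true_and] at hx
    show f (π x) = f y
    rw [hx]
  rw [Finset.sum_congr rfl this, Finset.sum_const, hn, Nat.cast_smul_eq_nsmul]

end PullTr

section Descent

variable {k : Type*} [Field k] {G : Type*} [Group G] {𝓛 : LevelSys G}
variable {M : Type*} [AddCommGroup M] [Module k M] (ρ : Representation k G M)
variable (V : Subgroup G) [V.Normal] {U : Subgroup G} (hVU : V ≤ U)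

/-- the projection `G ⧸ V → G ⧸ U`. -/
def qmap : G ⧸ V → G ⧸ U := Subgroup.quotientMapOfLE hVU

variable {V}

omit [V.Normal] in
@[simp] lemma qmap_mk (g : G) : qmap V hVU (g : G ⧸ V) = (g : G ⧸ U) := rfl

omit [V.Normal] in
lemma qmap_smul (g : G) (x : G ⧸ V) : qmap V hVU (g • x) = g • qmap V hVU x := by
  induction x using QuotientGroup.induction_on with
  | H h => rfl

omit [V.Normal] in
lemma card_fiber_qmap [Fintype (G ⧸ V)] [DecidableEq (G ⧸ U)] (y : G ⧸ U) :
    (Finset.univ.filter (fun x => qmap V hVU x = y)).card =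
      (Finset.univ.filter (fun x => qmap V hVU x = ((1 : G) : G ⧸ U))).card := by
  induction y using QuotientGroup.induction_on with
  | H g =>
    refine Finset.card_bij' (fun x _ => g⁻¹ • x) (fun x _ => g • x) ?_ ?_ ?_ ?_
    · intro x hx
      simp only [Finset.mem_filter, Finset.mem_univ, true_and] at hx ⊢
      rw [qmap_smul, hx, MulAction.Quotient.smul_coe, smul_eq_mul, inv_mul_cancel]
    · intro x hx
      simp only [Finset.mem_filter, Finset.mem_univ, true_and] at hx ⊢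
      rw [qmap_smul, hx, MulAction.Quotient.smul_coe, smul_eq_mul, mul_one]
    · intro x _; simp
    · intro x _; simp

omit [V.Normal] in
lemma card_fiber_mul [Fintype (G ⧸ V)] [DecidableEq (G ⧸ U)] :
    (Finset.univ.filter (fun x => qmap V hVU x = ((1 : G) : G ⧸ U))).card * U.index = V.index := by
  have := Fintype.ofSurjective (qmap V hVU) (fun y => by
    induction y using QuotientGroup.induction_on with
    | H g => exact ⟨(g : G ⧸ V), rfl⟩)
  have h1 : (Finset.univ : Finset (G ⧸ V)).card = ∑ y : G ⧸ U,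
      (Finset.univ.filter (fun x => qmap V hVU x = y)).card :=
    Finset.card_eq_sum_card_fiberwise (fun x _ => Finset.mem_univ _)
  rw [Finset.sum_congr rfl (fun y _ => card_fiber_qmap hVU y), Finset.sum_const,
    Finset.card_univ, Finset.card_univ, smul_eq_mul] at h1
  rw [Subgroup.index, Subgroup.index, Nat.card_eq_fintype_card, Nat.card_eq_fintype_card, h1,
    mul_comm]

omit [V.Normal] in
lemma card_fiber_one [Fintype (G ⧸ V)] [DecidableEq (G ⧸ U)] :
    (Finset.univ.filter (fun x => qmap V hVU x = ((1 : G) : G ⧸ U))).card = V.relIndex U := by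
  have h1 := card_fiber_mul hVU
  rw [← Subgroup.relIndex_mul_index hVU] at h1
  have hU : U.index ≠ 0 := by
    intro h
    rw [h, mul_zero] at h1
    have : V.index ≠ 0 := Subgroup.index_ne_zero_of_finite
    rw [← Subgroup.relIndex_mul_index hVU, h, mul_zero] at this
    exact this rfl
  exact Nat.eq_of_mul_eq_mul_right (Nat.pos_of_ne_zero hU) h1

omit [V.Normal] in
lemma qmap_eq_one_iff (g : G) : qmap V hVU (g : G ⧸ V) = ((1 : G) : G ⧸ U) ↔ g ∈ U := by
  rw [qmap_mk, eq_comm, QuotientGroup.eq, inv_one, one_mul]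

section Two

omit [V.Normal] in
lemma H2coef_tr_pull [Fintype (G ⧸ V)] [DecidableEq (G ⧸ U)] (z : H2 𝓛 (funRep (G ⧸ U) ρ)) :
    H2coef 𝓛 (tr k M (qmap V hVU)) (tr_equivar ρ _ (qmap_smul hVU))
      (H2coef 𝓛 (pull k M (qmap V hVU)) (pull_equivar ρ _ (qmap_smul hVU)) z) =
      (V.relIndex U : k) • z := by
  obtain ⟨c, rfl⟩ := H2mk_surjective z
  rw [H2map_mk, H2map_mk, ← map_smul]
  refine congrArg _ (Subtype.ext (funext fun x => ?_))
  exact tr_pull (qmap V hVU) (V.relIndex U)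
    (fun y => (card_fiber_qmap hVU y).trans (card_fiber_one hVU)) _

variable [Finite (G ⧸ V)] (hV : V ∈ 𝓛) (hn : (V.relIndex U : k) ≠ 0)

include hV hn in
/-- restriction to `V` and evaluation at `1` is injective on `H²(G, Fun(G/U, M))`. -/
theorem ev2_injective (z : H2 𝓛 (funRep (G ⧸ U) ρ))
    (hz : ev2 ρ (trivOn_quot hVU) ((1 : G) : G ⧸ U) z = 0) : z = 0 := by
  classical
  have := Fintype.ofFinite (G ⧸ V)
  have h1 : ev2 ρ (trivOn_quot le_rfl) ((1 : G) : G ⧸ V) (H2coef 𝓛 (pull k M (qmap V hVU))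
      (pull_equivar ρ _ (qmap_smul hVU)) z) = 0 := by
    obtain ⟨c, rfl⟩ := H2mk_surjective z
    exact hz
  have h2 := ev2_V_injective ρ V hV _ h1
  have h3 := H2coef_tr_pull ρ hVU z
  rw [h2, map_zero] at h3
  exact (smul_eq_zero.1 h3.symm).resolve_left hn

omit [Finite (G ⧸ V)] in
lemma ev2_tr [Fintype (G ⧸ V)] [DecidableEq (G ⧸ U)] (z : H2 𝓛 (funRep (G ⧸ V) ρ)) :
    ev2 ρ (trivOn_quot hVU) ((1 : G) : G ⧸ U)
      (H2coef 𝓛 (tr k M (qmap V hVU)) (tr_equivar ρ _ (qmap_smul hVU)) z) =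
    ∑ x ∈ Finset.univ.filter (fun x => qmap V hVU x = ((1 : G) : G ⧸ U)),
      ev2 ρ (trivOn_quot le_rfl) x z := by
  obtain ⟨c, rfl⟩ := H2mk_surjective z
  simp only [evP2, H2map_mk]
  rw [← map_sum]
  refine congrArg _ (Subtype.ext (funext fun v => ?_))
  rw [Submodule.coe_sum, Finset.sum_apply]
  rfl

include hV hn in
/-- restriction to `V` and evaluation at `1` is surjective onto the `U`-invariants. -/
theorem ev2_surjective (y : H2 (𝓛.restrict V) (ρ.comp V.subtype))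
    (hy : ∀ u ∈ U, conj2 𝓛 V ρ u y = y) :
    ∃ z, ev2 ρ (trivOn_quot hVU) ((1 : G) : G ⧸ U) z = y := by
  classical
  have := Fintype.ofFinite (G ⧸ V)
  obtain ⟨z, hz⟩ := ev2_V_surjective ρ V hV y
  refine ⟨(V.relIndex U : k)⁻¹ • H2coef 𝓛 (tr k M (qmap V hVU))
    (tr_equivar ρ _ (qmap_smul hVU)) z, ?_⟩
  rw [map_smul, ev2_tr]
  have h1 : ∀ x ∈ Finset.univ.filter (fun x => qmap V hVU x = ((1 : G) : G ⧸ U)),
      ev2 ρ (trivOn_quot le_rfl) x z = y := by
    intro x hx
    simp only [Finset.mem_filter, Finset.mem_univ, true_and] at hx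
    induction x using QuotientGroup.induction_on with
    | H g =>
      have hg : g ∈ U := (qmap_eq_one_iff hVU g).1 hx
      have h2 := conj2_ev ρ (trivOn_quot le_rfl) ((1 : G) : G ⧸ V) g z
      rw [MulAction.Quotient.smul_coe, smul_eq_mul, mul_one] at h2
      rw [← h2, hz, hy g hg]
  rw [Finset.sum_congr rfl h1, Finset.sum_const, card_fiber_one hVU, ← Nat.cast_smul_eq_nsmul k,
    smul_smul, inv_mul_cancel₀ hn, one_smul]

omit [Finite (G ⧸ V)] in
/-- the image of restriction to `V` and evaluation at `1` consists of `U`-invariants. -/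
theorem conj2_ev2 (z : H2 𝓛 (funRep (G ⧸ U) ρ)) {u : G} (hu : u ∈ U) :
    conj2 𝓛 V ρ u (ev2 ρ (trivOn_quot hVU) ((1 : G) : G ⧸ U) z) =
      ev2 ρ (trivOn_quot hVU) ((1 : G) : G ⧸ U) z := by
  rw [conj2_ev]
  have h1 : u • ((1 : G) : G ⧸ U) = ((1 : G) : G ⧸ U) := by
    rw [MulAction.Quotient.smul_coe, smul_eq_mul, mul_one, eq_comm, QuotientGroup.eq, inv_one,
      one_mul]
    exact hu
  rw [h1]

end Two

section One

omit [V.Normal] in
lemma H1coef_tr_pull [Fintype (G ⧸ V)] [DecidableEq (G ⧸ U)] (z : H1 𝓛 (funRep (G ⧸ U) ρ)) :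
    H1coef 𝓛 (tr k M (qmap V hVU)) (tr_equivar ρ _ (qmap_smul hVU))
      (H1coef 𝓛 (pull k M (qmap V hVU)) (pull_equivar ρ _ (qmap_smul hVU)) z) =
      (V.relIndex U : k) • z := by
  obtain ⟨c, rfl⟩ := H1mk_surjective z
  rw [H1map_mk, H1map_mk, ← map_smul]
  refine congrArg _ (Subtype.ext (funext fun x => ?_))
  exact tr_pull (qmap V hVU) (V.relIndex U)
    (fun y => (card_fiber_qmap hVU y).trans (card_fiber_one hVU)) _

variable [Finite (G ⧸ V)] (hV : V ∈ 𝓛) (hn : (V.relIndex U : k) ≠ 0)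

omit hV in
include hn in
/-- restriction to `V` and evaluation at `1` is injective on `H¹(G, Fun(G/U, M))`. -/
theorem ev1_injective (z : H1 𝓛 (funRep (G ⧸ U) ρ))
    (hz : ev1 ρ (trivOn_quot hVU) ((1 : G) : G ⧸ U) z = 0) : z = 0 := by
  classical
  have := Fintype.ofFinite (G ⧸ V)
  have h1 : ev1 ρ (trivOn_quot le_rfl) ((1 : G) : G ⧸ V) (H1coef 𝓛 (pull k M (qmap V hVU))
      (pull_equivar ρ _ (qmap_smul hVU)) z) = 0 := by
    obtain ⟨c, rfl⟩ := H1mk_surjective z
    exact hz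
  have h2 := ev1_V_injective ρ V _ h1
  have h3 := H1coef_tr_pull ρ hVU z
  rw [h2, map_zero] at h3
  exact (smul_eq_zero.1 h3.symm).resolve_left hn

omit [Finite (G ⧸ V)] in
lemma ev1_tr [Fintype (G ⧸ V)] [DecidableEq (G ⧸ U)] (z : H1 𝓛 (funRep (G ⧸ V) ρ)) :
    ev1 ρ (trivOn_quot hVU) ((1 : G) : G ⧸ U)
      (H1coef 𝓛 (tr k M (qmap V hVU)) (tr_equivar ρ _ (qmap_smul hVU)) z) =
    ∑ x ∈ Finset.univ.filter (fun x => qmap V hVU x = ((1 : G) : G ⧸ U)),
      ev1 ρ (trivOn_quot le_rfl) x z := by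
  obtain ⟨c, rfl⟩ := H1mk_surjective z
  simp only [evP1, H1map_mk]
  rw [← map_sum]
  refine congrArg _ (Subtype.ext (funext fun v => ?_))
  rw [Submodule.coe_sum, Finset.sum_apply]
  rfl

include hV hn in
/-- restriction to `V` and evaluation at `1` is surjective onto the `U`-invariants. -/
theorem ev1_surjective (y : H1 (𝓛.restrict V) (ρ.comp V.subtype))
    (hy : ∀ u ∈ U, conj1 𝓛 V ρ u y = y) :
    ∃ z, ev1 ρ (trivOn_quot hVU) ((1 : G) : G ⧸ U) z = y := by
  classical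
  have := Fintype.ofFinite (G ⧸ V)
  obtain ⟨z, hz⟩ := ev1_V_surjective ρ V hV y
  refine ⟨(V.relIndex U : k)⁻¹ • H1coef 𝓛 (tr k M (qmap V hVU))
    (tr_equivar ρ _ (qmap_smul hVU)) z, ?_⟩
  rw [map_smul, ev1_tr]
  have h1 : ∀ x ∈ Finset.univ.filter (fun x => qmap V hVU x = ((1 : G) : G ⧸ U)),
      ev1 ρ (trivOn_quot le_rfl) x z = y := by
    intro x hx
    simp only [Finset.mem_filter, Finset.mem_univ, true_and] at hx
    induction x using QuotientGroup.induction_on with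
    | H g =>
      have hg : g ∈ U := (qmap_eq_one_iff hVU g).1 hx
      have h2 := conj1_ev ρ (trivOn_quot le_rfl) ((1 : G) : G ⧸ V) g z
      rw [MulAction.Quotient.smul_coe, smul_eq_mul, mul_one] at h2
      rw [← h2, hz, hy g hg]
  rw [Finset.sum_congr rfl h1, Finset.sum_const, card_fiber_one hVU, ← Nat.cast_smul_eq_nsmul k,
    smul_smul, inv_mul_cancel₀ hn, one_smul]

omit [Finite (G ⧸ V)] in
/-- the image of restriction to `V` and evaluation at `1` consists of `U`-invariants. -/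
theorem conj1_ev1 (z : H1 𝓛 (funRep (G ⧸ U) ρ)) {u : G} (hu : u ∈ U) :
    conj1 𝓛 V ρ u (ev1 ρ (trivOn_quot hVU) ((1 : G) : G ⧸ U) z) =
      ev1 ρ (trivOn_quot hVU) ((1 : G) : G ⧸ U) z := by
  rw [conj1_ev]
  have h1 : u • ((1 : G) : G ⧸ U) = ((1 : G) : G ⧸ U) := by
    rw [MulAction.Quotient.smul_coe, smul_eq_mul, mul_one, eq_comm, QuotientGroup.eq, inv_one,
      one_mul]
    exact hu
  rw [h1]

end One

end Descent

end Fermat.Agent.GW
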