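import Fermat.Agent.GW.BrauerNesbitt
import Mathlib.Algebra.Module.ZMod
import Mathlib.LinearAlgebra.Charpoly.BaseChange
import Mathlib.RingTheory.Flat.Basic
import Mathlib.RingTheory.Flat.TorsionFree
import Mathlib.LinearAlgebra.FreeModule.PID

/-!
# Characteristic polynomials on `X/pX` and `X[p]` for a finitely generated abelian group `X`

For an endomorphism `φ` of a finitely generated abelian group `X`:
`charpoly (φ | X/pX) = charpoly (φ | X[p]) * (charpoly (φ | X ⊗ ℚ) mod p)`.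
-/

set_option autoImplicit false
set_option linter.unusedSectionVars false

namespace Fermat.Agent.GW.Fg

open Polynomial TensorProduct Function

section Descend

variable {X Y Z : Type*} [AddCommGroup X] [AddCommGroup Y] [AddCommGroup Z]

/-- descent of an additive map through a surjection -/
noncomputable def descend (f : X →+ Y) (hf : Surjective f) (g : X →+ Z)
    (h : ∀ x, f x = 0 → g x = 0) : Y →+ Z :=
  f.liftOfRightInverse (Function.surjInv hf) (Function.rightInverse_surjInv hf)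
    ⟨g, fun x hx => h x hx⟩

lemma descend_apply (f : X →+ Y) (hf : Surjective f) (g : X →+ Z)
    (h : ∀ x, f x = 0 → g x = 0) (x : X) : descend f hf g h (f x) = g x :=
  AddMonoidHom.liftOfRightInverse_comp_apply _ _ _ _ _

end Descend

section KerCoker

variable {K A B C D : Type*} [Field K] [AddCommGroup A] [Module K A] [FiniteDimensional K A]
  [AddCommGroup B] [Module K B] [FiniteDimensional K B] [AddCommGroup C] [Module K C]
  [FiniteDimensional K C] [AddCommGroup D] [Module K D] [FiniteDimensional K D]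

/-- `charpoly A * charpoly (coker h) = charpoly (ker h) * charpoly B` for `h : A → B`. -/
theorem charpoly_ker_coker (h : A →ₗ[K] B) (c : B →ₗ[K] C) (d : D →ₗ[K] A)
    (hc : Surjective c) (hhc : Exact h c) (hd : Injective d) (hdh : Exact d h)
    (fA : A →ₗ[K] A) (fB : B →ₗ[K] B) (fC : C →ₗ[K] C) (fD : D →ₗ[K] D)
    (h1 : h ∘ₗ fA = fB ∘ₗ h) (h2 : c ∘ₗ fB = fC ∘ₗ c) (h3 : d ∘ₗ fD = fA ∘ₗ d) :
    fA.charpoly * fC.charpoly = fD.charpoly * fB.charpoly := by
  have hI : ∀ x ∈ LinearMap.range h, fB x ∈ LinearMap.range h := by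
    rintro _ ⟨a, rfl⟩
    exact ⟨fA a, LinearMap.congr_fun h1 a⟩
  let fI : LinearMap.range h →ₗ[K] LinearMap.range h := fB.restrict hI
  have e1 : fA.charpoly = fD.charpoly * fI.charpoly := by
    refine charpoly_eq_mul_of_exact d h.rangeRestrict hd ?_ (LinearMap.surjective_rangeRestrict h)
      fD fA fI h3 ?_
    · intro a
      rw [← hdh a]
      constructor
      · intro ha; exact congrArg Subtype.val ha
      · intro ha; exact Subtype.ext ha
    · ext a
      exact LinearMap.congr_fun h1 a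
  have e2 : fB.charpoly = fI.charpoly * fC.charpoly := by
    refine charpoly_eq_mul_of_exact (LinearMap.range h).subtype c
      (Submodule.injective_subtype _) ?_ hc fI fB fC ?_ h2
    · intro b
      rw [hhc b]
      constructor
      · rintro ⟨a, rfl⟩; exact ⟨⟨h a, ⟨a, rfl⟩⟩, rfl⟩
      · rintro ⟨⟨_, ⟨a, rfl⟩⟩, rfl⟩; exact ⟨a, rfl⟩
    · ext b
      rfl
  rw [e1, e2]
  ring

end KerCoker

section Models

variable {p : ℕ}

/-- `q : X → V` identifies `V` with `X/pX`. -/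
structure ModP (p : ℕ) {X V : Type*} [AddCommGroup X] [AddCommGroup V] (q : X →+ V) : Prop where
  surj : Surjective q
  ker : ∀ x, q x = 0 ↔ ∃ y, x = p • y

/-- `i : V → X` identifies `V` with `X[p]`. -/
structure TorP (p : ℕ) {X V : Type*} [AddCommGroup X] [AddCommGroup V] (i : V →+ X) : Prop where
  inj : Injective i
  range : ∀ x, p • x = 0 ↔ ∃ v, i v = x

variable [hp : Fact p.Prime]

section Free

variable {Λ V : Type*} [AddCommGroup Λ] [Module.Free ℤ Λ] [Module.Finite ℤ Λ]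
  [AddCommGroup V] [Module (ZMod p) V]

/-- the comparison `ZMod p ⊗ Λ ≃ V` -/
noncomputable def tensorEquiv (q : Λ →+ V) (hq : ModP p q) : (ZMod p ⊗[ℤ] Λ) ≃ₗ[ZMod p] V :=
  LinearEquiv.ofBijective
    (TensorProduct.AlgebraTensorModule.lift
      { toFun := fun a => a • (q.toIntLinearMap : Λ →ₗ[ℤ] V)
        map_add' := fun a b => add_smul a b _
        map_smul' := fun a b => mul_smul a b _ }) (by
    have hpure : ∀ z : ZMod p ⊗[ℤ] Λ, ∃ x : Λ, z = 1 ⊗ₜ x := by
      intro z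
      induction z using TensorProduct.induction_on with
      | zero => exact ⟨0, by simp⟩
      | tmul a x =>
        obtain ⟨n, rfl⟩ := ZMod.intCast_surjective a
        refine ⟨n • x, ?_⟩
        rw [TensorProduct.tmul_smul, TensorProduct.smul_tmul']
        congr 1
        simp
      | add z w hz hw =>
        obtain ⟨x, rfl⟩ := hz
        obtain ⟨y, rfl⟩ := hw
        exact ⟨x + y, (TensorProduct.tmul_add _ _ _).symm⟩
    constructor
    · rw [injective_iff_map_eq_zero]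
      intro z hz
      obtain ⟨x, rfl⟩ := hpure z
      have hz' : (1 : ZMod p) • q x = 0 := hz
      rw [one_smul, hq.ker] at hz'
      obtain ⟨y, rfl⟩ := hz'
      have : (p : ℕ) • y = ((p : ℤ)) • y := (natCast_zsmul y p).symm
      rw [this, TensorProduct.tmul_smul, TensorProduct.smul_tmul']
      have h0 : ((p : ℤ)) • (1 : ZMod p) = 0 := by simp
      rw [h0, TensorProduct.zero_tmul]
    · intro v
      obtain ⟨x, rfl⟩ := hq.surj v
      exact ⟨1 ⊗ₜ x, one_smul _ _⟩)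

lemma tensorEquiv_tmul (q : Λ →+ V) (hq : ModP p q) (x : Λ) :
    tensorEquiv q hq (1 ⊗ₜ x) = q x := one_smul _ _

/-- For a lattice `Λ`, `charpoly (φ | Λ/pΛ)` is the reduction of `charpoly φ`. -/
theorem charpoly_modP_free (φ : Λ →ₗ[ℤ] Λ) (q : Λ →+ V) (hq : ModP p q)
    (f : V →ₗ[ZMod p] V) (hf : ∀ x, f (q x) = q (φ x)) [FiniteDimensional (ZMod p) V] :
    f.charpoly = φ.charpoly.map (Int.castRingHom (ZMod p)) := by
  have h1 := LinearMap.charpoly_baseChange (A := ZMod p) φ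
  rw [show algebraMap ℤ (ZMod p) = Int.castRingHom (ZMod p) from rfl] at h1
  rw [← h1]
  symm
  refine charpoly_eq_of_equiv (tensorEquiv q hq) _ _ ?_
  intro z
  induction z using TensorProduct.induction_on with
  | zero => simp
  | tmul a x =>
    have h2 : a ⊗ₜ[ℤ] x = a • ((1 : ZMod p) ⊗ₜ[ℤ] x) := by
      rw [TensorProduct.smul_tmul', smul_eq_mul, mul_one]
    rw [h2, map_smul, map_smul, map_smul, map_smul, LinearMap.baseChange_tmul, tensorEquiv_tmul,
      tensorEquiv_tmul, hf]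
  | add z w hz hw => rw [map_add, map_add, hz, hw, map_add, map_add]

end Free

section Main

variable {X V₁ V₂ : Type*} [AddCommGroup X] [Module.Finite ℤ X]
  [AddCommGroup V₁] [Module (ZMod p) V₁] [FiniteDimensional (ZMod p) V₁]
  [AddCommGroup V₂] [Module (ZMod p) V₂] [FiniteDimensional (ZMod p) V₂]

/-- the standard model of `Λ/pΛ` -/
noncomputable def stdQ (p : ℕ) (Λ : Type*) [AddCommGroup Λ] : Λ →+ ZMod p ⊗[ℤ] Λ :=
  (TensorProduct.mk ℤ (ZMod p) Λ 1).toAddMonoidHom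

lemma stdQ_modP (Λ : Type*) [AddCommGroup Λ] [Module.Free ℤ Λ] [Module.Finite ℤ Λ] :
    ModP p (stdQ p Λ) := by
  constructor
  · intro z
    induction z using TensorProduct.induction_on with
    | zero => exact ⟨0, map_zero _⟩
    | tmul a x =>
      obtain ⟨n, rfl⟩ := ZMod.intCast_surjective a
      refine ⟨n • x, ?_⟩
      change (1 : ZMod p) ⊗ₜ[ℤ] (n • x) = _
      rw [TensorProduct.tmul_smul, TensorProduct.smul_tmul']
      congr 1
      simp
    | add z w hz hw =>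
      obtain ⟨x, rfl⟩ := hz
      obtain ⟨y, rfl⟩ := hw
      exact ⟨x + y, map_add _ _ _⟩
  · intro x
    constructor
    · intro h
      -- use a basis
      let b := Module.Free.chooseBasis ℤ Λ
      have h1 : ∀ i, (p : ℤ) ∣ b.repr x i := by
        intro i
        have h3 : (TensorProduct.rid ℤ (ZMod p)) ((LinearMap.lTensor (ZMod p) (b.coord i))
            ((1 : ZMod p) ⊗ₜ[ℤ] x)) = 0 := by
          have : (1 : ZMod p) ⊗ₜ[ℤ] x = 0 := h
          rw [this, map_zero, map_zero]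
        rw [LinearMap.lTensor_tmul, TensorProduct.rid_tmul] at h3
        have h4 : ((b.repr x i : ℤ) : ZMod p) = 0 := by
          have h5 : (b.coord i x) • (1 : ZMod p) = ((b.repr x i : ℤ) : ZMod p) := by
            rw [zsmul_one]; rfl
          rw [← h5]; exact h3
        exact (ZMod.intCast_zmod_eq_zero_iff_dvd _ _).mp h4
      choose y hy using h1
      refine ⟨∑ i, y i • b i, ?_⟩
      conv_lhs => rw [← b.sum_repr x]
      rw [Finset.smul_sum]
      refine Finset.sum_congr rfl fun i _ => ?_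
      rw [hy i, mul_smul]
      exact natCast_zsmul _ _
    · rintro ⟨y, rfl⟩
      rw [map_nsmul, ← Nat.cast_smul_eq_nsmul (ZMod p)]
      simp

omit hp in
/-- multiplicativity of the characteristic polynomial in a presentation, over a field of
characteristic zero -/
lemma charpoly_baseChange_of_presentation {Λ : Type*} [AddCommGroup Λ] [Module.Free ℤ Λ]
    [Module.Finite ℤ Λ] (F : Type*) [Field F] [CharZero F] (π : Λ →ₗ[ℤ] X) (hπ : Surjective π)
    (φ : X →ₗ[ℤ] X) (φ₀ : Λ →ₗ[ℤ] Λ) (φ₁ : LinearMap.ker π →ₗ[ℤ] LinearMap.ker π)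
    (hφ₀ : ∀ x, π (φ₀ x) = φ (π x)) (hφ₁ : ∀ x, (φ₁ x : Λ) = φ₀ x) :
    φ₀.charpoly.map (Int.castRingHom F) =
      φ₁.charpoly.map (Int.castRingHom F) * (φ.baseChange F).charpoly := by
  have hflat : Module.Flat ℤ F := inferInstance
  have hP0 := LinearMap.charpoly_baseChange (A := F) φ₀
  have hP1 := LinearMap.charpoly_baseChange (A := F) φ₁
  rw [show algebraMap ℤ F = Int.castRingHom F from rfl] at hP0 hP1
  rw [← hP0, ← hP1]
  refine charpoly_eq_mul_of_exact ((LinearMap.ker π).subtype.baseChange F) (π.baseChange F)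
    ?_ ?_ ?_ _ _ _ ?_ ?_
  · exact Module.Flat.lTensor_preserves_injective_linearMap (M := F) _
      (LinearMap.ker π).injective_subtype
  · exact lTensor_exact F (LinearMap.exact_subtype_ker_map π) hπ
  · exact LinearMap.lTensor_surjective F hπ
  · rw [← LinearMap.baseChange_comp, ← LinearMap.baseChange_comp]
    congr 1
    exact LinearMap.ext fun x => hφ₁ x
  · rw [← LinearMap.baseChange_comp, ← LinearMap.baseChange_comp]
    congr 1
    exact LinearMap.ext fun x => hφ₀ x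

omit hp in
/-- a lift of an endomorphism to a presentation -/
lemma exists_lift {Λ : Type*} [AddCommGroup Λ] [Module.Free ℤ Λ] [Module.Finite ℤ Λ]
    (π : Λ →ₗ[ℤ] X) (hπ : Surjective π) (φ : X →ₗ[ℤ] X) :
    ∃ (φ₀ : Λ →ₗ[ℤ] Λ) (φ₁ : LinearMap.ker π →ₗ[ℤ] LinearMap.ker π),
      (∀ x, π (φ₀ x) = φ (π x)) ∧ ∀ x, (φ₁ x : Λ) = φ₀ x := by
  have h1 : ∃ φ₀ : Λ →ₗ[ℤ] Λ, ∀ x, π (φ₀ x) = φ (π x) := by
    choose g hg using hπ
    let b := Module.Free.chooseBasis ℤ Λ
    refine ⟨b.constr ℤ fun j => g (φ (π (b j))), ?_⟩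
    have : π ∘ₗ (b.constr ℤ fun j => g (φ (π (b j)))) = φ ∘ₗ π := by
      apply b.ext
      intro j
      rw [LinearMap.comp_apply, LinearMap.comp_apply, b.constr_basis, hg]
    exact fun x => LinearMap.congr_fun this x
  obtain ⟨φ₀, hφ₀⟩ := h1
  have hΛ₁ : ∀ x ∈ LinearMap.ker π, φ₀ x ∈ LinearMap.ker π := by
    intro x hx
    have hx' : π x = 0 := hx
    change π (φ₀ x) = 0
    rw [hφ₀, hx', map_zero]
  exact ⟨φ₀, φ₀.restrict hΛ₁, hφ₀, fun x => rfl⟩

omit hp in
/-- The integral characteristic polynomial of an endomorphism of a finitely generated group. -/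
theorem exists_fgCharpoly {Λ : Type*} [AddCommGroup Λ] [Module.Free ℤ Λ] [Module.Finite ℤ Λ]
    (π : Λ →ₗ[ℤ] X) (hπ : Surjective π)
    (φ : X →ₗ[ℤ] X) (φ₀ : Λ →ₗ[ℤ] Λ) (φ₁ : LinearMap.ker π →ₗ[ℤ] LinearMap.ker π)
    (hφ₀ : ∀ x, π (φ₀ x) = φ (π x)) (hφ₁ : ∀ x, (φ₁ x : Λ) = φ₀ x) :
    ∃ Q : ℤ[X], Q.Monic ∧ φ₀.charpoly = φ₁.charpoly * Q ∧
      ∀ (F : Type) [Field F] [CharZero F],
        Q.map (Int.castRingHom F) = (φ.baseChange F).charpoly := by
  have hinj : Function.Injective (Int.castRingHom ℚ) := Int.cast_injective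
  have hdvd : φ₁.charpoly ∣ φ₀.charpoly := by
    rw [← Polynomial.map_dvd_map _ hinj φ₁.charpoly_monic,
      charpoly_baseChange_of_presentation ℚ π hπ φ φ₀ φ₁ hφ₀ hφ₁]
    exact Dvd.intro _ rfl
  obtain ⟨Q, hQ⟩ := hdvd
  refine ⟨Q, φ₁.charpoly_monic.of_mul_monic_left (hQ ▸ φ₀.charpoly_monic), hQ, ?_⟩
  intro F _ _
  have h1 : φ₁.charpoly.map (Int.castRingHom F) ≠ 0 :=
    (φ₁.charpoly_monic.map _).ne_zero
  apply mul_left_cancel₀ h1
  rw [← Polynomial.map_mul, ← hQ]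
  exact charpoly_baseChange_of_presentation F π hπ φ φ₀ φ₁ hφ₀ hφ₁

omit hp in
theorem exists_fgCharpoly' (φ : X →ₗ[ℤ] X) :
    ∃ Q : ℤ[X], Q.Monic ∧ ∀ (F : Type) [Field F] [CharZero F],
        Q.map (Int.castRingHom F) = (φ.baseChange F).charpoly := by
  obtain ⟨n, π, hπ⟩ := Module.Finite.exists_fin' ℤ X
  obtain ⟨φ₀, φ₁, hφ₀, hφ₁⟩ := exists_lift π hπ φ
  obtain ⟨Q, h1, -, h2⟩ := exists_fgCharpoly π hπ φ φ₀ φ₁ hφ₀ hφ₁
  exact ⟨Q, h1, h2⟩

/-- The integral characteristic polynomial of an endomorphism of a finitely generated group. -/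
noncomputable def fgCharpoly (φ : X →ₗ[ℤ] X) : ℤ[X] := (exists_fgCharpoly' φ).choose

omit hp in
lemma fgCharpoly_monic (φ : X →ₗ[ℤ] X) : (fgCharpoly φ).Monic :=
  (exists_fgCharpoly' φ).choose_spec.1

omit hp in
lemma fgCharpoly_map (φ : X →ₗ[ℤ] X) (F : Type) [Field F] [CharZero F] :
    (fgCharpoly φ).map (Int.castRingHom F) = (φ.baseChange F).charpoly :=
  (exists_fgCharpoly' φ).choose_spec.2 F

omit hp in
lemma fgCharpoly_eq (φ : X →ₗ[ℤ] X) (F : Type) [Field F] [CharZero F] (Q : ℤ[X])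
    (hQ : Q.map (Int.castRingHom F) = (φ.baseChange F).charpoly) : fgCharpoly φ = Q := by
  apply Polynomial.map_injective (Int.castRingHom F) Int.cast_injective
  rw [hQ, fgCharpoly_map]

/-- **Main theorem**: `charpoly (X/p) = charpoly (X[p]) * charpoly (X ⊗ ℚ) mod p`. -/
theorem charpoly_modP (φ : X →ₗ[ℤ] X) (q : X →+ V₁) (hq : ModP p q)
    (f₁ : V₁ →ₗ[ZMod p] V₁) (hf₁ : ∀ x, f₁ (q x) = q (φ x))
    (i : V₂ →+ X) (hi : TorP p i) (f₂ : V₂ →ₗ[ZMod p] V₂) (hf₂ : ∀ v, i (f₂ v) = φ (i v)) :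
    f₁.charpoly = f₂.charpoly * (fgCharpoly φ).map (Int.castRingHom (ZMod p)) := by
  obtain ⟨n, π, hπ⟩ := Module.Finite.exists_fin' ℤ X
  obtain ⟨φ₀, φ₁, hφ₀, hφ₁⟩ := exists_lift π hπ φ
  obtain ⟨Q, -, hQ, hQF⟩ := exists_fgCharpoly π hπ φ φ₀ φ₁ hφ₀ hφ₁
  rw [fgCharpoly_eq φ ℚ Q (hQF ℚ)]
  set Λ := Fin n → ℤ
  let Λ₁ := LinearMap.ker π
  -- the four term exact sequence mod `p`
  have hmod0 : ModP p (stdQ p Λ) := stdQ_modP Λ
  have hmod1 : ModP p (stdQ p Λ₁) := stdQ_modP Λ₁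
  let h : (ZMod p ⊗[ℤ] Λ₁) →ₗ[ZMod p] (ZMod p ⊗[ℤ] Λ) := Λ₁.subtype.baseChange (ZMod p)
  have hh : ∀ x : Λ₁, h (stdQ p Λ₁ x) = stdQ p Λ (x : Λ) := fun x => rfl
  let c0 : (ZMod p ⊗[ℤ] Λ) →+ V₁ := descend (stdQ p Λ) hmod0.surj (q.comp π.toAddMonoidHom) (by
    intro x hx
    obtain ⟨y, rfl⟩ := (hmod0.ker x).mp hx
    change q (π (p • y)) = 0
    rw [map_nsmul, hq.ker]
    exact ⟨_, rfl⟩)
  have hc0 : ∀ x : Λ, c0 (stdQ p Λ x) = q (π x) := fun x => descend_apply _ _ _ _ x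
  let c : (ZMod p ⊗[ℤ] Λ) →ₗ[ZMod p] V₁ := c0.toZModLinearMap p
  -- the connecting map
  let W : AddSubgroup Λ := (Λ₁.toAddSubgroup).comap (nsmulAddMonoidHom p)
  have hWπ : ∀ x : W, p • π (x : Λ) = 0 := by
    intro x
    have : π (p • (x : Λ)) = 0 := x.2
    rwa [map_nsmul] at this
  choose r hr using fun x : W => (hi.range (π (x : Λ))).mp (hWπ x)
  let rr : W →+ V₂ :=
    { toFun := r
      map_zero' := hi.inj (by rw [hr, map_zero]; exact map_zero π)
      map_add' := fun x y => hi.inj (by rw [map_add, hr, hr, hr]; exact map_add π _ _) }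
  have hrr : ∀ x : W, i (rr x) = π (x : Λ) := hr
  have hrrs : Surjective rr := by
    intro v
    obtain ⟨x, hx⟩ := hπ (i v)
    have hxW : x ∈ W := by
      change π (p • x) = 0
      rw [map_nsmul, hx]
      exact (hi.range _).mpr ⟨v, rfl⟩
    exact ⟨⟨x, hxW⟩, hi.inj (by rw [hrr]; exact hx)⟩
  let mulp : W →+ Λ₁ :=
    { toFun := fun x => ⟨p • (x : Λ), x.2⟩
      map_zero' := Subtype.ext (smul_zero p)
      map_add' := fun x y => Subtype.ext (smul_add p (x : Λ) (y : Λ)) }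
  let d0 : V₂ →+ (ZMod p ⊗[ℤ] Λ₁) := descend rr hrrs ((stdQ p Λ₁).comp mulp) (by
    intro x hx
    change stdQ p Λ₁ (mulp x) = 0
    rw [hmod1.ker]
    have h0 : π (x : Λ) = 0 := by rw [← hrr, hx, map_zero]
    exact ⟨⟨(x : Λ), h0⟩, Subtype.ext rfl⟩)
  have hd0 : ∀ x : W, d0 (rr x) = stdQ p Λ₁ (mulp x) := fun x => descend_apply _ _ _ _ x
  let d : V₂ →ₗ[ZMod p] (ZMod p ⊗[ℤ] Λ₁) := d0.toZModLinearMap p
  have hp0 : (p : ℕ) ≠ 0 := hp.out.ne_zero
  have hcan : ∀ x y : Λ, p • x = p • y → x = y := fun x y hxy => by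
    funext j
    have h1 : p • x j = p • y j := congrFun hxy j
    rw [nsmul_eq_mul, nsmul_eq_mul] at h1
    exact mul_left_cancel₀ (by exact_mod_cast hp0) h1
  have key := charpoly_ker_coker (K := ZMod p) h c d ?_ ?_ ?_ ?_ (φ₁.baseChange (ZMod p))
    (φ₀.baseChange (ZMod p)) f₁ f₂ ?_ ?_ ?_
  · -- conclude
    have k0 := LinearMap.charpoly_baseChange (A := ZMod p) φ₀
    have k1 := LinearMap.charpoly_baseChange (A := ZMod p) φ₁
    rw [show algebraMap ℤ (ZMod p) = Int.castRingHom (ZMod p) from rfl] at k0 k1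
    rw [k0, k1, hQ, Polynomial.map_mul] at key
    have h1 : φ₁.charpoly.map (Int.castRingHom (ZMod p)) ≠ 0 :=
      (φ₁.charpoly_monic.map _).ne_zero
    apply mul_left_cancel₀ h1
    rw [key]
    ring
  · -- `c` surjective
    intro v
    obtain ⟨x, rfl⟩ := hq.surj v
    obtain ⟨y, rfl⟩ := hπ x
    exact ⟨stdQ p Λ y, hc0 y⟩
  · -- exactness at `Λ/p`
    intro b
    obtain ⟨x, rfl⟩ := hmod0.surj b
    constructor
    · intro hb
      have hb' : q (π x) = 0 := by rw [← hc0]; exact hb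
      obtain ⟨y, hy⟩ := (hq.ker _).mp hb'
      obtain ⟨z, rfl⟩ := hπ y
      have hxz : π (x - p • z) = 0 := by rw [map_sub, map_nsmul, hy, sub_self]
      refine ⟨stdQ p Λ₁ ⟨x - p • z, hxz⟩, ?_⟩
      rw [hh]
      change stdQ p Λ (x - p • z) = _
      rw [map_sub, sub_eq_self, hmod0.ker]
      exact ⟨z, rfl⟩
    · rintro ⟨a, ha⟩
      obtain ⟨y, rfl⟩ := hmod1.surj a
      rw [← ha, hh]
      change c0 (stdQ p Λ (y : Λ)) = 0
      have hy : π (y : Λ) = 0 := y.2
      rw [hc0, hy, map_zero]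
  · -- `d` injective
    rw [injective_iff_map_eq_zero]
    intro v hv
    obtain ⟨x, rfl⟩ := hrrs v
    have hv' : stdQ p Λ₁ (mulp x) = 0 := by rw [← hd0]; exact hv
    obtain ⟨y, hy⟩ := (hmod1.ker _).mp hv'
    have h1 : (p • (x : Λ)) = p • (y : Λ) := congrArg Subtype.val hy
    have h2 := hcan _ _ h1
    apply hi.inj
    have hy0 : π (y : Λ) = 0 := y.2
    rw [hrr, h2, hy0, map_zero]
  · -- exactness at `Λ₁/p`
    intro a
    obtain ⟨y, rfl⟩ := hmod1.surj a
    constructor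
    · intro ha
      have ha' : stdQ p Λ (y : Λ) = 0 := by rw [← hh]; exact ha
      obtain ⟨x, hx⟩ := (hmod0.ker _).mp ha'
      have hxW : x ∈ W := by
        change π (p • x) = 0
        rw [← hx]
        exact y.2
      refine ⟨rr ⟨x, hxW⟩, ?_⟩
      change d0 (rr ⟨x, hxW⟩) = _
      rw [hd0]
      congr 1
      exact Subtype.ext hx.symm
    · rintro ⟨v, hv⟩
      obtain ⟨x, rfl⟩ := hrrs v
      rw [← hv]
      change h (d0 (rr x)) = 0
      rw [hd0, hh, hmod0.ker]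
      exact ⟨(x : Λ), rfl⟩
  · rw [← LinearMap.baseChange_comp, ← LinearMap.baseChange_comp]
    congr 1
    exact LinearMap.ext fun x => hφ₁ x
  · refine LinearMap.ext fun b => ?_
    obtain ⟨x, rfl⟩ := hmod0.surj b
    change c0 (stdQ p Λ (φ₀ x)) = f₁ (c0 (stdQ p Λ x))
    rw [hc0, hc0, hf₁, hφ₀]
  · refine LinearMap.ext fun v => ?_
    obtain ⟨x, rfl⟩ := hrrs v
    have hφW : φ₀ (x : Λ) ∈ W := by
      change π (p • φ₀ (x : Λ)) = 0
      rw [map_nsmul, hφ₀, ← map_nsmul, hWπ, map_zero]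
    have h1 : f₂ (rr x) = rr ⟨φ₀ (x : Λ), hφW⟩ := by
      apply hi.inj
      rw [hf₂, hrr, hrr, hφ₀]
    change d0 (f₂ (rr x)) = (φ₁.baseChange (ZMod p)) (d0 (rr x))
    rw [h1, hd0, hd0]
    change stdQ p Λ₁ _ = stdQ p Λ₁ _
    congr 1
    apply Subtype.ext
    rw [hφ₁]
    change p • φ₀ (x : Λ) = φ₀ (p • (x : Λ))
    rw [map_nsmul]

end Main

end Models

end Fermat.Agent.GW.Fg
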