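import Fermat.Agent.GW.LocalUnr
import Fermat.Agent.TW.Bridge

set_option autoImplicit false

/-!
# (GW-G) in the language of `GWcoc`
-/

namespace Fermat.Agent.GWLoc

open Fermat.Agent.PT
open Fermat.Agent.TW (levelsS levelsLoc)
open Fermat.Agent.CFT.Bridge (galLevels comap_localGaloisToGlobal_galLevels)
open ExtCitation

section General

variable {k : Type*} [Field k] {G : Type*} [Group G] {M : Type*} [AddCommGroup M] [Module k M]
  [FiniteDimensional k M] {𝓛 : LevelSys G} {ρ : Representation k G M}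

omit [FiniteDimensional k M] in
lemma ker_d01 : LinearMap.ker (d01 ρ) = Representation.invariants ρ := by
  ext m
  rw [LinearMap.mem_ker, Representation.mem_invariants]
  constructor
  · intro h g
    exact sub_eq_zero.1 (congrFun h g)
  · intro h
    funext g
    exact sub_eq_zero.2 (h g)

/-- `dim Z¹ + dim H⁰ = dim M + dim H¹`. -/
theorem finrank_Z1_add (hρ : Discrete 𝓛 ρ) [FiniteDimensional k (H1 𝓛 ρ)] :
    FiniteDimensional k (Z1 𝓛 ρ) ∧
    Module.finrank k (Z1 𝓛 ρ) + Module.finrank k (Representation.invariants ρ) =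
      Module.finrank k M + Module.finrank k (H1 𝓛 ρ) := by
  have hfB : FiniteDimensional k (B1 ρ) := by
    unfold B1; infer_instance
  have hle : B1 ρ ≤ Z1 𝓛 ρ := by
    rintro _ ⟨m, rfl⟩
    obtain ⟨U, hU, hUm⟩ := hρ m
    refine ⟨⟨U, hU, fun g s hs => ?_⟩, fun g h => ?_⟩
    · show ρ (g * s) m - m = ρ g m - m
      rw [map_mul, Module.End.mul_apply, hUm s hs]
    · show ρ (g * h) m - m = ρ g (ρ h m - m) + (ρ g m - m)
      rw [map_mul, Module.End.mul_apply, map_sub]
      abel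
  let e := Submodule.comapSubtypeEquivOfLe hle
  have hfc : FiniteDimensional k ((B1 ρ).comap (Z1 𝓛 ρ).subtype) :=
    FiniteDimensional.of_injective e.toLinearMap e.injective
  have hfZ : FiniteDimensional k (Z1 𝓛 ρ) :=
    Module.Finite.of_submodule_quotient ((B1 ρ).comap (Z1 𝓛 ρ).subtype)
  refine ⟨hfZ, ?_⟩
  have h1 := Submodule.finrank_quotient_add_finrank ((B1 ρ).comap (Z1 𝓛 ρ).subtype)
  have h2 : Module.finrank k ((B1 ρ).comap (Z1 𝓛 ρ).subtype) = Module.finrank k (B1 ρ) :=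
    e.finrank_eq
  have h3 := LinearMap.finrank_range_add_finrank_ker (d01 ρ)
  rw [ker_d01] at h3
  have h4 : Module.finrank k (B1 ρ) = Module.finrank k (LinearMap.range (d01 ρ)) := rfl
  change Module.finrank k (H1 𝓛 ρ) + _ = _ at h1
  omega

end General

section Primes

variable {p : ℕ} {M : Type*} [AddCommGroup M] [Module (ZMod p) M]
  {T : Finset Nat.Primes} {ρ : Representation (ZMod p) GQb M}

lemma rho_eq_one_of_inertia (hρ : Discrete (levelsS T) ρ) {q : Nat.Primes} (hq : q ∉ T)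
    (A : ValuationSubring Qb) (hA : A.LiesOverPrime (q : ℕ)) (σ : GQb)
    (hσ : σ ∈ A.inertiaSubgroupIn ℚ) : ρ σ = 1 := by
  refine LinearMap.ext fun m => ?_
  obtain ⟨U, ⟨F, hF, hFU⟩, hU⟩ := hρ m
  exact hU σ (hFU (hF.2 q hq A hA hσ))

lemma discrete_galLevels (hρ : Discrete (levelsS T) ρ) : Discrete (galLevels ℚ Qb) ρ := by
  intro m
  obtain ⟨U, ⟨F, hF, hFU⟩, hU⟩ := hρ m
  exact ⟨U, ⟨F, hF.1, hFU⟩, hU⟩

variable [hp : Fact p.Prime]

/-- **(GW-G)**, in the language of `TW.GWcoc`. -/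
theorem finrank_primeLocal_le (hρ : Discrete (levelsS T) ρ) {q : Nat.Primes} (hqT : q ∉ T)
    (hqp : (q : ℕ) ≠ p) [FiniteDimensional (ZMod p) M]
    {M' : Type*} [AddCommGroup M'] [Module (ZMod p) M'] (ρ' : Representation (ZMod p) GQb M')
    (B : M →ₗ[ZMod p] M' →ₗ[ZMod p] ZMod p)
    (hB : ∀ g m m', B (ρ g m) (ρ' g m') = (cycloChar p g : ZMod p) * B m m')
    (hB1 : ∀ m, (∀ m', B m m' = 0) → m = 0) (hB2 : ∀ m', (∀ m, B m m' = 0) → m' = 0) :
    FiniteDimensional (ZMod p) (H1 (levelsLoc q) (ρ.comp (primeLocalToGlobal q))) ∧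
    FiniteDimensional (ZMod p) (Z1 (levelsLoc q) (ρ.comp (primeLocalToGlobal q))) ∧
    Module.finrank (ZMod p) (H1 (levelsLoc q) (ρ.comp (primeLocalToGlobal q))) ≤
      Module.finrank (ZMod p) (Representation.invariants (ρ.comp (primeLocalToGlobal q))) +
      Module.finrank (ZMod p) (Representation.invariants (ρ'.comp (primeLocalToGlobal q))) ∧
    Module.finrank (ZMod p) (Z1 (levelsLoc q) (ρ.comp (primeLocalToGlobal q))) ≤
      Module.finrank (ZMod p) M +
      Module.finrank (ZMod p) (Representation.invariants (ρ'.comp (primeLocalToGlobal q))) := by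
  have hq : Fact (q : ℕ).Prime := ⟨q.2⟩
  have hρg := discrete_galLevels hρ
  have hlev : (galLevels ℚ Qb).comap (localGaloisToGlobal (q : ℕ)) =
      galLevels ℚ_[(q : ℕ)] (PadicAlgCl (q : ℕ)) :=
    comap_localGaloisToGlobal_galLevels (q : ℕ)
  have h0 := finrank_H1_local_le (q := (q : ℕ)) hqp ρ ρ' hρg B hB hB1 hB2
    (rho_eq_one_of_inertia hρ hqT)
  rw [← hlev] at h0
  have h1 : FiniteDimensional (ZMod p) (H1 (levelsLoc q) (ρ.comp (primeLocalToGlobal q))) := h0.1
  have h2 : Module.finrank (ZMod p) (H1 (levelsLoc q) (ρ.comp (primeLocalToGlobal q))) ≤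
      Module.finrank (ZMod p) (Representation.invariants (ρ.comp (primeLocalToGlobal q))) +
      Module.finrank (ZMod p) (Representation.invariants (ρ'.comp (primeLocalToGlobal q))) := h0.2
  have h3 := finrank_Z1_add (𝓛 := levelsLoc q) (ρ := ρ.comp (primeLocalToGlobal q))
    (hρg.comp (LevelSys.compat_comap (primeLocalToGlobal q)))
  refine ⟨h1, h3.1, h2, ?_⟩
  omega

end Primes

end Fermat.Agent.GWLoc
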