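import Fermat.Agent.GW.Coc
import Fermat.Agent.GW.LocalUnrPrimes
import Fermat.Agent.PT.Frozen

/-!
# Greenberg–Wiles over `ℚ`: `GWcoc p` from the global and local duality inputs
-/

set_option autoImplicit false

namespace Fermat.Agent.GW

open Fermat.Agent.PT Fermat.Agent.PT.Frozen Module ExtCitation Fermat.Agent.TW
open Fermat.Agent.CFT.SKummer (sLevels)

variable (p : ℕ) [hp : Fact p.Prime]

/-- the mod `p` cyclotomic character of complex conjugation is `-1` -/
theorem cycloChar_complexConjugation : (cycloChar p complexConjugation : ZMod p) = -1 := by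
  have hp1 : 1 < p := hp.out.one_lt
  have : NeZero p := ⟨hp.out.ne_zero⟩
  obtain ⟨ζ, hζ⟩ := exists_primitive p
  have h1 := cycloChar_spec (p := p) complexConjugation hζ.pow_eq_one
  rw [complexConjugation_root p hζ.pow_eq_one] at h1
  have h2 := hζ.pow_inj (by omega) (ZMod.val_lt _) h1
  have h3 : ((cycloChar p complexConjugation : ZMod p).val : ZMod p) =
    (cycloChar p complexConjugation : ZMod p) := ZMod.natCast_zmod_val _
  rw [← h3, ← h2, Nat.cast_sub hp1.le]
  simp

/-- All the inputs for `GWcoc p`. -/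
def GWInputs : Prop :=
  ∀ (S : Finset Nat.Primes) (hpS : pPrime p ∈ S),
    ∃ inv : (∀ v : ↥S, PT.H2 (rLevels (primeLocalToGlobal v.1))
      ((chiRep (cycloChar p)).comp (primeLocalToGlobal v.1)) →ₗ[ZMod p] ZMod p),
      GlobIn (placeData S hpS inv) complexConjugation ∧
      (∀ v, LocFin (placeData S hpS inv) v) ∧
      (∀ v : ↥S, v.1 ≠ pPrime p → LocNondeg (placeData S hpS inv) v)

lemma levelsS_eq (S : Finset Nat.Primes) : levelsS S = sLevels S := rfl

variable {p}

theorem gwcoc_of_inputs (hp2 : p ≠ 2) (hI : GWInputs p) : GWcoc p := by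
  classical
  intro S T₀ hTS hpT M M' _ _ _ _ _ _ ρ ρ' B hB1 hB2 hB hρT hρT' Λ _ hΛZ hΛB hinj Sel hSel
  have hpS : pPrime p ∈ S := hTS hpT
  obtain ⟨inv, hG, hF, hN⟩ := hI S hpS
  have hfM : FiniteDimensional (ZMod p) M := Module.Finite.of_finite
  have hfM' : FiniteDimensional (ZMod p) M' := Module.Finite.of_finite
  set T := placeData S hpS inv with hT
  have hlev : ∀ U, U ∈ levelsS T₀ → U ∈ sLevels S := by
    rintro U ⟨F, hF, hFU⟩
    exact ⟨F, ⟨hF.1, fun q hq A hA => hF.2 q (fun h => hq (hTS h)) A hA⟩, hFU⟩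
  have hρ : Discrete T.𝓛 ρ := fun m => by
    obtain ⟨U, hU, h⟩ := hρT m
    exact ⟨U, hlev U hU, h⟩
  have h2 : (2 : ZMod p) ≠ 0 := by
    intro h0
    have h3 : ((2 : ℕ) : ZMod p) = 0 := by exact_mod_cast h0
    rw [ZMod.natCast_eq_zero_iff] at h3
    exact hp2 ((Nat.prime_dvd_prime_iff_eq hp.out Nat.prime_two).1 h3)
  -- the isomorphism `M' ≃ dual`
  have hinjB : Function.Injective B.flip := by
    rw [← LinearMap.ker_eq_bot, LinearMap.ker_eq_bot']
    intro m' hm'
    exact hB2 m' (fun m => LinearMap.congr_fun hm' m)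
  have hinjB' : Function.Injective B := by
    rw [← LinearMap.ker_eq_bot, LinearMap.ker_eq_bot']
    intro m hm
    exact hB1 m (fun m' => LinearMap.congr_fun hm m')
  have hdims : finrank (ZMod p) M' = finrank (ZMod p) (Module.Dual (ZMod p) M) := by
    rw [Subspace.dual_finrank_eq]
    apply le_antisymm
    · have := LinearMap.finrank_le_finrank_of_injective hinjB
      rwa [Subspace.dual_finrank_eq] at this
    · have := LinearMap.finrank_le_finrank_of_injective hinjB'
      rwa [Subspace.dual_finrank_eq] at this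
  let e : M' ≃ₗ[ZMod p] Module.Dual (ZMod p) M :=
    LinearEquiv.ofInjectiveOfFinrankEq B.flip hinjB hdims
  have he : Equivar ρ' (dualT (cycloChar p) ρ) e.toLinearMap := by
    intro g m'
    refine LinearMap.ext (fun m => ?_)
    show B m (ρ' g m') = (cycloChar p g : ZMod p) * B (ρ g⁻¹ m) m'
    rw [← hB, ← Module.End.mul_apply, ← map_mul, mul_inv_cancel, map_one, Module.End.one_apply]
  -- the set of places
  let A : Finset T.V := (Finset.univ : Finset ↥S).filter (fun v => v.1 ∈ T₀)
  have hA : ∀ v : T.V, v ∈ A ↔ (v : ↥S).1 ∈ T₀ := fun v =>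
    Finset.mem_filter.trans (and_iff_right (Finset.mem_univ v))
  let Q : Finset T.V := (Finset.univ : Finset ↥S).filter (fun v => v.1 ∉ T₀)
  have hQ : ∀ v : T.V, v ∈ Q ↔ (v : ↥S).1 ∉ T₀ := fun v =>
    Finset.mem_filter.trans (and_iff_right (Finset.mem_univ v))
  have hinv : ∀ v : T.V, finrank (ZMod p) (Representation.invariants
      ((dualT T.χ ρ).comp (T.r v))) = finrank (ZMod p) (Representation.invariants
        (ρ'.comp (primeLocalToGlobal (v : ↥S).1))) := fun v =>
    (finrank_invariants_equiv e (he.comp_hom (primeLocalToGlobal (v : ↥S).1))).symm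
  have key := gw_coc T h2 complexConjugation complexConjugation_mul_self
    (cycloChar_complexConjugation p) hG hF hρ A Q
    (fun v => (hQ v).trans (not_congr (hA v)).symm)
    (fun v hv => hN v (fun h => hv ((hA v).2 (by rw [h]; exact hpT))))
    (fun v hv => by
      have h3 : (v : ↥S).1 ∉ T₀ := fun h => hv ((hA v).2 h)
      have h4 : ((v : ↥S).1 : ℕ) ≠ p := by
        intro h5
        apply h3
        have : (v : ↥S).1 = pPrime p := Subtype.ext h5
        rw [this]
        exact hpT
      have h5 := (GWLoc.finrank_primeLocal_le hρT h3 h4 ρ' B hB hB1 hB2).2.2.1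
      rw [hinv v]
      exact h5)
    (fun v => Λ (v : ↥S).1)
    (fun v hv => hΛZ _ ((hA v).1 hv)) (fun v hv => hΛB _ ((hA v).1 hv))
    (fun y hy hyv => by
      -- transport along `e`
      have hy' : (fun g => e.symm (y g)) ∈ PT.Z1 (levelsS S) ρ' := by
        obtain ⟨⟨U, hU, h3⟩, h4⟩ := hy
        refine ⟨⟨U, hU, fun g s hs => ?_⟩, fun g h => ?_⟩
        · show e.symm (y (g * s)) = e.symm (y g)
          rw [h3 g s hs]
        · show e.symm (y (g * h)) = ρ' g (e.symm (y h)) + e.symm (y g)
          rw [h4, map_add]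
          congr 1
          apply e.injective
          have h5 : e (ρ' g (e.symm (y h))) = dualT (cycloChar p) ρ g (e (e.symm (y h))) :=
            he g _
          rw [h5, e.apply_symm_apply, e.apply_symm_apply]
      have h5 := hinj _ hy' (fun q hq => by
        rw [Finset.mem_sdiff] at hq
        obtain ⟨f, hf⟩ := hyv (⟨q, hq.1⟩ : ↥S) (fun h => hq.2 ((hA _).1 h))
        refine ⟨e.symm f, ?_⟩
        funext g
        have h6 := congrFun hf g
        show ρ' (primeLocalToGlobal q g) (e.symm f) - e.symm f = e.symm (y (primeLocalToGlobal q g))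
        rw [← h6]
        show _ = e.symm (dualT (cycloChar p) ρ (primeLocalToGlobal q g) f - f)
        rw [map_sub]
        congr 1
        apply e.injective
        have h7 : e (ρ' (primeLocalToGlobal q g) (e.symm f)) =
          dualT (cycloChar p) ρ (primeLocalToGlobal q g) (e (e.symm f)) := he _ _
        rw [h7, e.apply_symm_apply, e.apply_symm_apply])
      obtain ⟨m', hm'⟩ := h5
      refine ⟨e m', ?_⟩
      funext g
      have h6 : ρ' g m' - m' = e.symm (y g) := congrFun hm' g
      show dualT (cycloChar p) ρ g (e m') - e m' = y g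
      have h7 : e (ρ' g m') = dualT (cycloChar p) ρ g (e m') := he g m'
      rw [← h7, ← map_sub, h6, e.apply_symm_apply])
    Sel
    (fun f => by
      rw [hSel f]
      refine and_congr_right fun _ => ?_
      constructor
      · intro h v hv
        exact h _ ((hA v).1 hv)
      · intro h q hq
        exact h (⟨q, hTS hq⟩ : ↥S) ((hA _).2 hq))
  obtain ⟨k1, k2⟩ := key
  refine ⟨?_, ?_⟩
  · have : Finite (ZMod p) := inferInstance
    exact Module.finite_of_finite (ZMod p)
  · rw [Finset.sum_congr rfl (fun v _ => hinv v)] at k2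
    have hcard : A.card = T₀.card := by
      refine Finset.card_bij (fun v _ => (v : ↥S).1) (fun v hv => (hA v).1 hv)
        (fun v _ w _ h => Subtype.ext h) (fun q hq => ⟨(⟨q, hTS hq⟩ : ↥S), (hA _).2 hq, rfl⟩)
    have hs1 : ∑ v ∈ A, finrank (ZMod p) (Λ (v : ↥S).1) = ∑ q ∈ T₀, finrank (ZMod p) (Λ q) := by
      refine Finset.sum_bij (fun v _ => (v : ↥S).1) (fun v hv => (hA v).1 hv)
        (fun v _ w _ h => Subtype.ext h)
        (fun q hq => ⟨(⟨q, hTS hq⟩ : ↥S), (hA _).2 hq, rfl⟩) (fun v _ => rfl)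
    rw [hcard, hs1] at k2
    refine k2.trans_eq ?_
    congr 1
    refine Finset.sum_bij (fun v _ => (v : ↥S).1) (fun v hv => ?_)
      (fun v _ w _ h => Subtype.ext h)
      (fun q hq => ⟨(⟨q, (Finset.mem_sdiff.1 hq).1⟩ : ↥S), ?_, rfl⟩) (fun v _ => rfl)
    · rw [Finset.mem_sdiff]
      exact ⟨(v : ↥S).2, (hQ v).1 hv⟩
    · exact (hQ _).2 (Finset.mem_sdiff.1 hq).2

end Fermat.Agent.GW
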