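import Fermat.Agent.GW.Numeric
import Fermat.Agent.PT.RightExact

/-!
# Finiteness of the cohomology of finite discrete modules
-/

set_option autoImplicit false

namespace Fermat.Agent.GW

open Fermat.Agent.PT Module

variable {G : Type} [Group G] {𝓛 : LevelSys G}

lemma rightEx_of {k : Type} [Field k] (h : PlaceData.RightExact k 𝓛) : RightEx k 𝓛 :=
  fun ρ σ hρ f hf hs => h _ _ ρ σ f hf hρ hs

/-- finiteness of `H¹` of an induced representation -/
theorem finite_H1_funRep {k : Type} [Field k] {M : Type} [AddCommGroup M] [Module k M]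
    (ρ : Representation k G M)
    {W : Subgroup G} (hW : W ∈ 𝓛)
    (hfin : FiniteDimensional k (H1 (𝓛.restrict W) (ρ.comp W.subtype))) :
    FiniteDimensional k (H1 𝓛 (funRep (G ⧸ W) ρ)) := by
  have := LevelSys.finiteIndex hW
  have key : ∀ Q : Subgroup G, Q = W →
      FiniteDimensional k (H1 (𝓛.restrict Q) (ρ.comp Q.subtype)) := by
    rintro Q rfl
    exact hfin
  have hst : MulAction.stabilizer G (QuotientGroup.mk (1 : G) : G ⧸ W) = W :=
    MulAction.stabilizer_quotient W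
  have hf := key _ hst
  set x : Unit → G ⧸ W := fun _ => QuotientGroup.mk (1 : G) with hx
  have hor : OrbitReps G x := orbitReps_quotient W
  have hX := stab_quotient_mem (𝓛 := 𝓛) hW
  have b1 : Function.Injective (sh1 (𝓛 := 𝓛) ρ (x ())) := by
    rw [← LinearMap.ker_eq_bot, LinearMap.ker_eq_bot']
    intro z hz
    exact sh1_injective hor z (fun _ => hz)
  exact Module.Finite.of_injective _ b1

variable {p : ℕ} [hp : Fact p.Prime]

/-- Finiteness at small levels for the trivial module. -/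
def LevFin (p : ℕ) [Fact p.Prime] (𝓛 : LevelSys G) : Prop :=
  ∃ U₀ ∈ 𝓛, ∀ U ∈ 𝓛, U ≤ U₀ → HFin (𝓛.restrict U) (trivRep (ZMod p) ↥U)

lemma exists_normal_trivial (hlev : LevFin p 𝓛) {M : Type} [AddCommGroup M] [Module (ZMod p) M]
    [FiniteDimensional (ZMod p) M] (ρ : Representation (ZMod p) G M) (hρ : Discrete 𝓛 ρ) :
    ∃ U ∈ 𝓛, U.Normal ∧ (∀ g ∈ U, ρ g = 1) ∧
      HFin (𝓛.restrict U) (ρ.comp U.subtype) := by
  obtain ⟨U₀, hU₀, h⟩ := hlev
  obtain ⟨U₁, hU₁, h1⟩ := hρ.exists_trivial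
  obtain ⟨U, hU, hUle, hn⟩ := LevelSys.exists_normal (LevelSys.inf_mem hU₀ hU₁)
  refine ⟨U, hU, hn, fun g hg => LinearMap.ext fun m => h1 g (hUle hg).2 m, ?_⟩
  have hk := h U hU (fun g hg => (hUle hg).1)
  exact (hfin_chi_le (τ := trivRep (ZMod p) ↥U) (fun _ _ => rfl) hk ⊤ (𝓛.restrict U).top_mem
    (m := 0) (by rw [Subgroup.index_top, pow_zero]) (finrank (ZMod p) M)
    (ρ.comp U.subtype) (fun v _ n => h1 v.1 (hUle v.2).2 n) rfl).1

theorem h2fin_of_levels (hR : RightEx (ZMod p) 𝓛) (hlev : LevFin p 𝓛)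
    {M : Type} [AddCommGroup M] [Module (ZMod p) M]
    [FiniteDimensional (ZMod p) M] (ρ : Representation (ZMod p) G M) (hρ : Discrete 𝓛 ρ) :
    FiniteDimensional (ZMod p) (H2 𝓛 ρ) := by
  obtain ⟨U, hU, hn, hU1, hfin⟩ := exists_normal_trivial hlev ρ hρ
  have := LevelSys.finiteIndex hU
  have : Fintype (G ⧸ U) := Fintype.ofFinite _
  have hdisc : Discrete 𝓛 (funRep (G ⧸ U) ρ) :=
    funRep_discrete hρ (stab_quotient_mem (𝓛 := 𝓛) hU)
  have hs := hR (funRep (G ⧸ U) ρ) ρ hdisc (sumMap (ZMod p) (G ⧸ U) M) (sumMap_equivar ρ)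
    (ses_sum (X := G ⧸ U) hdisc).surj
  have h2 := (finrank_H2_funRep ρ hU _ hfin.h2 rfl).1
  exact Module.Finite.of_surjective _ hs

theorem hfin_of_levels (hR : RightEx (ZMod p) 𝓛) (hlev : LevFin p 𝓛)
    {M : Type} [AddCommGroup M] [Module (ZMod p) M]
    [FiniteDimensional (ZMod p) M] (ρ : Representation (ZMod p) G M) (hρ : Discrete 𝓛 ρ) :
    HFin 𝓛 ρ := by
  refine ⟨inferInstance, ?_, h2fin_of_levels hR hlev ρ hρ⟩
  obtain ⟨U, hU, hn, hU1, hfin⟩ := exists_normal_trivial hlev ρ hρ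
  have := LevelSys.finiteIndex hU
  have : Fintype (G ⧸ U) := Fintype.ofFinite _
  have hdisc : Discrete 𝓛 (funRep (G ⧸ U) ρ) :=
    funRep_discrete hρ (stab_quotient_mem (𝓛 := 𝓛) hU)
  have h := ses_sum (X := G ⧸ U) hdisc
  have h1 := finite_H1_funRep ρ hU hfin.h1
  have h2 := h2fin_of_levels hR hlev _ (h.discA)
  exact finite_of_exact (h.exact_H1C)

end Fermat.Agent.GW
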