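import Fermat.Agent.GW.Descent
import Fermat.Agent.GW.Artin
import Fermat.Agent.PT.Dual

/-!
# Prime-to-`p` descent for induced modules (II)

`desc1`, `desc2` : `H^i(G, Fun(G/U, M)) ≃ Hom_U(Hom(M, μ), H^i(V, μ))` for `M`, `μ` trivial on the
normal subgroup `V ≤ U` of index (in `U`) invertible in `k`; `descK` : the same for the kernel of
inflation; `desc0` : degree 0.
-/

set_option autoImplicit false

namespace Fermat.Agent.GW

open Fermat.Agent.PT Module

section HomInv

variable {k : Type*} [CommRing k] {G : Type*} [Group G]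
variable {Q : Type*} [AddCommGroup Q] [Module k Q] {X : Type*} [AddCommGroup X] [Module k X]

/-- `Hom_U(Q, X)`. -/
def homInv (ρQ : Representation k G Q) (ρX : Representation k G X) (U : Subgroup G) :
    Submodule k (Q →ₗ[k] X) where
  carrier := {θ | ∀ u ∈ U, ∀ q, θ (ρQ u q) = ρX u (θ q)}
  zero_mem' := fun u _ q => by simp
  add_mem' {θ θ'} h h' u hu q := by simp [h u hu q, h' u hu q]
  smul_mem' c θ h u hu q := by simp [h u hu q]

lemma mem_homInv {ρQ : Representation k G Q} {ρX : Representation k G X} {U : Subgroup G}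
    {θ : Q →ₗ[k] X} : θ ∈ homInv ρQ ρX U ↔ ∀ u ∈ U, ∀ q, θ (ρQ u q) = ρX u (θ q) := Iff.rfl

end HomInv

section Theta

variable {k : Type*} [Field k] {G : Type*} [Group G] {𝓛 : LevelSys G}
variable {M : Type*} [AddCommGroup M] [Module k M] {ρ : Representation k G M}
variable {N : Type*} [AddCommGroup N] [Module k N] {σ : Representation k G N}
variable {μ : Representation k G k}
variable {V : Subgroup G}

lemma equivar_of_triv (hρ : ∀ v ∈ V, ρ v = 1) (hσ : ∀ v ∈ V, σ v = 1) (f : M →ₗ[k] N) :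
    Equivar (ρ.comp V.subtype) (σ.comp V.subtype) f := by
  intro v m
  show f (ρ (v : G) m) = σ (v : G) (f m)
  rw [hρ _ v.2, hσ _ v.2]
  rfl

lemma conjMap_linHom (q : M →ₗ[k] k) (g : G) :
    conjMap μ ρ (Representation.linHom ρ μ g⁻¹ q) g = q := by
  apply LinearMap.ext
  intro m
  show μ g (μ g⁻¹ (q (ρ g⁻¹⁻¹ (ρ g⁻¹ m)))) = q m
  rw [← Module.End.mul_apply (μ g), ← map_mul, mul_inv_cancel, map_one, inv_inv,
    ← Module.End.mul_apply (ρ g), ← map_mul, mul_inv_cancel, map_one]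
  rfl

section Two

variable (hρ : ∀ v ∈ V, ρ v = 1) (hμ : ∀ v ∈ V, μ v = 1)

/-- `z ↦ (q ↦ q_* z)`. -/
def theta2 : H2 (𝓛.restrict V) (ρ.comp V.subtype) →ₗ[k] ((M →ₗ[k] k) →ₗ[k]
    H2 (𝓛.restrict V) (μ.comp V.subtype)) where
  toFun z :=
    { toFun := fun q => H2coef (𝓛.restrict V) q (equivar_of_triv hρ hμ q) z
      map_add' := fun q q' => by
        obtain ⟨c, rfl⟩ := H2mk_surjective z
        rw [H2map_mk, H2map_mk, H2map_mk, ← map_add]
        rfl
      map_smul' := fun r q => by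
        obtain ⟨c, rfl⟩ := H2mk_surjective z
        rw [H2map_mk, H2map_mk, ← map_smul]
        rfl }
  map_add' z z' := by
    apply LinearMap.ext
    intro q
    exact (H2coef (𝓛.restrict V) q (equivar_of_triv hρ hμ q)).map_add z z'
  map_smul' r z := by
    apply LinearMap.ext
    intro q
    exact (H2coef (𝓛.restrict V) q (equivar_of_triv hρ hμ q)).map_smul r z

lemma theta2_apply (z : H2 (𝓛.restrict V) (ρ.comp V.subtype)) (q : M →ₗ[k] k) :
    theta2 hρ hμ z q = H2coef (𝓛.restrict V) q (equivar_of_triv hρ hμ q) z := rfl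

/-- decomposition of a class along a basis. -/
lemma sum_coord2 {ι : Type*} [Fintype ι] (b : Basis ι k M)
    (z : H2 (𝓛.restrict V) (ρ.comp V.subtype)) :
    ∑ i, H2coef (𝓛.restrict V) (LinearMap.toSpanSingleton k M (b i)) (equivar_of_triv hμ hρ _)
      (theta2 hρ hμ z (b.coord i)) = z := by
  obtain ⟨c, rfl⟩ := H2mk_surjective z
  simp only [theta2_apply, H2map_mk]
  rw [← map_sum]
  refine congrArg _ (Subtype.ext (funext fun v => ?_))
  rw [Submodule.coe_sum, Finset.sum_apply]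
  exact b.sum_repr (c.1 v)

lemma theta2_injective [FiniteDimensional k M] :
    Function.Injective (theta2 (𝓛 := 𝓛) (V := V) hρ hμ) := by
  rw [← LinearMap.ker_eq_bot, LinearMap.ker_eq_bot']
  intro z hz
  rw [← sum_coord2 hρ hμ (Module.finBasis k M) z]
  refine Finset.sum_eq_zero fun i _ => ?_
  rw [hz, LinearMap.zero_apply, map_zero]

lemma theta2_surjective [FiniteDimensional k M] :
    Function.Surjective (theta2 (𝓛 := 𝓛) (V := V) hρ hμ) := by
  classical
  intro θ
  set b := Module.finBasis k M with hb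
  refine ⟨∑ i, H2coef (𝓛.restrict V) (LinearMap.toSpanSingleton k M (b i))
    (equivar_of_triv hμ hρ _) (θ (b.coord i)), ?_⟩
  apply b.dualBasis.ext
  intro j
  rw [Basis.coe_dualBasis, theta2_apply, map_sum]
  rw [Finset.sum_eq_single j]
  · generalize θ (b.coord j) = y
    obtain ⟨c, rfl⟩ := H2mk_surjective y
    rw [H2map_mk, H2map_mk]
    refine congrArg _ (Subtype.ext (funext fun v => ?_))
    show b.coord j (c.1 v • b j) = c.1 v
    rw [map_smul, Basis.coord_apply, Basis.repr_self, Finsupp.single_eq_same, smul_eq_mul, mul_one]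
  · intro i _ hij
    generalize θ (b.coord i) = y
    obtain ⟨c, rfl⟩ := H2mk_surjective y
    rw [H2map_mk, H2map_mk, ← map_zero (H2mk (𝓛.restrict V) (μ.comp V.subtype))]
    refine congrArg _ (Subtype.ext (funext fun v => ?_))
    show b.coord j (c.1 v • b i) = 0
    rw [map_smul, Basis.coord_apply, Basis.repr_self, Finsupp.single_eq_of_ne hij.symm, smul_zero]
  · intro h
    exact absurd (Finset.mem_univ j) h

variable [V.Normal]

lemma theta2_conj (g : G) (z : H2 (𝓛.restrict V) (ρ.comp V.subtype)) (q : M →ₗ[k] k) :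
    theta2 hρ hμ (conj2 𝓛 V ρ g z) q =
      conj2 𝓛 V μ g (theta2 hρ hμ z (Representation.linHom ρ μ g⁻¹ q)) := by
  rw [theta2_apply, theta2_apply, conj2_coef]
  exact H2coef_congr _ _ (conjMap_linHom q g).symm _

lemma theta2_mem_homInv_iff [FiniteDimensional k M] {U : Subgroup G}
    (z : H2 (𝓛.restrict V) (ρ.comp V.subtype)) :
    theta2 hρ hμ z ∈ homInv (Representation.linHom ρ μ) (conj2 𝓛 V μ) U ↔
      ∀ u ∈ U, conj2 𝓛 V ρ u z = z := by
  constructor
  · intro h u hu
    apply theta2_injective hρ hμ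
    apply LinearMap.ext
    intro q
    rw [theta2_conj, ← h u hu, ← Module.End.mul_apply, ← map_mul, mul_inv_cancel, map_one,
      Module.End.one_apply]
  · intro h u hu q
    have h1 := theta2_conj hρ hμ u z (Representation.linHom ρ μ u q)
    rw [h u hu, ← Module.End.mul_apply, ← map_mul, inv_mul_cancel, map_one,
      Module.End.one_apply] at h1
    exact h1

variable {U : Subgroup G} (hVU : V ≤ U) [Finite (G ⧸ V)] (hV : V ∈ 𝓛)
  (hn : (V.relIndex U : k) ≠ 0) [FiniteDimensional k M]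

/-- restriction to `V` and evaluation at `1`, followed by `q_*`. -/
def rho2 : H2 𝓛 (funRep (G ⧸ U) ρ) →ₗ[k] ((M →ₗ[k] k) →ₗ[k]
    H2 (𝓛.restrict V) (μ.comp V.subtype)) :=
  theta2 hρ hμ ∘ₗ ev2 ρ (trivOn_quot hVU) ((1 : G) : G ⧸ U)

include hV hn in
lemma rho2_injective : Function.Injective (rho2 (𝓛 := 𝓛) hρ hμ hVU) := by
  rw [← LinearMap.ker_eq_bot, LinearMap.ker_eq_bot']
  intro z hz
  refine ev2_injective ρ hVU hV hn z (theta2_injective hρ hμ ?_)
  rw [map_zero]
  exact hz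

include hV hn in
lemma range_rho2 : LinearMap.range (rho2 (𝓛 := 𝓛) hρ hμ hVU) =
    homInv (Representation.linHom ρ μ) (conj2 𝓛 V μ) U := by
  ext θ
  constructor
  · rintro ⟨z, rfl⟩
    refine (theta2_mem_homInv_iff hρ hμ _).2 fun u hu => conj2_ev2 ρ hVU z hu
  · intro hθ
    obtain ⟨y, rfl⟩ := theta2_surjective hρ hμ θ
    obtain ⟨z, hz⟩ := ev2_surjective ρ hVU hV hn y ((theta2_mem_homInv_iff hρ hμ _).1 hθ)
    refine ⟨z, ?_⟩
    rw [rho2, LinearMap.comp_apply, hz]

/-- `H²(G, Fun(G/U, M)) ≃ Hom_U(Hom(M, μ), H²(V, μ))`. -/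
noncomputable def desc2 : H2 𝓛 (funRep (G ⧸ U) ρ) ≃ₗ[k]
    homInv (Representation.linHom ρ μ) (conj2 𝓛 V μ) U :=
  (LinearEquiv.ofInjective _ (rho2_injective hρ hμ hVU hV hn)).trans
    (LinearEquiv.ofEq _ _ (range_rho2 hρ hμ hVU hV hn))

lemma coe_desc2 (z : H2 𝓛 (funRep (G ⧸ U) ρ)) :
    (desc2 hρ hμ hVU hV hn z : (M →ₗ[k] k) →ₗ[k] H2 (𝓛.restrict V) (μ.comp V.subtype)) =
      rho2 hρ hμ hVU z := rfl

end Two

section One

variable (hρ : ∀ v ∈ V, ρ v = 1) (hμ : ∀ v ∈ V, μ v = 1)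

/-- `z ↦ (q ↦ q_* z)`. -/
def theta1 : H1 (𝓛.restrict V) (ρ.comp V.subtype) →ₗ[k] ((M →ₗ[k] k) →ₗ[k]
    H1 (𝓛.restrict V) (μ.comp V.subtype)) where
  toFun z :=
    { toFun := fun q => H1coef (𝓛.restrict V) q (equivar_of_triv hρ hμ q) z
      map_add' := fun q q' => by
        obtain ⟨c, rfl⟩ := H1mk_surjective z
        rw [H1map_mk, H1map_mk, H1map_mk, ← map_add]
        rfl
      map_smul' := fun r q => by
        obtain ⟨c, rfl⟩ := H1mk_surjective z
        rw [H1map_mk, H1map_mk, ← map_smul]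
        rfl }
  map_add' z z' := by
    apply LinearMap.ext
    intro q
    exact (H1coef (𝓛.restrict V) q (equivar_of_triv hρ hμ q)).map_add z z'
  map_smul' r z := by
    apply LinearMap.ext
    intro q
    exact (H1coef (𝓛.restrict V) q (equivar_of_triv hρ hμ q)).map_smul r z

lemma theta1_apply (z : H1 (𝓛.restrict V) (ρ.comp V.subtype)) (q : M →ₗ[k] k) :
    theta1 hρ hμ z q = H1coef (𝓛.restrict V) q (equivar_of_triv hρ hμ q) z := rfl

/-- decomposition of a class along a basis. -/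
lemma sum_coord1 {ι : Type*} [Fintype ι] (b : Basis ι k M)
    (z : H1 (𝓛.restrict V) (ρ.comp V.subtype)) :
    ∑ i, H1coef (𝓛.restrict V) (LinearMap.toSpanSingleton k M (b i)) (equivar_of_triv hμ hρ _)
      (theta1 hρ hμ z (b.coord i)) = z := by
  obtain ⟨c, rfl⟩ := H1mk_surjective z
  simp only [theta1_apply, H1map_mk]
  rw [← map_sum]
  refine congrArg _ (Subtype.ext (funext fun v => ?_))
  rw [Submodule.coe_sum, Finset.sum_apply]
  exact b.sum_repr (c.1 v)

lemma theta1_injective [FiniteDimensional k M] :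
    Function.Injective (theta1 (𝓛 := 𝓛) (V := V) hρ hμ) := by
  rw [← LinearMap.ker_eq_bot, LinearMap.ker_eq_bot']
  intro z hz
  rw [← sum_coord1 hρ hμ (Module.finBasis k M) z]
  refine Finset.sum_eq_zero fun i _ => ?_
  rw [hz, LinearMap.zero_apply, map_zero]

lemma theta1_surjective [FiniteDimensional k M] :
    Function.Surjective (theta1 (𝓛 := 𝓛) (V := V) hρ hμ) := by
  classical
  intro θ
  set b := Module.finBasis k M with hb
  refine ⟨∑ i, H1coef (𝓛.restrict V) (LinearMap.toSpanSingleton k M (b i))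
    (equivar_of_triv hμ hρ _) (θ (b.coord i)), ?_⟩
  apply b.dualBasis.ext
  intro j
  rw [Basis.coe_dualBasis, theta1_apply, map_sum]
  rw [Finset.sum_eq_single j]
  · generalize θ (b.coord j) = y
    obtain ⟨c, rfl⟩ := H1mk_surjective y
    rw [H1map_mk, H1map_mk]
    refine congrArg _ (Subtype.ext (funext fun v => ?_))
    show b.coord j (c.1 v • b j) = c.1 v
    rw [map_smul, Basis.coord_apply, Basis.repr_self, Finsupp.single_eq_same, smul_eq_mul, mul_one]
  · intro i _ hij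
    generalize θ (b.coord i) = y
    obtain ⟨c, rfl⟩ := H1mk_surjective y
    rw [H1map_mk, H1map_mk, ← map_zero (H1mk (𝓛.restrict V) (μ.comp V.subtype))]
    refine congrArg _ (Subtype.ext (funext fun v => ?_))
    show b.coord j (c.1 v • b i) = 0
    rw [map_smul, Basis.coord_apply, Basis.repr_self, Finsupp.single_eq_of_ne hij.symm, smul_zero]
  · intro h
    exact absurd (Finset.mem_univ j) h

variable [V.Normal]

lemma theta1_conj (g : G) (z : H1 (𝓛.restrict V) (ρ.comp V.subtype)) (q : M →ₗ[k] k) :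
    theta1 hρ hμ (conj1 𝓛 V ρ g z) q =
      conj1 𝓛 V μ g (theta1 hρ hμ z (Representation.linHom ρ μ g⁻¹ q)) := by
  rw [theta1_apply, theta1_apply, conj1_coef]
  exact H1coef_congr _ _ (conjMap_linHom q g).symm _

lemma theta1_mem_homInv_iff [FiniteDimensional k M] {U : Subgroup G}
    (z : H1 (𝓛.restrict V) (ρ.comp V.subtype)) :
    theta1 hρ hμ z ∈ homInv (Representation.linHom ρ μ) (conj1 𝓛 V μ) U ↔
      ∀ u ∈ U, conj1 𝓛 V ρ u z = z := by
  constructor
  · intro h u hu
    apply theta1_injective hρ hμ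
    apply LinearMap.ext
    intro q
    rw [theta1_conj, ← h u hu, ← Module.End.mul_apply, ← map_mul, mul_inv_cancel, map_one,
      Module.End.one_apply]
  · intro h u hu q
    have h1 := theta1_conj hρ hμ u z (Representation.linHom ρ μ u q)
    rw [h u hu, ← Module.End.mul_apply, ← map_mul, inv_mul_cancel, map_one,
      Module.End.one_apply] at h1
    exact h1

variable {U : Subgroup G} (hVU : V ≤ U) [Finite (G ⧸ V)] (hV : V ∈ 𝓛)
  (hn : (V.relIndex U : k) ≠ 0) [FiniteDimensional k M]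

/-- restriction to `V` and evaluation at `1`, followed by `q_*`. -/
def rho1 : H1 𝓛 (funRep (G ⧸ U) ρ) →ₗ[k] ((M →ₗ[k] k) →ₗ[k]
    H1 (𝓛.restrict V) (μ.comp V.subtype)) :=
  theta1 hρ hμ ∘ₗ ev1 ρ (trivOn_quot hVU) ((1 : G) : G ⧸ U)

include hV hn in
lemma rho1_injective : Function.Injective (rho1 (𝓛 := 𝓛) hρ hμ hVU) := by
  rw [← LinearMap.ker_eq_bot, LinearMap.ker_eq_bot']
  intro z hz
  refine ev1_injective ρ hVU hn z (theta1_injective hρ hμ ?_)
  rw [map_zero]
  exact hz

include hV hn in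
lemma range_rho1 : LinearMap.range (rho1 (𝓛 := 𝓛) hρ hμ hVU) =
    homInv (Representation.linHom ρ μ) (conj1 𝓛 V μ) U := by
  ext θ
  constructor
  · rintro ⟨z, rfl⟩
    refine (theta1_mem_homInv_iff hρ hμ _).2 fun u hu => conj1_ev1 ρ hVU z hu
  · intro hθ
    obtain ⟨y, rfl⟩ := theta1_surjective hρ hμ θ
    obtain ⟨z, hz⟩ := ev1_surjective ρ hVU hV hn y ((theta1_mem_homInv_iff hρ hμ _).1 hθ)
    refine ⟨z, ?_⟩
    rw [rho1, LinearMap.comp_apply, hz]

/-- `H¹(G, Fun(G/U, M)) ≃ Hom_U(Hom(M, μ), H¹(V, μ))`. -/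
noncomputable def desc1 : H1 𝓛 (funRep (G ⧸ U) ρ) ≃ₗ[k]
    homInv (Representation.linHom ρ μ) (conj1 𝓛 V μ) U :=
  (LinearEquiv.ofInjective _ (rho1_injective hρ hμ hVU hV hn)).trans
    (LinearEquiv.ofEq _ _ (range_rho1 hρ hμ hVU hV hn))

lemma coe_desc1 (z : H1 𝓛 (funRep (G ⧸ U) ρ)) :
    (desc1 hρ hμ hVU hV hn z : (M →ₗ[k] k) →ₗ[k] H1 (𝓛.restrict V) (μ.comp V.subtype)) =
      rho1 hρ hμ hVU z := rfl

end One

section Kern

variable {𝓛S : LevelSys G} (hle : ∀ W ∈ 𝓛S, W ∈ 𝓛)
variable (hρ : ∀ v ∈ V, ρ v = 1) (hμ : ∀ v ∈ V, μ v = 1)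
variable {U : Subgroup G} [V.Normal] (hVU : V ≤ U) [Finite (G ⧸ V)] (hV : V ∈ 𝓛) (hVS : V ∈ 𝓛S)
  (hn : (V.relIndex U : k) ≠ 0) [FiniteDimensional k M]

omit [Finite (G ⧸ V)] in
lemma inflV_rho2 (z : H2 𝓛S (funRep (G ⧸ U) ρ)) (q : M →ₗ[k] k) :
    inflV hle V (μ.comp V.subtype) (rho2 hρ hμ hVU z q) =
      rho2 hρ hμ hVU (inflG hle (funRep (G ⧸ U) ρ) z) q := by
  obtain ⟨c, rfl⟩ := H2mk_surjective z
  rfl

/-- the descent map on the kernels of inflation. -/
def rhoK : LinearMap.ker (inflG hle (funRep (G ⧸ U) ρ)) →ₗ[k]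
    homInv (Representation.linHom ρ μ) (conjK hle V μ) U where
  toFun z := ⟨LinearMap.codRestrict _ (rho2 hρ hμ hVU z.1) (fun q => by
      rw [LinearMap.mem_ker, inflV_rho2, z.2, map_zero, LinearMap.zero_apply]), fun u hu q => by
      apply Subtype.ext
      exact (theta2_mem_homInv_iff hρ hμ _).2 (fun u hu => conj2_ev2 ρ hVU z.1 hu) u hu q⟩
  map_add' z z' := by
    apply Subtype.ext
    apply LinearMap.ext
    intro q
    apply Subtype.ext
    show rho2 hρ hμ hVU (z.1 + z'.1) q = rho2 hρ hμ hVU z.1 q + rho2 hρ hμ hVU z'.1 q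
    rw [map_add]
    rfl
  map_smul' r z := by
    apply Subtype.ext
    apply LinearMap.ext
    intro q
    apply Subtype.ext
    show rho2 hρ hμ hVU (r • z.1) q = r • rho2 hρ hμ hVU z.1 q
    rw [map_smul]
    rfl

omit [Finite (G ⧸ V)] in
lemma coe_rhoK (z : LinearMap.ker (inflG hle (funRep (G ⧸ U) ρ))) (q : M →ₗ[k] k) :
    ((rhoK hle hρ hμ hVU z).1 q : H2 (𝓛S.restrict V) (μ.comp V.subtype)) =
      rho2 hρ hμ hVU z.1 q := rfl

include hV hVS hn in
lemma rhoK_bijective : Function.Bijective (rhoK hle hρ hμ hVU) := by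
  constructor
  · refine (injective_iff_map_eq_zero _).2 fun z hz => ?_
    apply Subtype.ext
    refine (injective_iff_map_eq_zero _).1
      (rho2_injective (𝓛 := 𝓛S) hρ hμ hVU hVS hn) z.1 ?_
    apply LinearMap.ext
    intro q
    rw [← coe_rhoK hle, hz]
    rfl
  · intro θ
    have hθ : (LinearMap.ker (inflV hle V (μ.comp V.subtype))).subtype ∘ₗ θ.1 ∈
        homInv (Representation.linHom ρ μ) (conj2 𝓛S V μ) U := fun u hu q =>
      congrArg Subtype.val (θ.2 u hu q)
    rw [← range_rho2 hρ hμ hVU hVS hn] at hθ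
    obtain ⟨z, hz⟩ := hθ
    have hzK : z ∈ LinearMap.ker (inflG hle (funRep (G ⧸ U) ρ)) := by
      rw [LinearMap.mem_ker]
      apply rho2_injective (𝓛 := 𝓛) hρ hμ hVU hV hn
      rw [map_zero]
      apply LinearMap.ext
      intro q
      rw [← inflV_rho2, hz]
      exact (θ.1 q).2
    refine ⟨⟨z, hzK⟩, ?_⟩
    apply Subtype.ext
    apply LinearMap.ext
    intro q
    apply Subtype.ext
    rw [coe_rhoK, hz]
    rfl

/-- The kernel of inflation for `Fun(G/U, M)`. -/
noncomputable def descK : LinearMap.ker (inflG hle (funRep (G ⧸ U) ρ)) ≃ₗ[k]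
    homInv (Representation.linHom ρ μ) (conjK hle V μ) U :=
  LinearEquiv.ofBijective (rhoK hle hρ hμ hVU) (rhoK_bijective hle hρ hμ hVU hV hVS hn)

end Kern

section Zero

variable {U : Subgroup G}

/-- an invariant function is determined by its value at `1`. -/
lemma eq_of_mem_invariants {f : G ⧸ U → M} (hf : f ∈ (funRep (G ⧸ U) ρ).invariants) (g : G) :
    f (g : G ⧸ U) = ρ g (f ((1 : G) : G ⧸ U)) := by
  have h1 := congrFun (hf g) (g : G ⧸ U)
  rw [funRep_apply] at h1
  have h2 : g⁻¹ • ((g : G) : G ⧸ U) = ((1 : G) : G ⧸ U) := by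
    rw [MulAction.Quotient.smul_coe, smul_eq_mul, inv_mul_cancel]
  rw [h2] at h1
  exact h1.symm

/-- degree zero. -/
def rho0 (μ : Representation k G k) : (funRep (G ⧸ U) ρ).invariants →ₗ[k]
    homInv (Representation.linHom ρ μ) μ U where
  toFun f := ⟨Module.Dual.eval k M (f.1 ((1 : G) : G ⧸ U)), fun u hu q => by
    show μ u (q (ρ u⁻¹ (f.1 ((1 : G) : G ⧸ U)))) = μ u (q (f.1 ((1 : G) : G ⧸ U)))
    have h1 := eq_of_mem_invariants f.2 u⁻¹
    rw [← h1]
    have h2 : ((u⁻¹ : G) : G ⧸ U) = ((1 : G) : G ⧸ U) := by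
      rw [QuotientGroup.eq, inv_inv, mul_one]
      exact hu
    rw [h2]⟩
  map_add' f f' := by
    apply Subtype.ext
    exact map_add (Module.Dual.eval k M) _ _
  map_smul' r f := by
    apply Subtype.ext
    exact map_smul (Module.Dual.eval k M) r _

lemma rho0_bijective [FiniteDimensional k M] : Function.Bijective (rho0 (ρ := ρ) (U := U) μ) := by
  constructor
  · refine (injective_iff_map_eq_zero _).2 fun f hf => ?_
    have h0 : Module.Dual.eval k M (f.1 ((1 : G) : G ⧸ U)) = 0 := congrArg Subtype.val hf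
    have h1 : f.1 ((1 : G) : G ⧸ U) = 0 := by
      rw [← LinearMap.mem_ker, Module.eval_ker] at h0
      exact h0
    apply Subtype.ext
    funext y
    induction y using QuotientGroup.induction_on with
    | H g => rw [eq_of_mem_invariants f.2 g, h1, map_zero]; rfl
  · intro θ
    obtain ⟨m, hm⟩ := (Module.evalEquiv k M).surjective θ.1
    have hm' : Module.Dual.eval k M m = θ.1 := hm
    -- `m` is fixed by `U`
    have hfix : ∀ u ∈ U, ρ u m = m := by
      intro u hu
      apply (Module.evalEquiv k M).injective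
      apply LinearMap.ext
      intro q
      have h1 := θ.2 u⁻¹ (U.inv_mem hu) q
      rw [← hm'] at h1
      have h2 : μ u⁻¹ (q (ρ u⁻¹⁻¹ m)) = μ u⁻¹ (q m) := h1
      have h3 := congrArg (μ u) h2
      rw [← Module.End.mul_apply (μ u), ← map_mul, mul_inv_cancel, map_one, inv_inv,
        ← Module.End.mul_apply (μ u), ← map_mul, mul_inv_cancel, map_one] at h3
      exact h3
    let F : G ⧸ U → M := fun y => Quotient.liftOn' y (fun g => ρ g m) (fun a b hab => by
      have h1 : a⁻¹ * b ∈ U := QuotientGroup.leftRel_apply.1 hab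
      have h2 : b = a * (a⁻¹ * b) := by group
      show ρ a m = ρ b m
      rw [h2, map_mul, Module.End.mul_apply, hfix _ h1])
    have hF : F ∈ (funRep (G ⧸ U) ρ).invariants := by
      intro g
      funext y
      induction y using QuotientGroup.induction_on with
      | H h =>
        show ρ g (ρ (g⁻¹ * h) m) = ρ h m
        rw [← Module.End.mul_apply, ← map_mul, mul_inv_cancel_left]
    refine ⟨⟨F, hF⟩, ?_⟩
    apply Subtype.ext
    show Module.Dual.eval k M (ρ 1 m) = θ.1
    rw [map_one, ← hm']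
    rfl

/-- `H⁰(G, Fun(G/U, M)) ≃ Hom_U(Hom(M, μ), μ)`. -/
noncomputable def desc0 [FiniteDimensional k M] (μ : Representation k G k) :
    (funRep (G ⧸ U) ρ).invariants ≃ₗ[k] homInv (Representation.linHom ρ μ) μ U :=
  LinearEquiv.ofBijective (rho0 μ) rho0_bijective

end Zero

end Theta

end Fermat.Agent.GW
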