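import Fermat.Agent.CFT.SKummer.H1
import Fermat.Agent.GW.FgCharpoly

/-!
# Equivariant form of the `S`-level Kummer theory

In the situation of `CFT.SKummer.Formal.Setup`, a compatible system of endomorphisms of
`(G, W, D, M)` acts on `A = W^G`, `B = D^G`, `Cl = B / dv A`, `E = ker (A → B)`, on
`K = ker (H²(𝓛S, μ_p) → H²(𝓛, μ_p))` and on `H¹(𝓛S, μ_p)`, and
* `charpoly_ker` : `charpoly K = charpoly (Cl / p)`;
* `charpoly_H1` : `charpoly H¹ = charpoly (E / p) * charpoly Cl[p]`.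
-/

set_option autoImplicit false
set_option linter.unusedSectionVars false

namespace Fermat.Agent.GW.KE

open Function Fermat.Agent.PT Fermat.Agent.CFT.SKummer.Formal Fermat.Agent.GW.Fg
open Fermat.Agent.CFT.SKummer.Formal.Setup (invD relD pairsToD)

variable {p : ℕ} [hp : Fact p.Prime]
variable {G : Type*} [Group G] {𝓛 𝓛S : LevelSys G}
variable {E : Type*} [AddCommGroup E] {ρ : Representation ℤ G E}
variable {W : Type*} [AddCommGroup W] {ω : Representation ℤ G W}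
variable {D : Type*} [AddCommGroup D] {δ : Representation ℤ G D}
variable {M : Type*} [AddCommGroup M] [Module (ZMod p) M] {τ : Representation (ZMod p) G M}
variable {j : W →ₗ[ℤ] E} {dv : W →ₗ[ℤ] D}

/-- `ι : M → W` identifies `M` with the `p`-torsion of `W`. -/
structure Coef (p : ℕ) [Fact p.Prime] {G W M : Type*} [Group G] [AddCommGroup W] [AddCommGroup M]
    [Module (ZMod p) M] (ω : Representation ℤ G W) (τ : Representation (ZMod p) G M)
    (ι : M →+ W) : Prop where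
  inj : Injective ι
  tors : ∀ m, p • ι m = 0
  surj : ∀ w : W, p • w = 0 → ∃ m, ι m = w
  eq : ∀ g m, ι (τ g m) = ω g (ι m)

/-- the divisor map on invariants -/
def dA (hde : Equivar ω δ dv) : ↥(invD ω) →+ ↥(invD δ) :=
  (dv.toAddMonoidHom.comp (invD ω).subtype).codRestrict (invD δ) (fun x g => by
    change δ g (dv x.1) = dv x.1
    rw [← hde, x.2 g])

@[simp] lemma coe_dA (hde : Equivar ω δ dv) (x : ↥(invD ω)) :
    ((dA hde x : ↥(invD δ)) : D) = dv x.1 := rfl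

/-- the class group -/
abbrev Cl (hde : Equivar ω δ dv) : Type _ := ↥(invD δ) ⧸ (dA hde).range

/-- compatible endomorphisms -/
structure Tw (𝓛S : LevelSys G) (ω : Representation ℤ G W) (δ : Representation ℤ G D)
    (dv : W →ₗ[ℤ] D) (ι : M →+ W) (u : G →* G) (gW : W →+ W) (gD : D →+ D)
    (gM : M →ₗ[ZMod p] M) : Prop where
  hu : 𝓛S.Compat u 𝓛S
  hW : ∀ v w, gW (ω (u v) w) = ω v (gW w)
  hD : ∀ v d, gD (δ (u v) d) = δ v (gD d)
  hdv : ∀ w, dv (gW w) = gD (dv w)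
  hι : ∀ m, ι (gM m) = gW (ι m)

variable {ι : M →+ W} {u : G →* G} {gW : W →+ W} {gD : D →+ D} {gM : M →ₗ[ZMod p] M}

namespace Tw

variable (tw : Tw 𝓛S ω δ dv ι u gW gD gM)
include tw

lemma hM (hC : Coef p ω τ ι) (v : G) (m : M) : gM (τ (u v) m) = τ v (gM m) := by
  apply hC.inj
  rw [tw.hι, hC.eq, tw.hW, hC.eq, tw.hι]

/-- the action on `W^G` -/
def gA : ↥(invD ω) →+ ↥(invD ω) :=
  (gW.comp (invD ω).subtype).codRestrict (invD ω) (fun x g => by
    change ω g (gW x.1) = gW x.1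
    rw [← tw.hW, x.2 (u g)])

/-- the action on `D^G` -/
def gB : ↥(invD δ) →+ ↥(invD δ) :=
  (gD.comp (invD δ).subtype).codRestrict (invD δ) (fun x g => by
    change δ g (gD x.1) = gD x.1
    rw [← tw.hD, x.2 (u g)])

@[simp] lemma coe_gA (x : ↥(invD ω)) : ((tw.gA x : ↥(invD ω)) : W) = gW x.1 := rfl
@[simp] lemma coe_gB (x : ↥(invD δ)) : ((tw.gB x : ↥(invD δ)) : D) = gD x.1 := rfl

variable (hde : Equivar ω δ dv)

lemma dA_gA (x : ↥(invD ω)) : dA hde (tw.gA x) = tw.gB (dA hde x) :=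
  Subtype.ext (tw.hdv x.1)

/-- the action on `S`-units. -/
def gE : ↥(dA hde).ker →+ ↥(dA hde).ker :=
  (tw.gA.comp (dA hde).ker.subtype).codRestrict (dA hde).ker (fun x => by
    change dA hde (tw.gA x.1) = 0
    rw [tw.dA_gA hde, x.2, map_zero])

@[simp] lemma coe_gE (x : ↥(dA hde).ker) :
    (((tw.gE hde x : ↥(dA hde).ker) : ↥(invD ω)) : W) = gW x.1.1 := rfl

/-- the action on the class group -/
def gCl : Cl hde →+ Cl hde :=
  QuotientAddGroup.map _ _ tw.gB (by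
    rintro _ ⟨x, rfl⟩
    exact ⟨tw.gA x, tw.dA_gA hde x⟩)

@[simp] lemma gCl_mk (x : ↥(invD δ)) :
    tw.gCl hde (QuotientAddGroup.mk x) = QuotientAddGroup.mk (tw.gB x) := rfl

/-- the action on pairs -/
def gP : ↥(pairs p 𝓛S ω) →+ ↥(pairs p 𝓛S ω) where
  toFun t := ⟨(gW t.1.1, fun v => gW (t.1.2 (u v))), (t.2.1.precomp tw.hu).comp gW, fun v => by
    have h1 : p • t.1.2 (u v) = ω (u v) t.1.1 - t.1.1 := t.2.2 (u v)
    change p • gW (t.1.2 (u v)) = ω v (gW t.1.1) - gW t.1.1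
    rw [← map_nsmul, h1, map_sub, tw.hW]⟩
  map_zero' := by
    apply Subtype.ext
    apply Prod.ext
    · exact map_zero gW
    · funext v
      exact map_zero gW
  map_add' t t' := by
    apply Subtype.ext
    apply Prod.ext
    · exact map_add gW _ _
    · funext v
      exact map_add gW _ _

lemma gP_fst (t : ↥(pairs p 𝓛S ω)) : (tw.gP t).1.1 = gW t.1.1 := rfl

end Tw

section Ker

variable (H : Setup p 𝓛 𝓛S ρ ω δ j dv) (hC : Coef p ω τ ι)
variable {V : Type*} [AddCommGroup V] [Module (ZMod p) V]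

include H

lemma exists_bOf (t : ↥(pairs p 𝓛S ω)) :
    ∃ b : ↥(invD δ), ∃ d : D, dv t.1.1 = b + p • d := by
  obtain ⟨d₀, hd₀, d', hd'⟩ := H.hD6 (dv t.1.1) (fun g => ⟨dv (t.1.2 g), by
    have h1 : p • t.1.2 g = ω g t.1.1 - t.1.1 := t.2.2 g
    rw [← H.hde, ← map_sub, ← h1, map_nsmul]⟩)
  exact ⟨⟨d₀, hd₀⟩, d', hd'⟩

/-- if `p d` is invariant then `d` is. -/
lemma mem_invD_of_smul {d : D} (h : p • d ∈ invD δ) : d ∈ invD δ := by
  intro g
  have h1 : δ g (p • d) = p • d := h g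
  rw [← sub_eq_zero]
  apply H.htf
  rw [smul_sub, ← map_nsmul, h1, sub_self]

variable {q : Cl H.hde →+ V} (hq : ModP p q)

include hq in
lemma q_eq_of {b b' : ↥(invD δ)} {a : ↥(invD ω)} {d : D}
    (h : (b : D) = b' + dv a.1 + p • d) : q (QuotientAddGroup.mk b) = q (QuotientAddGroup.mk b') := by
  have hd : d ∈ invD δ := by
    apply mem_invD_of_smul H
    have h1 : p • d = (b : D) - b' - dv a.1 := by rw [h]; abel
    rw [h1]
    exact (invD δ).sub_mem ((invD δ).sub_mem b.2 b'.2) (dA H.hde a).2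
  have h2 : b = b' + dA H.hde a + p • ⟨d, hd⟩ := Subtype.ext h
  rw [← sub_eq_zero, ← map_sub, hq.ker]
  refine ⟨QuotientAddGroup.mk ⟨d, hd⟩, ?_⟩
  rw [← QuotientAddGroup.mk_nsmul, ← QuotientAddGroup.mk_sub, QuotientAddGroup.eq_iff_sub_mem]
  refine ⟨a, ?_⟩
  rw [h2]
  abel

/-- the invariant divisor of a pair -/
noncomputable def bOf (t : ↥(pairs p 𝓛S ω)) : ↥(invD δ) := (exists_bOf H t).choose

lemma bOf_spec (t : ↥(pairs p 𝓛S ω)) : ∃ d : D, dv t.1.1 = bOf H t + p • d :=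
  (exists_bOf H t).choose_spec

include hq in
/-- the map from pairs to `Cl / p`. -/
noncomputable def psi : ↥(pairs p 𝓛S ω) →+ V where
  toFun t := q (QuotientAddGroup.mk (bOf H t))
  map_zero' := by
    obtain ⟨d, hd⟩ := bOf_spec H (0 : ↥(pairs p 𝓛S ω))
    have h1 : dv (0 : ↥(pairs p 𝓛S ω)).1.1 = 0 := map_zero dv
    rw [h1] at hd
    rw [q_eq_of H hq (b' := 0) (a := 0) (d := -d) (by
      rw [smul_neg]
      change _ = (0 : D) + dv 0 + _
      rw [map_zero, zero_add, zero_add]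
      exact eq_neg_of_add_eq_zero_left hd.symm)]
    exact map_zero q
  map_add' t t' := by
    obtain ⟨d, hd⟩ := bOf_spec H t
    obtain ⟨d', hd'⟩ := bOf_spec H t'
    obtain ⟨d'', hd''⟩ := bOf_spec H (t + t')
    rw [← map_add, ← QuotientAddGroup.mk_add]
    refine q_eq_of H hq (a := 0) (d := d + d' - d'') ?_
    have h1 : dv (t + t').1.1 = dv t.1.1 + dv t'.1.1 := map_add dv _ _
    rw [h1, hd, hd'] at hd''
    have h2 : (bOf H (t + t') : D) = bOf H t + p • d +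
        (bOf H t' + p • d') - p • d'' := by rw [hd'']; abel
    rw [h2]
    change _ = ((bOf H t : D) + (bOf H t' : D)) + dv 0 + _
    rw [map_zero, smul_sub, smul_add]
    abel

lemma psi_eq (t : ↥(pairs p 𝓛S ω)) {b : ↥(invD δ)} {a : ↥(invD ω)} {d : D}
    (h : dv t.1.1 = b + dv a.1 + p • d) : psi H hq t = q (QuotientAddGroup.mk b) := by
  obtain ⟨d', hd'⟩ := bOf_spec H t
  refine q_eq_of H hq (a := a) (d := d - d') ?_
  rw [h] at hd'
  rw [smul_sub, ← add_sub_assoc, hd']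
  abel

lemma psi_surjective : Surjective (psi H hq) := by
  intro v
  obtain ⟨x, rfl⟩ := hq.surj v
  obtain ⟨b, rfl⟩ := QuotientAddGroup.mk_surjective x
  have h1 : QuotientAddGroup.mk' (relD p ω dv) (b : D) ∈ (pairsToD 𝓛S p ω dv).range := by
    rw [H.range_pairsToD]
    exact ⟨b, b.2, rfl⟩
  obtain ⟨t, ht⟩ := h1
  have h2 : QuotientAddGroup.mk' (relD p ω dv) (dv t.1.1) = QuotientAddGroup.mk' _ (b : D) := ht
  rw [QuotientAddGroup.mk'_eq_mk'] at h2
  obtain ⟨z, ⟨w, hw, d, hd⟩, hz⟩ := h2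
  refine ⟨t, psi_eq H hq t (a := ⟨-w, (invD ω).neg_mem hw⟩) (d := -d) ?_⟩
  rw [← hz, hd]
  change _ = _ + dv (-w) + _
  rw [map_neg, smul_neg]
  abel

lemma psi_eq_zero_iff (t : ↥(pairs p 𝓛S ω)) :
    psi H hq t = 0 ↔ t ∈ (pairsToD 𝓛S p ω dv).ker := by
  obtain ⟨d', hd'⟩ := bOf_spec H t
  have e : t ∈ (pairsToD 𝓛S p ω dv).ker ↔ dv t.1.1 ∈ relD p ω dv := by
    rw [AddMonoidHom.mem_ker]
    change QuotientAddGroup.mk' (relD p ω dv) (dv t.1.1) = 0 ↔ _
    rw [QuotientAddGroup.mk'_apply, QuotientAddGroup.eq_zero_iff]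
  rw [e]
  change q (QuotientAddGroup.mk (bOf H t)) = 0 ↔ _
  rw [hq.ker]
  constructor
  · rintro ⟨y, hy⟩
    obtain ⟨b', rfl⟩ := QuotientAddGroup.mk_surjective y
    rw [← QuotientAddGroup.mk_nsmul, QuotientAddGroup.eq_iff_sub_mem] at hy
    obtain ⟨a, ha⟩ := hy
    have h1 : (bOf H t : D) = dv a.1 + p • (b' : D) := by
      have h2 := congrArg Subtype.val ha
      have h3 : dv a.1 = (bOf H t : D) - p • (b' : D) := h2
      rw [h3]
      abel
    refine ⟨a.1, a.2, (b' : D) + d', ?_⟩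
    rw [hd', h1, smul_add]
    abel
  · rintro ⟨w, hw, d, hd⟩
    have h1 : (bOf H t : D) = dv w + p • (d - d') := by
      rw [hd] at hd'
      rw [smul_sub, ← add_sub_assoc, hd']
      abel
    have hdd : d - d' ∈ invD δ := by
      apply mem_invD_of_smul H
      have h2 : p • (d - d') = (bOf H t : D) - dv w := by rw [h1]; abel
      rw [h2]
      exact (invD δ).sub_mem (bOf H t).2 (dA H.hde ⟨w, hw⟩).2
    refine ⟨QuotientAddGroup.mk ⟨d - d', hdd⟩, ?_⟩
    rw [← QuotientAddGroup.mk_nsmul, QuotientAddGroup.eq_iff_sub_mem]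
    refine ⟨⟨w, hw⟩, ?_⟩
    apply Subtype.ext
    change dv w = (bOf H t : D) - p • (d - d')
    rw [h1]
    abel

include hC

/-- pairs to the kernel of inflation. -/
noncomputable def pk : ↥(pairs p 𝓛S ω) →+ ↥(LinearMap.ker (infl2 H.hle τ)) where
  toFun t := ⟨pairsTo (p := p) ι hC.inj hC.surj hC.eq H.hω t, by
    have h1 : pairsTo (p := p) ι hC.inj hC.surj hC.eq H.hω t ∈
        (pairsTo (p := p) ι hC.inj hC.surj hC.eq H.hω).range := ⟨t, rfl⟩
    rw [H.range_pairsTo ι hC.inj hC.tors hC.surj hC.eq] at h1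
    exact h1⟩
  map_zero' := Subtype.ext (map_zero _)
  map_add' t t' := Subtype.ext (map_add _ _ _)

lemma coe_pk (t : ↥(pairs p 𝓛S ω)) :
    (pk H hC t : H2 𝓛S τ) = pairsTo (p := p) ι hC.inj hC.surj hC.eq H.hω t := rfl

lemma pk_surjective : Surjective (pk H hC) := by
  intro x
  have h1 : (x : H2 𝓛S τ) ∈ (pairsTo (p := p) ι hC.inj hC.surj hC.eq H.hω).range := by
    rw [H.range_pairsTo ι hC.inj hC.tors hC.surj hC.eq]
    exact x.2
  obtain ⟨t, ht⟩ := h1
  exact ⟨t, Subtype.ext ht⟩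

lemma pk_eq_zero_iff (t : ↥(pairs p 𝓛S ω)) :
    pk H hC t = 0 ↔ t ∈ (pairsToD 𝓛S p ω dv).ker := by
  rw [← H.ker_pairsTo ι hC.inj hC.tors hC.surj hC.eq, AddMonoidHom.mem_ker]
  constructor
  · intro h
    exact congrArg Subtype.val h
  · intro h
    exact Subtype.ext h

/-- comparison map -/
noncomputable def kHom : ↥(LinearMap.ker (infl2 H.hle τ)) →+ V :=
  descend (pk H hC) (pk_surjective H hC) (psi H hq) (fun t ht => by
    rw [psi_eq_zero_iff, ← pk_eq_zero_iff H hC]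
    exact ht)

lemma kHom_pk (t : ↥(pairs p 𝓛S ω)) : kHom H hC hq (pk H hC t) = psi H hq t :=
  descend_apply (pk H hC) (pk_surjective H hC) (psi H hq) _ t

/-- comparison map -/
noncomputable def kEquiv : ↥(LinearMap.ker (infl2 H.hle τ)) ≃ₗ[ZMod p] V :=
  LinearEquiv.ofBijective ((kHom H hC hq).toZModLinearMap p) (by
    constructor
    · rw [injective_iff_map_eq_zero]
      intro x hx
      obtain ⟨t, rfl⟩ := pk_surjective H hC x
      have h1 : psi H hq t = 0 := (kHom_pk H hC hq t).symm.trans hx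
      rw [psi_eq_zero_iff, ← pk_eq_zero_iff H hC] at h1
      exact h1
    · intro v
      obtain ⟨t, rfl⟩ := psi_surjective H hq v
      exact ⟨pk H hC t, kHom_pk H hC hq t⟩)

lemma kEquiv_pk (t : ↥(pairs p 𝓛S ω)) : kEquiv H hC hq (pk H hC t) = psi H hq t :=
  kHom_pk H hC hq t

omit H in
lemma pairsTo_gP (hω : Discrete 𝓛S ω) (tw : Tw 𝓛S ω δ dv ι u gW gD gM) (t : ↥(pairs p 𝓛S ω)) :
    pairsTo (p := p) ι hC.inj hC.surj hC.eq hω (tw.gP t) =
      H2map u tw.hu gM (tw.hM hC) (pairsTo (p := p) ι hC.inj hC.surj hC.eq hω t) := by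
  change H2mk 𝓛S τ _ = H2map u tw.hu gM (tw.hM hC) (H2mk 𝓛S τ _)
  rw [H2map_mk]
  congr 1
  apply Subtype.ext
  funext x
  apply hC.inj
  change ι (cocy ι hC.surj (tw.gP t) x) = ι (gM (cocy ι hC.surj t (u x.1, u x.2)))
  rw [ι_cocy, tw.hι, ι_cocy]
  simp only [map_add, map_sub, tw.hW]
  change ω x.1 (gW (t.1.2 (u x.2))) - gW (t.1.2 (u (x.1 * x.2))) + gW (t.1.2 (u x.1)) = _
  rw [map_mul u]

/-- **The kernel of inflation**, equivariantly. -/
theorem kEquiv_equivar (tw : Tw 𝓛S ω δ dv ι u gW gD gM) {f₄ : V →ₗ[ZMod p] V}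
    (hf₄ : ∀ x, f₄ (q x) = q (tw.gCl H.hde x))
    {f : ↥(LinearMap.ker (infl2 H.hle τ)) →ₗ[ZMod p] ↥(LinearMap.ker (infl2 H.hle τ))}
    (hf : ∀ x, (f x : H2 𝓛S τ) = H2map u tw.hu gM (tw.hM hC) x)
    (x : ↥(LinearMap.ker (infl2 H.hle τ))) :
    kEquiv H hC hq (f x) = f₄ (kEquiv H hC hq x) := by
  obtain ⟨t, rfl⟩ := pk_surjective H hC x
  have h1 : f (pk H hC t) = pk H hC (tw.gP t) := by
    apply Subtype.ext
    rw [hf, coe_pk, coe_pk, pairsTo_gP hC]
  rw [h1, kEquiv_pk, kEquiv_pk]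
  obtain ⟨b, d, hd⟩ := exists_bOf H t
  rw [psi_eq H hq t (b := b) (a := 0) (d := d) (by
    rw [hd]
    change _ = _ + dv 0 + _
    rw [map_zero, add_zero]), hf₄, Tw.gCl_mk]
  apply psi_eq H hq _ (a := 0) (d := gD d)
  change dv (gW t.1.1) = gD b + dv 0 + _
  rw [tw.hdv, hd, map_add, map_nsmul, map_zero, add_zero]

theorem finite_ker [FiniteDimensional (ZMod p) V] (hq : ModP p q) :
    FiniteDimensional (ZMod p) ↥(LinearMap.ker (infl2 H.hle τ)) :=
  Module.Finite.equiv (kEquiv H hC hq).symm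

/-- **The kernel of inflation**, characteristic polynomials. -/
theorem charpoly_ker [FiniteDimensional (ZMod p) V]
    [FiniteDimensional (ZMod p) ↥(LinearMap.ker (infl2 H.hle τ))] (hq : ModP p q)
    (tw : Tw 𝓛S ω δ dv ι u gW gD gM) {f₄ : V →ₗ[ZMod p] V}
    (hf₄ : ∀ x, f₄ (q x) = q (tw.gCl H.hde x))
    {f : ↥(LinearMap.ker (infl2 H.hle τ)) →ₗ[ZMod p] ↥(LinearMap.ker (infl2 H.hle τ))}
    (hf : ∀ x, (f x : H2 𝓛S τ) = H2map u tw.hu gM (tw.hM hC) x) :
    f.charpoly = f₄.charpoly :=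
  charpoly_eq_of_equiv (kEquiv H hC hq) f f₄ (kEquiv_equivar H hC hq tw hf₄ hf)

end Ker

section HOne

variable (H : Setup p 𝓛 𝓛S ρ ω δ j dv) (hC : Coef p ω τ ι)
variable {V₁ : Type*} [AddCommGroup V₁] [Module (ZMod p) V₁]
variable {V₃ : Type*} [AddCommGroup V₃] [Module (ZMod p) V₃]

/-- multiplication by `p` on Kummer generators. -/
def pz : ↥(kumA p ω) →+ ↥(invD ω) where
  toFun z := ⟨p • z.1, fun g => by
    have h1 : p • (ω g z.1 - z.1) = 0 := z.2 g
    rw [map_nsmul, ← sub_eq_zero, ← smul_sub, h1]⟩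
  map_zero' := Subtype.ext (smul_zero p)
  map_add' x y := Subtype.ext (smul_add p x.1 y.1)

omit hp in
@[simp] lemma coe_pz (z : ↥(kumA p ω)) : ((pz z : ↥(invD ω)) : W) = p • z.1 := rfl

/-- the inclusion `W^G → kumA`. -/
def ofInv : ↥(invD ω) →+ ↥(kumA p ω) where
  toFun w := ⟨w.1, fun g => by rw [w.2 g, sub_self, smul_zero]⟩
  map_zero' := rfl
  map_add' _ _ := rfl

omit hp in
@[simp] lemma coe_ofInv (w : ↥(invD ω)) : ((ofInv (p := p) w : ↥(kumA p ω)) : W) = w.1 := rfl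

section

include H

lemma exists_pz {a : ↥(invD ω)} (ha : ∃ d : D, dv a.1 = p • d) :
    ∃ z : ↥(kumA p ω), pz z = a := by
  obtain ⟨z, hz⟩ := H.exists_smul_eq ha
  exact ⟨⟨z, fun g => by rw [smul_sub, ← map_nsmul, hz, a.2 g, sub_self]⟩, Subtype.ext hz⟩

/-- the divisor of a Kummer generator is invariant. -/
def dz : ↥(kumA p ω) →+ ↥(invD δ) where
  toFun z := ⟨dv z.1, by
    apply mem_invD_of_smul H
    have h1 : p • dv z.1 = dv (p • z.1) := (map_nsmul dv _ _).symm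
    rw [h1]
    exact (dA H.hde (pz z)).2⟩
  map_zero' := Subtype.ext (map_zero dv)
  map_add' x y := Subtype.ext (map_add dv x.1 y.1)

@[simp] lemma coe_dz (z : ↥(kumA p ω)) : ((dz H z : ↥(invD δ)) : D) = dv z.1 := rfl

lemma smul_dz (z : ↥(kumA p ω)) : p • dz H z = dA H.hde (pz z) :=
  Subtype.ext (map_nsmul dv p z.1).symm

lemma dz_ofInv (w : ↥(invD ω)) : dz H (ofInv (p := p) w) = dA H.hde w := rfl

/-- Kummer generators of `S`-units. -/
def kz : ↥(dz H).ker →+ ↥(dA H.hde).ker :=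
  ((pz (p := p)).comp (dz H).ker.subtype).codRestrict (dA H.hde).ker (fun z => by
    change dA H.hde (pz z.1) = 0
    have h1 : dz H z.1 = 0 := z.2
    rw [← smul_dz H, h1, smul_zero])

@[simp] lemma coe_kz (z : ↥(dz H).ker) : ((kz H z : ↥(dA H.hde).ker) : ↥(invD ω)) = pz z.1 := rfl

lemma kz_surjective : Surjective (kz H) := by
  intro e
  have he : dA H.hde e.1 = 0 := e.2
  have he' : dv e.1.1 = 0 := congrArg Subtype.val he
  obtain ⟨z, hz⟩ := exists_pz H (a := e.1) ⟨0, by rw [he', smul_zero]⟩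
  have hz0 : dz H z = 0 := by
    apply Subtype.ext
    apply H.htf
    have h1 := congrArg Subtype.val (smul_dz H z)
    rw [hz, he] at h1
    exact h1
  exact ⟨⟨z, hz0⟩, Subtype.ext hz⟩

end

include hC

omit H in
/-- the Kummer map -/
noncomputable abbrev kt (hω : Discrete 𝓛S ω) : ↥(kumA p ω) →+ H1 𝓛S τ :=
  kumTo (p := p) ι hC.inj hC.surj hC.eq hω

omit H in
lemma kt_eq_zero_iff (hω : Discrete 𝓛S ω) (z : ↥(kumA p ω)) :
    kt hC hω z = 0 ↔ ∃ m : M, ∃ w : ↥(invD ω), z.1 = ι m + w.1 := by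
  rw [kt, kumTo_eq_zero_iff]
  refine exists_congr fun m => ?_
  constructor
  · intro h
    refine ⟨⟨z.1 - ι m, fun g => ?_⟩, ?_⟩
    · rw [map_sub, ← sub_eq_zero]
      have h1 := h g
      have h2 : ω g z.1 - ω g (ι m) - (z.1 - ι m) = (ω g z.1 - z.1) - (ω g (ι m) - ι m) := by abel
      rw [h2, h1, sub_self]
    · change z.1 = ι m + (z.1 - ι m)
      abel
  · rintro ⟨w, hw⟩ g
    rw [hw, map_add, w.2 g]
    abel

include H

lemma dv_ι (m : M) : dv (ι m) = 0 := by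
  apply H.htf
  rw [← map_nsmul, hC.tors, map_zero]

/-- `E → H¹` on generators -/
noncomputable def phi1 : ↥(dz H).ker →+ H1 𝓛S τ := (kt hC H.hω).comp (dz H).ker.subtype

lemma phi1_apply (z : ↥(dz H).ker) : phi1 H hC z = kt hC H.hω z.1 := rfl

variable {q : ↥(dA H.hde).ker →+ V₁} (hq : ModP p q)

include hq in
lemma phi1_eq_zero_iff (z : ↥(dz H).ker) : phi1 H hC z = 0 ↔ q (kz H z) = 0 := by
  rw [phi1_apply, kt_eq_zero_iff hC, hq.ker]
  have hz : dz H z.1 = 0 := z.2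
  have hz' : dv z.1.1 = 0 := congrArg Subtype.val hz
  constructor
  · rintro ⟨m, w, hw⟩
    have h1 : dA H.hde w = 0 := by
      apply Subtype.ext
      change dv w.1 = 0
      rw [hw, map_add, dv_ι H hC, zero_add] at hz'
      exact hz'
    refine ⟨⟨w, h1⟩, ?_⟩
    apply Subtype.ext
    apply Subtype.ext
    change p • z.1.1 = p • w.1
    rw [hw, smul_add, hC.tors, zero_add]
  · rintro ⟨y, hy⟩
    have h1 : p • z.1.1 = p • y.1.1 := congrArg (fun t : ↥(dA H.hde).ker => (t.1.1 : W)) hy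
    obtain ⟨m, hm⟩ := hC.surj (z.1.1 - y.1.1) (by rw [smul_sub, h1, sub_self])
    exact ⟨m, y.1, by rw [hm]; abel⟩

/-- the map `E / p → H¹` -/
noncomputable def aHom : V₁ →+ H1 𝓛S τ :=
  descend (q.comp (kz H)) (hq.surj.comp (kz_surjective H)) (phi1 H hC)
    (fun z hz => (phi1_eq_zero_iff H hC hq z).mpr hz)

lemma aHom_kz (z : ↥(dz H).ker) : aHom H hC hq (q (kz H z)) = kt hC H.hω z.1 :=
  descend_apply (q.comp (kz H)) (hq.surj.comp (kz_surjective H)) (phi1 H hC) _ z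

include hq in
lemma exists_ker_dz (v : V₁) : ∃ z : ↥(dz H).ker, q (kz H z) = v :=
  hq.surj.comp (kz_surjective H) v

lemma aHom_injective : Injective (aHom H hC hq) := by
  rw [injective_iff_map_eq_zero]
  intro v hv
  obtain ⟨z, rfl⟩ := exists_ker_dz H hC hq v
  rw [aHom_kz, ← phi1_apply, phi1_eq_zero_iff H hC hq] at hv
  exact hv

omit hq in
lemma kt_surjective : Surjective (kt hC H.hω) :=
  H.kumTo_surjective ι hC.inj hC.tors hC.surj hC.eq

variable {i : V₃ →+ Cl H.hde} (hi : TorP p i)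

omit hq hC in
include hi in
lemma exists_bz (z : ↥(kumA p ω)) : ∃ v : V₃, i v = QuotientAddGroup.mk (dz H z) := by
  rw [← hi.range, ← QuotientAddGroup.mk_nsmul, smul_dz, QuotientAddGroup.eq_zero_iff]
  exact ⟨_, rfl⟩

omit hq hC in
include hi in
/-- `kumA → Cl[p]`. -/
noncomputable def bz : ↥(kumA p ω) →+ V₃ where
  toFun z := (exists_bz H hi z).choose
  map_zero' := hi.inj (by
    rw [(exists_bz H hi 0).choose_spec, map_zero, map_zero]
    rfl)
  map_add' x y := hi.inj (by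
    rw [(exists_bz H hi (x + y)).choose_spec, map_add, map_add i,
      (exists_bz H hi x).choose_spec, (exists_bz H hi y).choose_spec]
    rfl)

omit hq hC in
lemma i_bz (z : ↥(kumA p ω)) : i (bz H hi z) = QuotientAddGroup.mk (dz H z) :=
  (exists_bz H hi z).choose_spec

omit hq in
/-- the map `H¹ → Cl[p]`. -/
noncomputable def bHom : H1 𝓛S τ →+ V₃ :=
  descend (kt hC H.hω) (kt_surjective H hC) (bz H hi) (fun z hz => by
    rw [kt_eq_zero_iff hC] at hz
    obtain ⟨m, w, hw⟩ := hz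
    apply hi.inj
    rw [i_bz, map_zero, QuotientAddGroup.eq_zero_iff]
    refine ⟨w, ?_⟩
    apply Subtype.ext
    change dv w.1 = dv z.1
    rw [hw, map_add, dv_ι H hC, zero_add])

omit hq in
lemma bHom_kt (z : ↥(kumA p ω)) : bHom H hC hi (kt hC H.hω z) = bz H hi z :=
  descend_apply (kt hC H.hω) (kt_surjective H hC) (bz H hi) _ z

omit hq in
lemma bHom_surjective : Surjective (bHom H hC hi) := by
  intro v
  obtain ⟨d, hd⟩ := QuotientAddGroup.mk_surjective (i v)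
  have h1 : p • i v = 0 := (hi.range _).mpr ⟨v, rfl⟩
  rw [← hd, ← QuotientAddGroup.mk_nsmul, QuotientAddGroup.eq_zero_iff] at h1
  obtain ⟨a, ha⟩ := h1
  have ha' : dv a.1 = p • (d : D) := congrArg Subtype.val ha
  obtain ⟨z, hz⟩ := exists_pz H (a := a) ⟨d, ha'⟩
  refine ⟨kt hC H.hω z, hi.inj ?_⟩
  rw [bHom_kt, i_bz, ← hd]
  congr 1
  apply Subtype.ext
  rw [← sub_eq_zero]
  apply H.htf
  have h2 : p • dv z.1 = dv (p • z.1) := (map_nsmul dv _ _).symm
  have h3 : p • z.1 = a.1 := congrArg Subtype.val hz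
  rw [coe_dz, smul_sub, h2, h3, ha', sub_self]

lemma exact_aHom_bHom : Exact (aHom H hC hq) (bHom H hC hi) := by
  intro x
  obtain ⟨z, rfl⟩ := kt_surjective H hC x
  rw [bHom_kt]
  constructor
  · intro hz
    have h1 : (QuotientAddGroup.mk (dz H z) : Cl H.hde) = 0 := by rw [← i_bz H hi, hz, map_zero]
    rw [QuotientAddGroup.eq_zero_iff] at h1
    obtain ⟨w, hw⟩ := h1
    have h2 : dz H (z - ofInv w) = 0 := by rw [map_sub, dz_ofInv, hw, sub_self]
    refine ⟨q (kz H ⟨z - ofInv w, h2⟩), ?_⟩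
    rw [aHom_kz, map_sub, sub_eq_self, kt_eq_zero_iff]
    exact ⟨0, w, by rw [map_zero, zero_add]; rfl⟩
  · rintro ⟨v, hv⟩
    obtain ⟨z', rfl⟩ := exists_ker_dz H hC hq v
    rw [aHom_kz] at hv
    rw [← bHom_kt H hC hi, ← hv, bHom_kt]
    apply hi.inj
    have h2 : dz H z'.1 = 0 := z'.2
    rw [i_bz, h2, map_zero]
    rfl

omit hC in
/-- the action on `kumA` -/
def _root_.Fermat.Agent.GW.KE.Tw.gK (tw : Tw 𝓛S ω δ dv ι u gW gD gM) :
    ↥(kumA p ω) →+ ↥(kumA p ω) :=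
  (gW.comp (kumA p ω).subtype).codRestrict (kumA p ω) (fun x v => by
    have h1 : p • (ω (u v) x.1 - x.1) = 0 := x.2 (u v)
    change p • (ω v (gW x.1) - gW x.1) = 0
    rw [← tw.hW, ← map_sub, ← map_nsmul, h1, map_zero])

omit hC H in
lemma coe_gK (tw : Tw 𝓛S ω δ dv ι u gW gD gM) (x : ↥(kumA p ω)) :
    ((tw.gK x : ↥(kumA p ω)) : W) = gW x.1 := rfl

omit H hq in
lemma kt_gK (hω : Discrete 𝓛S ω) (tw : Tw 𝓛S ω δ dv ι u gW gD gM) (z : ↥(kumA p ω)) :
    kt hC hω (tw.gK z) = H1map u tw.hu gM (tw.hM hC) (kt hC hω z) := by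
  change H1mk 𝓛S τ _ = H1map u tw.hu gM (tw.hM hC) (H1mk 𝓛S τ _)
  rw [H1map_mk]
  congr 1
  apply Subtype.ext
  funext x
  apply hC.inj
  change ι (kumC ι hC.surj (tw.gK z) x) = ι (gM (kumC ι hC.surj z (u x)))
  rw [ι_kumC, tw.hι, ι_kumC, map_sub, tw.hW]
  rfl

theorem finite_H1 [FiniteDimensional (ZMod p) V₁] [FiniteDimensional (ZMod p) V₃]
    (hq : ModP p q) (hi : TorP p i) : FiniteDimensional (ZMod p) (H1 𝓛S τ) := by
  have h1 : FiniteDimensional (ZMod p) (LinearMap.ker ((bHom H hC hi).toZModLinearMap p)) := by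
    have h2 : LinearMap.ker ((bHom H hC hi).toZModLinearMap p) =
        LinearMap.range ((aHom H hC hq).toZModLinearMap p) := by
      ext x
      exact exact_aHom_bHom H hC hq hi x
    rw [h2]
    infer_instance
  have h3 : Module.Finite (ZMod p)
      (H1 𝓛S τ ⧸ LinearMap.ker ((bHom H hC hi).toZModLinearMap p)) :=
    Module.Finite.equiv ((bHom H hC hi).toZModLinearMap p).quotKerEquivRange.symm
  exact Module.Finite.of_submodule_quotient (LinearMap.ker ((bHom H hC hi).toZModLinearMap p))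

/-- **`H¹(𝓛S, μ_p)`**, characteristic polynomials. -/
theorem charpoly_H1 [FiniteDimensional (ZMod p) V₁] [FiniteDimensional (ZMod p) V₃]
    [FiniteDimensional (ZMod p) (H1 𝓛S τ)]
    (hq : ModP p q) (hi : TorP p i) (tw : Tw 𝓛S ω δ dv ι u gW gD gM)
    {f₁ : V₁ →ₗ[ZMod p] V₁} (hf₁ : ∀ x, f₁ (q x) = q (tw.gE H.hde x))
    {f₃ : V₃ →ₗ[ZMod p] V₃} (hf₃ : ∀ x, i (f₃ x) = tw.gCl H.hde (i x)) :
    (H1map (ρ := τ) (σ := τ) u tw.hu gM (tw.hM hC)).charpoly = f₁.charpoly * f₃.charpoly := by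
  refine charpoly_eq_mul_of_exact ((aHom H hC hq).toZModLinearMap p)
    ((bHom H hC hi).toZModLinearMap p) (aHom_injective H hC hq) (exact_aHom_bHom H hC hq hi)
    (bHom_surjective H hC hi) f₁ _ f₃ ?_ ?_
  · apply LinearMap.ext
    intro v
    obtain ⟨z, rfl⟩ := exists_ker_dz H hC hq v
    change aHom H hC hq (f₁ (q (kz H z))) =
      H1map u tw.hu gM (tw.hM hC) (aHom H hC hq (q (kz H z)))
    have h2 : dz H (tw.gK z.1) = 0 := by
      apply Subtype.ext
      change dv (gW z.1.1) = 0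
      have h3 : dv z.1.1 = 0 := congrArg Subtype.val (show dz H z.1 = 0 from z.2)
      rw [tw.hdv, h3, map_zero]
    have h1 : tw.gE H.hde (kz H z) = kz H ⟨tw.gK z.1, h2⟩ := by
      apply Subtype.ext
      apply Subtype.ext
      change gW (p • z.1.1) = p • gW z.1.1
      rw [map_nsmul]
    rw [hf₁, h1, aHom_kz, aHom_kz, kt_gK hC H.hω tw]
  · apply LinearMap.ext
    intro x
    obtain ⟨z, rfl⟩ := kt_surjective H hC x
    change bHom H hC hi (H1map u tw.hu gM (tw.hM hC) (kt hC H.hω z)) =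
      f₃ (bHom H hC hi (kt hC H.hω z))
    rw [← kt_gK hC H.hω tw, bHom_kt, bHom_kt]
    apply hi.inj
    rw [hf₃, i_bz, i_bz, Tw.gCl_mk]
    congr 1
    apply Subtype.ext
    exact tw.hdv z.1

end HOne

end Fermat.Agent.GW.KE
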