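import Fermat.Agent.GW.Inequality
import Fermat.Agent.GW.GlobalEuler
import Fermat.Agent.PT.Setting

/-!
# Greenberg–Wiles: the numerical assembly (abstract form)
-/

set_option autoImplicit false

namespace Fermat.Agent.GW

open Fermat.Agent.PT Module

section Dual

variable {k : Type} [Field k] {G : Type} [Group G]
variable {M : Type} [AddCommGroup M] [Module k M] (ρ : Representation k G M) (χ : G →* kˣ)

/-- the double dual -/
noncomputable def evalEq (k : Type) [Field k] (M : Type) [AddCommGroup M] [Module k M] [FiniteDimensional k M] :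
    M ≃ₗ[k] Module.Dual k (Module.Dual k M) := Module.evalEquiv k M

lemma evalEq_apply [FiniteDimensional k M] (m : M) (f : Module.Dual k M) :
    evalEq k M m f = f m := rfl

lemma evalEq_equivar [FiniteDimensional k M] :
    Equivar ρ (dualT χ (dualT χ ρ)) (evalEq k M).toLinearMap := by
  intro g m
  refine LinearMap.ext (fun f => ?_)
  show f (ρ g m) = (χ g : k) * ((dualT χ ρ g⁻¹ f) m)
  rw [dualT_apply, ← mul_assoc, map_inv, ← Units.val_mul, mul_inv_cancel, Units.val_one, one_mul,
    inv_inv]

/-- Isomorphic representations have invariants of the same dimension. -/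
lemma finrank_invariants_equiv {k : Type} [Field k] {Γ : Type} [Group Γ]
    {A : Type} [AddCommGroup A] [Module k A]
    {ρA : Representation k Γ A} {B : Type} [AddCommGroup B] [Module k B]
    {ρB : Representation k Γ B} (e : A ≃ₗ[k] B) (he : Equivar ρA ρB e.toLinearMap) :
    finrank k ρA.invariants = finrank k ρB.invariants := by
  refine LinearEquiv.finrank_eq (LinearEquiv.ofSubmodules e _ _ ?_)
  ext b
  rw [Submodule.mem_map]
  constructor
  · rintro ⟨a, ha, rfl⟩ g
    show ρB g (e.toLinearMap a) = e.toLinearMap a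
    rw [← he, ha g]
  · intro hb
    refine ⟨e.symm b, fun g => ?_, by simp⟩
    apply e.injective
    have := he g (e.symm b)
    have h4 : e (ρA g (e.symm b)) = ρB g (e (e.symm b)) := this
    rw [h4, LinearEquiv.apply_symm_apply, hb]

lemma finrank_homG_dualT [FiniteDimensional k M] :
    finrank k (homG χ (dualT χ ρ)) = finrank k ρ.invariants := by
  have h1 : homG χ (dualT χ ρ) = (dualT χ (dualT χ ρ)).invariants := by
    ext f
    exact mem_homG_iff_invariants χ _
  rw [h1]
  exact (finrank_invariants_equiv _ (evalEq_equivar ρ χ)).symm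

/-- the dimension of the fixed space of complex conjugation on the dual -/
theorem finrank_fixC_dualT [FiniteDimensional k M] (h2 : (2 : k) ≠ 0) (c : G) (hc : c * c = 1)
    (hχ : (χ c : k) = -1) :
    finrank k (fixC ρ c) + finrank k (fixC (dualT χ ρ) c) = finrank k M := by
  have h1 : fixC (dualT χ ρ) c = (fixC ρ c).dualAnnihilator := by
    have hc' : c⁻¹ = c := inv_eq_of_mul_eq_one_left hc
    ext f
    rw [mem_fixC, Submodule.mem_dualAnnihilator]
    constructor
    · intro h m hm
      rw [mem_fixC] at hm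
      have h3 := LinearMap.congr_fun h m
      rw [dualT_apply, hχ, hc', hm] at h3
      have h4 : (2 : k) * f m = 0 := by linear_combination -h3
      exact (mul_eq_zero.1 h4).resolve_left h2
    · intro h
      ext m
      have h5 := h (m + ρ c m) (by
        rw [mem_fixC, map_add, ← Module.End.mul_apply, ← map_mul, hc, map_one,
          Module.End.one_apply, add_comm])
      rw [map_add] at h5
      rw [dualT_apply, hχ, hc']
      linear_combination -h5
  rw [h1]
  exact Subspace.finrank_add_finrank_dualAnnihilator_eq (fixC ρ c)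

end Dual

section Places

variable {k G : Type} [Field k] [Group G] (T : PlaceData k G)
variable {M : Type} [AddCommGroup M] [Module k M] {ρ : Representation k G M}

/-- **The dimension of `H²`.** -/
theorem finrank_H2_add (hR : T.Recip) [FiniteDimensional k M]
    (hLoc : T.LocInj ρ) (hEx : T.ExactX ρ) [FiniteDimensional k (H2 T.𝓛 ρ)] :
    finrank k (H2 T.𝓛 ρ) + finrank k (homG T.χ ρ) =
      finrank k (T.sha2 ρ) + ∑ v, finrank k (T.homv ρ v) := by
  have h1 : LinearMap.range (T.gam (ρ := ρ)) = (T.sha2 ρ).dualAnnihilator := by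
    apply le_antisymm
    · rintro _ ⟨c, rfl⟩
      rw [Submodule.mem_dualAnnihilator]
      intro x hx
      exact T.gam_sha2 c hx
    · intro f hf
      rw [Submodule.mem_dualAnnihilator] at hf
      exact T.exists_gam_eq hLoc f hf
  have h2 : LinearMap.ker (T.gam (ρ := ρ)) = LinearMap.range (T.diag (ρ := ρ)) := by
    ext c
    rw [LinearMap.mem_ker, LinearMap.mem_range]
    constructor
    · intro hc
      exact hEx c hc
    · rintro ⟨φ, rfl⟩
      exact T.gam_diag hR φ
  have h3 : Function.Injective (T.diag (ρ := ρ)) := by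
    intro φ φ' h
    obtain ⟨v₀⟩ := T.ne
    apply Subtype.ext
    exact congrArg (fun d : T.X ρ => (d v₀ : Module.Dual k M)) h
  have h4 := LinearMap.finrank_range_add_finrank_ker (T.gam (ρ := ρ))
  have h5 := Subspace.finrank_add_finrank_dualAnnihilator_eq (T.sha2 ρ)
  have h6 : finrank k (T.X ρ) = ∑ v, finrank k (T.homv ρ v) := Module.finrank_pi_fintype k
  have h7 : finrank k (LinearMap.range (T.diag (ρ := ρ))) = finrank k (homG T.χ ρ) :=
    LinearMap.finrank_range_of_inj h3
  rw [h1, h2, h7, h6] at h4
  omega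

/-- `dim Ш¹` is invariant under isomorphism. -/
lemma finrank_sha1_equiv {A : Type} [AddCommGroup A] [Module k A]
    {ρA : Representation k G A} {B : Type} [AddCommGroup B] [Module k B]
    {ρB : Representation k G B} (e : A ≃ₗ[k] B) (he : Equivar ρA ρB e.toLinearMap) :
    finrank k (T.sha1 ρA) = finrank k (T.sha1 ρB) := by
  have he' : Equivar ρB ρA e.symm.toLinearMap := by
    intro g b
    apply e.injective
    show e (e.symm (ρB g b)) = e (ρA g (e.symm b))
    have := he g (e.symm b)
    have h4 : e (ρA g (e.symm b)) = ρB g (e (e.symm b)) := this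
    rw [h4, LinearEquiv.apply_symm_apply, LinearEquiv.apply_symm_apply]
  have hAB : ∀ x : H1 T.𝓛 ρB, H1coef T.𝓛 e.toLinearMap he (H1coef T.𝓛 e.symm.toLinearMap he' x)
      = x := by
    intro x
    obtain ⟨z, rfl⟩ := H1mk_surjective x
    show H1mk T.𝓛 ρB _ = H1mk T.𝓛 ρB z
    congr 1
    apply Subtype.ext
    funext g
    exact e.apply_symm_apply _
  have hBA : ∀ x : H1 T.𝓛 ρA, H1coef T.𝓛 e.symm.toLinearMap he' (H1coef T.𝓛 e.toLinearMap he x)
      = x := by
    intro x
    obtain ⟨z, rfl⟩ := H1mk_surjective x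
    show H1mk T.𝓛 ρA _ = H1mk T.𝓛 ρA z
    congr 1
    apply Subtype.ext
    funext g
    exact e.symm_apply_apply _
  let E : H1 T.𝓛 ρA ≃ₗ[k] H1 T.𝓛 ρB :=
    LinearEquiv.ofLinearMap (H1coef T.𝓛 e.toLinearMap he) (H1coef T.𝓛 e.symm.toLinearMap he')
      (LinearMap.ext hAB) (LinearMap.ext hBA)
  refine LinearEquiv.finrank_eq (LinearEquiv.ofSubmodules E _ _ ?_)
  ext b
  rw [Submodule.mem_map]
  constructor
  · rintro ⟨a, ha, rfl⟩
    exact T.sha1_coef he ha
  · intro hb
    exact ⟨H1coef T.𝓛 e.symm.toLinearMap he' b, T.sha1_coef he' hb, hAB b⟩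

/-- A perfect pairing forces equality of dimensions. -/
lemma finrank_eq_of_pairing {k : Type} [Field k] {V W : Type} [AddCommGroup V] [Module k V]
    [AddCommGroup W] [Module k W] [FiniteDimensional k V] [FiniteDimensional k W]
    (B : V →ₗ[k] W →ₗ[k] k) (h1 : ∀ y, (∀ x, B y x = 0) → y = 0)
    (h2 : ∀ x, (∀ y, B y x = 0) → x = 0) : finrank k V = finrank k W := by
  apply le_antisymm
  · have hi : Function.Injective B := by
      rw [← LinearMap.ker_eq_bot, LinearMap.ker_eq_bot']
      intro y hy
      exact h1 y (fun x => by rw [hy, LinearMap.zero_apply])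
    have := LinearMap.finrank_le_finrank_of_injective hi
    rwa [Subspace.dual_finrank_eq] at this
  · have hi : Function.Injective B.flip := by
      rw [← LinearMap.ker_eq_bot, LinearMap.ker_eq_bot']
      intro x hx
      exact h2 x (fun y => by
        have := LinearMap.congr_fun hx y
        exact this)
    have := LinearMap.finrank_le_finrank_of_injective hi
    rwa [Subspace.dual_finrank_eq] at this

/-- The global duality inputs. -/
structure GlobIn (T : PlaceData k G) (c : G) : Prop where
  recip : T.Recip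
  hfin : ∀ {M : Type} [AddCommGroup M] [Module k M] [FiniteDimensional k M]
    (ρ : Representation k G M), Discrete T.𝓛 ρ → HFin T.𝓛 ρ
  locInj : ∀ {M : Type} [AddCommGroup M] [Module k M] [FiniteDimensional k M]
    (ρ : Representation k G M), Discrete T.𝓛 ρ → T.LocInj ρ
  exactX : ∀ {M : Type} [AddCommGroup M] [Module k M] [FiniteDimensional k M]
    (ρ : Representation k G M), Discrete T.𝓛 ρ → T.ExactX ρ
  sha : ∀ {M : Type} [AddCommGroup M] [Module k M] [FiniteDimensional k M]
    (ρ : Representation k G M), Discrete T.𝓛 ρ → T.ShaPairing ρ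
  euler : ∀ {M : Type} [AddCommGroup M] [Module k M] [FiniteDimensional k M]
    (ρ : Representation k G M), Discrete T.𝓛 ρ →
      (chi T.𝓛 ρ : ℤ) = finrank k (fixC ρ c) - finrank k M

/-- **The Greenberg–Wiles inequality**, abstract numerical form. -/
theorem gw_numeric (h2 : (2 : k) ≠ 0) (c : G) (hc : c * c = 1) (hχ : (T.χ c : k) = -1)
    (hT : GlobIn T c) [FiniteDimensional k M] (hρ : Discrete T.𝓛 ρ)
    (L : ∀ v, Submodule k (LH1 T ρ v)) [∀ v, FiniteDimensional k (L v)] :
    finrank k (Sel T L) + finrank k (dualT T.χ ρ).invariants +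
      ∑ v, finrank k (Representation.invariants (ρ.comp (T.r v))) + finrank k (fixC ρ c) ≤
    finrank k ρ.invariants + ∑ v, finrank k (L v) +
      finrank k (Sel T (ρ := dualT T.χ ρ) (perp T hρ L)) := by
  set ρ' := dualT T.χ ρ with hρ'def
  have hρ' : Discrete T.𝓛 ρ' := dualT_discrete hρ T.χ_level
  have hρ'' : Discrete T.𝓛 (dualT T.χ ρ') := dualT_discrete hρ' T.χ_level
  have f1 := hT.hfin ρ hρ
  have f2 := hT.hfin ρ' hρ'
  have f3 := hT.hfin (dualT T.χ ρ') hρ''
  have := f1.h1
  have := f2.h1
  have := f2.h2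
  have := f3.h1
  have e1 := gw_first T hT.recip hρ L
  have e2 := finrank_H2_add T hT.recip (hT.locInj ρ' hρ') (hT.exactX ρ' hρ')
  have e3 : finrank k (T.sha2 ρ') = finrank k (T.sha1 ρ) := by
    obtain ⟨B, hB1, hB2⟩ := hT.sha ρ' hρ'
    rw [← finrank_eq_of_pairing B hB1 hB2]
    exact (finrank_sha1_equiv T _ (evalEq_equivar ρ T.χ)).symm
  have e4 : finrank k (homG T.χ ρ') = finrank k ρ.invariants := finrank_homG_dualT ρ T.χ
  have e5 : ∀ v, finrank k (T.homv ρ' v) =
      finrank k (Representation.invariants (ρ.comp (T.r v))) := by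
    intro v
    have h1 : T.homv ρ' v = Representation.invariants ((dualT T.χ ρ').comp (T.r v)) := by
      ext f
      exact T.mem_homv_iff_invariants
    rw [h1]
    exact (finrank_invariants_equiv _
      ((evalEq_equivar ρ T.χ).comp_hom (T.r v))).symm
  have e6 := hT.euler ρ' hρ'
  have e7 := finrank_fixC_dualT ρ T.χ h2 c hc hχ
  have e8 : finrank k (Module.Dual k M) = finrank k M := Subspace.dual_finrank_eq
  rw [Finset.sum_congr rfl (fun v _ => e5 v)] at e2
  rw [e3, e4] at e2
  rw [chi] at e6
  rw [e8] at e6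
  zify at e1 e2 e7 ⊢
  linarith

end Places

end Fermat.Agent.GW
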