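import Fermat.Agent.GW.Additive

/-!
# Equivariant functions, permutation modules, local terms
-/

set_option autoImplicit false

namespace Fermat.Agent.GW

open Fermat.Agent.PT Module

section EqFun

variable {k : Type*} [Field k] {G : Type*} [Group G]
variable {Q : Type*} [AddCommGroup Q] [Module k Q]

/-- `P`-equivariant functions `X → Q`. -/
def eqFun (P : Subgroup G) (X : Type*) [MulAction G X] (ρQ : Representation k G Q) :
    Submodule k (X → Q) where
  carrier := {h | ∀ u ∈ P, ∀ x, h (u • x) = ρQ u (h x)}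
  zero_mem' := fun u _ x => by simp
  add_mem' {h h'} e e' u hu x := by simp [e u hu x, e' u hu x]
  smul_mem' c h e u hu x := by simp [e u hu x]

lemma mem_eqFun {P : Subgroup G} {X : Type*} [MulAction G X] {ρQ : Representation k G Q}
    {h : X → Q} : h ∈ eqFun P X ρQ ↔ ∀ u ∈ P, ∀ x, h (u • x) = ρQ u (h x) := Iff.rfl

variable (k G) in
/-- The permutation representation on functions on `X`. -/
abbrev permRep (X : Type*) [MulAction G X] : Representation k G (X → k) :=
  funRep X (Representation.trivial k G k)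

lemma permRep_apply (X : Type*) [MulAction G X] (g : G) (f : X → k) (x : X) :
    permRep k G X g f x = f (g⁻¹ • x) := rfl

variable (k Q) in
/-- `(X → Q)^* ≃ Hom(Q, k^X)`. -/
def dualFun (X : Type*) [Fintype X] [DecidableEq X] :
    Module.Dual k (X → Q) ≃ₗ[k] (Q →ₗ[k] (X → k)) where
  toFun φ :=
    { toFun := fun q x => φ (Pi.single x q)
      map_add' := fun q q' => by funext x; rw [Pi.single_add, map_add]; rfl
      map_smul' := fun r q => by funext x; rw [Pi.single_smul, map_smul]; rfl }
  map_add' φ φ' := rfl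
  map_smul' r φ := rfl
  invFun θ :=
    { toFun := fun h => ∑ x, θ (h x) x
      map_add' := fun h h' => by simp [Finset.sum_add_distrib]
      map_smul' := fun r h => by simp [Finset.mul_sum] }
  left_inv φ := by
    apply LinearMap.ext
    intro h
    show ∑ x, φ (Pi.single x (h x)) = φ h
    rw [← map_sum, Finset.univ_sum_single]
  right_inv θ := by
    apply LinearMap.ext
    intro q
    funext x
    show ∑ x', θ ((Pi.single x q : X → Q) x') x' = θ q x
    rw [Finset.sum_eq_single x]
    · rw [Pi.single_eq_same]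
    · intro x' _ hx'
      rw [Pi.single_eq_of_ne hx', map_zero]
      rfl
    · intro h
      exact absurd (Finset.mem_univ x) h

lemma dualFun_apply (X : Type*) [Fintype X] [DecidableEq X] (φ : Module.Dual k (X → Q)) (q : Q)
    (x : X) : dualFun k Q X φ q x = φ (Pi.single x q) := rfl

variable {V : Subgroup G} [V.Normal]

/-- `V` acts trivially on functions. -/
lemma funRep_triv {X : Type*} [MulAction G X] (hX : TrivOn V X) {ρQ : Representation k G Q}
    (hQ : ∀ v ∈ V, ρQ v = 1) : ∀ v ∈ V, funRep X ρQ v = 1 := by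
  intro v hv
  apply LinearMap.ext
  intro f
  funext x
  rw [funRep_apply, hQ v hv, hX _ (V.inv_mem hv)]
  rfl

/-- **Duality for permutation modules.** -/
theorem finrank_homInv_permRep [Finite (G ⧸ V)] {U : Subgroup G}
    (hn : (Nat.card (U.map (QuotientGroup.mk' V)) : k) ≠ 0) {X : Type*} [MulAction G X] [Finite X]
    (hX : TrivOn V X) (ρQ : Representation k G Q) [FiniteDimensional k Q]
    (hQ : ∀ v ∈ V, ρQ v = 1) :
    finrank k (homInv ρQ (permRep k G X) U) = finrank k (eqFun U X ρQ) := by
  classical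
  have := Fintype.ofFinite X
  set σ : Representation k (U.map (QuotientGroup.mk' V)) (X → Q) :=
    (quotRep V (funRep X ρQ) (funRep_triv hX hQ)).comp (U.map (QuotientGroup.mk' V)).subtype
    with hσ
  have h1 := finrank_invariants_dual hn σ
  have e1 : σ.invariants = eqFun U X ρQ := by
    ext h
    constructor
    · intro hh u hu x
      have h2 := congrFun (hh ⟨(u : G ⧸ V), u, hu, rfl⟩) (u • x)
      have h3 : ρQ u (h (u⁻¹ • u • x)) = h (u • x) := h2
      rw [inv_smul_smul] at h3
      exact h3.symm
    · rintro hh ⟨_, u, hu, rfl⟩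
      funext x
      show ρQ u (h (u⁻¹ • x)) = h x
      rw [← hh u hu, smul_inv_smul]
  have e2 : σ.dual.invariants.map (dualFun k Q X).toLinearMap = homInv ρQ (permRep k G X) U := by
    ext θ
    constructor
    · rintro ⟨φ, hφ, rfl⟩ u hu q
      funext x
      have h2 := LinearMap.congr_fun (hφ ⟨(u : G ⧸ V), u, hu, rfl⟩) (Pi.single x (ρQ u q))
      have h3 : φ (funRep X ρQ u⁻¹ (Pi.single x (ρQ u q))) = φ (Pi.single x (ρQ u q)) := h2
      have h4 : funRep X ρQ u⁻¹ (Pi.single x (ρQ u q)) = Pi.single (u⁻¹ • x) q := by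
        funext y
        rw [funRep_apply, inv_inv]
        by_cases hy : y = u⁻¹ • x
        · subst hy
          rw [smul_inv_smul, Pi.single_eq_same, Pi.single_eq_same, ← Module.End.mul_apply,
            ← map_mul, inv_mul_cancel, map_one]
          rfl
        · rw [Pi.single_eq_of_ne hy, Pi.single_eq_of_ne, map_zero]
          intro h
          apply hy
          rw [← h, inv_smul_smul]
      rw [h4] at h3
      exact h3.symm
    · intro hθ
      refine ⟨(dualFun k Q X).symm θ, ?_, (dualFun k Q X).apply_symm_apply θ⟩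
      rintro ⟨_, u, hu, rfl⟩
      apply LinearMap.ext
      intro h
      show ∑ x, θ (ρQ u⁻¹ (h (u⁻¹⁻¹ • x))) x = ∑ x, θ (h x) x
      refine Fintype.sum_equiv (MulAction.toPerm u) _ _ fun x => ?_
      rw [inv_inv, hθ u⁻¹ (U.inv_mem hu)]
      show θ (h (u • x)) (u⁻¹⁻¹ • x) = θ (h (u • x)) (u • x)
      rw [inv_inv]
  rw [← e1, ← h1, ← e2, LinearEquiv.finrank_map_eq]

end EqFun

section Orbits

variable {k : Type*} [Field k] {G : Type*} [Group G]
variable {Q : Type*} [AddCommGroup Q] [Module k Q] (ρQ : Representation k G Q)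
variable {V : Subgroup G} [V.Normal] (U : Subgroup G)
variable {X : Type*} [MulAction G X] {J : Type*} {x : J → X}

/-- the map from equivariant functions on `X` to functions on `G ⧸ U`. -/
noncomputable def orbMap (x : J → X) : eqFun U X ρQ →ₗ[k] (J → (G ⧸ U) → Q) where
  toFun h j y := ρQ y.out (h.1 (y.out⁻¹ • x j))
  map_add' h h' := by
    funext j y
    exact map_add _ _ _
  map_smul' r h := by
    funext j y
    exact map_smul _ _ _

lemma orbMap_mk (h : eqFun U X ρQ) (j : J) (g : G) :
    orbMap ρQ U x h j (g : G ⧸ U) = ρQ g (h.1 (g⁻¹ • x j)) := by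
  show ρQ (g : G ⧸ U).out (h.1 ((g : G ⧸ U).out⁻¹ • x j)) = ρQ g (h.1 (g⁻¹ • x j))
  obtain ⟨u, hu⟩ : ∃ u : U, (g : G ⧸ U).out = g * u :=
    QuotientGroup.mk_out_eq_mul U g
  rw [hu, mul_inv_rev, mul_smul, h.2 _ (U.inv_mem u.2), ← Module.End.mul_apply, ← map_mul,
    mul_assoc, mul_inv_cancel, mul_one]

variable (hx : OrbitReps G x) (P : J → Subgroup G)
  (hP : ∀ j, MulAction.stabilizer G (x j) = P j ⊔ V) (hVU : V ≤ U) (hQ : ∀ v ∈ V, ρQ v = 1)

include hP in
omit [V.Normal] in
lemma orbMap_mem (h : eqFun U X ρQ) (j : J) : orbMap ρQ U x h j ∈ eqFun (P j) (G ⧸ U) ρQ := by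
  intro d hd y
  induction y using QuotientGroup.induction_on with
  | H g =>
    rw [MulAction.Quotient.smul_coe, smul_eq_mul, orbMap_mk, orbMap_mk, mul_inv_rev, mul_smul]
    have h1 : d⁻¹ • x j = x j := by
      have : d ∈ MulAction.stabilizer G (x j) := by
        rw [hP]
        exact Subgroup.mem_sup_left hd
      exact (MulAction.stabilizer G (x j)).inv_mem this
    rw [h1, map_mul]
    rfl

include hx in
omit [V.Normal] in
lemma orbMap_injective : Function.Injective (orbMap ρQ U x) := by
  refine (injective_iff_map_eq_zero _).2 fun h hh => ?_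
  apply Subtype.ext
  funext y
  obtain ⟨j, g, rfl⟩ := hx.surj y
  have h1 := congrFun (congrFun hh j) ((g⁻¹ : G) : G ⧸ U)
  rw [orbMap_mk, inv_inv] at h1
  have h2 := congrArg (ρQ g) h1
  rw [← Module.End.mul_apply, ← map_mul, mul_inv_cancel, map_one] at h2
  have h3 : h.1 (g • x j) = ρQ g 0 := h2
  rw [h3, map_zero]
  rfl

include hx hP hVU hQ in
lemma exists_orbMap (H : ∀ j, eqFun (P j) (G ⧸ U) ρQ) :
    ∃ h : eqFun U X ρQ, orbMap ρQ U x h = fun j => (H j).1 := by
  choose j g hg using hx.surj
  -- `h y = g_y (H_j (g_y⁻¹ U))`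
  have key : ∀ (i : J) (a : G) (y : X), a • x i = y →
      ρQ (g y) ((H (j y)).1 (((g y)⁻¹ : G) : G ⧸ U)) = ρQ a ((H i).1 ((a⁻¹ : G) : G ⧸ U)) := by
    intro i a y hay
    have hij : j y = i := by
      refine hx.inj _ _ (a⁻¹ * g y) ?_
      rw [mul_smul, hg, ← hay, inv_smul_smul]
    subst hij
    have h1 : (g y)⁻¹ * a ∈ MulAction.stabilizer G (x (j y)) := by
      rw [MulAction.mem_stabilizer_iff, mul_smul, hay, inv_smul_eq_iff, hg]
    rw [hP, ← SetLike.mem_coe, Subgroup.mul_normal, Set.mem_mul] at h1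
    obtain ⟨d, hd, v, hv, hdv⟩ := h1
    have h2 : a = g y * d * v := by rw [mul_assoc, hdv, mul_inv_cancel_left]
    have h3 : a⁻¹ = v⁻¹ * (d⁻¹ * (g y)⁻¹) := by rw [h2]; group
    have hv' : v ∈ V := hv
    have h4 : ((a⁻¹ : G) : G ⧸ U) = d⁻¹ • (((g y)⁻¹ : G) : G ⧸ U) := by
      rw [MulAction.Quotient.smul_coe, smul_eq_mul, h3]
      have h5 := trivOn_quot (V := V) hVU v⁻¹ (V.inv_mem hv') ((d⁻¹ * (g y)⁻¹ : G) : G ⧸ U)
      rw [MulAction.Quotient.smul_coe, smul_eq_mul] at h5
      exact h5
    have hd' : d ∈ P (j y) := hd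
    rw [h4, (H (j y)).2 _ ((P (j y)).inv_mem hd'), h2, ← Module.End.mul_apply (ρQ (g y * d * v)),
      ← map_mul]
    have h6 : g y * d * v * d⁻¹ = g y * (d * v * d⁻¹) := by group
    rw [h6, map_mul, hQ _ (Subgroup.Normal.conj_mem inferInstance v hv' d), mul_one]
  refine ⟨⟨fun y => ρQ (g y) ((H (j y)).1 (((g y)⁻¹ : G) : G ⧸ U)), fun u hu y => ?_⟩, ?_⟩
  · refine (key (j y) (u * g y) (u • y) (by rw [mul_smul, hg])).trans ?_
    have h7 : (((u * g y)⁻¹ : G) : G ⧸ U) = (((g y)⁻¹ : G) : G ⧸ U) := by
      rw [QuotientGroup.eq, inv_inv, mul_inv_cancel_right]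
      exact hu
    rw [map_mul, Module.End.mul_apply, h7]
  · funext i y
    induction y using QuotientGroup.induction_on with
    | H a =>
      rw [orbMap_mk]
      have h1 := key i a⁻¹ (a⁻¹ • x i) rfl
      show ρQ a (ρQ _ _) = _
      rw [h1, ← Module.End.mul_apply, ← map_mul, mul_inv_cancel, map_one, inv_inv]
      rfl

include hx hP hVU hQ in
/-- **Mackey for equivariant functions.** -/
theorem finrank_eqFun [Fintype J] [Finite (G ⧸ U)] [FiniteDimensional k Q] :
    finrank k (eqFun U X ρQ) = ∑ j, finrank k (eqFun (P j) (G ⧸ U) ρQ) := by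
  let F : eqFun U X ρQ →ₗ[k] (∀ j, eqFun (P j) (G ⧸ U) ρQ) :=
    { toFun := fun h j => ⟨orbMap ρQ U x h j, orbMap_mem ρQ U P hP h j⟩
      map_add' := fun h h' => by
        funext j
        apply Subtype.ext
        exact congrFun (map_add (orbMap ρQ U x) h h') j
      map_smul' := fun r h => by
        funext j
        apply Subtype.ext
        exact congrFun (map_smul (orbMap ρQ U x) r h) j }
  have hF : Function.Bijective F := by
    constructor
    · intro h h' e
      apply orbMap_injective ρQ U hx
      funext j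
      exact congrArg Subtype.val (congrFun e j)
    · intro H
      obtain ⟨h, hh⟩ := exists_orbMap ρQ U hx P hP hVU hQ H
      refine ⟨h, ?_⟩
      funext j
      apply Subtype.ext
      exact congrFun hh j
  rw [(LinearEquiv.ofBijective F hF).finrank_eq, finrank_pi_fintype]

end Orbits

section Local

variable {k : Type*} [Field k] {G : Type*} [Group G]
variable {M : Type*} [AddCommGroup M] [Module k M] (ρ : Representation k G M)
variable (χ : G →* kˣ) (P : Subgroup G)
variable (X : Type*) [MulAction G X] [Fintype X]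

/-- `Hom_P(Fun(X, M), μ)` as a submodule of the dual. -/
def homP {M : Type*} [AddCommGroup M] [Module k M] (ρ : Representation k G M) :
    Submodule k (Module.Dual k M) where
  carrier := {f | ∀ d ∈ P, ∀ m, f (ρ d m) = (χ d : k) * f m}
  add_mem' {f f'} hf hf' g hg m := by
    simp only [LinearMap.add_apply, hf g hg m, hf' g hg m, mul_add]
  zero_mem' g _ m := by simp
  smul_mem' c f hf g hg m := by
    simp only [LinearMap.smul_apply, hf g hg m, smul_eq_mul]; ring

/-- `Hom_P(Fun(X, M), μ)` is the space of `P`-equivariant functions `X → Hom(M, μ)`. -/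
theorem finrank_homP_funRep : finrank k (homP χ P (funRep X ρ)) =
    finrank k (eqFun P X (Representation.linHom ρ (chiRep χ))) := by
  classical
  have e : (eqFun P X (Representation.linHom ρ (chiRep χ))).map
      (LinearMap.lsum k (fun _ : X => M) k).toLinearMap = homP χ P (funRep X ρ) := by
    ext φ
    constructor
    · rintro ⟨H, hH, rfl⟩ d hd f
      show (LinearMap.lsum k (fun _ : X => M) k H) _ = _ * (LinearMap.lsum k (fun _ : X => M) k H) f
      rw [LinearMap.lsum_apply, LinearMap.sum_apply, LinearMap.sum_apply, Finset.mul_sum]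
      refine (Fintype.sum_equiv (MulAction.toPerm d) _ _ fun x => ?_).symm
      show (χ d : k) * H x (f x) = H (d • x) (ρ d (f (d⁻¹ • d • x)))
      rw [inv_smul_smul, hH d hd]
      show _ = (χ d : k) * H x (ρ d⁻¹ (ρ d (f x)))
      rw [← Module.End.mul_apply, ← map_mul, inv_mul_cancel, map_one]
      rfl
    · intro hφ
      refine ⟨(LinearMap.lsum k (fun _ : X => M) k).symm φ, ?_,
        (LinearMap.lsum k (fun _ : X => M) k).apply_symm_apply φ⟩
      intro d hd x
      apply LinearMap.ext
      intro m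
      show φ (Pi.single (d • x) m) = (χ d : k) * φ (Pi.single x (ρ d⁻¹ m))
      rw [← hφ d hd]
      congr 1
      funext y
      rw [funRep_apply]
      by_cases hy : y = d • x
      · subst hy
        rw [inv_smul_smul, Pi.single_eq_same, Pi.single_eq_same, ← Module.End.mul_apply,
          ← map_mul, mul_inv_cancel, map_one]
        rfl
      · rw [Pi.single_eq_of_ne hy, Pi.single_eq_of_ne, map_zero]
        intro h
        apply hy
        rw [← h, smul_inv_smul]
  rw [← e, LinearEquiv.finrank_map_eq]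

/-- the real place : `dim Hom_{⟨c⟩}(N, μ) = dim N - dim N^c` for `χ c = -1`, `c² = 1`. -/
theorem finrank_homP_zpowers [FiniteDimensional k M] (h2 : (2 : k) ≠ 0) (c : G) (hc : c * c = 1)
    (hχ : (χ c : k) = -1) :
    (finrank k (homP χ (Subgroup.zpowers c) ρ) : ℤ) =
      finrank k M - finrank k (LinearMap.ker (ρ c - 1)) := by
  have hcc : ∀ m, ρ c (ρ c m) = m := fun m => by
    rw [← Module.End.mul_apply, ← map_mul, hc, map_one]; rfl
  have e1 : homP χ (Subgroup.zpowers c) ρ = LinearMap.ker (ρ c + 1).dualMap := by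
    ext f
    rw [LinearMap.mem_ker]
    constructor
    · intro hf
      apply LinearMap.ext
      intro m
      rw [LinearMap.dualMap_apply, LinearMap.add_apply, map_add,
        hf c (Subgroup.mem_zpowers c), hχ]
      simp
    · intro hf
      have h1 : ∀ m, f (ρ c m) = - f m := by
        intro m
        have h3 := LinearMap.congr_fun hf m
        rw [LinearMap.dualMap_apply, LinearMap.add_apply, map_add] at h3
        exact eq_neg_of_add_eq_zero_left h3
      intro d hd m
      have h4 : d = 1 ∨ d = c := by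
        obtain ⟨n, rfl⟩ := Subgroup.mem_zpowers_iff.1 hd
        have hc2 : c ^ (2 : ℤ) = 1 := by rw [zpow_two, hc]
        rcases Int.even_or_odd' n with ⟨t, ht | ht⟩
        · left
          rw [ht, zpow_mul, hc2, one_zpow]
        · right
          rw [ht, zpow_add, zpow_mul, hc2, one_zpow, one_mul, zpow_one]
      rcases h4 with rfl | rfl
      · simp
      · rw [h1, hχ]
        ring
  have e2 : LinearMap.range (ρ c + 1) = LinearMap.ker (ρ c - 1) := by
    ext m
    rw [LinearMap.mem_ker, LinearMap.sub_apply, sub_eq_zero]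
    constructor
    · rintro ⟨n, rfl⟩
      rw [LinearMap.add_apply, map_add, hcc]
      simp [add_comm]
    · intro hm
      have hm' : ρ c m = m := hm
      refine ⟨(2 : k)⁻¹ • m, ?_⟩
      rw [map_smul, LinearMap.add_apply, hm']
      show (2 : k)⁻¹ • (m + m) = m
      rw [← two_smul k m, smul_smul, inv_mul_cancel₀ h2, one_smul]
  rw [e1, LinearMap.ker_dualMap_eq_dualAnnihilator_range, e2]
  have := Subspace.finrank_add_finrank_dualAnnihilator_eq (LinearMap.ker (ρ c - 1))
  rw [← this]
  push_cast
  ring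

end Local

end Fermat.Agent.GW
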