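import Fermat.Agent.GW.KumEquiv
import Fermat.Agent.GW.EquivUnits
import Fermat.Agent.GW.Conj
import Fermat.Agent.PT.GlobalChi

/-!
# The identity (★) of characteristic polynomials
-/

set_option autoImplicit false
set_option linter.unusedSectionVars false

noncomputable section

namespace Fermat.Agent.GW.StarId

open scoped NumberField
open Polynomial Function Fermat.Agent.PT Fermat.Agent.CFT Fermat.Agent.CFT.SKummer
  Fermat.Agent.CFT.Bridge Fermat.Agent.Frob Fermat.Agent.Minkowski IsDedekindDomain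
  ExtCitation NumberField Fermat.Agent.GW.Fg Fermat.Agent.GW.KE Fermat.Agent.GW.EU
  Fermat.Agent.PT.Frozen
open Fermat.Agent.CFT.SKummer.Formal.Setup (invD relD pairsToD)

section Models

/-! ### Standard models of `X/pX` and `X[p]` -/

variable (p : ℕ) (X : Type*) [AddCommGroup X]

/-- `X / p X` -/
def QP : Type _ := X ⧸ (nsmulAddMonoidHom p : X →+ X).range

instance : AddCommGroup (QP p X) :=
  inferInstanceAs (AddCommGroup (X ⧸ (nsmulAddMonoidHom p : X →+ X).range))

/-- `X → X / p X` -/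
def qmk : X →+ QP p X := QuotientAddGroup.mk' (nsmulAddMonoidHom p : X →+ X).range

/-- `X[p]` -/
def TP : Type _ := ↥(nsmulAddMonoidHom p : X →+ X).ker

instance : AddCommGroup (TP p X) :=
  inferInstanceAs (AddCommGroup ↥(nsmulAddMonoidHom p : X →+ X).ker)

/-- `X[p] → X` -/
def tsub : TP p X →+ X := (nsmulAddMonoidHom p : X →+ X).ker.subtype

lemma modP_mk : ModP p (qmk p X) where
  surj := QuotientAddGroup.mk'_surjective _
  ker := fun x => by
    change QuotientAddGroup.mk' (nsmulAddMonoidHom p : X →+ X).range x = 0 ↔ _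
    rw [QuotientAddGroup.mk'_apply, QuotientAddGroup.eq_zero_iff]
    constructor
    · rintro ⟨y, rfl⟩
      exact ⟨y, rfl⟩
    · rintro ⟨y, rfl⟩
      exact ⟨y, rfl⟩

lemma torP_subtype : TorP p (tsub p X) where
  inj := Subtype.val_injective
  range := fun x => by
    constructor
    · intro h
      exact ⟨⟨x, h⟩, rfl⟩
    · rintro ⟨v, rfl⟩
      exact v.2

instance modQP : Module (ZMod p) (QP p X) := AddCommGroup.zmodModule (by
  intro x
  obtain ⟨x, rfl⟩ := (modP_mk p X).surj x
  rw [← map_nsmul, (modP_mk p X).ker]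
  exact ⟨x, rfl⟩)

instance modTP : Module (ZMod p) (TP p X) := AddCommGroup.zmodModule (by
  intro x
  exact Subtype.ext x.2)

instance finQP [Module.Finite ℤ X] : Module.Finite (ZMod p) (QP p X) := by
  haveI : Module.Finite ℤ (QP p X) :=
    Module.Finite.of_surjective (qmk p X).toIntLinearMap (modP_mk p X).surj
  exact Module.Finite.of_restrictScalars_finite ℤ (ZMod p) (QP p X)

instance finTP [Finite X] : Module.Finite (ZMod p) (TP p X) := by
  haveI : Finite (TP p X) := Finite.of_injective (tsub p X) (torP_subtype p X).inj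
  haveI : Module.Finite ℤ (TP p X) := Module.Finite.of_finite
  exact Module.Finite.of_restrictScalars_finite ℤ (ZMod p) (TP p X)

variable {X}

/-- action on `X/pX` -/
def qmap' (φ : X →+ X) : QP p X →+ QP p X :=
  QuotientAddGroup.map (nsmulAddMonoidHom p : X →+ X).range (nsmulAddMonoidHom p : X →+ X).range
    φ (by
    rintro _ ⟨y, rfl⟩
    exact ⟨φ y, (map_nsmul φ p y).symm⟩)

/-- action on `X/pX` -/
def qmap (φ : X →+ X) : QP p X →ₗ[ZMod p] QP p X := (qmap' p φ).toZModLinearMap p

lemma qmap_mk (φ : X →+ X) (x : X) : qmap p φ (qmk p X x) = qmk p X (φ x) := rfl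

/-- action on `X[p]` -/
def tmap' (φ : X →+ X) : TP p X →+ TP p X :=
  (φ.comp (nsmulAddMonoidHom p : X →+ X).ker.subtype).codRestrict
    (nsmulAddMonoidHom p : X →+ X).ker (fun x => by
    have h : p • x.1 = 0 := x.2
    change p • φ x.1 = 0
    rw [← map_nsmul, h, map_zero])

/-- action on `X[p]` -/
def tmap (φ : X →+ X) : TP p X →ₗ[ZMod p] TP p X := (tmap' p φ).toZModLinearMap p

lemma tsub_tmap (φ : X →+ X) (x : TP p X) : tsub p X (tmap p φ x) = φ (tsub p X x) := rfl

end Models

section Abstract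

variable {p : ℕ} [hp : Fact p.Prime]
variable {G : Type*} [Group G] {𝓛 𝓛S : LevelSys G}
variable {E : Type*} [AddCommGroup E] {ρ : Representation ℤ G E}
variable {W : Type*} [AddCommGroup W] {ω : Representation ℤ G W}
variable {D : Type*} [AddCommGroup D] {δ : Representation ℤ G D}
variable {M : Type*} [AddCommGroup M] [Module (ZMod p) M] {τ : Representation (ZMod p) G M}
variable {j : W →ₗ[ℤ] E} {dv : W →ₗ[ℤ] D}
variable {ι : M →+ W} {u : G →* G} {gW : W →+ W} {gD : D →+ D} {gM : M →ₗ[ZMod p] M}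
variable (H : Formal.Setup p 𝓛 𝓛S ρ ω δ j dv) (hC : Coef p ω τ ι)
variable (tw : Tw 𝓛S ω δ dv ι u gW gD gM)
variable [Finite (Cl H.hde)] {A : Type*} [AddCommGroup A] [Module.Finite ℤ A]
  (e : A ≃+ ↥(dA H.hde).ker) (φ : A →+ A) (he : ∀ x, e (φ x) = tw.gE H.hde (e x))

/-- `E → A / p` -/
def qE : ↥(dA H.hde).ker →+ QP p A := (qmk p A).comp (e.symm : ↥(dA H.hde).ker →+ A)

lemma qE_apply (x : A) : qE (p := p) H e (e x) = qmk p A x :=
  congrArg (qmk p A) (e.symm_apply_apply x)

lemma modP_qE : ModP p (qE (p := p) H e) where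
  surj := (modP_mk p A).surj.comp e.symm.surjective
  ker := fun x => by
    obtain ⟨x, rfl⟩ := e.surjective x
    rw [qE_apply, (modP_mk p _).ker]
    constructor
    · rintro ⟨y, rfl⟩
      exact ⟨e y, map_nsmul _ _ _⟩
    · rintro ⟨y, hy⟩
      refine ⟨e.symm y, e.injective ?_⟩
      rw [hy, map_nsmul, AddEquiv.apply_symm_apply]

include H hC e in
theorem finH_abs : FiniteDimensional (ZMod p) (PT.H1 𝓛S τ) :=
  finite_H1 H hC (modP_qE H e) (torP_subtype p (Cl H.hde))

include hC in
theorem finK_abs : FiniteDimensional (ZMod p) ↥(LinearMap.ker (Formal.infl2 H.hle τ)) := by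
  haveI : Module.Finite ℤ (Cl H.hde) := Module.Finite.of_finite
  exact finite_ker H hC (modP_mk p (Cl H.hde))

include he in
theorem charpoly_abs [FiniteDimensional (ZMod p) (PT.H1 𝓛S τ)]
    [FiniteDimensional (ZMod p) ↥(LinearMap.ker (Formal.infl2 H.hle τ))]
    {f : ↥(LinearMap.ker (Formal.infl2 H.hle τ)) →ₗ[ZMod p] ↥(LinearMap.ker (Formal.infl2 H.hle τ))}
    (hf : ∀ x, (f x : PT.H2 𝓛S τ) = H2map u tw.hu gM (tw.hM hC) x) :
    (H1map (ρ := τ) (σ := τ) u tw.hu gM (tw.hM hC)).charpoly =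
      (qmap p φ).charpoly * f.charpoly := by
  haveI : Module.Finite ℤ (Cl H.hde) := Module.Finite.of_finite
  rw [charpoly_H1 H hC (modP_qE H e) (torP_subtype p (Cl H.hde)) tw (f₁ := qmap p φ)
      (fun x => by
        obtain ⟨x, rfl⟩ := e.surjective x
        rw [qE_apply, ← he, qE_apply, qmap_mk])
      (f₃ := tmap p (tw.gCl H.hde)) (fun x => tsub_tmap p _ x),
    charpoly_ker H hC (modP_mk p (Cl H.hde)) tw (f₄ := qmap p (tw.gCl H.hde))
      (fun x => qmap_mk p _ x) hf,
    charpoly_finite_modP (tw.gCl H.hde).toIntLinearMap (qmk p (Cl H.hde)) (modP_mk p _)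
      (qmap p (tw.gCl H.hde)) (fun x => qmap_mk p _ x) (tsub p (Cl H.hde)) (torP_subtype p _)
      (tmap p (tw.gCl H.hde)) (fun x => tsub_tmap p _ x)]

end Abstract

section Concrete

variable {p : ℕ} [hp : Fact p.Prime] {S : Finset Nat.Primes}
variable {F : IntermediateField ℚ Qbar} [NumberField F] [F.fixingSubgroup.Normal]

/-- the cyclotomic representation -/
abbrev muRep (p : ℕ) [Fact p.Prime] : Representation (ZMod p) GQ (ZMod p) := chiRep (cycloChar p)

/-- the setup for `F` -/
lemma stp (hF : F ≤ Omega S) (hpS : pPrime p ∈ S) :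
    Formal.Setup p ((galLevels ℚ Qbar).restrict F.fixingSubgroup)
      ((sLevels S).restrict F.fixingSubgroup) (CFT.Kum.unitsRep F.fixingSubgroup Qbar)
      (omU S F.fixingSubgroup) (dvU S F.fixingSubgroup) (unitsOm S).subtype (dv S) :=
  setup (p := pPrime p) hF hpS

variable (hF : F ≤ Omega S) (hpS : pPrime p ∈ S) {ζ : F} (hζ : IsPrimitiveRoot ζ p)

lemma iota_mu (g : GQ) (m : ZMod p) : iota hF hζ (muRep p g m) = omRep S g (iota hF hζ m) := by
  apply Subtype.ext
  apply uval_injective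
  rw [uval_omRep]
  have e : ∀ i : ZMod p, uval ((iota hF hζ i : unitsOm S) : Additive Qbarˣ) = (ζ : Qbar) ^ i.val := by
    intro i
    change ((((kumOf F hζ).ζ ^ i.val : Qbarˣ)) : Qbar) = _
    rw [Units.val_pow_eq_pow_val]
    rfl
  have hζ' : IsPrimitiveRoot (ζ : Qbar) p := hζ.map_of_injective (f := F.val) F.val.injective
  rw [e, e, map_pow, cycloChar_spec g hζ'.pow_eq_one, ← pow_mul]
  rw [chiRep_apply, ZMod.val_mul]
  conv_rhs => rw [← Nat.div_add_mod ((cycloChar p g : ZMod p).val * m.val) p, pow_add, pow_mul,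
    hζ'.pow_eq_one, one_pow, one_mul]

lemma coef : Coef p (omU S F.fixingSubgroup) ((muRep p).comp F.fixingSubgroup.subtype)
    (iota hF hζ) where
  inj := iota_injective hF hζ
  tors := smul_iota hF hζ
  surj := fun _ hw => exists_iota hF hζ hw
  eq := fun g m => iota_mu hF hζ (g : GQ) m

/-- the twist by `g`. -/
lemma twist (g : GQ) : Tw ((sLevels S).restrict F.fixingSubgroup) (omU S F.fixingSubgroup)
    (dvU S F.fixingSubgroup) (dv S) (iota hF hζ) (cj F.fixingSubgroup g)
    ((omRep S g : unitsOm S →ₗ[ℤ] unitsOm S) : unitsOm S →+ unitsOm S)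
    ((dvRep S g : Dv S →ₗ[ℤ] Dv S) : Dv S →+ Dv S) (muRep p g) where
  hu := cj_compat F.fixingSubgroup g
  hW := fun v w => by
    change omRep S g (omRep S ((cj F.fixingSubgroup g v : F.fixingSubgroup) : GQ) w) =
      omRep S (v : GQ) (omRep S g w)
    rw [← Module.End.mul_apply, ← map_mul, ← Module.End.mul_apply, ← map_mul, coe_cj]
    congr 2
    group
  hD := fun v d => by
    change dvRep S g (dvRep S ((cj F.fixingSubgroup g v : F.fixingSubgroup) : GQ) d) =
      dvRep S (v : GQ) (dvRep S g d)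
    rw [← Module.End.mul_apply, ← map_mul, ← Module.End.mul_apply, ← map_mul, coe_cj]
    congr 2
    group
  hdv := fun w => dv_equivar g w
  hι := fun m => iota_mu hF hζ g m

/-- the class group of the `S`-Kummer setup -/
abbrev ClS (hF : F ≤ Omega S) (hpS : pPrime p ∈ S) : Type _ := Cl (stp hF hpS).hde

/-- divisors of `F` outside `S` are the invariant divisors. -/
def ofDiv' : ({v // v ∉ SK S F} →₀ ℤ) →+ ↥(invD (dvU S F.fixingSubgroup)) :=
  (ofDiv hF).codRestrict _ (fun E g => ofDiv_fixed hF E g)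

lemma ofDiv'_surjective : Surjective (ofDiv' hF) := by
  rintro ⟨d, hd⟩
  obtain ⟨E, hE⟩ := exists_ofDiv hF hd
  exact ⟨E, Subtype.ext hE⟩

lemma comap_dA : AddSubgroup.toSubgroup ((dA (stp hF hpS).hde).range.comap (ofDiv' hF)) =
    (SUnits.classOut (SK S F)).ker := by
  ext E
  rw [MonoidHom.mem_ker, SUnits.classOut_eq_one_iff]
  constructor
  · rintro ⟨⟨w, hw⟩, hE⟩
    obtain ⟨x, rfl⟩ := exists_ofK hF hw
    refine ⟨x.toMul, ?_⟩
    have h1 : dv S (ofK hF x) = ofDiv hF E.toAdd := congrArg Subtype.val hE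
    rw [dv_ofK] at h1
    exact ofDiv_injective hF h1
  · rintro ⟨x, rfl⟩
    refine ⟨⟨ofK hF (Additive.ofMul x), ofK_fixed hF _⟩, ?_⟩
    apply Subtype.ext
    exact dv_ofK hF (Additive.ofMul x)

instance finite_ClS : Finite (ClS hF hpS) := by
  haveI : Finite (SUnits.classOut (SK S F)).range := inferInstance
  have h1 : (SUnits.classOut (SK S F)).ker.index ≠ 0 := by
    rw [Subgroup.index_ker]
    exact Nat.card_pos.ne'
  rw [← comap_dA hF hpS, AddSubgroup.index_toSubgroup,
    AddSubgroup.index_comap_of_surjective _ (ofDiv'_surjective hF)] at h1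
  exact Nat.finite_of_card_ne_zero h1

lemma dv_ofK_eq_zero_iff (x : Fˣ) :
    dv S (ofK hF (Additive.ofMul x)) = 0 ↔ x ∈ Global.E (SKf S F) := by
  rw [dv_ofK, Global.mem_E]
  constructor
  · intro h v hv
    have h1 : (SUnits.divOut (SK S F) x).toAdd = 0 := ofDiv_injective hF (h.trans (map_zero _).symm)
    have hv' : v ∉ SK S F := fun h => hv (mem_SKf.2 h)
    exact DFunLike.congr_fun h1 (⟨v, hv'⟩ : {v // v ∉ SK S F})
  · intro h
    have h1 : (SUnits.divOut (SK S F) x).toAdd = 0 := by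
      ext ⟨v, hv⟩
      exact h v (fun h' => hv (mem_SKf.1 h'))
    rw [toMul_ofMul, h1, map_zero]

/-- `S`-units of `F` as units of the setup. -/
def eHom : Additive (Global.E (SKf S F)) →+ ↥(dA (stp hF hpS).hde).ker where
  toFun x := ⟨⟨ofK hF (Additive.ofMul ((x.toMul : Global.E (SKf S F)) : Fˣ)), ofK_fixed hF _⟩,
    Subtype.ext ((dv_ofK_eq_zero_iff hF _).mpr x.toMul.2)⟩
  map_zero' := Subtype.ext (Subtype.ext (map_zero (ofK hF)))
  map_add' _ _ := Subtype.ext (Subtype.ext (map_add (ofK hF) _ _))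

lemma coe_eHom (x : Additive (Global.E (SKf S F))) :
    ((eHom hF hpS x).1 : unitsOm S) = ofK hF (Additive.ofMul ((x.toMul : Global.E (SKf S F)) : Fˣ)) :=
  rfl

/-- `S`-units of `F` as units of the setup. -/
def eE : Additive (Global.E (SKf S F)) ≃+ ↥(dA (stp hF hpS).hde).ker :=
  AddEquiv.ofBijective (eHom hF hpS) (by
    constructor
    · intro x y h
      have h1 : ofK hF (Additive.ofMul ((x.toMul : Global.E (SKf S F)) : Fˣ)) =
          ofK hF (Additive.ofMul ((y.toMul : Global.E (SKf S F)) : Fˣ)) :=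
        congrArg (fun t : ↥(dA (stp hF hpS).hde).ker => (t.1.1 : unitsOm S)) h
      exact Additive.toMul.injective (Subtype.ext (Additive.ofMul.injective (ofK_injective hF h1)))
    · intro y
      obtain ⟨x, hx⟩ := exists_ofK hF y.1.2
      have h1 : dv S y.1.1 = 0 := congrArg Subtype.val (show dA (stp hF hpS).hde y.1 = 0 from y.2)
      rw [← hx] at h1
      exact ⟨Additive.ofMul ⟨x.toMul, (dv_ofK_eq_zero_iff hF x.toMul).mp h1⟩,
        Subtype.ext (Subtype.ext hx)⟩)

lemma coe_eE (x : Additive (Global.E (SKf S F))) :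
    ((eE hF hpS x).1 : unitsOm S) = ofK hF (Additive.ofMul ((x.toMul : Global.E (SKf S F)) : Fˣ)) :=
  rfl

variable (g : GQ) (σ : F ≃ₐ[ℚ] F) (hσ : ∀ x : F, ((σ x : F) : Qbar) = g x)
  (hS : ∀ w, conjPerm σ w ∈ SKf S F ↔ w ∈ SKf S F)

include hσ in
lemma omRep_ofK (x : Fˣ) : omRep S g (ofK hF (Additive.ofMul x)) =
    ofK hF (Additive.ofMul (Units.map (σ : F →* F) x)) := by
  apply Subtype.ext
  apply uval_injective
  rw [uval_omRep, uval_ofK, uval_ofK]
  exact (hσ x).symm

include hσ in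
lemma eE_sAct (x : Additive (Global.E (SKf S F))) :
    eE hF hpS (sAct (SKf S F) σ hS x) =
      (twist hF hζ g).gE (stp hF hpS).hde (eE hF hpS x) := by
  apply Subtype.ext
  apply Subtype.ext
  exact (omRep_ofK hF g σ hσ _).symm



/-- `μ_p` as torsion of the units of the setup. -/
def i2' : ZMod p →+ ↥(dA (stp hF hpS).hde).ker where
  toFun m := ⟨⟨iota hF hζ m, (omU_fixed_iff _).mpr (by
    have h1 : uval ((iota hF hζ m : unitsOm S) : Additive Qbarˣ) = ((ζ ^ m.val : F) : Qbar) := by
      change ((((kumOf F hζ).ζ ^ m.val : Qbarˣ)) : Qbar) = _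
      rw [Units.val_pow_eq_pow_val]
      rfl
    rw [h1]
    exact (ζ ^ m.val : F).2)⟩, Subtype.ext (dv_ι (stp hF hpS) (coef hF hζ) m)⟩
  map_zero' := Subtype.ext (Subtype.ext (map_zero (iota hF hζ)))
  map_add' x y := Subtype.ext (Subtype.ext (map_add (iota hF hζ) x y))

lemma coe_i2' (m : ZMod p) : ((i2' hF hpS hζ m).1 : unitsOm S) = iota hF hζ m := rfl

/-- `μ_p` as torsion of the `S`-units. -/
def i2 : ZMod p →+ Additive (Global.E (SKf S F)) :=
  ((eE hF hpS).symm : ↥(dA (stp hF hpS).hde).ker →+ _).comp (i2' hF hpS hζ)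

lemma eE_i2 (m : ZMod p) : eE hF hpS (i2 hF hpS hζ m) = i2' hF hpS hζ m :=
  (eE hF hpS).apply_symm_apply _

lemma torP_i2 : TorP p (i2 hF hpS hζ) where
  inj := by
    intro x y h
    have h1 : i2' hF hpS hζ x = i2' hF hpS hζ y := (eE hF hpS).symm.injective h
    have h2 : iota hF hζ x = iota hF hζ y :=
      congrArg (fun t : ↥(dA (stp hF hpS).hde).ker => (t.1.1 : unitsOm S)) h1
    exact iota_injective hF hζ h2
  range := fun x => by
    constructor
    · intro h
      have h1 : p • eE hF hpS x = 0 := by rw [← map_nsmul, h, map_zero]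
      have h2 : p • ((eE hF hpS x).1 : unitsOm S) = 0 :=
        congrArg (fun t : ↥(dA (stp hF hpS).hde).ker => (t.1.1 : unitsOm S)) h1
      obtain ⟨m, hm⟩ := exists_iota hF hζ h2
      refine ⟨m, (eE hF hpS).injective ?_⟩
      rw [eE_i2]
      exact Subtype.ext (Subtype.ext hm)
    · rintro ⟨m, rfl⟩
      apply (eE hF hpS).injective
      rw [map_nsmul, eE_i2, map_zero]
      exact Subtype.ext (Subtype.ext (smul_iota hF hζ m))

include hσ in
lemma i2_muRep (m : ZMod p) :
    i2 hF hpS hζ (muRep p g m) = sAct (SKf S F) σ hS (i2 hF hpS hζ m) := by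
  apply (eE hF hpS).injective
  rw [eE_i2, eE_sAct hF hpS hζ g σ hσ hS, eE_i2]
  exact Subtype.ext (Subtype.ext (iota_mu hF hζ g m))

instance finite_Edd : Module.Finite ℤ (Additive (Global.E (SKf S F))) :=
  SUnits.finite_sunits (SKf S F)

/-- the action on `S`-units as an additive map -/
def sA : Additive (Global.E (SKf S F)) →+ Additive (Global.E (SKf S F)) :=
  (sAct (SKf S F) σ hS).toAddMonoidHom

include hσ in
lemma eE_sA (x : Additive (Global.E (SKf S F))) :
    eE hF hpS (sA σ hS x) = (twist hF hζ g).gE (stp hF hpS).hde (eE hF hpS x) :=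
  eE_sAct hF hpS hζ g σ hσ hS x

include hσ hF hpS hζ in
lemma charpoly_f1 : (qmap p (sA σ hS)).charpoly * (X - C 1) =
    (muRep p g).charpoly * (permMap (ZMod p) (permS (SKf S F) σ hS)).charpoly *
      (permMap (ZMod p) (permInf σ)).charpoly :=
  charpoly_sunits_modP (SKf S F) σ hS (qmk p _) (modP_mk p _) (qmap p (sA σ hS))
    (fun x => qmap_mk p (sA σ hS) x)
    (i2 hF hpS hζ) (torP_i2 hF hpS hζ) (muRep p g) (fun m => i2_muRep hF hpS hζ g σ hσ hS m)

include hF hpS hζ in
theorem finH : FiniteDimensional (ZMod p)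
    (PT.H1 ((sLevels S).restrict F.fixingSubgroup) ((muRep p).comp F.fixingSubgroup.subtype)) :=
  haveI : Finite (Cl (stp hF hpS).hde) := finite_ClS hF hpS
  finH_abs (stp hF hpS) (coef hF hζ) (eE hF hpS)

include hF hpS hζ in
theorem finK (hle : ∀ W ∈ sLevels S, W ∈ galLevels ℚ Qbar) : FiniteDimensional (ZMod p)
    (LinearMap.ker (inflV hle F.fixingSubgroup ((muRep p).comp F.fixingSubgroup.subtype))) :=
  haveI : Finite (Cl (stp hF hpS).hde) := finite_ClS hF hpS
  finK_abs (stp hF hpS) (coef hF hζ)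

section Final

/-- restriction of cohomology to `F` with coefficients `μ_p` -/
abbrev muF (p : ℕ) [Fact p.Prime] (F : IntermediateField ℚ Qbar) :
    Representation (ZMod p) F.fixingSubgroup (ZMod p) := (muRep p).comp F.fixingSubgroup.subtype

variable (hle : ∀ W ∈ sLevels S, W ∈ galLevels ℚ Qbar)

/-- `conjK` as an endomorphism of the kernel of inflation -/
def conjK' : ↥(LinearMap.ker (Formal.infl2 (stp hF hpS).hle (muF p F))) →ₗ[ZMod p]
    ↥(LinearMap.ker (Formal.infl2 (stp hF hpS).hle (muF p F))) :=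
  conjK hle F.fixingSubgroup (muRep p) g

lemma conjK'_apply (x : ↥(LinearMap.ker (Formal.infl2 (stp hF hpS).hle (muF p F)))) :
    (conjK' hF hpS g hle x : PT.H2 ((sLevels S).restrict F.fixingSubgroup) (muF p F)) =
      H2map (cj F.fixingSubgroup g) (twist hF hζ g).hu (muRep p g)
        ((twist hF hζ g).hM (coef hF hζ)) x := rfl

variable [FiniteDimensional (ZMod p)
    (PT.H1 ((sLevels S).restrict F.fixingSubgroup) ((muRep p).comp F.fixingSubgroup.subtype))]

lemma charpoly_conj1 : (conj1 (sLevels S) F.fixingSubgroup (muRep p) g).charpoly =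
    LinearMap.charpoly (H1map (ρ := muF p F) (σ := muF p F) (cj F.fixingSubgroup g)
      (twist hF hζ g).hu (muRep p g) ((twist hF hζ g).hM (coef hF hζ))) := rfl

variable [FiniteDimensional (ZMod p)
    (LinearMap.ker (inflV hle F.fixingSubgroup ((muRep p).comp F.fixingSubgroup.subtype)))]

lemma charpoly_conjK [FiniteDimensional (ZMod p)
      ↥(LinearMap.ker (Formal.infl2 (stp hF hpS).hle (muF p F)))] :
    (conjK' hF hpS g hle).charpoly =
      (conjK hle F.fixingSubgroup (muRep p) g).charpoly := rfl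

include hσ hF hpS hζ in
lemma charpoly_conj : (conj1 (sLevels S) F.fixingSubgroup (muRep p) g).charpoly =
      (qmap p (sA σ hS)).charpoly * (conjK hle F.fixingSubgroup (muRep p) g).charpoly := by
  haveI : Finite (Cl (stp hF hpS).hde) := finite_ClS hF hpS
  haveI := finK_abs (stp hF hpS) (coef hF hζ)
  have h1 := charpoly_abs (stp hF hpS) (coef hF hζ) (twist hF hζ g) (eE hF hpS) (sA σ hS)
    (eE_sA hF hpS hζ g σ hσ hS) (conjK'_apply hF hpS hζ g hle)
  rw [charpoly_conj1 hF hζ g, h1, charpoly_conjK]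

include hσ hF hpS hζ in
/-- **The identity (★)**. -/
theorem star :
    (conj1 (sLevels S) F.fixingSubgroup (muRep p) g).charpoly * (X - C 1) =
      (muRep p g).charpoly * ((permMap (ZMod p) (permS (SKf S F) σ hS)).charpoly *
        ((permMap (ZMod p) (permInf σ)).charpoly *
          (conjK hle F.fixingSubgroup (muRep p) g).charpoly)) := by
  have h1 := charpoly_conj hF hpS hζ g σ hσ hS hle
  have h3 := charpoly_f1 hF hpS hζ g σ hσ hS
  rw [h1, mul_right_comm, h3]
  simp only [mul_assoc]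

end Final

end Concrete

end Fermat.Agent.GW.StarId
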