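import Fermat.Agent.GW.KumEquiv
import Fermat.Agent.GW.EquivUnits
import Fermat.Agent.GW.Concrete
import Fermat.Agent.CFT.SKummer.Count

/-!
# The characteristic polynomial identity for `H¹(G_{F,S}, μ_p)`
-/

set_option autoImplicit false
set_option linter.unusedSectionVars false

noncomputable section

namespace Fermat.Agent.GW.StarApp

open Function Fermat.Agent.GW.Fg

section Models

variable (p : ℕ) [hp : Fact p.Prime] (X : Type*) [AddCommGroup X]

/-- `X / p` -/
def QP : Type _ := X ⧸ (nsmulAddMonoidHom p : X →+ X).range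

instance : AddCommGroup (QP p X) :=
  inferInstanceAs (AddCommGroup (X ⧸ (nsmulAddMonoidHom p : X →+ X).range))

/-- the quotient map -/
def qP : X →+ QP p X := QuotientAddGroup.mk' _

lemma qP_surjective : Surjective (qP p X) := QuotientAddGroup.mk'_surjective _

lemma qP_eq_zero_iff (x : X) : qP p X x = 0 ↔ ∃ y, x = p • y := by
  refine (QuotientAddGroup.eq_zero_iff x).trans ?_
  exact ⟨fun ⟨y, hy⟩ => ⟨y, hy.symm⟩, fun ⟨y, hy⟩ => ⟨y, hy.symm⟩⟩

instance : Module (ZMod p) (QP p X) := AddCommGroup.zmodModule (fun x => by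
  obtain ⟨y, rfl⟩ := qP_surjective p X x
  rw [← map_nsmul, qP_eq_zero_iff]
  exact ⟨y, rfl⟩)

lemma qP_modP : ModP p (qP p X) := ⟨qP_surjective p X, qP_eq_zero_iff p X⟩

instance [Module.Finite ℤ X] : FiniteDimensional (ZMod p) (QP p X) := by
  have h1 : Module.Finite ℤ (QP p X) :=
    Module.Finite.of_surjective (qP p X).toIntLinearMap (qP_surjective p X)
  exact Module.Finite.of_restrictScalars_finite ℤ (ZMod p) (QP p X)

variable {X}

/-- the induced map -/
def mapQ₀ (f : X →+ X) : QP p X →+ QP p X :=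
  QuotientAddGroup.map (nsmulAddMonoidHom p : X →+ X).range (nsmulAddMonoidHom p : X →+ X).range f
    (by
      rintro _ ⟨x, rfl⟩
      exact ⟨f x, (map_nsmul f p x).symm⟩)

/-- the induced map -/
def mapQ (f : X →+ X) : QP p X →ₗ[ZMod p] QP p X := (mapQ₀ p f).toZModLinearMap p

lemma mapQ_qP (f : X →+ X) (x : X) : mapQ p f (qP p X x) = qP p X (f x) := rfl

variable (X)

/-- `X[p]` -/
def TP : Type _ := ↥(nsmulAddMonoidHom p : X →+ X).ker

instance : AddCommGroup (TP p X) :=
  inferInstanceAs (AddCommGroup ↥(nsmulAddMonoidHom p : X →+ X).ker)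

/-- the inclusion -/
def tP : TP p X →+ X := (nsmulAddMonoidHom p : X →+ X).ker.subtype

lemma tP_injective : Injective (tP p X) := Subtype.val_injective

lemma smul_tP (x : TP p X) : p • tP p X x = 0 := x.2

instance : Module (ZMod p) (TP p X) := AddCommGroup.zmodModule (fun x => by
  apply tP_injective p X
  rw [map_nsmul, map_zero]
  exact smul_tP p X x)

lemma tP_torP : TorP p (tP p X) := ⟨tP_injective p X, fun x =>
  ⟨fun h => ⟨⟨x, h⟩, rfl⟩, by rintro ⟨v, rfl⟩; exact smul_tP p X v⟩⟩

instance [Module.Finite ℤ X] : FiniteDimensional (ZMod p) (TP p X) := by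
  have h1 : Module.Finite ℤ (TP p X) :=
    Module.Finite.of_injective (tP p X).toIntLinearMap (tP_injective p X)
  exact Module.Finite.of_restrictScalars_finite ℤ (ZMod p) (TP p X)

variable {X}

/-- the induced map -/
def mapT₀ (f : X →+ X) : TP p X →+ TP p X :=
  (f.comp (tP p X)).codRestrict (nsmulAddMonoidHom p : X →+ X).ker (fun x => by
    change p • f (tP p X x) = 0
    rw [← map_nsmul, smul_tP, map_zero])

/-- the induced map -/
def mapT (f : X →+ X) : TP p X →ₗ[ZMod p] TP p X := (mapT₀ p f).toZModLinearMap p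

lemma tP_mapT (f : X →+ X) (x : TP p X) : tP p X (mapT p f x) = f (tP p X x) := rfl

variable {p} {Y V : Type*} [AddCommGroup Y] [AddCommGroup V]

omit hp in
lemma modP_comp (q : X →+ V) (hq : ModP p q) (e : Y ≃+ X) :
    ModP p (q.comp (e : Y →+ X)) := by
  constructor
  · exact hq.surj.comp e.surjective
  · intro y
    change q (e y) = 0 ↔ _
    rw [hq.ker]
    constructor
    · rintro ⟨x, hx⟩
      refine ⟨e.symm x, e.injective ?_⟩
      rw [hx, map_nsmul, e.apply_symm_apply]
    · rintro ⟨z, rfl⟩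
      exact ⟨e z, map_nsmul e p z⟩

omit hp in
lemma torP_comp (i : V →+ X) (hi : TorP p i) (e : X ≃+ Y) :
    TorP p ((e : X →+ Y).comp i) := by
  constructor
  · exact e.injective.comp hi.inj
  · intro y
    obtain ⟨x, rfl⟩ := e.surjective y
    rw [← map_nsmul, map_eq_zero_iff e e.injective, hi.range]
    refine exists_congr fun v => ?_
    change _ ↔ e (i v) = e x
    rw [e.injective.eq_iff]

end Models

section Main

open scoped NumberField
open Fermat.Agent.PT Fermat.Agent.PT.Frozen Fermat.Agent.CFT.Bridge Fermat.Agent.CFT.SKummer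
open Fermat.Agent.Minkowski Fermat.Agent.Frob Fermat.Agent.GW.KE Fermat.Agent.GW.Conc
open IsDedekindDomain NumberField ExtCitation Module Polynomial
open Fermat.Agent.GW.Pl Fermat.Agent.CFT.SUnits Fermat.Agent.CFT.Global
open Fermat.Agent.CFT.SKummer.Formal.Setup (invD)

variable {p : ℕ} [hp : Fact p.Prime] {S : Finset Nat.Primes}
  {F : IntermediateField ℚ (AlgebraicClosure ℚ)} [NumberField F]

/-- the Kummer setup -/
lemma HS (hpS : pPrime p ∈ S) (hF : F ≤ Omega S) : Formal.Setup p ((galLevels ℚ Qbar).restrict F.fixingSubgroup)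
      ((sLevels S).restrict F.fixingSubgroup) (CFT.Kum.unitsRep F.fixingSubgroup Qbar)
      (omU S F.fixingSubgroup) (dvU S F.fixingSubgroup) (unitsOm S).subtype (dv S) :=
  setup hF (p := pPrime p) hpS

lemma hde (F : IntermediateField ℚ (AlgebraicClosure ℚ)) :
    Equivar (omU S F.fixingSubgroup) (dvU S F.fixingSubgroup) (dv S) :=
  fun g m => dv_equivar (g : GQ) m

variable (hF : F ≤ Omega S) {ζ : F} (hζ : IsPrimitiveRoot ζ p)

lemma uval_iota (m : ZMod p) : uval (iota hF hζ m : Additive Qbarˣ) = (ζ : Qbar) ^ m.val := rfl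

lemma iota_chi (g : Γ) (m : ZMod p) :
    iota hF hζ (chiRep (cycloChar p) g m) = omRep S g (iota hF hζ m) := by
  apply Subtype.ext
  apply uval_injective
  rw [uval_omRep, uval_iota, uval_iota, map_pow, cycloChar_spec g
    (by rw [← SubmonoidClass.coe_pow, hζ.pow_eq_one]; rfl), ← pow_mul, chiRep_apply]
  have h1 : IsPrimitiveRoot (ζ : Qbar) p :=
    hζ.map_of_injective (algebraMap F Qbar).injective
  have h2 := pow_mod_orderOf (ζ : Qbar)
  rw [← h1.eq_orderOf] at h2
  rw [← h2 ((cycloChar p g : ZMod p).val * m.val), ZMod.val_mul]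

lemma coef : Coef p (omU S F.fixingSubgroup) ((chiRep (cycloChar p)).comp F.fixingSubgroup.subtype)
    (iota hF hζ) where
  inj := iota_injective hF hζ
  tors := smul_iota hF hζ
  surj _ hw := exists_iota hF hζ hw
  eq g m := iota_chi hF hζ (g : Γ) m

variable [IsGalois ℚ F]

lemma tw (g : Γ) : Tw ((sLevels S).restrict F.fixingSubgroup) (omU S F.fixingSubgroup)
    (dvU S F.fixingSubgroup) (dv S) (iota hF hζ) (cj F.fixingSubgroup g)
    (omRep S g).toAddMonoidHom (dvRep S g).toAddMonoidHom (chiRep (cycloChar p) g) where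
  hu := cj_compat _ g
  hW v w := by
    change (omRep S g * omRep S ((cj F.fixingSubgroup g v : F.fixingSubgroup) : Γ)) w =
      (omRep S (v : Γ) * omRep S g) w
    rw [← map_mul, ← map_mul, coe_cj]
    congr 2
    group
  hD v w := by
    change (dvRep S g * dvRep S ((cj F.fixingSubgroup g v : F.fixingSubgroup) : Γ)) w =
      (dvRep S (v : Γ) * dvRep S g) w
    rw [← map_mul, ← map_mul, coe_cj]
    congr 2
    group
  hdv w := dv_equivar g w
  hι m := iota_chi hF hζ g m

/-- `S`-units as the kernel of the divisor map -/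
def toE : Additive (E (SKf S F)) →+ ↥(dA (hde (S := S) F)).ker :=
  AddMonoidHom.codRestrict
    (((ofK hF).comp (MonoidHom.toAdditive (E (SKf S F)).subtype)).codRestrict
      (invD (omU S F.fixingSubgroup)) (fun x => ofK_fixed hF _)) (dA (hde (S := S) F)).ker (by
    intro x
    apply Subtype.ext
    change dv S (ofK hF (Additive.ofMul ((x.toMul : E (SKf S F)) : Fˣ))) = 0
    rw [dv_ofK]
    have h1 : (CFT.SUnits.divOut (SK S F) ((x.toMul : E (SKf S F)) : Fˣ)).toAdd = 0 := by
      ext ⟨v, hv⟩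
      rw [CFT.SUnits.divOut_apply]
      exact mem_E.mp (x.toMul).2 v (fun h => hv (mem_SKf.mp h))
    change ofDiv hF (CFT.SUnits.divOut (SK S F) ((x.toMul : E (SKf S F)) : Fˣ)).toAdd = 0
    rw [h1, map_zero])

lemma toE_injective : Injective (toE (S := S) (F := F) hF) := by
  intro x y h
  have h1 := congrArg (fun t : ↥(dA (hde (S := S) F)).ker => (t.1.1 : unitsOm S)) h
  have h2 := ofK_injective hF h1
  exact Additive.toMul.injective (Subtype.ext (Additive.ofMul.injective h2))

lemma toE_surjective : Surjective (toE (S := S) (F := F) hF) := by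
  rintro ⟨⟨x, hx⟩, hx'⟩
  obtain ⟨y, rfl⟩ := exists_ofK hF hx
  have h1 : dv S (ofK hF y) = 0 := congrArg Subtype.val hx'
  rw [dv_ofK, map_eq_zero_iff _ (ofDiv_injective hF)] at h1
  have h2 : y.toMul ∈ E (SKf S F) := by
    rw [mem_E]
    intro v hv
    have hv' : v ∉ SK S F := fun h => hv (mem_SKf.mpr h)
    have h3 := congrArg (fun f : {v // v ∉ SK S F} →₀ ℤ => f ⟨v, hv'⟩) h1
    exact h3
  exact ⟨Additive.ofMul ⟨y.toMul, h2⟩, rfl⟩

/-- `S`-units as the kernel of the divisor map -/
def eE : Additive (E (SKf S F)) ≃+ ↥(dA (hde (S := S) F)).ker :=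
  AddEquiv.ofBijective (toE hF) ⟨toE_injective hF, toE_surjective hF⟩

lemma eE_sAct (g : Γ) (x : Additive (E (SKf S F))) :
    eE hF (EU.sAct (SKf S F) (resF F g) (conjPerm_mem_SKf F S (resF F g)) x) =
      (tw hF hζ g).gE (hde F) (eE hF x) := by
  apply Subtype.ext
  apply Subtype.ext
  apply Subtype.ext
  apply uval_injective
  exact coe_resF F g _

/-- roots of unity -/
def iE (hpS : pPrime p ∈ S) : ZMod p →+ ↥(dA (hde (S := S) F)).ker :=
  AddMonoidHom.codRestrict
    ((iota hF hζ).codRestrict (invD (omU S F.fixingSubgroup))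
      (fun m v => ((coef hF hζ).eq v m).symm.trans (by
        have h1 : cycloChar p (v : Γ) = 1 := (cycloChar_eq_one_iff
          (hζ.map_of_injective (algebraMap F Qbar).injective) (v : Γ)).mpr
          ((IntermediateField.mem_fixingSubgroup_iff F (v : Γ)).mp v.2 _ ζ.2)
        change iota hF hζ (chiRep (cycloChar p) (v : Γ) m) = _
        rw [chiRep_apply, h1, Units.val_one, one_mul])))
    (dA (hde (S := S) F)).ker (by
    intro m
    apply Subtype.ext
    exact dv_ι (HS hpS hF) (coef hF hζ) m)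

lemma iE_torP (hpS : pPrime p ∈ S) : TorP p (iE hF hζ hpS) := by
  constructor
  · intro a b h
    exact iota_injective hF hζ
      (congrArg (fun t : ↥(dA (hde (S := S) F)).ker => (t.1.1 : unitsOm S)) h)
  · intro x
    constructor
    · intro h
      have h1 : p • (x.1.1 : unitsOm S) = 0 :=
        congrArg (fun t : ↥(dA (hde (S := S) F)).ker => (t.1.1 : unitsOm S)) h
      obtain ⟨i, hi⟩ := exists_iota hF hζ h1
      exact ⟨i, Subtype.ext (Subtype.ext hi)⟩
    · rintro ⟨v, rfl⟩
      exact Subtype.ext (Subtype.ext (smul_iota hF hζ v))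

lemma iE_chi (hpS : pPrime p ∈ S) (g : Γ) (m : ZMod p) :
    iE hF hζ hpS (chiRep (cycloChar p) g m) = (tw hF hζ g).gE (hde F) (iE hF hζ hpS m) :=
  Subtype.ext (Subtype.ext (iota_chi hF hζ g m))

/-- the class of a divisor -/
def toCl : ({v // v ∉ SK S F} →₀ ℤ) →+ Cl (hde (S := S) F) :=
  (QuotientAddGroup.mk' _).comp ((ofDiv hF).codRestrict (invD (dvU S F.fixingSubgroup))
    (fun D => ofDiv_fixed hF D))

lemma toCl_surjective : Surjective (toCl (S := S) (F := F) hF) := by
  intro x
  obtain ⟨⟨d, hd⟩, rfl⟩ := QuotientAddGroup.mk_surjective x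
  obtain ⟨E, rfl⟩ := exists_ofDiv hF hd
  exact ⟨E, rfl⟩

lemma toCl_divOut (x : Fˣ) : toCl (S := S) (F := F) hF
    (CFT.SUnits.divOut (SK S F) x).toAdd = 0 := by
  refine (QuotientAddGroup.eq_zero_iff _).mpr ?_
  exact ⟨⟨ofK hF (Additive.ofMul x), ofK_fixed hF _⟩, Subtype.ext (dv_ofK hF _)⟩

include hF in
lemma finite_Cl : Finite (Cl (hde (S := S) F)) := by
  have h1 : Finite (CFT.SUnits.DivOut (SK S F) ⧸
      (CFT.SUnits.divOut (SK S F) : Fˣ →* CFT.SUnits.DivOut (SK S F)).range) :=
    Finite.of_equiv _ (CFT.SUnits.clSEquiv (SK S F)).symm.toEquiv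
  let f : CFT.SUnits.DivOut (SK S F) →* Multiplicative (Cl (hde (S := S) F)) :=
    AddMonoidHom.toMultiplicative (toCl hF)
  let f' := QuotientGroup.lift (CFT.SUnits.divOut (SK S F) :
    Fˣ →* CFT.SUnits.DivOut (SK S F)).range f (by
      rintro _ ⟨x, rfl⟩
      exact congrArg Multiplicative.ofAdd (toCl_divOut hF x))
  refine Finite.of_surjective (fun x => (f' x).toAdd) ?_
  intro y
  obtain ⟨D, hD⟩ := toCl_surjective hF y
  exact ⟨QuotientGroup.mk (Multiplicative.ofAdd D), hD⟩

include hF in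
lemma finite_ker_dA : Module.Finite ℤ ↥(dA (hde (S := S) F)).ker :=
  Module.Finite.equiv (eE hF).toIntLinearEquiv

include hF hζ in
lemma finH (hpS : pPrime p ∈ S) :
    FiniteDimensional (ZMod p) (PT.H1 ((sLevels S).restrict F.fixingSubgroup)
      ((chiRep (cycloChar p)).comp F.fixingSubgroup.subtype)) := by
  have hfE := finite_ker_dA (S := S) hF
  have hfC : Finite (Cl (hde (S := S) F)) := finite_Cl hF
  have hfC' : Module.Finite ℤ (Cl (hde (S := S) F)) := inferInstance
  exact finite_H1 (HS hpS hF) (coef hF hζ) (qP_modP p ↥(dA (hde (S := S) F)).ker)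
    (tP_torP p (Cl (hde (S := S) F)))

include hF hζ in
lemma finK (hpS : pPrime p ∈ S) :
    FiniteDimensional (ZMod p) (LinearMap.ker (inflV (hleS S) F.fixingSubgroup
      ((chiRep (cycloChar p)).comp F.fixingSubgroup.subtype))) := by
  have hfC : Finite (Cl (hde (S := S) F)) := finite_Cl hF
  have hfC' : Module.Finite ℤ (Cl (hde (S := S) F)) := inferInstance
  exact finite_ker (HS hpS hF) (coef hF hζ) (qP_modP p (Cl (hde (S := S) F)))

lemma charpoly_gE (hpS : pPrime p ∈ S) (g : Γ) [Module.Finite ℤ ↥(dA (hde (S := S) F)).ker] :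
    (mapQ p ((tw (S := S) hF hζ g).gE (hde F))).charpoly * (X - C 1) =
      (chiRep (cycloChar p) g).charpoly *
      (EU.permMap (ZMod p) (EU.permS (SKf S F) (resF F g)
        (conjPerm_mem_SKf F S (resF F g)))).charpoly *
      (EU.permMap (ZMod p) (EU.permInf (resF F g))).charpoly :=
  EU.charpoly_sunits_modP (SKf S F) (resF F g) (conjPerm_mem_SKf F S (resF F g))
    ((qP p _).comp ((eE (S := S) hF : Additive (E (SKf S F)) →+ ↥(dA (hde (S := S) F)).ker)))
    (modP_comp _ (qP_modP p _) (eE hF))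
    (mapQ p ((tw hF hζ g).gE (hde F)))
    (fun x => by
      change qP p _ ((tw hF hζ g).gE (hde F) (eE hF x)) = qP p _ (eE hF _)
      rw [eE_sAct hF hζ])
    (((eE (S := S) hF).symm : ↥(dA (hde (S := S) F)).ker →+ Additive (E (SKf S F))).comp
      (iE hF hζ hpS))
    (torP_comp _ (iE_torP hF hζ hpS) (eE hF).symm) (chiRep (cycloChar p) g)
    (fun v => by
      apply (eE hF).injective
      rw [eE_sAct hF hζ]
      change eE hF ((eE hF).symm _) = (tw hF hζ g).gE (hde F) (eE hF ((eE hF).symm _))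
      rw [AddEquiv.apply_symm_apply, AddEquiv.apply_symm_apply, iE_chi])

lemma charpoly_conj1 (hpS : pPrime p ∈ S) (g : Γ) [Module.Finite ℤ ↥(dA (hde (S := S) F)).ker]
    [Module.Finite ℤ (Cl (hde (S := S) F))]
    [FiniteDimensional (ZMod p) (PT.H1 ((sLevels S).restrict F.fixingSubgroup)
      ((chiRep (cycloChar p)).comp F.fixingSubgroup.subtype))] :
    (conj1 (sLevels S) F.fixingSubgroup (chiRep (cycloChar p)) g).charpoly =
      (mapQ p ((tw (S := S) hF hζ g).gE (hde F))).charpoly *
        (mapT p ((tw (S := S) hF hζ g).gCl (hde F))).charpoly :=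
  charpoly_H1 (HS hpS hF) (coef hF hζ) (qP_modP p ↥(dA (hde (S := S) F)).ker)
    (tP_torP p (Cl (hde (S := S) F))) (tw hF hζ g)
    (f₁ := mapQ p ((tw hF hζ g).gE (hde F))) (fun _ => rfl)
    (f₃ := mapT p ((tw hF hζ g).gCl (hde F))) (fun _ => rfl)

lemma charpoly_conjK (hpS : pPrime p ∈ S) (g : Γ)
    [Module.Finite ℤ (Cl (hde (S := S) F))]
    [fk : FiniteDimensional (ZMod p) (LinearMap.ker (inflV (hleS S) F.fixingSubgroup
      ((chiRep (cycloChar p)).comp F.fixingSubgroup.subtype)))] :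
    (conjK (hleS S) F.fixingSubgroup (chiRep (cycloChar p)) g).charpoly =
      (mapQ p ((tw (S := S) hF hζ g).gCl (hde F))).charpoly := by
  have fk' : FiniteDimensional (ZMod p) (LinearMap.ker (Formal.infl2 (HS hpS hF).hle
      ((chiRep (cycloChar p)).comp F.fixingSubgroup.subtype))) := fk
  exact charpoly_ker (HS hpS hF) (coef hF hζ) (qP_modP p (Cl (hde (S := S) F)))
    (tw hF hζ g) (f₄ := mapQ p ((tw hF hζ g).gCl (hde F))) (fun _ => rfl)
    (f := conjK (hleS S) F.fixingSubgroup (chiRep (cycloChar p)) g) (fun _ => rfl)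

lemma charpoly_gCl (g : Γ) [Finite (Cl (hde (S := S) F))] [Module.Finite ℤ (Cl (hde (S := S) F))] :
    (mapQ p ((tw (S := S) hF hζ g).gCl (hde F))).charpoly =
      (mapT p ((tw (S := S) hF hζ g).gCl (hde F))).charpoly :=
  EU.charpoly_finite_modP ((tw hF hζ g).gCl (hde F)).toIntLinearMap
    (qP p (Cl (hde (S := S) F))) (qP_modP p _) (mapQ p ((tw hF hζ g).gCl (hde F))) (fun _ => rfl)
    (tP p (Cl (hde (S := S) F))) (tP_torP p _) (mapT p ((tw hF hζ g).gCl (hde F))) (fun _ => rfl)

include hF hζ in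
/-- **The characteristic polynomial identity.** -/
theorem starAt (hpS : pPrime p ∈ S) : StarAt p S F := by
  refine ⟨finH hF hζ hpS, finK hF hζ hpS, fun g => ?_⟩
  have := finH hF hζ hpS
  have := finK hF hζ hpS
  have hfE := finite_ker_dA (S := S) hF
  have hfC : Finite (Cl (hde (S := S) F)) := finite_Cl hF
  have hfC' : Module.Finite ℤ (Cl (hde (S := S) F)) := inferInstance
  have e1 := charpoly_conj1 hF hζ hpS g
  have e2 := (charpoly_conjK hF hζ hpS g).trans (charpoly_gCl hF hζ g)
  have e3 := charpoly_gE hF hζ hpS g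
  rw [e1, e2, ← e3]
  ring

end Main

end Fermat.Agent.GW.StarApp
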