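import Mathlib

/-!
# Linear independence of traces of simple modules over a finite field, and the combinatorial
# core of the Brauer–Nesbitt theorem
-/

set_option autoImplicit false

open Polynomial

namespace Fermat.Agent.GW

section Combinatorics

variable {ι G k : Type*} [Field k]

/-- Combinatorial core of Brauer–Nesbitt. -/
theorem finsupp_eq_of_prod_eq (p : ℕ) [hp : Fact p.Prime] [CharP k p] (cp : ι → G → k[X]) (hmonic : ∀ i g, (cp i g).Monic)
    (d : ι → ℕ) (hd : ∀ i, 0 < d i) (hdeg : ∀ i g, (cp i g).natDegree = d i)
    (hli : LinearIndependent k (fun i => fun g => (cp i g).nextCoeff)) [Nonempty G]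
    (m n : ι →₀ ℕ)
    (h : ∀ g, m.prod (fun i e => cp i g ^ e) = n.prod (fun i e => cp i g ^ e)) : m = n := by
  classical
  -- product over a finsupp
  have hmon : ∀ (m : ι →₀ ℕ) g, (m.prod (fun i e => cp i g ^ e)).Monic := fun m g =>
    monic_prod_of_monic _ _ (fun i _ => (hmonic i g).pow _)
  have hnd : ∀ (m : ι →₀ ℕ) g, (m.prod (fun i e => cp i g ^ e)).natDegree =
      m.sum (fun i e => e * d i) := by
    intro m g
    rw [Finsupp.prod, natDegree_prod_of_monic _ _ (fun i _ => (hmonic i g).pow _)]
    refine Finset.sum_congr rfl (fun i _ => ?_)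
    rw [(hmonic i g).natDegree_pow, hdeg]
  have hnc : ∀ (m : ι →₀ ℕ) g, (m.prod (fun i e => cp i g ^ e)).nextCoeff =
      m.sum (fun i e => (e : k) * (cp i g).nextCoeff) := by
    intro m g
    rw [Finsupp.prod, Monic.nextCoeff_prod _ _ (fun i _ => (hmonic i g).pow _)]
    refine Finset.sum_congr rfl (fun i _ => ?_)
    rw [(hmonic i g).nextCoeff_pow, nsmul_eq_mul]
  have hadd : ∀ (m n : ι →₀ ℕ) g, ((m + n).prod (fun i e => cp i g ^ e)) =
      (m.prod (fun i e => cp i g ^ e)) * (n.prod (fun i e => cp i g ^ e)) := by
    intro m n g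
    exact Finsupp.prod_add_index' (fun i => pow_zero _) (fun i a b => pow_add _ _ _)
  obtain ⟨g₀⟩ := ‹Nonempty G›
  -- strong induction on the total size of `m`
  suffices H : ∀ N : ℕ, ∀ m n : ι →₀ ℕ, m.sum (fun _ e => e) ≤ N →
      (∀ g, m.prod (fun i e => cp i g ^ e) = n.prod (fun i e => cp i g ^ e)) → m = n from
    H _ m n le_rfl h
  clear h m n
  -- the case where one of them is zero
  have hzero : ∀ n : ι →₀ ℕ, (∀ g, (1 : k[X]) = n.prod (fun i e => cp i g ^ e)) → n = 0 := by
    intro n hn
    have h1 := congrArg natDegree (hn g₀)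
    rw [hnd, natDegree_one] at h1
    rw [Finsupp.sum, eq_comm, Finset.sum_eq_zero_iff] at h1
    ext i
    by_contra hi
    have := h1 i (Finsupp.mem_support_iff.mpr hi)
    rcases Nat.mul_eq_zero.mp this with h2 | h2
    · exact hi h2
    · exact (hd i).ne' h2
  intro N
  induction N using Nat.strong_induction_on with
  | _ N ih =>
  intro m n hm h
  -- congruence of multiplicities
  have hcong : ∀ i, (m i : k) = (n i : k) := by
    have h1 : (Finsupp.linearCombination k (fun i => fun g => (cp i g).nextCoeff))
        (m.mapRange (fun e : ℕ => (e : k)) (by simp) - n.mapRange (fun e : ℕ => (e : k)) (by simp))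
        = 0 := by
      rw [map_sub, sub_eq_zero]
      funext g
      have hg := congrArg nextCoeff (h g)
      rw [hnc, hnc] at hg
      rw [Finsupp.linearCombination_apply, Finsupp.linearCombination_apply,
        Finsupp.sum_mapRange_index (by simp), Finsupp.sum_mapRange_index (by simp),
        Finsupp.sum_apply', Finsupp.sum_apply']
      simpa [Finsupp.sum] using hg
    have h2 := (linearIndependent_iff.mp hli) _ h1
    intro i
    have h3 := DFunLike.congr_fun h2 i
    simpa [sub_eq_zero] using h3
  -- cancel the common part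
  set e : ι →₀ ℕ := m ⊓ n with he
  have hem : e ≤ m := inf_le_left
  have hen : e ≤ n := inf_le_right
  obtain ⟨m', hm'⟩ : ∃ m', m = e + m' := ⟨m - e, (add_tsub_cancel_of_le hem).symm⟩
  obtain ⟨n', hn'⟩ : ∃ n', n = e + n' := ⟨n - e, (add_tsub_cancel_of_le hen).symm⟩
  have hdisj : ∀ i, m' i = 0 ∨ n' i = 0 := by
    intro i
    have h1 : e i = min (m i) (n i) := by rw [he]; rfl
    have h2 := DFunLike.congr_fun hm' i
    have h3 := DFunLike.congr_fun hn' i
    simp only [Finsupp.add_apply] at h2 h3
    omega
  have h' : ∀ g, m'.prod (fun i e => cp i g ^ e) = n'.prod (fun i e => cp i g ^ e) := by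
    intro g
    have := h g
    rw [hm', hn', hadd, hadd] at this
    exact mul_left_cancel₀ (hmon e g).ne_zero this
  have hdvd : ∀ i, p ∣ m' i ∧ p ∣ n' i := by
    intro i
    have h1 := hcong i
    rw [hm', hn'] at h1
    simp only [Finsupp.add_apply, Nat.cast_add, add_right_inj] at h1
    rcases hdisj i with h2 | h2
    · rw [h2] at h1 ⊢
      refine ⟨dvd_zero _, ?_⟩
      rw [← CharP.cast_eq_zero_iff k p]
      simpa using h1.symm
    · rw [h2] at h1 ⊢
      refine ⟨?_, dvd_zero _⟩
      rw [← CharP.cast_eq_zero_iff k p]
      simpa using h1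
  -- divide by `p`
  set m'' : ι →₀ ℕ := m'.mapRange (fun e => e / p) (by simp) with hm''
  set n'' : ι →₀ ℕ := n'.mapRange (fun e => e / p) (by simp) with hn''
  have hpm : m' = p • m'' := by
    ext i
    simp only [hm'', Finsupp.smul_apply, Finsupp.mapRange_apply, smul_eq_mul]
    exact (Nat.mul_div_cancel' (hdvd i).1).symm
  have hpn : n' = p • n'' := by
    ext i
    simp only [hn'', Finsupp.smul_apply, Finsupp.mapRange_apply, smul_eq_mul]
    exact (Nat.mul_div_cancel' (hdvd i).2).symm
  have hpow' : ∀ (q : ℕ) (m : ι →₀ ℕ) g, ((q • m).prod (fun i e => cp i g ^ e)) =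
      (m.prod (fun i e => cp i g ^ e)) ^ q := by
    intro q m g
    induction q with
    | zero => simp
    | succ q ihq => rw [succ_nsmul, hadd, ihq, pow_succ]
  have hpow := hpow' p
  have h'' : ∀ g, m''.prod (fun i e => cp i g ^ e) = n''.prod (fun i e => cp i g ^ e) := by
    intro g
    have h1 := h' g
    rw [hpm, hpn, hpow, hpow] at h1
    exact frobenius_inj k[X] p h1
  by_cases hz : m' = 0
  · have : n' = 0 := by
      apply hzero
      intro g
      rw [← h' g, hz]
      simp
    rw [hm', hn', hz, this]
  · -- the size of `m''` is smaller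
    have hlt : m''.sum (fun _ e => e) < m.sum (fun _ e => e) := by
      have h1 : m.sum (fun _ e => e) = e.sum (fun _ e => e) + m'.sum (fun _ e => e) := by
        rw [hm']
        exact Finsupp.sum_add_index' (fun _ => rfl) (fun _ _ _ => rfl)
      have h2 : m'.sum (fun _ e => e) = p * m''.sum (fun _ e => e) := by
        rw [hpm, Finsupp.sum_smul_index' (h0 := fun i => rfl), Finsupp.sum, Finsupp.sum,
          Finset.mul_sum]
        rfl
      have h3 : m''.sum (fun _ e => e) ≠ 0 := by
        intro h0
        apply hz
        rw [hpm]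
        have : m'' = 0 := by
          ext i
          by_contra hi
          rw [Finsupp.sum, Finset.sum_eq_zero_iff] at h0
          exact hi (h0 i (Finsupp.mem_support_iff.mpr hi))
        rw [this, smul_zero]
      have h4 := hp.out.two_le
      have h5 : 2 * m''.sum (fun _ e => e) ≤ p * m''.sum (fun _ e => e) :=
        Nat.mul_le_mul_right _ h4
      have h6 := Nat.pos_of_ne_zero h3
      omega
    have := ih (m''.sum (fun _ e => e)) (lt_of_lt_of_le hlt hm) m'' n'' le_rfl h''
    rw [hm', hn', hpm, hpn, this]

end Combinatorics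

section Density

/-- Over a finite separable field extension `D / k`, every nonzero `D`-vector space of finite
dimension over `k` has a `D`-linear endomorphism with nonzero `k`-trace. -/
theorem exists_trace_restrictScalars_ne_zero {k D S : Type*} [Field k] [Field D] [Algebra k D]
    [Algebra.IsSeparable k D] [AddCommGroup S] [Module k S] [Module D S] [IsScalarTower k D S]
    [Nontrivial S] [FiniteDimensional k S] :
    ∃ f : S →ₗ[D] S, LinearMap.trace k S (f.restrictScalars k) ≠ 0 := by
  obtain ⟨s, hs⟩ := exists_ne (0 : S)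
  have hinj : Function.Injective ((LinearMap.toSpanSingleton D S s).restrictScalars k) := by
    rw [← LinearMap.ker_eq_bot, LinearMap.ker_eq_bot']
    intro d hd
    have : d • s = 0 := hd
    exact (smul_eq_zero.mp this).resolve_right hs
  have : FiniteDimensional k D := Module.Finite.of_injective _ hinj
  obtain ⟨x, hx⟩ : ∃ x : D, Algebra.trace k D x ≠ 0 := by
    by_contra hcon
    push Not at hcon
    exact Algebra.trace_ne_zero k D (LinearMap.ext hcon)
  obtain ⟨φ, hφ⟩ := (LinearMap.toSpanSingleton D S s).exists_leftInverse_of_injective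
    (LinearMap.ker_eq_bot.mpr hinj)
  -- `f v = (φ v * x) • s`
  let α : D →ₗ[D] S := LinearMap.toSpanSingleton D S s
  let m : D →ₗ[D] D := LinearMap.mulRight D x
  refine ⟨α ∘ₗ m ∘ₗ φ, ?_⟩
  have h1 : (α ∘ₗ m ∘ₗ φ).restrictScalars k =
      ((α ∘ₗ m).restrictScalars k) ∘ₗ (φ.restrictScalars k) := rfl
  rw [h1, LinearMap.trace_comp_comm']
  have h2 : (φ.restrictScalars k) ∘ₗ ((α ∘ₗ m).restrictScalars k) = LinearMap.mulLeft k x := by
    ext c
    have := LinearMap.congr_fun hφ (c * x)
    simp only [LinearMap.comp_apply, LinearMap.id_apply] at this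
    simp only [LinearMap.comp_apply, LinearMap.coe_restrictScalars, LinearMap.mulLeft_apply]
    rw [mul_comm x c]
    exact this
  rw [h2]
  exact hx

/-- For a finite family of pairwise non-isomorphic simple modules over a `k`-algebra `R`
(`k` a finite field), finite dimensional over `k`, there is an element of `R` which annihilates all
of them but one, on which it has nonzero trace. -/
theorem exists_smul_eq_zero_trace_ne_zero {k R ι : Type*} [Field k] [Finite k] [Ring R]
    [Algebra k R] [Finite ι] (S : ι → Type*) [∀ i, AddCommGroup (S i)] [∀ i, Module k (S i)]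
    [∀ i, Module R (S i)] [∀ i, IsScalarTower k R (S i)] [∀ i, FiniteDimensional k (S i)]
    [∀ i, IsSimpleModule R (S i)] (hne : ∀ i j, i ≠ j → IsEmpty (S i ≃ₗ[R] S j)) (i₀ : ι) :
    ∃ r : R, (∀ i ≠ i₀, ∀ v : S i, r • v = 0) ∧
      LinearMap.trace k (S i₀) (Algebra.lsmul k k (S i₀) r) ≠ 0 := by
  classical
  have := Fintype.ofFinite ι
  -- the endomorphism ring
  let D := Module.End R (S i₀)
  have hSfin : Finite (S i₀) := Module.finite_of_finite k
  have hnt : Nontrivial (S i₀) := IsSimpleModule.nontrivial R (S i₀)
  have hDfin : Finite D := Finite.of_injective (fun f : D => (f : S i₀ → S i₀))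
    DFunLike.coe_injective
  let : DivisionRing D := Module.End.instDivisionRing
  let fD : Field D := littleWedderburn D
  have : Algebra.IsSeparable k D := inferInstance
  obtain ⟨g, hg⟩ := exists_trace_restrictScalars_ne_zero (k := k) (D := D) (S := S i₀)
  -- the endomorphism of the product
  have hzero : ∀ i j, i ≠ j → ∀ f : S i →ₗ[R] S j, f = 0 := by
    intro i j hij f
    by_contra hf
    exact (hne i j hij).false (LinearEquiv.ofBijective f (LinearMap.bijective_of_ne_zero hf))
  have hcomp : ∀ (φ : Module.End R (∀ i, S i)) (m : ∀ i, S i) (j : ι),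
      φ m j = (LinearMap.proj j ∘ₗ φ ∘ₗ LinearMap.single R S j) (m j) := by
    intro φ m j
    have h1 : m = ∑ i, LinearMap.single R S i (m i) := by
      simp [LinearMap.single_apply, Finset.univ_sum_single]
    conv_lhs => rw [h1, map_sum, Finset.sum_apply]
    rw [Finset.sum_eq_single j]
    · rfl
    · intro i _ hij
      have := hzero i j hij (LinearMap.proj j ∘ₗ φ ∘ₗ LinearMap.single R S i)
      exact LinearMap.congr_fun this (m i)
    · simp
  let f : Module.End (Module.End R (∀ i, S i)) (∀ i, S i) :=
    { toFun := fun m => LinearMap.single R S i₀ (g (m i₀))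
      map_add' := fun a b => by rw [Pi.add_apply, map_add, map_add]
      map_smul' := fun φ m => by
        simp only [Module.End.smul_def, RingHom.id_apply]
        funext j
        rw [hcomp φ m i₀, hcomp φ (LinearMap.single R S i₀ (g (m i₀))) j]
        set d : D := LinearMap.proj i₀ ∘ₗ φ ∘ₗ LinearMap.single R S i₀ with hd
        have hgd : g (d (m i₀)) = d (g (m i₀)) := g.map_smul d (m i₀)
        by_cases hj : j = i₀
        · subst hj
          rw [hgd]
          simp only [LinearMap.single_apply, Pi.single_eq_same]
          rfl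
        · simp [LinearMap.single_apply, hj] }
  have hPfin : Finite (∀ i, S i) := by
    have : ∀ i, Finite (S i) := fun i => Module.finite_of_finite k
    infer_instance
  have : Fintype (∀ i, S i) := Fintype.ofFinite _
  obtain ⟨r, hr⟩ := jacobson_density f Finset.univ
  refine ⟨r, ?_, ?_⟩
  · intro i hi v
    have h1 := congrFun (hr (LinearMap.single R S i v) (Finset.mem_univ _)) i
    have h2 : f (LinearMap.single R S i v) i = 0 := by
      change LinearMap.single R S i₀ _ i = 0
      simp [LinearMap.single_apply, hi]
    rw [h2] at h1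
    simpa [LinearMap.single_apply] using h1.symm
  · have h3 : Algebra.lsmul k k (S i₀) r = g.restrictScalars k := by
      ext v
      have h1 := congrFun (hr (LinearMap.single R S i₀ v) (Finset.mem_univ _)) i₀
      have h2 : f (LinearMap.single R S i₀ v) i₀ = g v := by
        change LinearMap.single R S i₀ _ i₀ = g v
        simp [LinearMap.single_apply]
      rw [h2] at h1
      simpa [LinearMap.single_apply] using h1.symm
    rw [h3]
    exact hg

end Density

end Fermat.Agent.GW
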