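import Fermat.Agent.GW.FgCharpoly
import Fermat.Agent.CFT.Global.Places
import Mathlib.NumberTheory.NumberField.InfinitePlace.Ramification

/-!
# Equivariant Dirichlet unit theorem, characteristic polynomial form
-/

set_option autoImplicit false
set_option linter.unusedSectionVars false

namespace Fermat.Agent.GW.EU

open Polynomial TensorProduct Function NumberField Fermat.Agent.GW.Fg

section Perm

variable (R : Type*) [CommRing R] {ι : Type*}

/-- the permutation representation: `(permMap π f) i = f (π⁻¹ i)`. -/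
def permMap (π : Equiv.Perm ι) : (ι → R) →ₗ[R] (ι → R) := LinearMap.funLeft R R π.symm

@[simp] lemma permMap_apply (π : Equiv.Perm ι) (f : ι → R) (i : ι) :
    permMap R π f i = f (π.symm i) := rfl

/-- base change compatibility of the characteristic polynomial of a permutation -/
lemma charpoly_permMap_map [Finite ι] (π : Equiv.Perm ι) :
    (permMap R π).charpoly = (permMap ℤ π).charpoly.map (Int.castRingHom R) := by
  classical
  have := Fintype.ofFinite ι
  rw [← LinearMap.charpoly_toMatrix (permMap R π) (Pi.basisFun R ι),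
    ← LinearMap.charpoly_toMatrix (permMap ℤ π) (Pi.basisFun ℤ ι), ← Matrix.charpoly_map]
  congr 1
  ext i j
  rw [Matrix.map_apply, LinearMap.toMatrix_apply, LinearMap.toMatrix_apply]
  simp only [Pi.basisFun_apply, Pi.basisFun_repr, permMap_apply, Int.coe_castRingHom]
  by_cases h : π.symm i = j
  · subst h; simp
  · rw [Pi.single_eq_of_ne h, Pi.single_eq_of_ne h]; simp

end Perm

section Units

variable {K L : Type*} [Field K] [Field L] [NumberField L] [Algebra K L]

/-- the action of an automorphism on the units of the ring of integers -/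
noncomputable def unitsAct (σ : L ≃ₐ[K] L) : Additive (𝓞 L)ˣ →ₗ[ℤ] Additive (𝓞 L)ˣ :=
  (MonoidHom.toAdditive (Units.map
    ((RingOfIntegers.mapRingEquiv (σ : L ≃+* L)) : 𝓞 L →* 𝓞 L))).toIntLinearMap

/-- The full logarithmic embedding. -/
noncomputable def fullLog : Additive (𝓞 L)ˣ →ₗ[ℤ] (InfinitePlace L → ℝ) :=
  AddMonoidHom.toIntLinearMap
    { toFun := fun x w => (w.mult : ℝ) * Real.log (w (x.toMul : L))
      map_zero' := by
        funext w
        simp
      map_add' := fun x y => by
        funext w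
        rw [toMul_add, Pi.add_apply]
        have hx : (w ((x.toMul : (𝓞 L)ˣ) : L)) ≠ 0 := (Units.pos_at_place _ w).ne'
        have hy : (w ((y.toMul : (𝓞 L)ˣ) : L)) ≠ 0 := (Units.pos_at_place _ w).ne'
        rw [Units.val_mul, map_mul, map_mul, Real.log_mul hx hy]
        ring }

lemma fullLog_apply (x : Additive (𝓞 L)ˣ) (w : InfinitePlace L) :
    fullLog x w = (w.mult : ℝ) * Real.log (w ((x.toMul : (𝓞 L)ˣ) : L)) := rfl

lemma mult_smul (σ : L ≃ₐ[K] L) (w : InfinitePlace L) : (σ • w).mult = w.mult := by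
  classical
  rw [InfinitePlace.mult, InfinitePlace.mult]
  simp only [InfinitePlace.isReal_smul_iff]

/-- the permutation of the infinite places -/
noncomputable def permInf (σ : L ≃ₐ[K] L) : Equiv.Perm (InfinitePlace L) := MulAction.toPerm σ

lemma fullLog_unitsAct (σ : L ≃ₐ[K] L) (x : Additive (𝓞 L)ˣ) :
    fullLog (unitsAct σ x) = permMap ℝ (permInf σ) (fullLog x) := by
  funext w
  rw [permMap_apply, fullLog_apply, fullLog_apply]
  have h1 : (permInf σ).symm w = σ⁻¹ • w := rfl
  rw [h1, mult_smul, InfinitePlace.smul_apply]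
  rfl

/-- the real extension of the full log -/
noncomputable def T : (ℝ ⊗[ℤ] Additive (𝓞 L)ˣ) →ₗ[ℝ] (InfinitePlace L → ℝ) :=
  TensorProduct.AlgebraTensorModule.lift
    { toFun := fun a => a • (fullLog (L := L))
      map_add' := fun a b => add_smul a b _
      map_smul' := fun a b => mul_smul a b _ }

lemma T_tmul (a : ℝ) (x : Additive (𝓞 L)ˣ) : T (a ⊗ₜ[ℤ] x) = a • fullLog x := rfl

/-- the sum of coordinates -/
noncomputable def sumMap (R ι : Type*) [CommRing R] [Fintype ι] : (ι → R) →ₗ[R] R :=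
  ∑ i, LinearMap.proj i

lemma sumMap_apply {R ι : Type*} [CommRing R] [Fintype ι] (f : ι → R) :
    sumMap R ι f = ∑ i, f i := by
  simp [sumMap]

lemma sumMap_permMap {R ι : Type*} [CommRing R] [Fintype ι] (π : Equiv.Perm ι) (f : ι → R) :
    sumMap R ι (permMap R π f) = sumMap R ι f := by
  rw [sumMap_apply, sumMap_apply]
  exact Equiv.sum_comp π.symm f

lemma sum_T (z : ℝ ⊗[ℤ] Additive (𝓞 L)ˣ) : sumMap ℝ (InfinitePlace L) (T z) = 0 := by
  induction z using TensorProduct.induction_on with
  | zero => simp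
  | tmul a x =>
    rw [T_tmul, map_smul, sumMap_apply]
    have : ∑ w : InfinitePlace L, fullLog x w = 0 := Units.sum_mult_mul_log (x.toMul : (𝓞 L)ˣ)
    rw [this, smul_zero]
  | add z w hz hw => rw [map_add, map_add, hz, hw, add_zero]

open NumberField.Units NumberField.Units.dirichletUnitTheorem in
open Classical in
lemma exists_T_eq (f : InfinitePlace L → ℝ) (hf : sumMap ℝ (InfinitePlace L) f = 0) :
    ∃ z, T z = f := by
  -- restrict to the places different from `w₀`
  let r : (InfinitePlace L → ℝ) →ₗ[ℝ] logSpace L := LinearMap.funLeft ℝ ℝ Subtype.val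
  have hr : ∀ x : Additive (𝓞 L)ˣ, r (fullLog x) = logEmbedding L x := by
    intro x
    funext w
    rfl
  have hspan : (⊤ : Submodule ℝ (logSpace L)) ≤ (LinearMap.range (r ∘ₗ T)) := by
    rw [← unitLattice_span_eq_top L, Submodule.span_le]
    rintro _ ⟨x, -, rfl⟩
    refine ⟨1 ⊗ₜ x, ?_⟩
    rw [LinearMap.comp_apply, T_tmul, one_smul, hr]
    rfl
  obtain ⟨z, hz⟩ := hspan (x := r f) trivial
  refine ⟨z, ?_⟩
  have h1 : ∀ w : InfinitePlace L, w ≠ w₀ → T z w = f w := by
    intro w hw
    exact congrFun hz ⟨w, hw⟩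
  funext w
  by_cases hw : w = w₀
  · subst hw
    have h2 := sum_T z
    rw [sumMap_apply, Fintype.sum_eq_add_sum_subtype_ne _ w₀] at h2
    rw [sumMap_apply, Fintype.sum_eq_add_sum_subtype_ne _ w₀] at hf
    have h3 : ∑ i : {w : InfinitePlace L // w ≠ w₀}, T z i =
        ∑ i : {w : InfinitePlace L // w ≠ w₀}, f i :=
      Finset.sum_congr rfl fun i _ => h1 i i.2
    rw [h3] at h2
    linarith
  · exact h1 w hw

open NumberField.Units in
lemma span_tmul_fundSystem :
    Submodule.span ℝ (Set.range fun i : Fin (rank L) =>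
      (1 : ℝ) ⊗ₜ[ℤ] Additive.ofMul (fundSystem L i)) = ⊤ := by
  rw [eq_top_iff]
  rintro z -
  induction z using TensorProduct.induction_on with
  | zero => exact zero_mem _
  | add z w hz hw => exact add_mem hz hw
  | tmul a x =>
    obtain ⟨⟨ζ, e⟩, h, -⟩ := exist_unique_eq_mul_prod L (x.toMul : (𝓞 L)ˣ)
    simp only at h
    have hx : x = Additive.ofMul (ζ : (𝓞 L)ˣ) + ∑ i, e i • Additive.ofMul (fundSystem L i) := by
      apply Additive.toMul.injective
      rw [toMul_add, toMul_sum]
      simp only [toMul_zsmul, toMul_ofMul]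
      exact h
    rw [hx, TensorProduct.tmul_add, TensorProduct.tmul_sum]
    have hζ : a ⊗ₜ[ℤ] Additive.ofMul (ζ : (𝓞 L)ˣ) = 0 := by
      have hfin : IsOfFinOrder (ζ : (𝓞 L)ˣ) := ζ.2
      obtain ⟨n, hn, hn1⟩ := isOfFinOrder_iff_pow_eq_one.mp hfin
      have h1 : a = (n : ℤ) • (a / n) := by
        rw [zsmul_eq_mul]
        field_simp
        simp
      rw [h1, TensorProduct.smul_tmul, natCast_zsmul, ← ofMul_pow, hn1, ofMul_one,
        TensorProduct.tmul_zero]
    rw [hζ, zero_add]
    refine sum_mem fun i _ => ?_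
    have h2 : a ⊗ₜ[ℤ] (e i • Additive.ofMul (fundSystem L i)) =
        (a * e i) • ((1 : ℝ) ⊗ₜ[ℤ] Additive.ofMul (fundSystem L i)) := by
      refine (TensorProduct.smul_tmul (e i) a
        (Additive.ofMul (fundSystem L i))).symm.trans ?_
      rw [TensorProduct.smul_tmul']
      congr 1
      rw [zsmul_eq_mul, smul_eq_mul]
      ring
    rw [h2]
    exact Submodule.smul_mem _ _ (Submodule.subset_span ⟨i, rfl⟩)

lemma finrank_ker_sumMap {ι : Type*} [Fintype ι] [Nonempty ι] :
    Module.finrank ℝ (LinearMap.ker (sumMap ℝ ι)) = Fintype.card ι - 1 := by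
  have h1 := (sumMap ℝ ι).finrank_range_add_finrank_ker
  have h2 : LinearMap.range (sumMap ℝ ι) = ⊤ := by
    classical
    rw [LinearMap.range_eq_top]
    intro a
    obtain ⟨i⟩ := (inferInstance : Nonempty ι)
    refine ⟨Pi.single i a, ?_⟩
    rw [sumMap_apply]
    simp
  rw [h2, finrank_top, Module.finrank_self, Module.finrank_fintype_fun_eq_card] at h1
  omega

lemma T_injective : Function.Injective (T (L := L)) := by
  let T' : (ℝ ⊗[ℤ] Additive (𝓞 L)ˣ) →ₗ[ℝ] LinearMap.ker (sumMap ℝ (InfinitePlace L)) :=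
    T.codRestrict _ fun z => sum_T z
  have hsurj : Surjective T' := by
    rintro ⟨f, hf⟩
    obtain ⟨z, hz⟩ := exists_T_eq f hf
    exact ⟨z, Subtype.ext hz⟩
  have hle : Module.finrank ℝ (ℝ ⊗[ℤ] Additive (𝓞 L)ˣ) ≤
      Module.finrank ℝ (LinearMap.ker (sumMap ℝ (InfinitePlace L))) := by
    rw [finrank_ker_sumMap, ← finrank_top ℝ (ℝ ⊗[ℤ] Additive (𝓞 L)ˣ), ← span_tmul_fundSystem]
    refine (finrank_range_le_card _).trans ?_
    rw [Fintype.card_fin]
    exact le_rfl
  have hinj : Injective T' := by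
    rw [← LinearMap.ker_eq_bot]
    have h1 := T'.finrank_range_add_finrank_ker
    rw [LinearMap.range_eq_top.mpr hsurj, finrank_top] at h1
    have h2 : Module.finrank ℝ (LinearMap.ker T') = 0 := by omega
    exact Submodule.finrank_eq_zero.mp h2
  intro x y hxy
  exact hinj (Subtype.ext hxy)

/-- **Equivariant Dirichlet**: `charpoly (σ | ℝ^{∞}) = charpoly (σ | ℝ ⊗ units) * (X - 1)`. -/
theorem charpoly_units (σ : L ≃ₐ[K] L) :
    (permMap ℝ (permInf σ)).charpoly =
      ((unitsAct σ).baseChange ℝ).charpoly * (X - C 1) := by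
  have h1 : (LinearMap.id : ℝ →ₗ[ℝ] ℝ).charpoly = X - C 1 := by
    rw [← LinearMap.charpoly_toMatrix _ (Module.Basis.singleton Unit ℝ)]
    rw [LinearMap.toMatrix_id, Matrix.charpoly_one]
    simp
  rw [← h1]
  refine charpoly_eq_mul_of_exact T (sumMap ℝ (InfinitePlace L)) T_injective ?_ ?_ _ _ _ ?_ ?_
  · intro f
    constructor
    · intro hf; exact exists_T_eq f hf
    · rintro ⟨z, rfl⟩; exact sum_T z
  · classical
    intro a
    obtain ⟨i⟩ := (inferInstance : Nonempty (InfinitePlace L))
    refine ⟨Pi.single i a, ?_⟩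
    rw [sumMap_apply]
    simp
  · refine LinearMap.ext fun z => ?_
    induction z using TensorProduct.induction_on with
    | zero => simp
    | tmul a x =>
      rw [LinearMap.comp_apply, LinearMap.comp_apply, LinearMap.baseChange_tmul, T_tmul, T_tmul,
        fullLog_unitsAct, map_smul]
    | add z w hz hw => rw [map_add, map_add, hz, hw]
  · refine LinearMap.ext fun f => ?_
    exact sumMap_permMap _ _

end Units

end Fermat.Agent.GW.EU
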